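/-
S28 (Igusa: the special fibre of the Igusa model of X₀(N) is integral) — INTERFACE FILE.

Shared definitions and statement-`Prop`s only; no proofs of the statements here.  Every work package
proves one (or a few) of the `…Statement : Prop` definitions below in its own file
`Fermat/Agent/S28/<Package>.lean` (namespace `Fermat.Agent.S28`, package-unique name prefixes),
possibly assuming other statements as explicit hypotheses.  `Fermat/Agent/S28.lean` combines them.

Conventions.
* `ℤ_(ℓ)` is `↥(GaloisRep.ratLocalizedAt ℓ)` (a subring of `ℚ`); `F = ↥(modularFunctionFieldFull N)`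
  is the function field `ℚ(j(q^d) : d ∣ N)` inside `LaurentSeries ℚ`; `chartAlg N ℓ S` is the integral
  closure of `ℤ_(ℓ)[S]` in `F` (prelude, namespace `ModularCurve.IgusaScheme`).
* All `q`-series are FORMAL: `LaurentSeries R = HahnSeries ℤ R`.  `ModularCurve.jqModC R` is the formal
  `j`-series over the commutative ring `R` (`jq = jqModC ℚ`), `ModularCurve.qExpand R a` is the
  substitution `y ↦ y ^ a`, `ModularCurve.coeffMap f` applies a ring hom to the coefficients.
* `scale c` is the substitution `y ↦ c * y`, `deltaC R` the formal `Δ = q ∏ (1 - q^n)^24`,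
  `evalL x p = p(x)` evaluates a polynomial at a Laurent series.
-/
import Fermat.Statements.S28

set_option autoImplicit false

open AlgebraicGeometry CategoryTheory CategoryTheory.Limits ModularCurve ModularCurve.IgusaScheme

namespace Fermat.Agent.S28

noncomputable section

/-! ## Shared definitions -/

/-- `ℓ`-integrality of a rational Laurent series: all coefficients lie in `ℤ_(ℓ)`. -/
def LInt (ℓ : ℕ) (x : LaurentSeries ℚ) : Prop :=
  ∀ n : ℤ, x.coeff n ∈ GaloisRep.ratLocalizedAt ℓ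

/-- The substitution `y ↦ c * y` on Laurent series over a field (coefficientwise; it is a ring
homomorphism, and an automorphism for `c ≠ 0` — proved in the package `Subst`). -/
def scale {k : Type*} [Field k] (c : k) (f : LaurentSeries k) : LaurentSeries k where
  coeff n := c ^ n * f.coeff n
  isPWO_support' := f.isPWO_support.mono fun n hn => by
    simp only [Function.mem_support, ne_eq] at hn ⊢
    exact fun h => hn (by rw [h, mul_zero])

@[simp] theorem scale_coeff {k : Type*} [Field k] (c : k) (f : LaurentSeries k) (n : ℤ) :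
    (scale c f).coeff n = c ^ n * f.coeff n := rfl

/-- The formal discriminant `Δ = q ∏_{n ≥ 1} (1 - q^n)^24` over a commutative ring. -/
def deltaC (R : Type*) [CommRing R] : LaurentSeries R :=
  HahnSeries.single (1 : ℤ) (1 : R) *
    HahnSeries.ofPowerSeries ℤ R (dedekindEtaUnit.map (Int.castRingHom R))

/-- Evaluation of a polynomial at a Laurent series (constants via `HahnSeries.C`). -/
def evalL {R : Type*} [CommRing R] (x : LaurentSeries R) : Polynomial R →+* LaurentSeries R :=
  Polynomial.eval₂RingHom (HahnSeries.C : R →+* LaurentSeries R) x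

/-- `jsub k c a = j(c * y ^ a)`: the formal `j`-series over `k` after the substitution
`y ↦ c * y ^ a`. -/
def jsub (k : Type*) [Field k] (c : k) (a : ℕ) [NeZero a] : LaurentSeries k :=
  qExpand k a (scale c (jqModC k))

/-! ## Part A: scheme packaging -/

/-- (A1) The base change of the glued Igusa scheme to `K` is integral as soon as the base changes of
the two affine charts are integral and the base change of the overlap chart is nonempty. -/
def SchemeGlueStatement : Prop :=
  ∀ (N : ℕ) [NeZero N] (ℓ : ℕ) [Fact ℓ.Prime] (K : Type) [Field K]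
    [Algebra ↥(GaloisRep.ratLocalizedAt ℓ) K],
    IsDomain (TensorProduct ↥(GaloisRep.ratLocalizedAt ℓ) ↥(chartAlgFin N ℓ) K) →
    IsDomain (TensorProduct ↥(GaloisRep.ratLocalizedAt ℓ) ↥(chartAlgInf N ℓ) K) →
    Nontrivial (TensorProduct ↥(GaloisRep.ratLocalizedAt ℓ) ↥(chartAlgMid N ℓ) K) →
    AlgebraicGeometry.IsIntegral
      (pullback (igusaTo N ℓ)
        (Spec.map (CommRingCat.ofHom (algebraMap ↥(GaloisRep.ratLocalizedAt ℓ) K))))

/-- (A2) A commutative `ℤ_(ℓ)`-algebra `A` with a ring homomorphism `ρ : A → 𝔽_ℓ((q))` whose kernel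
is `ℓ A` has `A ⊗_{ℤ_(ℓ)} K` a domain, for every field `K` of characteristic `ℓ`
(`A ⊗ K = (A / ℓ A) ⊗_{𝔽_ℓ} K ↪ 𝔽_ℓ((q)) ⊗_{𝔽_ℓ} K ↪ K((q))`). -/
def TensorDomainStatement : Prop :=
  ∀ (ℓ : ℕ) [Fact ℓ.Prime] (K : Type) [Field K] [CharP K ℓ]
    [Algebra ↥(GaloisRep.ratLocalizedAt ℓ) K]
    (A : Type) [CommRing A] [Algebra ↥(GaloisRep.ratLocalizedAt ℓ) A]
    (ρ : A →+* LaurentSeries (ZMod ℓ)),
    RingHom.ker ρ = Ideal.span {(ℓ : A)} →
    IsDomain (TensorProduct ↥(GaloisRep.ratLocalizedAt ℓ) A K)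

/-! ## Part B: the `q`-expansion principle for the charts -/

/-- `jq` and `jq⁻¹` have integral coefficients. -/
def JIntStatement : Prop :=
  ∀ (ℓ : ℕ) [Fact ℓ.Prime], LInt ℓ jq ∧ LInt ℓ jq⁻¹

/-- (Q1) Elements of `F` integral over `ℤ_(ℓ)[S]`, `S` a set of `ℓ`-integral series, are
`ℓ`-integral series. -/
def ChartIntStatement : Prop :=
  ∀ (N : ℕ) [NeZero N] (ℓ : ℕ) [Fact ℓ.Prime] (S : Set ↥(modularFunctionFieldFull N)),
    (∀ s ∈ S, LInt ℓ ((s : ↥(modularFunctionFieldFull N)) : LaurentSeries ℚ)) →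
    ∀ x ∈ chartAlg N ℓ S, LInt ℓ ((x : ↥(modularFunctionFieldFull N)) : LaurentSeries ℚ)

/-- (Q2) [Igusa] For `ℓ ∤ N` the three chart algebras are saturated: if `x` is in the chart algebra
and all coefficients of `x` are divisible by `ℓ`, then `x / ℓ` is in the chart algebra. -/
def ChartKernelStatement : Prop :=
  ∀ (N : ℕ) [NeZero N] (ℓ : ℕ) [Fact ℓ.Prime], ¬ ℓ ∣ N →
    ∀ S : Set ↥(modularFunctionFieldFull N),
      (S = {jFull N} ∨ S = {(jFull N)⁻¹} ∨ S = {jFull N, (jFull N)⁻¹}) →
      ∀ x : ↥(modularFunctionFieldFull N), x ∈ chartAlg N ℓ S →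
        LInt ℓ ((ℓ : ℚ)⁻¹ • (x : LaurentSeries ℚ)) → (ℓ : ℚ)⁻¹ • x ∈ chartAlg N ℓ S

/-- (B-out) [Igusa] For `ℓ ∤ N` each of the three chart algebras has a ring homomorphism to
`𝔽_ℓ((q))` (reduction of `q`-expansions mod `ℓ`) whose kernel is generated by `ℓ`. -/
def ChartRedStatement : Prop :=
  ∀ (N : ℕ) [NeZero N] (ℓ : ℕ) [Fact ℓ.Prime], ¬ ℓ ∣ N →
    ∀ S : Set ↥(modularFunctionFieldFull N),
      (S = {jFull N} ∨ S = {(jFull N)⁻¹} ∨ S = {jFull N, (jFull N)⁻¹}) →
      ∃ ρ : ↥(chartAlg N ℓ S) →+* LaurentSeries (ZMod ℓ),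
        RingHom.ker ρ = Ideal.span {(ℓ : ↥(chartAlg N ℓ S))}

/-- (DEG) There are `ψ(N) = dedekindPsi N` integral series in `F` whose reductions mod `ℓ` are
linearly independent over `𝔽_ℓ(j)`; stated without leaving characteristic zero: a `ℤ[j]`-linear
combination all of whose coefficients are divisible by `ℓ` has all its polynomial coefficients
divisible by `ℓ`. -/
def DegStatement : Prop :=
  ∀ (N : ℕ) [NeZero N] (ℓ : ℕ) [Fact ℓ.Prime], ¬ ℓ ∣ N →
    ∃ m : Fin (dedekindPsi N) → LaurentSeries ℤ,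
      (∀ i, coeffMap (Int.castRingHom ℚ) (m i) ∈ modularFunctionFieldFull N) ∧
      ∀ f : Fin (dedekindPsi N) → Polynomial ℤ,
        (∀ n : ℤ, (ℓ : ℤ) ∣ (∑ i, evalL (jqModC ℤ) (f i) * m i).coeff n) →
        ∀ (i : Fin (dedekindPsi N)) (n : ℕ), (ℓ : ℤ) ∣ (f i).coeff n

/-! ## Part C: characteristic zero inputs (from the analytic theory of S24) -/

/-- (C1) `[F : ℚ(j)] ≤ ψ(N)`: a family of elements of `F` that is linearly independent over the
subfield `ℚ(jq)` of `LaurentSeries ℚ` has at most `dedekindPsi N` members. -/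
def Char0DegStatement : Prop :=
  ∀ (N : ℕ) [NeZero N] (s : ℕ) (x : Fin s → LaurentSeries ℚ),
    (∀ i, x i ∈ modularFunctionFieldFull N) →
    LinearIndependent ↥(IntermediateField.adjoin ℚ {jq}) x → s ≤ dedekindPsi N

/-- The modular equation of prime level `r` over the field `k`, for the primitive `r`-th root of
unity `ζ`: a polynomial `Φ ∈ k[T][X]`, monic of degree `r + 1` in `X`, with
`Φ(X, j(y^r)) = (X - j(y^{r^2})) ∏_{b < r} (X - j(ζ^b y))` in `k((y))[X]`. -/
def ModEqAt (k : Type) [Field k] (r : ℕ) [NeZero r] (ζ : k) : Prop :=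
  ∃ Φ : Polynomial (Polynomial k), Φ.Monic ∧ Φ.natDegree = r + 1 ∧
    Φ.map (evalL (qExpand k r (jqModC k))) =
      (Polynomial.X - Polynomial.C (qExpand k (r * r) (jqModC k))) *
        ∏ b ∈ Finset.range r, (Polynomial.X - Polynomial.C (scale (ζ ^ b) (jqModC k)))

/-- (C2) The modular equation of every prime level over every field with a primitive root of
unity. -/
def ModEqStatement : Prop :=
  ∀ (k : Type) [Field k] (r : ℕ) [NeZero r], r.Prime → ∀ ζ : k, IsPrimitiveRoot ζ r → ModEqAt k r ζ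

/-- A Hasse polynomial over `k`: a monic `F ∈ k[T]` and `m ≥ 1` with `F(j) * Δ^m = 1`. -/
def HasseAt (k : Type) [Field k] : Prop :=
  ∃ (F : Polynomial k) (m : ℕ), 0 < m ∧ F.Monic ∧ evalL (jqModC k) F * deltaC k ^ m = 1

/-- (C3) Every field of positive characteristic has a Hasse polynomial. -/
def HasseStatement : Prop :=
  ∀ (ℓ : ℕ) [Fact ℓ.Prime] (k : Type) [Field k] [CharP k ℓ], HasseAt k

/-! ## Part D: the degree mod `ℓ` -/

/-- (D1) Prime level: `j(y^r) ∉ k(j(y))` for an algebraically closed field `k` of characteristic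
`ℓ ≠ r`. -/
def PrimeLevelStatement : Prop :=
  ∀ (ℓ : ℕ) [Fact ℓ.Prime] (k : Type) [Field k] [CharP k ℓ] [IsAlgClosed k] (r : ℕ) [NeZero r],
    r.Prime → r ≠ ℓ →
    qExpand k r (jqModC k) ∉ IntermediateField.adjoin k {jqModC k}

/-- (D1') Prime level, degree form: `j(y^r)` has degree `r + 1` over `k(j(y))`. -/
def PrimeIrredStatement : Prop :=
  ∀ (ℓ : ℕ) [Fact ℓ.Prime] (k : Type) [Field k] [CharP k ℓ] [IsAlgClosed k] (r : ℕ) [NeZero r],
    r.Prime → r ≠ ℓ →
    (minpoly ↥(IntermediateField.adjoin k {jqModC k}) (qExpand k r (jqModC k))).natDegree = r + 1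

/-- (D2) The degree mod `ℓ`: for `ℓ ∤ N` and `k` algebraically closed of characteristic `ℓ` there
are `ψ(N)` elements of `k(j(q^d) : d ∣ N)` linearly independent over `k(j(q))`. -/
def ModLDegStatement : Prop :=
  ∀ (N : ℕ) [NeZero N] (ℓ : ℕ) [Fact ℓ.Prime], ¬ ℓ ∣ N →
    ∀ (k : Type) [Field k] [CharP k ℓ] [IsAlgClosed k],
      ∃ b : Fin (dedekindPsi N) → LaurentSeries k,
        (∀ i, b i ∈ modularFunctionFieldFullC k N) ∧
        LinearIndependent ↥(IntermediateField.adjoin k {jqModC k}) b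

end

end Fermat.Agent.S28
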