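import Fermat.Agent.S28.Interfaces

/-
S28 / package DegMain, auxiliary file: evaluation of polynomials at the formal `j`-series
(transcendence of `j`, compatibility with coefficient maps) and fractions in `ℚ(jq)` with
integral polynomial numerators and denominators.
-/

set_option autoImplicit false

open ModularCurve

namespace Fermat.Agent.S28

noncomputable section

/-- the structure map of Laurent series over a field is `HahnSeries.C`. -/
theorem degMain_algebraMap_eq_C (K : Type*) [Field K] :
    algebraMap K (LaurentSeries K) = (HahnSeries.C : K →+* LaurentSeries K) := by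
  ext c : 1
  rw [algebraMap_laurentSeries_eq_single]
  rfl

theorem degMain_evalL_apply {R : Type*} [CommRing R] (x : LaurentSeries R) (p : Polynomial R) :
    evalL x p = Polynomial.eval₂ (HahnSeries.C : R →+* LaurentSeries R) x p := rfl

theorem degMain_evalL_eq_aeval {K : Type*} [Field K] (x : LaurentSeries K) (p : Polynomial K) :
    evalL x p = Polynomial.aeval x p := by
  rw [degMain_evalL_apply, Polynomial.aeval_def, degMain_algebraMap_eq_C]

theorem degMain_coeffMap_C {R S : Type*} [CommRing R] [CommRing S] (f : R →+* S) (r : R) :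
    coeffMap f (HahnSeries.C r) = HahnSeries.C (f r) := by
  rw [HahnSeries.C_apply, coeffMap_single, HahnSeries.C_apply]

theorem degMain_coeffMap_evalL {R S : Type*} [CommRing R] [CommRing S] (f : R →+* S)
    (x : LaurentSeries R) (p : Polynomial R) :
    coeffMap f (evalL x p) = evalL (coeffMap f x) (p.map f) := by
  rw [degMain_evalL_apply, degMain_evalL_apply, Polynomial.hom_eval₂, Polynomial.eval₂_map]
  congr 1
  ext r : 1
  exact degMain_coeffMap_C f r

theorem degMain_coeffMap_injective {R S : Type*} [CommRing R] [CommRing S] (f : R →+* S)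
    (hf : Function.Injective f) : Function.Injective (coeffMap f) := by
  intro x y h
  ext n
  apply hf
  have := congrArg (fun z => z.coeff n) h
  simpa using this

/-- the coefficient of `p(j)` at `-(deg p)` is the leading coefficient of `p`. -/
theorem degMain_evalL_coeff_neg_natDegree {R : Type*} [CommRing R] (p : Polynomial R) :
    (evalL (jqModC R) p).coeff (-(p.natDegree : ℤ)) = p.leadingCoeff := by
  rw [degMain_evalL_apply, Polynomial.eval₂_eq_sum_range, HahnSeries.coeff_sum,
    Finset.sum_range_succ, Finset.sum_eq_zero, zero_add, HahnSeries.C_mul_eq_smul,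
    HahnSeries.coeff_smul, coeff_jqModC_pow_self, smul_eq_mul, mul_one]
  · rfl
  · intro i hi
    rw [HahnSeries.C_mul_eq_smul, HahnSeries.coeff_smul, coeff_jqModC_pow_of_lt, smul_zero]
    have := Finset.mem_range.mp hi
    omega

/-- `j` is transcendental over the coefficients. -/
theorem degMain_evalL_eq_zero {R : Type*} [CommRing R] (p : Polynomial R)
    (h : evalL (jqModC R) p = 0) : p = 0 := by
  have h1 := degMain_evalL_coeff_neg_natDegree p
  rw [h, HahnSeries.coeff_zero] at h1
  exact Polynomial.leadingCoeff_eq_zero.mp h1.symm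

theorem degMain_evalL_mem_adjoin {K : Type*} [Field K] (x : LaurentSeries K) (p : Polynomial K) :
    evalL x p ∈ IntermediateField.adjoin K {x} := by
  rw [degMain_evalL_eq_aeval]
  exact IntermediateField.algebra_adjoin_le_adjoin K {x} (Polynomial.aeval_mem_adjoin_singleton K x)

/-- every element of `K(x)` is a fraction `R(x) / S(x)` with `S(x) ≠ 0`. -/
theorem degMain_exists_frac {K : Type*} [Field K] (x c : LaurentSeries K)
    (hc : c ∈ IntermediateField.adjoin K {x}) :
    ∃ R S : Polynomial K, evalL x S ≠ 0 ∧ c * evalL x S = evalL x R := by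
  obtain ⟨R, S, rfl⟩ := (IntermediateField.mem_adjoin_simple_iff K c).mp hc
  by_cases hS : Polynomial.aeval x S = 0
  · refine ⟨0, 1, ?_, ?_⟩
    · rw [map_one]; exact one_ne_zero
    · rw [hS, div_zero, zero_mul, map_zero]
  · refine ⟨R, S, ?_, ?_⟩
    · rwa [degMain_evalL_eq_aeval]
    · rw [degMain_evalL_eq_aeval, degMain_evalL_eq_aeval, div_mul_cancel₀ _ hS]

/-- clearing denominators of a rational polynomial. -/
theorem degMain_exists_int_multiple (P : Polynomial ℚ) :
    ∃ (n : ℤ) (P' : Polynomial ℤ), n ≠ 0 ∧ P'.map (Int.castRingHom ℚ) = Polynomial.C (n : ℚ) * P := by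
  obtain ⟨b, hb, h⟩ := IsLocalization.integerNormalization_spec (nonZeroDivisors ℤ) P
  refine ⟨b, IsLocalization.integerNormalization (nonZeroDivisors ℤ) P, nonZeroDivisors.ne_zero hb, ?_⟩
  rw [show (Int.castRingHom ℚ) = algebraMap ℤ ℚ from rfl, h]
  ext i
  simp

/-- the ring homomorphism `ℤ[T] → ℚ((q))`, `T ↦ jq`. -/
def degMain_phi : Polynomial ℤ →+* LaurentSeries ℚ :=
  (coeffMap (Int.castRingHom ℚ)).comp (evalL (jqModC ℤ))

theorem degMain_phi_apply (a : Polynomial ℤ) :
    degMain_phi a = evalL jq (a.map (Int.castRingHom ℚ)) := by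
  show coeffMap (Int.castRingHom ℚ) (evalL (jqModC ℤ) a) = _
  rw [degMain_coeffMap_evalL, coeffMap_jqModC, jqModC_rat]

theorem degMain_phi_injective : Function.Injective degMain_phi := by
  rw [injective_iff_map_eq_zero]
  intro a ha
  apply degMain_evalL_eq_zero a
  apply degMain_coeffMap_injective (Int.castRingHom ℚ) Int.cast_injective
  rw [map_zero]
  exact ha

/-- every element of `ℚ(jq)` is a fraction of two integral polynomials in `jq`. -/
theorem degMain_exists_frac_int (c : LaurentSeries ℚ)
    (hc : c ∈ IntermediateField.adjoin ℚ {jq}) :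
    ∃ a b : Polynomial ℤ, a ≠ 0 ∧ c * degMain_phi a = degMain_phi b := by
  obtain ⟨R, S, hS, h⟩ := degMain_exists_frac jq c hc
  obtain ⟨n₁, R', hn₁, hR'⟩ := degMain_exists_int_multiple R
  obtain ⟨n₂, S', hn₂, hS'⟩ := degMain_exists_int_multiple S
  have hn₁' : evalL jq (Polynomial.C (n₁ : ℚ)) ≠ 0 := by
    intro h0
    have := degMain_evalL_eq_zero (R := ℚ) _ h0
    rw [Polynomial.C_eq_zero] at this
    exact hn₁ (by exact_mod_cast this)
  have hn₂' : evalL jq (Polynomial.C (n₂ : ℚ)) ≠ 0 := by
    intro h0
    have := degMain_evalL_eq_zero (R := ℚ) _ h0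
    rw [Polynomial.C_eq_zero] at this
    exact hn₂ (by exact_mod_cast this)
  have hS'' : degMain_phi S' ≠ 0 := by
    rw [degMain_phi_apply, hS', map_mul]
    exact mul_ne_zero hn₂' hS
  refine ⟨Polynomial.C n₁ * S', Polynomial.C n₂ * R', ?_, ?_⟩
  · intro h0
    rw [mul_eq_zero, Polynomial.C_eq_zero] at h0
    rcases h0 with h0 | h0
    · exact hn₁ h0
    · exact hS'' (by rw [h0, map_zero])
  · rw [degMain_phi_apply, degMain_phi_apply, Polynomial.map_mul, Polynomial.map_mul, hS', hR',
      Polynomial.map_C, Polynomial.map_C, map_mul, map_mul, map_mul, map_mul, ← h]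
    simp only [eq_intCast]
    ring

/-- common denominators for finitely many elements of `ℚ(jq)`. -/
theorem degMain_exists_common_den {n : ℕ} (c : Fin n → LaurentSeries ℚ)
    (hc : ∀ i, c i ∈ IntermediateField.adjoin ℚ {jq}) :
    ∃ (a : Polynomial ℤ) (b : Fin n → Polynomial ℤ), a ≠ 0 ∧
      ∀ i, c i * degMain_phi a = degMain_phi (b i) := by
  classical
  choose a b ha hab using fun i => degMain_exists_frac_int (c i) (hc i)
  refine ⟨∏ i, a i, fun i => b i * ∏ j ∈ Finset.univ.erase i, a j, ?_, ?_⟩
  · exact Finset.prod_ne_zero_iff.mpr fun i _ => ha i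
  · intro i
    rw [← Finset.mul_prod_erase Finset.univ a (Finset.mem_univ i), map_mul, ← mul_assoc, hab i,
      map_mul]

end

end Fermat.Agent.S28
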