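import Fermat.Agent.S28.Interfaces
import Fermat.Agent.S28.DegMainAux

/-
S28 / package DegMain: from the degree bound in characteristic zero (`Char0DegStatement`) and the
degree mod `ℓ` (`ModLDegStatement`) to the lifted independence statement (`DegStatement`).

Sketch: by the characteristic zero bound the powers of `j(q^d)` (`d ∣ N`) are linearly dependent
over `ℚ(j)`, which gives a nonzero `G ∈ ℤ[T][X]`, not divisible by `ℓ`, with `G(j, j(q^d)) = 0`;
hence `j(q^d)` is algebraic over `k(j)` for `k = \bar{𝔽}_ℓ`, the field `k(j(q^d) : d ∣ N)` is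
spanned over `k(j)` by monomials in the `j(q^d)`, and `ψ(N)` linearly independent monomials can be
extracted and lifted to `ℤ((q))`.
-/

set_option autoImplicit false

open ModularCurve

namespace Fermat.Agent.S28

noncomputable section

/-- the evaluation `ℤ[T][X] → ℤ((q))`, `T ↦ j(q)`, `X ↦ j(q^d)`. -/
def degMain_Psi (d : ℕ) [NeZero d] : Polynomial (Polynomial ℤ) →+* LaurentSeries ℤ :=
  Polynomial.eval₂RingHom (evalL (jqModC ℤ)) (qExpand ℤ d (jqModC ℤ))

theorem degMain_Psi_C (d : ℕ) [NeZero d] (p : Polynomial ℤ) :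
    degMain_Psi d (Polynomial.C p) = evalL (jqModC ℤ) p :=
  Polynomial.eval₂_C _ _

theorem degMain_Psi_X (d : ℕ) [NeZero d] :
    degMain_Psi d Polynomial.X = qExpand ℤ d (jqModC ℤ) :=
  Polynomial.eval₂_X _ _

/-- char 0 input: `j(q)` and `j(q^d)` satisfy a nontrivial integral polynomial relation. -/
theorem degMain_exists_rel (h0 : Char0DegStatement) (N : ℕ) [NeZero N] (d : ℕ) [NeZero d]
    (hd : d ∣ N) :
    ∃ G : Polynomial (Polynomial ℤ), G ≠ 0 ∧ degMain_Psi d G = 0 := by
  classical
  have hu_mem : qExpand ℚ d jq ∈ modularFunctionFieldFull N := jqd_mem_full N hd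
  have hnot : ¬ LinearIndependent ↥(IntermediateField.adjoin ℚ {jq})
      (fun i : Fin (dedekindPsi N + 1) => (qExpand ℚ d jq) ^ (i : ℕ)) := by
    intro hli
    have := h0 N (dedekindPsi N + 1) (fun i => (qExpand ℚ d jq) ^ (i : ℕ))
      (fun i => pow_mem hu_mem _) hli
    omega
  obtain ⟨g, hg, i₀, hi₀⟩ := Fintype.not_linearIndependent_iff.mp hnot
  obtain ⟨a, b, ha, hab⟩ := degMain_exists_common_den
    (fun i => ((g i : ↥(IntermediateField.adjoin ℚ {jq})) : LaurentSeries ℚ)) (fun i => (g i).2)
  have ha' : degMain_phi a ≠ 0 := fun h => ha (degMain_phi_injective (by rw [h, map_zero]))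
  refine ⟨∑ i : Fin (dedekindPsi N + 1), Polynomial.C (b i) * Polynomial.X ^ (i : ℕ), ?_, ?_⟩
  · intro hG
    have hcoeff := congrArg (fun G => Polynomial.coeff G (i₀ : ℕ)) hG
    simp only [Polynomial.finsetSum_coeff, Polynomial.coeff_C_mul_X_pow,
      Polynomial.coeff_zero] at hcoeff
    rw [Finset.sum_eq_single i₀] at hcoeff
    · rw [if_pos rfl] at hcoeff
      have h1 := hab i₀
      rw [hcoeff, map_zero] at h1
      rcases mul_eq_zero.mp h1 with h2 | h2
      · exact hi₀ (Subtype.ext h2)
      · exact ha' h2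
    · intro j _ hj
      rw [if_neg]
      intro h
      exact hj (Fin.ext h.symm)
    · intro h
      exact absurd (Finset.mem_univ _) h
  · apply degMain_coeffMap_injective (Int.castRingHom ℚ) Int.cast_injective
    rw [map_zero]
    have h1 : coeffMap (Int.castRingHom ℚ) (degMain_Psi d
        (∑ i : Fin (dedekindPsi N + 1), Polynomial.C (b i) * Polynomial.X ^ (i : ℕ))) =
        degMain_phi a * ∑ i : Fin (dedekindPsi N + 1), g i • (qExpand ℚ d jq) ^ (i : ℕ) := by
      rw [map_sum, map_sum, Finset.mul_sum]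
      refine Finset.sum_congr rfl fun i _ => ?_
      rw [map_mul, map_pow, map_mul, map_pow, degMain_Psi_C, degMain_Psi_X, coeffMap_qExpand,
        coeffMap_jqModC, jqModC_rat]
      have h2 : coeffMap (Int.castRingHom ℚ) (evalL (jqModC ℤ) (b i)) = degMain_phi (b i) := rfl
      rw [h2, ← hab i]
      have h3 : g i • (qExpand ℚ d jq) ^ (i : ℕ) =
          ((g i : ↥(IntermediateField.adjoin ℚ {jq})) : LaurentSeries ℚ) *
            (qExpand ℚ d jq) ^ (i : ℕ) := rfl
      rw [h3]
      ring
    rw [h1, hg, mul_zero]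

/-- the relation can be chosen nonzero mod `ℓ`. -/
theorem degMain_exists_rel_prim (h0 : Char0DegStatement) (N : ℕ) [NeZero N] (ℓ : ℕ)
    [Fact ℓ.Prime] (d : ℕ) [NeZero d] (hd : d ∣ N) :
    ∃ G : Polynomial (Polynomial ℤ),
      ¬ (Polynomial.C (Polynomial.C (ℓ : ℤ)) ∣ G) ∧ degMain_Psi d G = 0 := by
  obtain ⟨G, hG, hΨ⟩ := degMain_exists_rel h0 N d hd
  have hℓ0 : (ℓ : ℤ) ≠ 0 := by exact_mod_cast (Fact.out : ℓ.Prime).ne_zero
  have hunit : ¬ IsUnit (Polynomial.C (Polynomial.C (ℓ : ℤ)) : Polynomial (Polynomial ℤ)) := by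
    rw [Polynomial.isUnit_C, Polynomial.isUnit_C, Int.ofNat_isUnit, Nat.isUnit_iff]
    exact (Fact.out : ℓ.Prime).ne_one
  obtain ⟨n, G', hG', rfl⟩ := WfDvdMonoid.max_power_factor' hG hunit
  refine ⟨G', hG', ?_⟩
  have hne : degMain_Psi d (Polynomial.C (Polynomial.C (ℓ : ℤ))) ≠ 0 := by
    intro h1
    rw [degMain_Psi_C, degMain_evalL_apply, Polynomial.eval₂_C] at h1
    exact hℓ0 (HahnSeries.C_injective (by rw [h1, map_zero]))
  rw [map_mul, map_pow] at hΨ
  rcases mul_eq_zero.mp hΨ with h | h
  · exact absurd h (pow_ne_zero n hne)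
  · exact h

/-- `j(q^d)` is algebraic over `k(j(q))` for `d ∣ N`. -/
theorem degMain_isAlgebraic (h0 : Char0DegStatement) (N : ℕ) [NeZero N] (ℓ : ℕ) [Fact ℓ.Prime]
    (k : Type) [Field k] [CharP k ℓ] (d : ℕ) [NeZero d] (hd : d ∣ N) :
    IsAlgebraic ↥(IntermediateField.adjoin k {jqModC k}) (qExpand k d (jqModC k)) := by
  obtain ⟨G, hG, hΨ⟩ := degMain_exists_rel_prim h0 N ℓ d hd
  let θ : Polynomial k →+* ↥(IntermediateField.adjoin k {jqModC k}) :=
    (evalL (jqModC k)).codRestrict (IntermediateField.adjoin k {jqModC k})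
      (fun p => degMain_evalL_mem_adjoin _ p)
  have hθ : Function.Injective θ := by
    rw [injective_iff_map_eq_zero]
    intro p hp
    exact degMain_evalL_eq_zero p (congrArg Subtype.val hp)
  refine ⟨(G.map (Polynomial.mapRingHom (Int.castRingHom k))).map θ, ?_, ?_⟩
  · rw [Polynomial.map_ne_zero_iff hθ]
    intro hzero
    apply hG
    rw [Polynomial.C_dvd_iff_dvd_coeff]
    intro i
    rw [Polynomial.C_dvd_iff_dvd_coeff]
    intro j
    have h1 := congrArg (fun P => (Polynomial.coeff P i).coeff j) hzero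
    simp only [Polynomial.coeff_map, Polynomial.coe_mapRingHom, Polynomial.coeff_zero,
      eq_intCast] at h1
    exact (CharP.intCast_eq_zero_iff k ℓ _).mp h1
  · rw [Polynomial.aeval_def, Polynomial.eval₂_map, Polynomial.eval₂_map]
    have hcomp : ((algebraMap ↥(IntermediateField.adjoin k {jqModC k}) (LaurentSeries k)).comp
        θ).comp (Polynomial.mapRingHom (Int.castRingHom k)) =
        (coeffMap (Int.castRingHom k)).comp (evalL (jqModC ℤ)) := by
      refine RingHom.ext fun p => ?_
      show evalL (jqModC k) (p.map (Int.castRingHom k)) =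
        coeffMap (Int.castRingHom k) (evalL (jqModC ℤ) p)
      rw [degMain_coeffMap_evalL, coeffMap_jqModC]
    have hx : qExpand k d (jqModC k) =
        coeffMap (Int.castRingHom k) (qExpand ℤ d (jqModC ℤ)) := by
      rw [coeffMap_qExpand, coeffMap_jqModC]
    rw [hcomp, hx, ← Polynomial.hom_eval₂]
    have h2 : Polynomial.eval₂ (evalL (jqModC ℤ)) (qExpand ℤ d (jqModC ℤ)) G = 0 := hΨ
    rw [h2, map_zero]

/-- the field `k(j(q^d) : d ∣ N)` lies in the `k(j)`-span of the monomials in the `j(q^d)`. -/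
theorem degMain_mem_span (k : Type) [Field k] (N : ℕ)
    (halg : ∀ x ∈ divisorExpansionsC k N,
      IsAlgebraic ↥(IntermediateField.adjoin k {jqModC k}) x)
    (y : LaurentSeries k) (hy : y ∈ modularFunctionFieldFullC k N) :
    y ∈ Submodule.span ↥(IntermediateField.adjoin k {jqModC k})
      (Submonoid.closure (divisorExpansionsC k N) : Set (LaurentSeries k)) := by
  have h1 : modularFunctionFieldFullC k N ≤
      (IntermediateField.adjoin ↥(IntermediateField.adjoin k {jqModC k})
        (divisorExpansionsC k N)).restrictScalars k := by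
    rw [modularFunctionFieldFullC, IntermediateField.adjoin_le_iff]
    intro x hx
    have hx' : x ∈ IntermediateField.adjoin ↥(IntermediateField.adjoin k {jqModC k})
        (divisorExpansionsC k N) := IntermediateField.subset_adjoin _ _ hx
    exact hx'
  have h2 : y ∈ (IntermediateField.adjoin ↥(IntermediateField.adjoin k {jqModC k})
        (divisorExpansionsC k N)).restrictScalars k := h1 hy
  rw [IntermediateField.mem_restrictScalars, ← IntermediateField.mem_toSubalgebra,
    IntermediateField.adjoin_toSubalgebra_of_isAlgebraic halg] at h2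
  have h3 := Algebra.adjoin_eq_span (R := ↥(IntermediateField.adjoin k {jqModC k}))
    (s := divisorExpansionsC k N)
  rw [← h3]
  exact h2

/-- a linearly independent family in the span of a set `M` can be replaced by a linearly
independent family of the same size consisting of elements of `M`. -/
theorem degMain_exists_linearIndependent_of_mem_span {K V : Type} [Field K] [AddCommGroup V]
    [Module K V] (M : Set V) (n : ℕ) (b : Fin n → V) (hb : LinearIndependent K b)
    (hbM : ∀ i, b i ∈ Submodule.span K M) :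
    ∃ m : Fin n → V, (∀ i, m i ∈ M) ∧ LinearIndependent K m := by
  obtain ⟨B, hBM, hspan, hB⟩ := exists_linearIndependent K M
  have hb' : LinearIndependent K
      (fun i => (⟨b i, by rw [hspan]; exact hbM i⟩ : ↥(Submodule.span K B))) := by
    apply LinearIndependent.of_comp (Submodule.span K B).subtype
    exact hb
  have hcard := hb'.cardinal_le_rank
  rw [rank_span_set (show LinearIndepOn K id B from hB)] at hcard
  obtain ⟨e⟩ := (Cardinal.le_def _ _).mp hcard
  exact ⟨fun i => (e i : V), fun i => hBM (e i).2, hB.comp e e.injective⟩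

/-- every monomial in the `j(q^d)`, `d ∣ N`, over `k` is the reduction of an integral series
whose image over `ℚ` lies in the function field. -/
theorem degMain_lift_monomial (k : Type) [Field k] (N : ℕ) (x : LaurentSeries k)
    (hx : x ∈ Submonoid.closure (divisorExpansionsC k N)) :
    ∃ m : LaurentSeries ℤ, coeffMap (Int.castRingHom k) m = x ∧
      coeffMap (Int.castRingHom ℚ) m ∈ modularFunctionFieldFull N := by
  induction hx using Submonoid.closure_induction with
  | mem y hy =>
    obtain ⟨d, hd0, hd, rfl⟩ := hy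
    have := hd0
    refine ⟨qExpand ℤ d (jqModC ℤ), ?_, ?_⟩
    · rw [coeffMap_qExpand, coeffMap_jqModC]
    · rw [coeffMap_qExpand, coeffMap_jqModC, jqModC_rat]
      exact jqd_mem_full N hd
  | one => exact ⟨1, map_one _, by rw [map_one]; exact one_mem _⟩
  | mul y z _ _ hy hz =>
    obtain ⟨m₁, h₁, h₁'⟩ := hy
    obtain ⟨m₂, h₂, h₂'⟩ := hz
    exact ⟨m₁ * m₂, by rw [map_mul, h₁, h₂], by rw [map_mul]; exact mul_mem h₁' h₂'⟩

/-- (DEG) from the degree in characteristic zero and the degree mod `ℓ`. -/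
theorem degMain_main : Char0DegStatement → ModLDegStatement → DegStatement := by
  intro h0 hL N _ ℓ _ hℓN
  have : CharP (AlgebraicClosure (ZMod ℓ)) ℓ :=
    charP_of_injective_algebraMap (algebraMap (ZMod ℓ) (AlgebraicClosure (ZMod ℓ))).injective ℓ
  obtain ⟨b, hb, hbli⟩ := hL N ℓ hℓN (AlgebraicClosure (ZMod ℓ))
  have halg : ∀ x ∈ divisorExpansionsC (AlgebraicClosure (ZMod ℓ)) N,
      IsAlgebraic ↥(IntermediateField.adjoin (AlgebraicClosure (ZMod ℓ))
        {jqModC (AlgebraicClosure (ZMod ℓ))}) x := by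
    rintro x ⟨d, hd0, hd, rfl⟩
    have := hd0
    exact degMain_isAlgebraic h0 N ℓ (AlgebraicClosure (ZMod ℓ)) d hd
  obtain ⟨m, hm, hmli⟩ := degMain_exists_linearIndependent_of_mem_span
    (Submonoid.closure (divisorExpansionsC (AlgebraicClosure (ZMod ℓ)) N) :
      Set (LaurentSeries (AlgebraicClosure (ZMod ℓ)))) (dedekindPsi N) b hbli
    (fun i => degMain_mem_span (AlgebraicClosure (ZMod ℓ)) N halg (b i) (hb i))
  choose m' hm' hm'Q using fun i =>
    degMain_lift_monomial (AlgebraicClosure (ZMod ℓ)) N (m i) (hm i)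
  refine ⟨m', hm'Q, ?_⟩
  intro f hf i n
  have hsum : ∑ i, (⟨evalL (jqModC (AlgebraicClosure (ZMod ℓ)))
      ((f i).map (Int.castRingHom (AlgebraicClosure (ZMod ℓ)))),
        degMain_evalL_mem_adjoin _ _⟩ :
      ↥(IntermediateField.adjoin (AlgebraicClosure (ZMod ℓ))
        {jqModC (AlgebraicClosure (ZMod ℓ))})) • m i = 0 := by
    have h1 : coeffMap (Int.castRingHom (AlgebraicClosure (ZMod ℓ)))
        (∑ i, evalL (jqModC ℤ) (f i) * m' i) = 0 := by
      ext n
      rw [coeffMap_coeff, HahnSeries.coeff_zero, eq_intCast]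
      exact (CharP.intCast_eq_zero_iff (AlgebraicClosure (ZMod ℓ)) ℓ _).mpr (hf n)
    rw [map_sum] at h1
    rw [← h1]
    refine Finset.sum_congr rfl fun i _ => ?_
    rw [map_mul, degMain_coeffMap_evalL, coeffMap_jqModC, hm']
    rfl
  have h2 := Fintype.linearIndependent_iff.mp hmli _ hsum i
  have h3 : evalL (jqModC (AlgebraicClosure (ZMod ℓ)))
      ((f i).map (Int.castRingHom (AlgebraicClosure (ZMod ℓ)))) = 0 := congrArg Subtype.val h2
  have h4 := congrArg (fun p => Polynomial.coeff p n) (degMain_evalL_eq_zero _ h3)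
  simp only [Polynomial.coeff_map, Polynomial.coeff_zero, eq_intCast] at h4
  exact (CharP.intCast_eq_zero_iff (AlgebraicClosure (ZMod ℓ)) ℓ _).mp h4

end

end Fermat.Agent.S28
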