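/-
S28, Part C (characteristic zero inputs from the analytic theory of S24) — INTERFACE FILE.

Statement-`Prop`s of the work packages of Part C.  Each package proves one of them in its own file
`Fermat/Agent/S28/<Package>.lean` (namespace `Fermat.Agent.S28`, package-unique name prefixes),
possibly assuming other statements as explicit hypotheses.  `Fermat/Agent/S28/CMain.lean` combines
them into proofs of `Char0DegStatement`, `ModEqStatement`, `HasseStatement` of `Interfaces.lean`.

Notation: all `q`-series are formal (`LaurentSeries R = HahnSeries ℤ R`); `jqModC R` is the formal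
`j = q⁻¹ + 744 + …` over `R`, `qExpand R m` the substitution `q ↦ q ^ m`, `coeffMap f` applies a
ring homomorphism to the coefficients, `evalL x p = p(x)`, `deltaC R = q ∏ (1 - q^n)^24`, and
`scale c` is the substitution `q ↦ c q` (all from the prelude or `Interfaces.lean`).
-/
import Fermat.Agent.S28.Interfaces

set_option autoImplicit false

open ModularCurve

namespace Fermat.Agent.S28

noncomputable section

/-! ## Polynomials in `j(q^m)`: the triangular argument -/

/-- (C-Tri) Polynomials in `g = j(q^m) = q^{-m} + …`.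
(1) For `p` of degree at most `n`, the coefficient of `q^{-mn}` in `p(g)` is `p.coeff n`, and all
lower coefficients vanish.
(2) Descent of coefficients: if `ι : A → B` is injective, `s ∈ A((q))` and `p ∈ B[T]` satisfy
`ι(s) = p(g)`, then `p` has coefficients in `A`, and `s = p₀(g)` for the descended `p₀`. -/
def CTriStatement : Prop :=
  (∀ (A : Type) [CommRing A] (m : ℕ) [NeZero m] (p : Polynomial A) (n : ℕ), p.natDegree ≤ n →
      (evalL (qExpand A m (jqModC A)) p).coeff (-((m : ℤ) * (n : ℤ))) = p.coeff n ∧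
      ∀ i : ℤ, i < -((m : ℤ) * (n : ℤ)) → (evalL (qExpand A m (jqModC A)) p).coeff i = 0) ∧
  (∀ (A B : Type) [CommRing A] [CommRing B] (ι : A →+* B), Function.Injective ι →
      ∀ (m : ℕ) [NeZero m] (s : LaurentSeries A) (p : Polynomial B),
        coeffMap ι s = evalL (qExpand B m (jqModC B)) p →
        ∃ p₀ : Polynomial A, p₀.map ι = p ∧ s = evalL (qExpand A m (jqModC A)) p₀)

/-! ## (C2) The modular equation -/

/-- (C2-an) The modular equation of prime level `r` over `ℂ`, for `ζ = exp(2πi/r)`: the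
elementary symmetric functions of `j(rτ)`, `j((τ+b)/r)` (`0 ≤ b < r`) are holomorphic,
`SL(2, ℤ)`-invariant and meromorphic at `∞`, hence polynomials in `j`; pass to Laurent expansions
in `exp(2πiτ/r)`. -/
def ModEqCStatement : Prop :=
  ∀ (r : ℕ) [NeZero r], r.Prime →
    ModEqAt ℂ r (Complex.exp (2 * (Real.pi : ℂ) * Complex.I / (r : ℂ)))

/-- (C2-desc) Descent of the modular equation from `ℂ` to `ℤ[ζ_r]` (the triangular argument) and
base change along `ℤ[ζ_r] → k`, `ζ_r ↦ ζ`. -/
def ModEqDescentStatement : Prop :=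
  ∀ (r : ℕ) [NeZero r], r.Prime → ∀ ζ₀ : ℂ, IsPrimitiveRoot ζ₀ r → ModEqAt ℂ r ζ₀ →
    ∀ (k : Type) [Field k] (ζ : k), IsPrimitiveRoot ζ r → ModEqAt k r ζ

/-! ## (C3) The Hasse polynomial -/

/-- (C3-an) For even `w ≥ 4` the function `E_w^12 / Δ^w` is holomorphic, `SL(2, ℤ)`-invariant with
a pole of order `w` at `∞`, hence a polynomial in `j`; in terms of formal `q`-expansions:
`F(j) * Δ^w = E_w^12` for some `F ∈ ℂ[T]`. -/
def HasseCStatement : Prop :=
  ∀ (w : ℕ) (hw : 3 ≤ w), Even w →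
    ∃ F : Polynomial ℂ, evalL (jqModC ℂ) F * deltaC ℂ ^ w =
      HahnSeries.ofPowerSeries ℤ ℂ (UpperHalfPlane.qExpansion (1 : ℝ) (ModularForm.E hw)) ^ 12

/-- (C3-arith) For a prime `ℓ = w + 1 ≥ 5` a multiple `c * E_{ℓ-1}`, `ℓ ∤ c`, of the Eisenstein
series has integral `q`-expansion congruent to `c` modulo `ℓ` (von Staudt–Clausen:
`ℓ * B_{ℓ-1} ≡ -1 mod ℓ`). -/
def HasseArithStatement : Prop :=
  ∀ (w : ℕ) (hw : 3 ≤ w), Even w → (w + 1).Prime →
    ∃ (c : ℤ) (e : PowerSeries ℤ), ¬ ((w + 1 : ℕ) : ℤ) ∣ c ∧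
      (∀ n : ℕ, ((w + 1 : ℕ) : ℤ) ∣ PowerSeries.coeff n (e - PowerSeries.C c)) ∧
      PowerSeries.map (Int.castRingHom ℂ) e =
        PowerSeries.C (c : ℂ) * UpperHalfPlane.qExpansion (1 : ℝ) (ModularForm.E hw)

/-- (C3-formal) If `e ∈ ℤ[[q]]` is constant `= c ≠ 0` over the field `k` and `F(j) Δ^w = e` over
`ℂ` for some `F ∈ ℂ[T]`, `w ≥ 1`, then `k` has a Hasse polynomial (descend `F` to `ℤ[T]` by the
triangular argument, reduce to `k`, normalise). -/
def HasseFormalStatement : Prop :=
  ∀ (k : Type) [Field k] (w : ℕ), 0 < w → ∀ (c : ℤ) (e : PowerSeries ℤ), (c : k) ≠ 0 →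
    PowerSeries.map (Int.castRingHom k) e = PowerSeries.C (c : k) →
    (∃ F : Polynomial ℂ, evalL (jqModC ℂ) F * deltaC ℂ ^ w =
      HahnSeries.ofPowerSeries ℤ ℂ (PowerSeries.map (Int.castRingHom ℂ) e)) →
    HasseAt k

/-- (C3-small) Characteristics `2, 3, 5`: `E₄ = 1 + 240 (…) ≡ 1`, so `j * Δ = E₄^3 = 1`. -/
def HasseSmallStatement : Prop :=
  ∀ (k : Type) [Field k], (240 : k) = 0 → HasseAt k

end

end Fermat.Agent.S28
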