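/-
S28, Part C, package Deg: `[F : ℚ(j)] ≤ ψ(N)`.

A family of elements of `modularFunctionFieldFull N` that is linearly independent over `ℚ(jq)`
stays linearly independent over `ℚ̄(j)` after extending the coefficients to `ℚ̄` (linear
disjointness of `ℚ̄` and `ℚ((q))` over `ℚ`, proved coefficientwise with `ℚ`-linear functionals
`ℚ̄ → ℚ`), so its cardinality is bounded by the degree computed in the S24 model counts.
-/
import Fermat.Agent.S28.CInterfaces
import Fermat.Agent.S24.Interfaces

set_option autoImplicit false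

open ModularCurve

namespace Fermat.Agent.S28

noncomputable section

section General

variable {L : Type*} [Field L] [Algebra ℚ L]

/-- Apply a `ℚ`-linear functional to every coefficient of a Laurent series. -/
def cdegt_phi (φ : L →ₗ[ℚ] ℚ) : LaurentSeries L →+ LaurentSeries ℚ where
  toFun y := y.map φ
  map_zero' := by
    ext k
    simp
  map_add' y z := by
    ext k
    simp

theorem cdegt_phi_coeff (φ : L →ₗ[ℚ] ℚ) (y : LaurentSeries L) (k : ℤ) :
    (cdegt_phi φ y).coeff k = φ (y.coeff k) :=
  rfl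

/-- A Laurent series all of whose functional images vanish is zero. -/
theorem cdegt_eq_zero_of_phi (y : LaurentSeries L) (h : ∀ φ : L →ₗ[ℚ] ℚ, cdegt_phi φ y = 0) :
    y = 0 := by
  ext k
  rw [HahnSeries.coeff_zero]
  refine (Module.forall_dual_apply_eq_zero_iff ℚ (y.coeff k)).mp fun φ => ?_
  have h1 := congrArg (fun z : LaurentSeries ℚ => z.coeff k) (h φ)
  simpa [cdegt_phi_coeff] using h1

theorem cdegt_phi_const_mul_coeffEmb (φ : L →ₗ[ℚ] ℚ) (c : L) (b : LaurentSeries ℚ) :
    cdegt_phi φ (algebraMap L (LaurentSeries L) c * coeffEmb L b)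
      = algebraMap ℚ (LaurentSeries ℚ) (φ c) * b := by
  ext k
  rw [cdegt_phi_coeff, algebraMap_laurentSeries_eq_single, algebraMap_laurentSeries_eq_single,
    HahnSeries.coeff_single_zero_mul, HahnSeries.coeff_single_zero_mul, coeffEmb_coeff,
    mul_comm c, ← Algebra.smul_def, map_smul, smul_eq_mul, mul_comm]

/-- For `r` in `L[E t]`, the map `a ↦ Φ_φ (r * E a)` is multiplication by an element of `ℚ[t]`. -/
theorem cdegt_phi_adjoin (φ : L →ₗ[ℚ] ℚ) (t : LaurentSeries ℚ) (r : LaurentSeries L)
    (hr : r ∈ Algebra.adjoin L {coeffEmb L t}) :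
    ∃ r' ∈ Algebra.adjoin ℚ {t}, ∀ a : LaurentSeries ℚ,
      cdegt_phi φ (r * coeffEmb L a) = r' * a := by
  rw [Algebra.adjoin_singleton_eq_range_aeval] at hr
  obtain ⟨p, rfl⟩ := hr
  refine ⟨∑ n ∈ Finset.range (p.natDegree + 1),
    algebraMap ℚ (LaurentSeries ℚ) (φ (p.coeff n)) * t ^ n, ?_, ?_⟩
  · refine Subalgebra.sum_mem _ fun n _ => Subalgebra.mul_mem _ (Subalgebra.algebraMap_mem _ _) ?_
    exact Subalgebra.pow_mem _ (Algebra.self_mem_adjoin_singleton ℚ t) n
  · intro a
    have h1 : (Polynomial.aeval (coeffEmb L t)) p * coeffEmb L a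
        = ∑ n ∈ Finset.range (p.natDegree + 1),
            algebraMap L (LaurentSeries L) (p.coeff n) * coeffEmb L (t ^ n * a) := by
      rw [Polynomial.aeval_eq_sum_range, Finset.sum_mul]
      refine Finset.sum_congr rfl fun n _ => ?_
      rw [Algebra.smul_def, map_mul, map_pow, mul_assoc]
    change cdegt_phi φ ((Polynomial.aeval (coeffEmb L t) p) * coeffEmb L a) = _
    rw [h1, map_sum, Finset.sum_mul]
    refine Finset.sum_congr rfl fun n _ => ?_
    rw [cdegt_phi_const_mul_coeffEmb, mul_assoc]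

/-- Linear disjointness: a family that is linearly independent over `ℚ[t]` stays linearly
independent over `L[E t]` after extending the coefficients. -/
theorem cdegt_core (t : LaurentSeries ℚ) {s : ℕ} (x : Fin s → LaurentSeries ℚ)
    (hlin : LinearIndependent ↥(Algebra.adjoin ℚ {t}) x) (r : Fin s → LaurentSeries L)
    (hr : ∀ i, r i ∈ Algebra.adjoin L {coeffEmb L t})
    (h0 : ∑ i, r i * coeffEmb L (x i) = 0) : ∀ i, r i = 0 := by
  intro i
  refine cdegt_eq_zero_of_phi _ fun φ => ?_
  choose r' hr' hrr' using fun j => cdegt_phi_adjoin φ t (r j) (hr j)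
  have h1 : ∑ j, (⟨r' j, hr' j⟩ : ↥(Algebra.adjoin ℚ {t})) • x j = 0 := by
    have h2 := congrArg (cdegt_phi φ) h0
    rw [map_sum, map_zero] at h2
    rw [← h2]
    refine Finset.sum_congr rfl fun j _ => ?_
    rw [hrr' j]
    rfl
  have h3 := Fintype.linearIndependent_iff.mp hlin _ h1 i
  have h4 : r' i = 0 := congrArg Subtype.val h3
  have h5 := hrr' i 1
  rw [map_one, mul_one, mul_one, h4] at h5
  exact h5

end General

open scoped IntermediateField.algebraAdjoinAdjoin in
/-- The coefficient extension of a `ℚ(jq)`-linearly independent family in the function field is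
linearly independent over `ℚ̄(j)`. -/
theorem cdegt_linInd (N : ℕ) [NeZero N] {s : ℕ} (x : Fin s → LaurentSeries ℚ)
    (hx : ∀ i, x i ∈ modularFunctionFieldFull N)
    (hlin : LinearIndependent ↥(IntermediateField.adjoin ℚ {jq}) x) :
    LinearIndependent ↥(IntermediateField.adjoin Fermat.Agent.S24.Kbar {Fermat.Agent.S24.jBar N})
      (fun i => (⟨coeffEmb Fermat.Agent.S24.Kbar (x i),
        coeffEmb_mem_laurentBaseChange Fermat.Agent.S24.Kbar (hx i)⟩ :
          ↥(modularFunctionFieldBar N))) := by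
  have h0 : LinearIndependent ↥(Algebra.adjoin ℚ {jq}) x :=
    (LinearIndependent.iff_fractionRing (Algebra.adjoin ℚ {jq})
      (IntermediateField.adjoin ℚ {jq})).mpr hlin
  rw [← LinearIndependent.iff_fractionRing
    (Algebra.adjoin Fermat.Agent.S24.Kbar {Fermat.Agent.S24.jBar N})
    (IntermediateField.adjoin Fermat.Agent.S24.Kbar {Fermat.Agent.S24.jBar N})]
  rw [Fintype.linearIndependent_iff]
  intro g hg i
  have hmem : ∀ j, ((g j : ↥(modularFunctionFieldBar N)) :
      LaurentSeries Fermat.Agent.S24.Kbar) ∈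
      Algebra.adjoin Fermat.Agent.S24.Kbar {coeffEmb Fermat.Agent.S24.Kbar jq} := by
    intro j
    have h1 := AlgHom.map_adjoin_singleton (modularFunctionFieldBar N).val
      (Fermat.Agent.S24.jBar N)
    have h2 : (modularFunctionFieldBar N).val (Fermat.Agent.S24.jBar N)
        = coeffEmb Fermat.Agent.S24.Kbar jq := rfl
    rw [h2] at h1
    rw [← h1]
    exact ⟨(g j : ↥(modularFunctionFieldBar N)), (g j).2, rfl⟩
  have hsum : ∑ j, ((g j : ↥(modularFunctionFieldBar N)) :
      LaurentSeries Fermat.Agent.S24.Kbar) * coeffEmb Fermat.Agent.S24.Kbar (x j) = 0 := by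
    have h1 := congrArg (modularFunctionFieldBar N).val hg
    rw [map_sum, map_zero] at h1
    exact h1
  have h3 := cdegt_core jq x h0 _ hmem hsum i
  exact Subtype.ext (Subtype.ext h3)

/-- (C1) `[F : ℚ(j)] ≤ ψ(N)`. -/
theorem cdegt_main : Fermat.Agent.S24.ModelCountsStatement →
    Fermat.Agent.S24.CombIndexStatement → Char0DegStatement := by
  intro hMC hCI N _ s x hx hlin
  obtain ⟨-, hfd, hfr, -⟩ := hMC N
  have hX := cdegt_linInd N x hx hlin
  have h1 := hX.fintype_card_le_finrank
  rw [Fintype.card_fin, hfr, hCI N] at h1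
  exact h1

end

end Fermat.Agent.S28
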