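/-
S28, Part C, package `HasseArith`: a multiple `c * E_{ℓ-1}` (`ℓ ∤ c`) of the Eisenstein series of
weight `ℓ - 1` has an integral `q`-expansion congruent to `c` modulo `ℓ` (von Staudt–Clausen).
-/
import Fermat.Agent.S28.CInterfaces

set_option autoImplicit false

namespace Fermat.Agent.S28

noncomputable section

/-- For a finite set `Q` of positive naturals with product `P`, the rational number
`P * ∑ p ∈ Q, 1 / p` is an integer. -/
theorem chat_prod_mul_sum_inv (Q : Finset ℕ) (hQ : ∀ p ∈ Q, p ≠ 0) :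
    ∃ N : ℤ, (N : ℚ) = ((∏ p ∈ Q, p : ℕ) : ℚ) * ∑ p ∈ Q, (1 : ℚ) / p := by
  refine ⟨((∑ p ∈ Q, ∏ q ∈ Q.erase p, q : ℕ) : ℤ), ?_⟩
  rw [Finset.mul_sum]
  push_cast
  refine Finset.sum_congr rfl fun p hp => ?_
  have hp0 : (p : ℚ) ≠ 0 := Nat.cast_ne_zero.mpr (hQ p hp)
  rw [← Finset.mul_prod_erase Q (fun q => (q : ℚ)) hp]
  field_simp

/-- The arithmetic core (von Staudt–Clausen): for a prime `ℓ = w + 1` with `w` even there are an
integer `M` prime to `ℓ` and a natural number `P` with `M = -(ℓ * P * B_w)`. -/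
theorem chat_bernoulli_core (w : ℕ) (hw2 : Even w) (hl : (w + 1).Prime) :
    ∃ (M : ℤ) (P : ℕ), ¬ ((w + 1 : ℕ) : ℤ) ∣ M ∧
      (M : ℚ) = -(((w + 1 : ℕ) : ℚ) * (P : ℚ) * bernoulli w) := by
  obtain ⟨k, hk⟩ := hw2
  have hwk : w = 2 * k := by omega
  obtain ⟨z, hz⟩ := Bernoulli.vonStaudt_clausen k
  rw [← hwk] at hz
  set S : Finset ℕ := (Finset.range (w + 2)).filter (fun p => p.Prime ∧ (p - 1) ∣ w) with hS
  have hlS : w + 1 ∈ S := by
    rw [hS, Finset.mem_filter, Finset.mem_range]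
    exact ⟨by omega, hl, by simp⟩
  set Q : Finset ℕ := S.erase (w + 1) with hQ
  have hQprime : ∀ p ∈ Q, p.Prime := by
    intro p hp
    have hp' : p ∈ S := Finset.mem_of_mem_erase hp
    rw [hS, Finset.mem_filter] at hp'
    exact hp'.2.1
  have hQne : ∀ p ∈ Q, p ≠ w + 1 := fun p hp => Finset.ne_of_mem_erase hp
  obtain ⟨N, hN⟩ := chat_prod_mul_sum_inv Q (fun p hp => (hQprime p hp).ne_zero)
  set P : ℕ := ∏ p ∈ Q, p with hP
  have hlP : ¬ (w + 1) ∣ P := by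
    intro hdvd
    rw [hP, Prime.dvd_finsetProd_iff (Nat.prime_iff.mp hl)] at hdvd
    obtain ⟨p, hp, hdp⟩ := hdvd
    exact hQne p hp ((Nat.prime_dvd_prime_iff_eq hl (hQprime p hp)).mp hdp).symm
  have hsum : ∑ p ∈ S, (1 : ℚ) / p = 1 / ((w + 1 : ℕ) : ℚ) + ∑ p ∈ Q, (1 : ℚ) / p := by
    rw [hQ, Finset.add_sum_erase S (fun p : ℕ => (1 : ℚ) / p) hlS]
  have hl0 : ((w + 1 : ℕ) : ℚ) ≠ 0 := Nat.cast_ne_zero.mpr hl.ne_zero
  refine ⟨(P : ℤ) + ((w + 1 : ℕ) : ℤ) * (N - P * z), P, ?_, ?_⟩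
  · intro hdvd
    have h1 : ((w + 1 : ℕ) : ℤ) ∣ (P : ℤ) := by
      have h2 : ((w + 1 : ℕ) : ℤ) ∣ ((w + 1 : ℕ) : ℤ) * (N - P * z) := dvd_mul_right _ _
      exact (dvd_add_left h2).mp hdvd
    exact hlP (Int.natCast_dvd_natCast.mp h1)
  · have hB : bernoulli w = (z : ℚ) - 1 / ((w + 1 : ℕ) : ℚ) - ∑ p ∈ Q, (1 : ℚ) / p := by
      rw [hsum] at hz
      linarith
    rw [hB]
    push_cast
    rw [hN]
    have hl0' : ((w : ℚ) + 1) ≠ 0 := by exact_mod_cast hl0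
    field_simp
    ring

/-- (C3-arith) -/
theorem chat_main : HasseArithStatement := by
  intro w hw hw2 hl
  obtain ⟨M, P, hlM, hMB⟩ := chat_bernoulli_core w hw2 hl
  have hM0 : M ≠ 0 := by
    rintro rfl
    exact hlM (dvd_zero _)
  have hB0 : bernoulli w ≠ 0 := by
    intro h0
    rw [h0, mul_zero, neg_zero] at hMB
    exact hM0 (by exact_mod_cast hMB)
  refine ⟨M, PowerSeries.mk (fun n => if n = 0 then M else
    2 * (w : ℤ) * ((w + 1 : ℕ) : ℤ) * (P : ℤ) * (ArithmeticFunction.sigma (w - 1) n : ℤ)),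
    hlM, ?_, ?_⟩
  · intro n
    rw [map_sub, PowerSeries.coeff_mk, PowerSeries.coeff_C]
    by_cases hn : n = 0
    · simp [hn]
    · simp only [hn, if_false, sub_zero]
      exact Dvd.dvd.mul_right (Dvd.dvd.mul_right (dvd_mul_left _ _) _) _
  · ext n
    rw [PowerSeries.coeff_map, PowerSeries.coeff_mk, PowerSeries.coeff_C_mul,
      EisensteinSeries.E_qExpansion_coeff hw hw2 n]
    by_cases hn : n = 0
    · simp [hn]
    · simp only [hn, if_false]
      have hBC : ((bernoulli w : ℚ) : ℂ) ≠ 0 := by exact_mod_cast hB0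
      have hMC : (M : ℂ) = -(((w + 1 : ℕ) : ℂ) * (P : ℂ) * ((bernoulli w : ℚ) : ℂ)) := by
        have := congrArg (fun x : ℚ => (x : ℂ)) hMB
        simpa using this
      rw [hMC, eq_intCast]
      push_cast
      field_simp

end

end Fermat.Agent.S28
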