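/-
S28, Part C, package HasseFormal (twin T; prefix `chft_`):
`chft_main : CTriStatement → HasseFormalStatement` — from an identity `F(j) Δ^w = e` over `ℂ`
(`e ∈ ℤ[[q]]` constant `= c ≠ 0` over the field `k`) to a Hasse polynomial over `k`.

Proof: `Δ` is a unit of `R((q))` with explicit inverse `chft_deltaInv R`; the series
`s = e * Δ⁻ʷ ∈ ℤ((q))` becomes `F(j)` over `ℂ`, so by the triangular argument `s = G(j)` with
`G ∈ ℤ[T]`; reducing to `k` gives `G_k(j) = c * Δ⁻ʷ`, whose lowest term is `c q⁻ʷ`, so `G_k` has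
degree `w` and leading coefficient `c`; normalise.
-/
import Fermat.Agent.S28.CInterfaces

set_option autoImplicit false

open ModularCurve

namespace Fermat.Agent.S28

noncomputable section

/-- The inverse of the formal discriminant `Δ`. -/
def chft_deltaInv (R : Type*) [CommRing R] : LaurentSeries R :=
  HahnSeries.single (-1 : ℤ) (1 : R) *
    HahnSeries.ofPowerSeries ℤ R (dedekindEtaUnitInv.map (Int.castRingHom R))

theorem chft_deltaC_mul_deltaInv (R : Type*) [CommRing R] :
    deltaC R * chft_deltaInv R = 1 := by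
  unfold deltaC chft_deltaInv
  rw [mul_mul_mul_comm, HahnSeries.single_mul_single, ← map_mul, ← map_mul,
    dedekindEtaUnit_mul_inv, map_one, map_one, mul_one, add_neg_cancel, mul_one]
  rfl

theorem chft_coeffMap_deltaC {R S : Type*} [CommRing R] [CommRing S] (f : R →+* S) :
    coeffMap f (deltaC R) = deltaC S := by
  rw [deltaC, map_mul, coeffMap_single, map_one, coeffMap_ofPowerSeries,
    ← RingHom.comp_apply (PowerSeries.map f) (PowerSeries.map (Int.castRingHom R)),
    ← PowerSeries.map_comp, RingHom.ext_int (f.comp (Int.castRingHom R)) (Int.castRingHom S)]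
  rfl

theorem chft_coeffMap_deltaInv {R S : Type*} [CommRing R] [CommRing S] (f : R →+* S) :
    coeffMap f (chft_deltaInv R) = chft_deltaInv S := by
  rw [chft_deltaInv, map_mul, coeffMap_single, map_one, coeffMap_ofPowerSeries,
    ← RingHom.comp_apply (PowerSeries.map f) (PowerSeries.map (Int.castRingHom R)),
    ← PowerSeries.map_comp, RingHom.ext_int (f.comp (Int.castRingHom R)) (Int.castRingHom S)]
  rfl

theorem chft_coeffMap_C {R S : Type*} [CommRing R] [CommRing S] (f : R →+* S) (r : R) :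
    coeffMap f (HahnSeries.C r) = HahnSeries.C (f r) := by
  rw [HahnSeries.C_apply, HahnSeries.C_apply, coeffMap_single]

/-- `coeffMap` commutes with evaluation of polynomials. -/
theorem chft_coeffMap_evalL {R S : Type*} [CommRing R] [CommRing S] (f : R →+* S)
    (g : LaurentSeries R) (p : Polynomial R) :
    coeffMap f (evalL g p) = evalL (coeffMap f g) (p.map f) := by
  unfold evalL
  rw [Polynomial.coe_eval₂RingHom, Polynomial.coe_eval₂RingHom, Polynomial.hom_eval₂,
    Polynomial.eval₂_map]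
  congr 1
  exact RingHom.ext fun r => chft_coeffMap_C f r

theorem chft_C_mul_deltaInv_pow (R : Type*) [CommRing R] (c : R) (w : ℕ) :
    HahnSeries.C c * chft_deltaInv R ^ w = HahnSeries.single (-(w : ℤ)) c *
      HahnSeries.ofPowerSeries ℤ R ((dedekindEtaUnitInv.map (Int.castRingHom R)) ^ w) := by
  have h : w • (-1 : ℤ) = -(w : ℤ) := by simp
  rw [chft_deltaInv, mul_pow, HahnSeries.single_pow, one_pow, h, ← map_pow, ← mul_assoc,
    HahnSeries.C_apply, HahnSeries.single_mul_single, zero_add, mul_one]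

theorem chft_coeff_self (R : Type*) [CommRing R] (c : R) (w : ℕ) :
    (HahnSeries.C c * chft_deltaInv R ^ w).coeff (-(w : ℤ)) = c := by
  have h1 : PowerSeries.constantCoeff (dedekindEtaUnitInv.map (Int.castRingHom R)) = 1 := by
    rw [← PowerSeries.coeff_zero_eq_constantCoeff, PowerSeries.coeff_map,
      PowerSeries.coeff_zero_eq_constantCoeff, constantCoeff_dedekindEtaUnitInv]
    simp
  rw [chft_C_mul_deltaInv_pow, HahnSeries.coeff_single_mul, sub_neg_eq_add, neg_add_cancel,
    show (0 : ℤ) = ((0 : ℕ) : ℤ) from rfl, HahnSeries.ofPowerSeries_apply_coeff,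
    PowerSeries.coeff_zero_eq_constantCoeff, map_pow, h1, one_pow, mul_one]

theorem chft_coeff_of_lt (R : Type*) [CommRing R] (c : R) (w : ℕ) {i : ℤ} (hi : i < -(w : ℤ)) :
    (HahnSeries.C c * chft_deltaInv R ^ w).coeff i = 0 := by
  rw [chft_C_mul_deltaInv_pow, HahnSeries.coeff_single_mul,
    ofPowerSeries_coeff_of_neg _ (by omega), mul_zero]

/-- (C3-formal) -/
theorem chft_main : CTriStatement → HasseFormalStatement := by
  rintro ⟨hTri1, hTri2⟩ k _ w hw c e hc he ⟨F, hF⟩
  -- (b) descent to `ℤ`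
  set s : LaurentSeries ℤ := HahnSeries.ofPowerSeries ℤ ℤ e * chft_deltaInv ℤ ^ w with hs
  have hsC : coeffMap (Int.castRingHom ℂ) s = evalL (qExpand ℂ 1 (jqModC ℂ)) F := by
    rw [qExpand_one_apply, hs, map_mul, map_pow, coeffMap_ofPowerSeries, chft_coeffMap_deltaInv,
      ← hF, mul_assoc, ← mul_pow, chft_deltaC_mul_deltaInv, one_pow, mul_one]
  obtain ⟨G, -, hsG⟩ := hTri2 ℤ ℂ (Int.castRingHom ℂ) Int.cast_injective 1 s F hsC
  rw [qExpand_one_apply] at hsG
  -- (c) reduction to `k`
  set Gk : Polynomial k := G.map (Int.castRingHom k) with hGk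
  have hEq : evalL (jqModC k) Gk = HahnSeries.C (c : k) * chft_deltaInv k ^ w := by
    have h1 := congrArg (coeffMap (Int.castRingHom k)) hsG
    rw [chft_coeffMap_evalL, coeffMap_jqModC, hs, map_mul, map_pow, coeffMap_ofPowerSeries,
      chft_coeffMap_deltaInv, he, HahnSeries.ofPowerSeries_C] at h1
    exact h1.symm
  -- (d) degree and leading coefficient
  have hcw : (evalL (jqModC k) Gk).coeff (-(w : ℤ)) = (c : k) := by
    rw [hEq]; exact chft_coeff_self k _ w
  have hlt : ∀ i : ℤ, i < -(w : ℤ) → (evalL (jqModC k) Gk).coeff i = 0 := by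
    intro i hi; rw [hEq]; exact chft_coeff_of_lt k _ w hi
  have hGk0 : Gk ≠ 0 := by
    intro h0
    rw [h0, map_zero, HahnSeries.coeff_zero] at hcw
    exact hc hcw.symm
  obtain ⟨htop, hlow⟩ := hTri1 k 1 Gk Gk.natDegree le_rfl
  rw [qExpand_one_apply] at htop hlow
  simp only [Nat.cast_one, one_mul] at htop hlow
  have hlc : Gk.coeff Gk.natDegree ≠ 0 := Polynomial.leadingCoeff_ne_zero.mpr hGk0
  have hdeg : Gk.natDegree = w := by
    apply le_antisymm
    · by_contra hcon
      have h1 : (-(Gk.natDegree : ℤ)) < -(w : ℤ) := by omega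
      have h0 := hlt _ h1
      rw [htop] at h0
      exact hlc h0
    · by_contra hcon
      have h1 : (-(w : ℤ)) < -(Gk.natDegree : ℤ) := by omega
      have h0 := hlow _ h1
      rw [hcw] at h0
      exact hc h0
  have hlead : Gk.leadingCoeff = (c : k) := by
    rw [Polynomial.leadingCoeff, ← htop, hdeg, hcw]
  -- (e) normalise
  refine ⟨Polynomial.C ((c : k)⁻¹) * Gk, w, hw, ?_, ?_⟩
  · rw [Polynomial.Monic, Polynomial.leadingCoeff_mul, Polynomial.leadingCoeff_C, hlead,
      inv_mul_cancel₀ hc]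
  · have hC : evalL (jqModC k) (Polynomial.C ((c : k)⁻¹)) = HahnSeries.C ((c : k)⁻¹) := by
      unfold evalL
      rw [Polynomial.coe_eval₂RingHom, Polynomial.eval₂_C]
    rw [map_mul, hEq, hC, ← mul_assoc, ← map_mul, inv_mul_cancel₀ hc, map_one, one_mul,
      ← mul_pow, mul_comm, chft_deltaC_mul_deltaInv, one_pow]

end

end Fermat.Agent.S28
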