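/-
S28, Part C, package HasseSmall (characteristics 2, 3, 5).
If `240 = 0` in the field `k` then `E₄ ≡ 1`, so `j * Δ = E₄ ^ 3 = 1`: the Hasse polynomial is `X`.
-/
import Fermat.Agent.S28.Interfaces
import Fermat.Agent.S28.CInterfaces

set_option autoImplicit false

open ModularCurve

namespace Fermat.Agent.S28

/-- If `240 = 0` in `k`, the reduction of `E₄` is `1`. -/
theorem chs_eisenstein4_map (k : Type) [Field k] (h : (240 : k) = 0) :
    eisenstein4.map (Int.castRingHom k) = 1 := by
  ext n
  rw [PowerSeries.coeff_map, eisenstein4, PowerSeries.coeff_mk, PowerSeries.coeff_one]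
  by_cases hn : n = 0
  · rw [if_pos hn, if_pos hn, map_one]
  · rw [if_neg hn, if_neg hn, map_mul]
    have h240 : (Int.castRingHom k) 240 = 0 := by
      rw [eq_intCast]
      exact_mod_cast h
    rw [h240, zero_mul]

/-- `j * Δ = 1` over a field in which `240 = 0`. -/
theorem chs_jq_mul_delta (k : Type) [Field k] (h : (240 : k) = 0) :
    jqModC k * deltaC k = 1 := by
  have h1 : (HahnSeries.single (-1 : ℤ) (1 : k)) * HahnSeries.single (1 : ℤ) (1 : k) = 1 := by
    rw [HahnSeries.single_mul_single, mul_one]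
    rfl
  have h2 : HahnSeries.ofPowerSeries ℤ k (jNum.map (Int.castRingHom k)) *
      HahnSeries.ofPowerSeries ℤ k (dedekindEtaUnit.map (Int.castRingHom k)) = 1 := by
    rw [← map_mul, ← map_mul, jNum, mul_assoc, mul_comm dedekindEtaUnitInv,
      dedekindEtaUnit_mul_inv, mul_one, map_pow, chs_eisenstein4_map k h, one_pow, map_one]
  calc jqModC k * deltaC k
      = (HahnSeries.single (-1 : ℤ) (1 : k) * HahnSeries.single (1 : ℤ) (1 : k)) *
          (HahnSeries.ofPowerSeries ℤ k (jNum.map (Int.castRingHom k)) *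
            HahnSeries.ofPowerSeries ℤ k (dedekindEtaUnit.map (Int.castRingHom k))) := by
        rw [jqModC, deltaC]
        ring
    _ = 1 := by rw [h1, h2, mul_one]

theorem chs_main : HasseSmallStatement := by
  intro k _ h
  refine ⟨Polynomial.X, 1, one_pos, Polynomial.monic_X, ?_⟩
  rw [pow_one, evalL, Polynomial.coe_eval₂RingHom, Polynomial.eval₂_X]
  exact chs_jq_mul_delta k h

end Fermat.Agent.S28
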