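/-
S28, Part C, package ModEqC: the modular equation of prime level `r` over `ℂ`.

Main result: `cmect_main : ModEqCStatement`.

The functions `j(rτ)` and `j((τ + b)/r)` (`0 ≤ b < r`) are exactly the conjugates `slConj r γ` of
`j(rτ)`; they are permuted by `SL(2, ℤ)`, so the coefficients of
`(X - j(rτ)) ∏_b (X - j((τ + b)/r))` are `SL(2, ℤ)`-invariant, holomorphic and meromorphic at `∞`,
hence polynomials in `j`.  Passing to Laurent expansions in `exp(2πiτ/r)` gives the statement.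
-/
import Fermat.Agent.S28.CInterfaces
import Fermat.Agent.S24.AnalyticInterfaces
import Fermat.Agent.S24.Qexp
import Fermat.Agent.S24.FormalQ
import Fermat.Agent.S24.JLocalBasic
import Fermat.Agent.S24.Conj
import Fermat.Agent.S24.LemmaPC
import Fermat.Agent.S24.PreModelGens

set_option autoImplicit false

open UpperHalfPlane ModularForm CongruenceSubgroup ModularGroup ModularCurve
open scoped MatrixGroups Manifold Real
open Fermat.Agent.S24

namespace Fermat.Agent.S28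

noncomputable section

/-! ## The analytic inputs -/

theorem cmect_hQ : QexpStatement := Fermat.Agent.S24.Qexp.qexpStatement

theorem cmect_hJB : JBasicStatement := Fermat.Agent.S24.JLocal.jBasicStatement

theorem cmect_hJQ : JQexpStatement := Fermat.Agent.S24.FormalQ.jQexpStatement cmect_hQ

theorem cmect_hCj : ConjStatement :=
  Fermat.Agent.S24.Conj.conjStatement cmect_hJB cmect_hJQ cmect_hQ

theorem cmect_hJ1 : IsCuspMer 1 Jfun := ⟨1, cmect_hJQ.1⟩

theorem cmect_qexp_J1 : Fermat.Agent.S24.Qexp 1 Jfun = jqModC ℂ := by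
  rw [cmect_hJQ.2, ← jqModC_rat]
  exact coeffMap_jqModC (algebraMap ℚ ℂ)

/-! ## The functions `j(rτ)` and `j((τ + b)/r)` -/

/-- `j(rτ)`. -/
def cmect_fI (r : ℕ) : ℍ → ℂ := fun τ => Jfun (utGL r 0 1 • τ)

/-- `j((τ + b)/r)`. -/
def cmect_fB (r b : ℕ) : ℍ → ℂ := fun τ => Jfun (utGL 1 (b : ℤ) r • τ)

theorem cmect_J_spec (r : ℕ) [NeZero r] :
    IsCuspMer r Jfun ∧ Fermat.Agent.S24.Qexp r Jfun = qExpand ℂ r (jqModC ℂ) := by
  obtain ⟨h1, h2⟩ := cmect_hQ.2.2.2.2.2.1 r Jfun cmect_hJ1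
  exact ⟨h1, by rw [h2, cmect_qexp_J1]⟩

theorem cmect_fI_spec (r : ℕ) [NeZero r] :
    IsCuspMer r (cmect_fI r) ∧
      Fermat.Agent.S24.Qexp r (cmect_fI r) = qExpand ℂ (r * r) (jqModC ℂ) := by
  have hr : 0 < r := NeZero.pos r
  obtain ⟨h1, h2⟩ := cmect_hQ.2.2.2.2.2.2.2.2 r 1 0 r hr one_pos (one_dvd r) Jfun cmect_hJ1
  refine ⟨h1, ?_⟩
  ext n
  show (Fermat.Agent.S24.Qexp r (fun τ : ℍ => Jfun (utGL r 0 1 • τ))).coeff n = _
  rw [h2 n, Nat.div_one]
  by_cases hn : ((r * r : ℕ) : ℤ) ∣ n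
  · rw [if_pos hn]
    obtain ⟨m, rfl⟩ := hn
    have hrr : ((r * r : ℕ) : ℤ) ≠ 0 := by positivity
    rw [Int.mul_ediv_cancel_left _ hrr, qExpand_coeff_mul, cmect_qexp_J1]
    simp
  · rw [if_neg hn, qExpand_coeff_of_not_dvd (r * r) _ hn]

theorem cmect_fB_spec (r : ℕ) [NeZero r] (b : ℕ) :
    IsCuspMer r (cmect_fB r b) ∧
      Fermat.Agent.S24.Qexp r (cmect_fB r b) =
        scale (Complex.exp (2 * (Real.pi : ℂ) * Complex.I / (r : ℂ)) ^ b) (jqModC ℂ) := by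
  have hr : 0 < r := NeZero.pos r
  obtain ⟨h1, h2⟩ := cmect_hQ.2.2.2.2.2.2.2.2 1 r (b : ℤ) r one_pos hr dvd_rfl Jfun cmect_hJ1
  refine ⟨h1, ?_⟩
  ext n
  show (Fermat.Agent.S24.Qexp r (fun τ : ℍ => Jfun (utGL 1 (b : ℤ) r • τ))).coeff n = _
  rw [h2 n, Nat.div_self hr, Nat.mul_one, Nat.cast_one, if_pos (one_dvd n), Int.ediv_one,
    scale_coeff, cmect_qexp_J1]
  congr 1
  rw [← Complex.exp_nat_mul, ← Complex.exp_int_mul]
  congr 1
  push_cast
  ring

/-! ## The conjugates -/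

theorem cmect_fI_eq (r : ℕ) : cmect_fI r = slConj r 1 :=
  (Fermat.Agent.S24.PreModelGens.slConj_one r).symm

theorem cmect_fB_eq (r : ℕ) [NeZero r] (b : ℕ) :
    cmect_fB r b = slConj r ((T ^ b)⁻¹ * S⁻¹) := by
  have hr : 0 < r := NeZero.pos r
  funext τ
  rw [← Fermat.Agent.S24.PreModelGens.slConj_comp r (T ^ b)⁻¹ S⁻¹ τ, inv_inv,
    Fermat.Agent.S24.PreModelGens.slConj_apply, inv_inv, cmect_hCj.2.2.2.2 r hr]
  show Jfun (utGL 1 (b : ℤ) r • τ) = _
  congr 1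
  apply UpperHalfPlane.ext
  rw [cmect_hCj.1 1 r _ one_pos hr, cmect_hCj.1 1 r _ one_pos hr]
  have h2 : (((T ^ b) • τ : ℍ) : ℂ) = (τ : ℂ) + b := by
    rw [← zpow_natCast, coe_T_zpow_smul_eq]
    push_cast
    ring
  rw [h2]
  push_cast
  ring

theorem cmect_conj_cases (r : ℕ) (hr : r.Prime) (γ : SL(2, ℤ)) :
    slConj r γ = cmect_fI r ∨ ∃ b : ℕ, b < r ∧ slConj r γ = cmect_fB r b := by
  obtain ⟨a, δ, b, ha, hδ, had, hb0, hbδ, h⟩ :=
    Fermat.Agent.S24.PreModelGens.slConj_eq_utGL cmect_hJB cmect_hCj r hr.pos γ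
  have hδr : δ ∣ r := Dvd.intro_left a had
  rcases (Nat.dvd_prime hr).1 hδr with h1 | h1
  · left
    have hb : b = 0 := by
      rw [h1] at hbδ
      omega
    have ha' : a = r := by
      rw [h1, mul_one] at had
      exact had
    rw [h, hb, ha', h1]
    rfl
  · right
    have ha' : a = 1 := by
      rw [h1] at had
      exact Nat.eq_of_mul_eq_mul_right hr.pos (by rw [had, one_mul])
    refine ⟨b.toNat, ?_, ?_⟩
    · rw [h1] at hbδ
      omega
    · have hbb : ((b.toNat : ℕ) : ℤ) = b := Int.toNat_of_nonneg hb0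
      rw [h, ha', h1]
      show _ = fun τ : ℍ => Jfun (utGL 1 ((b.toNat : ℕ) : ℤ) r • τ)
      rw [hbb]

theorem cmect_fI_ne_fB (r : ℕ) [NeZero r] (hr : r.Prime) (b : ℕ) :
    cmect_fI r ≠ cmect_fB r b := by
  intro h
  have h1 : (Fermat.Agent.S24.Qexp r (cmect_fI r)).coeff (-1) =
      (Fermat.Agent.S24.Qexp r (cmect_fB r b)).coeff (-1) := by rw [h]
  have hnd : ¬ ((r * r : ℕ) : ℤ) ∣ (-1 : ℤ) := by
    rw [dvd_neg]
    intro hd
    have h2 : (r * r : ℕ) ∣ 1 := by exact_mod_cast hd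
    have h3 : r * r = 1 := Nat.dvd_one.1 h2
    have h4 : 2 ≤ r := hr.two_le
    nlinarith
  rw [(cmect_fI_spec r).2, (cmect_fB_spec r b).2, scale_coeff, coeff_jqModC_neg_one, mul_one,
    qExpand_coeff_of_not_dvd (r * r) _ hnd] at h1
  exact (zpow_ne_zero _ (pow_ne_zero _ (Complex.exp_ne_zero _))) h1.symm

theorem cmect_fB_inj (r : ℕ) [NeZero r] (b b' : ℕ) (hb : b < r) (hb' : b' < r)
    (h : cmect_fB r b = cmect_fB r b') : b = b' := by
  have h1 : (Fermat.Agent.S24.Qexp r (cmect_fB r b)).coeff (-1) =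
      (Fermat.Agent.S24.Qexp r (cmect_fB r b')).coeff (-1) := by rw [h]
  rw [(cmect_fB_spec r b).2, (cmect_fB_spec r b').2, scale_coeff, scale_coeff,
    coeff_jqModC_neg_one, mul_one, mul_one, zpow_neg_one, zpow_neg_one, inv_inj] at h1
  exact (Complex.isPrimitiveRoot_exp r (NeZero.ne r)).pow_inj hb hb' h1

open Classical in
/-- The finite set of the conjugates of `j(rτ)`. -/
def cmect_S (r : ℕ) : Finset (ℍ → ℂ) :=
  insert (cmect_fI r) ((Finset.range r).image (cmect_fB r))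

theorem cmect_mem_S_iff (r : ℕ) [NeZero r] (hr : r.Prime) (g : ℍ → ℂ) :
    g ∈ cmect_S r ↔ ∃ γ : SL(2, ℤ), g = slConj r γ := by
  classical
  unfold cmect_S
  rw [Finset.mem_insert, Finset.mem_image]
  constructor
  · rintro (rfl | ⟨b, -, rfl⟩)
    · exact ⟨1, cmect_fI_eq r⟩
    · exact ⟨_, cmect_fB_eq r b⟩
  · rintro ⟨γ, rfl⟩
    rcases cmect_conj_cases r hr γ with h | ⟨b, hb, h⟩
    · exact Or.inl h
    · exact Or.inr ⟨b, Finset.mem_range.2 hb, h.symm⟩

theorem cmect_prod_S (r : ℕ) [NeZero r] (hr : r.Prime) {R : Type} [CommRing R]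
    (F : (ℍ → ℂ) → R) :
    ∏ g ∈ cmect_S r, F g = F (cmect_fI r) * ∏ b ∈ Finset.range r, F (cmect_fB r b) := by
  classical
  unfold cmect_S
  rw [Finset.prod_insert, Finset.prod_image]
  · intro b hb b' hb' h
    exact cmect_fB_inj r b b' (Finset.mem_range.1 hb) (Finset.mem_range.1 hb') h
  · intro h
    obtain ⟨b, -, hb⟩ := Finset.mem_image.1 h
    exact cmect_fI_ne_fB r hr b hb.symm

/-- The product over the conjugates is `SL(2, ℤ)`-invariant. -/
theorem cmect_prod_invariant (r : ℕ) [NeZero r] (hr : r.Prime) (γ : SL(2, ℤ)) (τ : ℍ) :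
    ∏ g ∈ cmect_S r, (Polynomial.X - Polynomial.C (g (γ • τ))) =
      ∏ g ∈ cmect_S r, (Polynomial.X - Polynomial.C (g τ)) := by
  classical
  obtain ⟨Tγ, hTγ⟩ : ∃ Tγ : (ℍ → ℂ) → (ℍ → ℂ), ∀ g τ, Tγ g τ = g (γ • τ) :=
    ⟨fun g τ => g (γ • τ), fun _ _ => rfl⟩
  have hinj : Function.Injective Tγ := by
    intro g g' h
    funext τ
    have h1 := congrFun h (γ⁻¹ • τ)
    rwa [hTγ, hTγ, smul_inv_smul] at h1
  have himg : (cmect_S r).image Tγ = cmect_S r := by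
    apply Finset.eq_of_subset_of_card_le
    · intro g hg
      obtain ⟨g', hg', rfl⟩ := Finset.mem_image.1 hg
      obtain ⟨γ', rfl⟩ := (cmect_mem_S_iff r hr g').1 hg'
      rw [cmect_mem_S_iff r hr]
      refine ⟨γ⁻¹ * γ', ?_⟩
      funext τ
      have h1 := Fermat.Agent.S24.PreModelGens.slConj_comp r γ⁻¹ γ' τ
      rw [inv_inv] at h1
      rw [hTγ]
      exact h1
    · rw [Finset.card_image_of_injective _ hinj]
  calc ∏ g ∈ cmect_S r, (Polynomial.X - Polynomial.C (g (γ • τ)))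
      = ∏ g ∈ cmect_S r, (Polynomial.X - Polynomial.C (Tγ g τ)) := by
        simp only [hTγ]
    _ = ∏ g ∈ (cmect_S r).image Tγ, (Polynomial.X - Polynomial.C (g τ)) := by
        rw [Finset.prod_image (fun _ _ _ _ h => hinj h)]
    _ = _ := by rw [himg]

/-! ## The ring of functions meromorphic at the cusp and its Laurent expansion homomorphism -/

/-- The ring of holomorphic functions on `ℍ`, `r`-periodic and meromorphic at `∞`. -/
def cmect_A (r : ℕ) [NeZero r] : Subring (ℍ → ℂ) where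
  carrier := {f | IsCuspMer r f}
  mul_mem' := fun {a b} ha hb => (cmect_hQ.2.1 r a b ha hb).2.1
  one_mem' := by
    show IsCuspMer r (fun _ : ℍ => (1 : ℂ))
    exact ⟨0, (cmect_hQ.1 r 1).1⟩
  add_mem' := fun {a b} ha hb => (cmect_hQ.2.1 r a b ha hb).1
  zero_mem' := by
    show IsCuspMer r (fun _ : ℍ => (0 : ℂ))
    exact ⟨0, (cmect_hQ.1 r 0).1⟩
  neg_mem' := fun {a} ha => by
    have h := (cmect_hQ.2.1 r (fun _ : ℍ => (-1 : ℂ)) a ⟨0, (cmect_hQ.1 r (-1)).1⟩ ha).2.1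
    have e : (fun _ : ℍ => (-1 : ℂ)) * a = -a := by
      funext τ
      simp
    rw [e] at h
    exact h

theorem cmect_mem_A (r : ℕ) [NeZero r] (f : ℍ → ℂ) : f ∈ cmect_A r ↔ IsCuspMer r f := Iff.rfl

/-- The Laurent expansion in `exp(2πiτ/r)` as a ring homomorphism. -/
def cmect_Q (r : ℕ) [NeZero r] : cmect_A r →+* LaurentSeries ℂ where
  toFun x := Fermat.Agent.S24.Qexp r (x : ℍ → ℂ)
  map_one' := by
    show Fermat.Agent.S24.Qexp r (fun _ : ℍ => (1 : ℂ)) = 1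
    rw [(cmect_hQ.1 r (1 : ℂ)).2, map_one]
  map_mul' x y := (cmect_hQ.2.1 r _ _ x.2 y.2).2.2.2
  map_zero' := by
    show Fermat.Agent.S24.Qexp r (fun _ : ℍ => (0 : ℂ)) = 0
    rw [(cmect_hQ.1 r (0 : ℂ)).2, map_zero]
  map_add' x y := (cmect_hQ.2.1 r _ _ x.2 y.2).2.2.1

theorem cmect_Q_apply (r : ℕ) [NeZero r] (x : cmect_A r) :
    cmect_Q r x = Fermat.Agent.S24.Qexp r (x : ℍ → ℂ) := rfl

/-- Constant functions. -/
def cmect_const (r : ℕ) [NeZero r] : ℂ →+* cmect_A r where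
  toFun c := ⟨fun _ => c, ⟨0, (cmect_hQ.1 r c).1⟩⟩
  map_one' := rfl
  map_mul' _ _ := rfl
  map_zero' := rfl
  map_add' _ _ := rfl

/-- Evaluation at a point. -/
def cmect_ev (r : ℕ) [NeZero r] (τ : ℍ) : cmect_A r →+* ℂ :=
  (Pi.evalRingHom (fun _ : ℍ => ℂ) τ).comp (cmect_A r).subtype

theorem cmect_ev_apply (r : ℕ) [NeZero r] (τ : ℍ) (x : cmect_A r) :
    cmect_ev r τ x = (x : ℍ → ℂ) τ := rfl

/-- An `SL(2, ℤ)`-invariant element of the ring has Laurent expansion a polynomial in `j(q^r)`. -/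
theorem cmect_invariant_lift (r : ℕ) [NeZero r] (x : cmect_A r)
    (hinv : ∀ (γ : SL(2, ℤ)) (τ : ℍ), (x : ℍ → ℂ) (γ • τ) = (x : ℍ → ℂ) τ) :
    ∃ p : Polynomial ℂ, cmect_Q r x = evalL (qExpand ℂ r (jqModC ℂ)) p := by
  have h1 : IsCuspMer 1 (x : ℍ → ℂ) :=
    cmect_hQ.2.2.2.2.2.2.1 r _ x.2 (Fermat.Agent.S24.PreModelGens.periodic_of_invariant _ hinv)
  obtain ⟨k, hk⟩ := h1
  obtain ⟨p, -, hp⟩ :=
    Fermat.Agent.S24.LemmaPC.lemmaPC cmect_hJB cmect_hJQ cmect_hQ k _ hk hinv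
  refine ⟨p, ?_⟩
  obtain ⟨J, hJ⟩ : ∃ J : cmect_A r, (J : ℍ → ℂ) = Jfun := ⟨⟨Jfun, (cmect_J_spec r).1⟩, rfl⟩
  have hx : x = Polynomial.eval₂ (cmect_const r) J p := by
    refine Subtype.ext (funext fun τ => ?_)
    have h2 : ((Polynomial.eval₂ (cmect_const r) J p : cmect_A r) : ℍ → ℂ) τ
        = cmect_ev r τ (Polynomial.eval₂ (cmect_const r) J p) := rfl
    have h3 : (cmect_ev r τ).comp (cmect_const r) = RingHom.id ℂ := RingHom.ext fun c => rfl
    rw [hp τ, h2, Polynomial.hom_eval₂, h3, cmect_ev_apply, hJ]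
    rfl
  have h4 : (cmect_Q r).comp (cmect_const r) = HahnSeries.C :=
    RingHom.ext fun c => (cmect_hQ.1 r c).2
  have h5 : cmect_Q r J = qExpand ℂ r (jqModC ℂ) := by
    rw [cmect_Q_apply, hJ]
    exact (cmect_J_spec r).2
  rw [hx, Polynomial.hom_eval₂, h4, h5]
  rfl

/-! ## The modular equation -/

/-- (C2-an) The modular equation of prime level over `ℂ`. -/
theorem cmect_main : ModEqCStatement := by
  intro r _ hr
  classical
  obtain ⟨fI, hfI⟩ : ∃ fI : cmect_A r, (fI : ℍ → ℂ) = cmect_fI r :=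
    ⟨⟨cmect_fI r, (cmect_fI_spec r).1⟩, rfl⟩
  obtain ⟨fB, hfB⟩ : ∃ fB : ℕ → cmect_A r, ∀ b, ((fB b : cmect_A r) : ℍ → ℂ) = cmect_fB r b :=
    ⟨fun b => ⟨cmect_fB r b, (cmect_fB_spec r b).1⟩, fun _ => rfl⟩
  obtain ⟨P, hP⟩ : ∃ P : Polynomial (cmect_A r), P = (Polynomial.X - Polynomial.C fI) *
      ∏ b ∈ Finset.range r, (Polynomial.X - Polynomial.C (fB b)) := ⟨_, rfl⟩
  -- the Laurent expansion of `P`
  have hPQ : P.map (cmect_Q r) = (Polynomial.X - Polynomial.C (qExpand ℂ (r * r) (jqModC ℂ))) *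
      ∏ b ∈ Finset.range r, (Polynomial.X - Polynomial.C
        (scale (Complex.exp (2 * (Real.pi : ℂ) * Complex.I / (r : ℂ)) ^ b) (jqModC ℂ))) := by
    rw [hP, Polynomial.map_mul, Polynomial.map_prod, Polynomial.map_sub, Polynomial.map_X,
      Polynomial.map_C, cmect_Q_apply, hfI, (cmect_fI_spec r).2]
    congr 1
    refine Finset.prod_congr rfl fun b _ => ?_
    rw [Polynomial.map_sub, Polynomial.map_X, Polynomial.map_C, cmect_Q_apply, hfB,
      (cmect_fB_spec r b).2]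
  -- the values of `P`
  have hPev : ∀ τ : ℍ, P.map (cmect_ev r τ) =
      ∏ g ∈ cmect_S r, (Polynomial.X - Polynomial.C (g τ)) := by
    intro τ
    rw [cmect_prod_S r hr (fun g => Polynomial.X - Polynomial.C (g τ)), hP, Polynomial.map_mul,
      Polynomial.map_prod, Polynomial.map_sub, Polynomial.map_X, Polynomial.map_C,
      cmect_ev_apply, hfI]
    congr 1
    refine Finset.prod_congr rfl fun b _ => ?_
    rw [Polynomial.map_sub, Polynomial.map_X, Polynomial.map_C, cmect_ev_apply, hfB]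
  -- invariance of the coefficients
  have hinv : ∀ (m : ℕ) (γ : SL(2, ℤ)) (τ : ℍ),
      ((P.coeff m : cmect_A r) : ℍ → ℂ) (γ • τ) = ((P.coeff m : cmect_A r) : ℍ → ℂ) τ := by
    intro m γ τ
    have h1 : ∀ τ' : ℍ, ((P.coeff m : cmect_A r) : ℍ → ℂ) τ' =
        (P.map (cmect_ev r τ')).coeff m := fun τ' => by
      rw [Polynomial.coeff_map, cmect_ev_apply]
    rw [h1, h1, hPev, hPev, cmect_prod_invariant r hr γ τ]
  -- the coefficients are polynomials in `j`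
  have hlift : P.map (cmect_Q r) ∈ Polynomial.lifts (evalL (qExpand ℂ r (jqModC ℂ))) := by
    rw [Polynomial.lifts_iff_coeff_lifts]
    intro m
    rw [Polynomial.coeff_map]
    obtain ⟨p, hp⟩ := cmect_invariant_lift r (P.coeff m) (hinv m)
    exact ⟨p, hp.symm⟩
  have hPmonic : P.Monic := by
    rw [hP]
    exact (Polynomial.monic_X_sub_C _).mul
      (Polynomial.monic_prod_of_monic _ _ fun b _ => Polynomial.monic_X_sub_C _)
  have hmonic : (P.map (cmect_Q r)).Monic := hPmonic.map _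
  have hdeg : (P.map (cmect_Q r)).natDegree = r + 1 := by
    rw [hPQ, Polynomial.Monic.natDegree_mul (Polynomial.monic_X_sub_C _)
      (Polynomial.monic_prod_of_monic _ _ fun b _ => Polynomial.monic_X_sub_C _),
      Polynomial.natDegree_X_sub_C,
      Polynomial.natDegree_prod_of_monic _ _ (fun b _ => Polynomial.monic_X_sub_C _)]
    simp only [Polynomial.natDegree_X_sub_C, Finset.sum_const, Finset.card_range, smul_eq_mul,
      mul_one]
    exact add_comm 1 r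
  obtain ⟨Φ, hΦ, hΦdeg, hΦmonic⟩ := Polynomial.lifts_and_natDegree_eq_and_monic hlift hmonic
  exact ⟨Φ, hΦmonic, hΦdeg.trans hdeg, hΦ.trans hPQ⟩

end

end Fermat.Agent.S28
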