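/-
S28, Part C, package ModEqDesc: descent of the modular equation from `ℂ` to `ℤ[ζ_r]` (by the
triangular argument `CTriStatement`) and base change along `ℤ[ζ_r] → k`, `ζ_r ↦ ζ`.

`A = AdjoinRoot (cyclotomic r ℤ)` plays the role of `ℤ[ζ_r]`; `cmedt_scaleU u` is the substitution
`y ↦ u * y` for a unit `u` of a commutative ring.
-/
import Fermat.Agent.S28.CInterfaces

set_option autoImplicit false

open ModularCurve Polynomial

namespace Fermat.Agent.S28

noncomputable section

/-! ## The substitution `y ↦ u * y` for a unit `u` -/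

/-- The substitution `y ↦ u * y` on Laurent series over a commutative ring, `u` a unit. -/
def cmedt_scaleU {A : Type} [CommRing A] (u : Aˣ) (f : LaurentSeries A) : LaurentSeries A where
  coeff n := ((u ^ n : Aˣ) : A) * f.coeff n
  isPWO_support' := f.isPWO_support.mono fun n hn => by
    simp only [Function.mem_support, ne_eq] at hn ⊢
    exact fun h => hn (by rw [h, mul_zero])

theorem cmedt_scaleU_coeff {A : Type} [CommRing A] (u : Aˣ) (f : LaurentSeries A) (n : ℤ) :
    (cmedt_scaleU u f).coeff n = ((u ^ n : Aˣ) : A) * f.coeff n := rfl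

theorem cmedt_map_units_zpow {A : Type} [CommRing A] {k : Type} [Field k] (ψ : A →+* k) (u : Aˣ)
    (n : ℤ) : ψ ((u ^ n : Aˣ) : A) = ψ (u : A) ^ n := by
  have h1 : ψ ((u ^ n : Aˣ) : A) = ((Units.map (ψ : A →* k) (u ^ n) : kˣ) : k) := rfl
  rw [h1, map_zpow, Units.val_zpow_eq_zpow_val]
  rfl

theorem cmedt_coeffMap_scaleU {A : Type} [CommRing A] {k : Type} [Field k] (ψ : A →+* k) (u : Aˣ)
    (f : LaurentSeries A) :
    coeffMap ψ (cmedt_scaleU u f) = scale (ψ (u : A)) (coeffMap ψ f) := by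
  ext n
  rw [coeffMap_coeff, cmedt_scaleU_coeff, scale_coeff, coeffMap_coeff, map_mul,
    cmedt_map_units_zpow]

/-! ## The right-hand side of the modular equation over a ring with a unit -/

/-- The right-hand side of the modular equation over `A`, for the unit `u`. -/
def cmedt_rhs {A : Type} [CommRing A] (r : ℕ) [NeZero r] (u : Aˣ) :
    Polynomial (LaurentSeries A) :=
  (Polynomial.X - Polynomial.C (qExpand A (r * r) (jqModC A))) *
    ∏ b ∈ Finset.range r, (Polynomial.X - Polynomial.C (cmedt_scaleU (u ^ b) (jqModC A)))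

theorem cmedt_rhs_map {A : Type} [CommRing A] {k : Type} [Field k] (r : ℕ) [NeZero r] (u : Aˣ)
    (ψ : A →+* k) :
    (cmedt_rhs r u).map (coeffMap ψ) =
      (Polynomial.X - Polynomial.C (qExpand k (r * r) (jqModC k))) *
        ∏ b ∈ Finset.range r,
          (Polynomial.X - Polynomial.C (scale (ψ (u : A) ^ b) (jqModC k))) := by
  unfold cmedt_rhs
  rw [Polynomial.map_mul, Polynomial.map_sub, Polynomial.map_X, Polynomial.map_C,
    coeffMap_qExpand, coeffMap_jqModC, Polynomial.map_prod]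
  congr 1
  refine Finset.prod_congr rfl fun b _ => ?_
  rw [Polynomial.map_sub, Polynomial.map_X, Polynomial.map_C, cmedt_coeffMap_scaleU,
    coeffMap_jqModC, Units.val_pow_eq_pow_val, map_pow]

theorem cmedt_rhs_natDegree_le {A : Type} [CommRing A] (r : ℕ) [NeZero r] (u : Aˣ) :
    (cmedt_rhs r u).natDegree ≤ r + 1 := by
  unfold cmedt_rhs
  refine (Polynomial.natDegree_mul_le).trans ?_
  have h1 := Polynomial.natDegree_X_sub_C_le (qExpand A (r * r) (jqModC A))
  have h2 : (∏ b ∈ Finset.range r,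
      (Polynomial.X - Polynomial.C (cmedt_scaleU (u ^ b) (jqModC A)))).natDegree ≤ r := by
    refine (Polynomial.natDegree_prod_le _ _).trans ?_
    have h3 := Finset.sum_le_card_nsmul (Finset.range r)
      (fun b => (Polynomial.X - Polynomial.C (cmedt_scaleU (u ^ b) (jqModC A))).natDegree) 1
      (fun b _ => Polynomial.natDegree_X_sub_C_le _)
    rw [Finset.card_range, smul_eq_mul, mul_one] at h3
    exact h3
  omega

/-! ## Compatibility of `evalL` with coefficient maps -/

theorem cmedt_evalL_comp {A B : Type} [CommRing A] [CommRing B] (ψ : A →+* B) (m : ℕ) [NeZero m] :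
    (evalL (qExpand B m (jqModC B))).comp (Polynomial.mapRingHom ψ) =
      (coeffMap ψ).comp (evalL (qExpand A m (jqModC A))) := by
  refine Polynomial.ringHom_ext (fun a => ?_) ?_
  · simp only [RingHom.comp_apply, Polynomial.coe_mapRingHom, Polynomial.map_C, evalL,
      Polynomial.coe_eval₂RingHom, Polynomial.eval₂_C]
    rw [HahnSeries.C_apply, HahnSeries.C_apply, coeffMap_single]
  · simp only [RingHom.comp_apply, Polynomial.coe_mapRingHom, Polynomial.map_X, evalL,
      Polynomial.coe_eval₂RingHom, Polynomial.eval₂_X]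
    rw [coeffMap_qExpand, coeffMap_jqModC]

/-! ## The ring `ℤ[ζ_r] = AdjoinRoot (cyclotomic r ℤ)` -/

theorem cmedt_root_pow (r : ℕ) : (AdjoinRoot.root (cyclotomic r ℤ)) ^ r = 1 := by
  have h := (AdjoinRoot.mk_eq_zero (f := cyclotomic r ℤ)).mpr (cyclotomic.dvd_X_pow_sub_one r ℤ)
  rw [map_sub, map_pow, AdjoinRoot.mk_X, map_one] at h
  exact sub_eq_zero.mp h

theorem cmedt_eval₂_cyclotomic {k : Type} [Field k] (r : ℕ) [NeZero r] (ζ : k)
    (hζ : IsPrimitiveRoot ζ r) : (cyclotomic r ℤ).eval₂ (Int.castRingHom k) ζ = 0 := by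
  rw [Polynomial.eval₂_eq_eval_map, Polynomial.map_cyclotomic_int]
  exact hζ.isRoot_cyclotomic (NeZero.pos r)

theorem cmedt_lift_injective (r : ℕ) [NeZero r] (ζ₀ : ℂ) (hζ₀ : IsPrimitiveRoot ζ₀ r) :
    Function.Injective
      (AdjoinRoot.lift (Int.castRingHom ℂ) ζ₀ (cmedt_eval₂_cyclotomic r ζ₀ hζ₀)) := by
  rw [injective_iff_map_eq_zero]
  intro x hx
  obtain ⟨g, rfl⟩ := AdjoinRoot.mk_surjective x
  rw [AdjoinRoot.lift_mk] at hx
  rw [AdjoinRoot.mk_eq_zero, Polynomial.cyclotomic_eq_minpoly hζ₀ (NeZero.pos r)]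
  refine minpoly.isIntegrallyClosed_dvd (hζ₀.isIntegral (NeZero.pos r)) ?_
  rw [Polynomial.aeval_def]
  exact hx

/-! ## The main theorem -/

/-- (C2-desc) Descent of the modular equation from `ℂ` to `ℤ[ζ_r]` and base change to `k`. -/
theorem cmedt_main : CTriStatement → ModEqDescentStatement := by
  intro hTri r _ hr ζ₀ hζ₀ hC k _ ζ hζ
  obtain ⟨ΦC, hΦmon, hΦdeg, hΦeq⟩ := hC
  -- the unit `u = ζ_r` of `A = ℤ[ζ_r]` and the two specialisations
  let u : (AdjoinRoot (cyclotomic r ℤ))ˣ :=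
    Units.ofPowEqOne (AdjoinRoot.root (cyclotomic r ℤ)) r (cmedt_root_pow r) (NeZero.ne r)
  have hu : (u : AdjoinRoot (cyclotomic r ℤ)) = AdjoinRoot.root (cyclotomic r ℤ) :=
    Units.val_ofPowEqOne _ _ _ _
  let ι : AdjoinRoot (cyclotomic r ℤ) →+* ℂ :=
    AdjoinRoot.lift (Int.castRingHom ℂ) ζ₀ (cmedt_eval₂_cyclotomic r ζ₀ hζ₀)
  have hι : Function.Injective ι := cmedt_lift_injective r ζ₀ hζ₀
  have hιu : ι (u : AdjoinRoot (cyclotomic r ℤ)) = ζ₀ := by
    rw [hu]
    exact AdjoinRoot.lift_root _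
  let φ : AdjoinRoot (cyclotomic r ℤ) →+* k :=
    AdjoinRoot.lift (Int.castRingHom k) ζ (cmedt_eval₂_cyclotomic r ζ hζ)
  have hφu : φ (u : AdjoinRoot (cyclotomic r ℤ)) = ζ := by
    rw [hu]
    exact AdjoinRoot.lift_root _
  have hRι := cmedt_rhs_map r u ι
  rw [hιu] at hRι
  have hRφ := cmedt_rhs_map r u φ
  rw [hφu] at hRφ
  -- descent of the coefficients by the triangular argument
  have hex : ∀ m : ℕ, ∃ p₀ : Polynomial (AdjoinRoot (cyclotomic r ℤ)),
      p₀.map ι = ΦC.coeff m ∧
      (cmedt_rhs r u).coeff m =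
        evalL (qExpand (AdjoinRoot (cyclotomic r ℤ)) r
          (jqModC (AdjoinRoot (cyclotomic r ℤ)))) p₀ := by
    intro m
    refine hTri.2 _ ℂ ι hι r ((cmedt_rhs r u).coeff m) (ΦC.coeff m) ?_
    have h1 : coeffMap ι ((cmedt_rhs r u).coeff m)
        = ((cmedt_rhs r u).map (coeffMap ι)).coeff m := (Polynomial.coeff_map _ _).symm
    have h2 : evalL (qExpand ℂ r (jqModC ℂ)) (ΦC.coeff m)
        = (ΦC.map (evalL (qExpand ℂ r (jqModC ℂ)))).coeff m := (Polynomial.coeff_map _ _).symm
    rw [h1, h2, hRι, hΦeq]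
  choose P hP1 hP2 using hex
  -- the modular polynomial over `A`
  have hcoeff : ∀ m : ℕ, (∑ i ∈ Finset.range (r + 2), Polynomial.monomial i (P i)).coeff m
      = if m < r + 2 then P m else 0 := by
    intro m
    rw [Polynomial.finsetSum_coeff]
    simp only [Polynomial.coeff_monomial]
    rw [Finset.sum_ite_eq' (Finset.range (r + 2)) m P]
    simp only [Finset.mem_range]
  have hΦAeq : (∑ i ∈ Finset.range (r + 2), Polynomial.monomial i (P i)).map
      (evalL (qExpand (AdjoinRoot (cyclotomic r ℤ)) r (jqModC (AdjoinRoot (cyclotomic r ℤ)))))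
      = cmedt_rhs r u := by
    apply Polynomial.ext
    intro m
    rw [Polynomial.coeff_map, hcoeff]
    split_ifs with hm
    · exact (hP2 m).symm
    · rw [map_zero]
      exact (Polynomial.coeff_eq_zero_of_natDegree_lt
        (lt_of_le_of_lt (cmedt_rhs_natDegree_le r u) (by omega))).symm
  have hP1' : P (r + 1) = 1 := by
    apply Polynomial.map_injective ι hι
    rw [hP1, Polynomial.map_one, ← hΦdeg]
    exact hΦmon.coeff_natDegree
  have hdegle : (∑ i ∈ Finset.range (r + 2), Polynomial.monomial i (P i)).natDegree ≤ r + 1 := by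
    refine Polynomial.natDegree_sum_le_of_forall_le _ _ fun m hm => ?_
    have hm' := Finset.mem_range.mp hm
    exact (Polynomial.natDegree_monomial_le _).trans (by omega)
  have hlead : (∑ i ∈ Finset.range (r + 2), Polynomial.monomial i (P i)).coeff (r + 1) = 1 := by
    rw [hcoeff, if_pos (by omega), hP1']
  have hmonA : (∑ i ∈ Finset.range (r + 2), Polynomial.monomial i (P i)).Monic :=
    Polynomial.monic_of_natDegree_le_of_coeff_eq_one (r + 1) hdegle hlead
  have hnt : Nontrivial (AdjoinRoot (cyclotomic r ℤ)) := ι.domain_nontrivial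
  have hdegA : (∑ i ∈ Finset.range (r + 2), Polynomial.monomial i (P i)).natDegree = r + 1 :=
    Polynomial.natDegree_eq_of_le_of_coeff_ne_zero hdegle (by rw [hlead]; exact one_ne_zero)
  -- base change to `k`
  refine ⟨(∑ i ∈ Finset.range (r + 2), Polynomial.monomial i (P i)).map
    (Polynomial.mapRingHom φ), hmonA.map _, ?_, ?_⟩
  · rw [hmonA.natDegree_map, hdegA]
  · rw [Polynomial.map_map, cmedt_evalL_comp, ← Polynomial.map_map, hΦAeq, hRφ]

end

end Fermat.Agent.S28
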