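/-
S28, Part C, package Tri: the triangular argument for polynomials in `j(q^m)`.
`ctri_main : CTriStatement`.
-/
import Fermat.Agent.S28.CInterfaces
import Fermat.Prelude.Thm_ModularCurve_coeffMap_qExpand
import Fermat.Prelude.Thm_ModularCurve_coeff_jqModC_pow_self
import Fermat.Prelude.Thm_ModularCurve_coeff_jqModC_pow_of_lt

set_option autoImplicit false

open ModularCurve

namespace Fermat.Agent.S28

/-- Coefficients of `j(q^m)^i` below `-(m n)` vanish for `i ≤ n`. -/
theorem ctri_coeff_pow_lt (A : Type) [CommRing A] (m : ℕ) [NeZero m] {i n : ℕ} (hi : i ≤ n)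
    {k : ℤ} (hk : k < -((m : ℤ) * (n : ℤ))) :
    ((qExpand A m (jqModC A)) ^ i).coeff k = 0 := by
  rw [← map_pow]
  by_cases hdvd : (m : ℤ) ∣ k
  · obtain ⟨k', rfl⟩ := hdvd
    rw [qExpand_coeff_mul]
    apply coeff_jqModC_pow_of_lt
    have hm : (0 : ℤ) ≤ m := Int.natCast_nonneg m
    have h1 : k' < -(n : ℤ) := by
      refine lt_of_mul_lt_mul_left ?_ hm
      rw [mul_neg]
      exact hk
    have h2 : (i : ℤ) ≤ n := by exact_mod_cast hi
    linarith
  · exact qExpand_coeff_of_not_dvd m _ hdvd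

/-- The coefficient of `q^{-(m n)}` in `j(q^m)^n` is `1`. -/
theorem ctri_coeff_pow_self (A : Type) [CommRing A] (m : ℕ) [NeZero m] (n : ℕ) :
    ((qExpand A m (jqModC A)) ^ n).coeff (-((m : ℤ) * (n : ℤ))) = 1 := by
  rw [← map_pow, show -((m : ℤ) * (n : ℤ)) = (m : ℤ) * (-(n : ℤ)) by ring, qExpand_coeff_mul]
  exact coeff_jqModC_pow_self A n

/-- The coefficient of `q^{-(m n)}` in `j(q^m)^i` is `0` for `i < n`. -/
theorem ctri_coeff_pow_of_lt (A : Type) [CommRing A] (m : ℕ) [NeZero m] {i n : ℕ} (hi : i < n) :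
    ((qExpand A m (jqModC A)) ^ i).coeff (-((m : ℤ) * (n : ℤ))) = 0 := by
  rw [← map_pow, show -((m : ℤ) * (n : ℤ)) = (m : ℤ) * (-(n : ℤ)) by ring, qExpand_coeff_mul]
  apply coeff_jqModC_pow_of_lt
  have h2 : (i : ℤ) < n := by exact_mod_cast hi
  linarith

theorem ctri_evalL_eq_sum (A : Type) [CommRing A] (x : LaurentSeries A) (p : Polynomial A)
    (n : ℕ) (hn : p.natDegree ≤ n) :
    evalL x p = ∑ i ∈ Finset.range (n + 1), HahnSeries.C (p.coeff i) * x ^ i := by
  show Polynomial.eval₂ _ x p = _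
  exact Polynomial.eval₂_eq_sum_range' _ (Nat.lt_succ_of_le hn) x

theorem ctri_coeff_C_mul (A : Type) [CommRing A] (a : A) (x : LaurentSeries A) (k : ℤ) :
    (HahnSeries.C a * x).coeff k = a * x.coeff k := by
  rw [HahnSeries.C_mul_eq_smul, HahnSeries.coeff_smul, smul_eq_mul]

theorem ctri_evalL_C_mul_X_pow (A : Type) [CommRing A] (x : LaurentSeries A) (a : A) (d : ℕ) :
    evalL x (Polynomial.C a * Polynomial.X ^ d) = HahnSeries.C a * x ^ d := by
  show Polynomial.eval₂ _ x _ = _
  rw [Polynomial.eval₂_mul, Polynomial.eval₂_C, Polynomial.eval₂_pow, Polynomial.eval₂_X]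

/-- Part 1 of the triangular argument. -/
theorem ctri_part1 (A : Type) [CommRing A] (m : ℕ) [NeZero m] (p : Polynomial A) (n : ℕ)
    (hn : p.natDegree ≤ n) :
    (evalL (qExpand A m (jqModC A)) p).coeff (-((m : ℤ) * (n : ℤ))) = p.coeff n ∧
      ∀ i : ℤ, i < -((m : ℤ) * (n : ℤ)) → (evalL (qExpand A m (jqModC A)) p).coeff i = 0 := by
  rw [ctri_evalL_eq_sum A _ p n hn]
  constructor
  · rw [HahnSeries.coeff_sum, Finset.sum_range_succ, Finset.sum_eq_zero, zero_add,
      ctri_coeff_C_mul, ctri_coeff_pow_self, mul_one]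
    intro i hi
    rw [ctri_coeff_C_mul, ctri_coeff_pow_of_lt A m (Finset.mem_range.1 hi), mul_zero]
  · intro k hk
    rw [HahnSeries.coeff_sum, Finset.sum_eq_zero]
    intro i hi
    rw [ctri_coeff_C_mul, ctri_coeff_pow_lt A m (Nat.lt_succ_iff.1 (Finset.mem_range.1 hi)) hk,
      mul_zero]

/-- `coeffMap ι` of a constant. -/
theorem ctri_coeffMap_C {A B : Type} [CommRing A] [CommRing B] (ι : A →+* B) (a : A) :
    coeffMap ι (HahnSeries.C a) = HahnSeries.C (ι a) := by
  show coeffMap ι (HahnSeries.single 0 a) = HahnSeries.single 0 (ι a)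
  exact coeffMap_single ι 0 a

/-- `coeffMap ι` is injective for injective `ι`. -/
theorem ctri_coeffMap_injective {A B : Type} [CommRing A] [CommRing B] (ι : A →+* B)
    (hι : Function.Injective ι) : Function.Injective (coeffMap ι) := by
  intro x y hxy
  ext k
  apply hι
  rw [← coeffMap_coeff, ← coeffMap_coeff, hxy]

/-- Part 2 of the triangular argument, by induction on a bound for the degree. -/
theorem ctri_part2_aux {A B : Type} [CommRing A] [CommRing B] (ι : A →+* B)
    (hι : Function.Injective ι) (m : ℕ) [NeZero m] :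
    ∀ (d : ℕ) (s : LaurentSeries A) (p : Polynomial B), (∀ k : ℕ, d ≤ k → p.coeff k = 0) →
      coeffMap ι s = evalL (qExpand B m (jqModC B)) p →
      ∃ p₀ : Polynomial A, p₀.map ι = p ∧ s = evalL (qExpand A m (jqModC A)) p₀ := by
  intro d
  induction d with
  | zero =>
    intro s p hp hsp
    have hp0 : p = 0 := Polynomial.ext fun k => by rw [hp k (Nat.zero_le k), Polynomial.coeff_zero]
    refine ⟨0, by rw [Polynomial.map_zero, hp0], ?_⟩
    rw [hp0, map_zero] at hsp
    rw [map_zero]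
    exact ctri_coeffMap_injective ι hι (by rw [hsp, map_zero])
  | succ d ih =>
    intro s p hp hsp
    have hdeg : p.natDegree ≤ d :=
      Polynomial.natDegree_le_iff_coeff_eq_zero.2 fun k hk => hp k hk
    have h1 := (ctri_part1 B m p d hdeg).1
    rw [← hsp, coeffMap_coeff] at h1
    set a : A := s.coeff (-((m : ℤ) * (d : ℤ))) with ha
    have hg : coeffMap ι (qExpand A m (jqModC A)) = qExpand B m (jqModC B) := by
      rw [coeffMap_qExpand, coeffMap_jqModC]
    obtain ⟨p₀', hp₀', hs'⟩ := ih (s - HahnSeries.C a * (qExpand A m (jqModC A)) ^ d)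
      (p - Polynomial.C (ι a) * Polynomial.X ^ d) (by
        intro k hk
        rw [Polynomial.coeff_sub, Polynomial.coeff_C_mul_X_pow]
        rcases Nat.eq_or_lt_of_le hk with rfl | hlt
        · rw [if_pos rfl, h1, sub_self]
        · rw [if_neg (Nat.ne_of_gt hlt), hp k hlt, sub_zero]) (by
        rw [map_sub, map_sub, map_mul, map_pow, hg, ctri_coeffMap_C, hsp,
          ctri_evalL_C_mul_X_pow])
    refine ⟨p₀' + Polynomial.C a * Polynomial.X ^ d, ?_, ?_⟩
    · rw [Polynomial.map_add, hp₀', Polynomial.map_mul, Polynomial.map_C, Polynomial.map_pow,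
        Polynomial.map_X, sub_add_cancel]
    · rw [map_add, ← hs', ctri_evalL_C_mul_X_pow, sub_add_cancel]

/-- (C-Tri) the triangular argument for polynomials in `j(q^m)`. -/
theorem ctri_main : CTriStatement := by
  refine ⟨fun A _ m _ p n hn => ctri_part1 A m p n hn, ?_⟩
  intro A B _ _ ι hι m _ s p hsp
  exact ctri_part2_aux ι hι m (p.natDegree + 1) s p
    (fun k hk => Polynomial.coeff_eq_zero_of_natDegree_lt hk) hsp

end Fermat.Agent.S28
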