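/-
S28, Part C — ASSEMBLY.  The three characteristic-zero inputs of `Interfaces.lean`:

* `c_char0Deg : Char0DegStatement`  — `[ℚ(j(q^d) : d ∣ N) : ℚ(j)] ≤ ψ(N)` (from the S24 degree computation);
* `c_modEq    : ModEqStatement`     — the modular equation of prime level over every field;
* `c_hasse    : HasseStatement`     — a Hasse polynomial over every field of positive characteristic.
-/
import Fermat.Agent.S28.CInterfaces
import Fermat.Agent.S28.CTri
import Fermat.Agent.S28.CModEqCT
import Fermat.Agent.S28.CModEqDescT
import Fermat.Agent.S28.CHasseCT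
import Fermat.Agent.S28.CHasseArithT
import Fermat.Agent.S28.CHasseFormalT
import Fermat.Agent.S28.CHasseSmall
import Fermat.Agent.S28.CDegT
import Fermat.Agent.S24.CombIndex
import Fermat.Agent.S24.ModelCounts
import Fermat.Agent.S24.JSurj
import Fermat.Agent.S24.Conj
import Fermat.Agent.S24.JLocal
import Fermat.Agent.S24.LemmaP
import Fermat.Agent.S24.PointVal
import Fermat.Agent.S24.Places
import Fermat.Agent.S24.Zeros
import Fermat.Agent.S24.GalB
import Fermat.Agent.S24.FormalQ
import Fermat.Agent.S24.Qexp
import Fermat.Agent.S24.PreModelBuild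
import Fermat.Agent.S24.ModelAlg

set_option autoImplicit false

open ModularCurve

namespace Fermat.Agent.S28

open Fermat.Agent.S24 in
/-- The degree computation of S24: `[ℚ̄(X₀(N)) : ℚ̄(j)] = [SL(2, ℤ) : Γ₀(N)]` (and the place counts). -/
theorem c_modelCounts : Fermat.Agent.S24.ModelCountsStatement := by
  have hZeros : ZerosStatement := Zeros.zerosStatement
  have hPoles : PolesStatement := Zeros.polesStatement
  have hG : GalStatement := GalB.galStatement hZeros hPoles
  have hQexp : QexpStatement := Qexp.qexpStatement
  have hJB : JBasicStatement := JLocal.jBasicStatement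
  have hJO : JOrdersStatement := JLocal.jOrdersStatement
  have hJQ : JQexpStatement := FormalQ.jQexpStatement hQexp
  have hLP : LemmaPStatement := LemmaP.lemmaPStatement hJB hJQ hQexp
  have hCj : ConjStatement := Conj.conjStatement hJB hJQ hQexp
  have hJS : JSurjStatement := JSurj.jSurjStatement hJB
  have hPV : PointValStatement := PointVal.pointValStatement
  have hPM : PreModelStatement :=
    PreModelBuild.preModelStatement hJB hJO hJS hJQ hQexp hLP hCj hPV
  have hMM : ModularModelStatement :=
    ModelAlg.modularModelStatement hPM Places.valuationPlaceStatement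
  exact ModelCounts.modelCountsStatement hG hZeros hMM

/-- (C1) `[F : ℚ(j)] ≤ ψ(N)`. -/
theorem c_char0Deg : Char0DegStatement :=
  cdegt_main c_modelCounts Fermat.Agent.S24.CombIndex.combIndexStatement

/-- (C2) The modular equation of every prime level over every field with a primitive root of unity. -/
theorem c_modEq : ModEqStatement := by
  intro k _ r _ hr ζ hζ
  exact cmedt_main ctri_main r hr _ (Complex.isPrimitiveRoot_exp r hr.ne_zero) (cmect_main r hr) k ζ hζ

/-- (C3) Every field of positive characteristic has a Hasse polynomial. -/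
theorem c_hasse : HasseStatement := by
  intro ℓ hℓ k _ _
  have hp : ℓ.Prime := hℓ.out
  by_cases h : ℓ ∣ 240
  · apply chs_main
    obtain ⟨m, hm⟩ := h
    have h0 : ((240 : ℕ) : k) = 0 := by
      rw [hm, Nat.cast_mul, CharP.cast_eq_zero k ℓ, zero_mul]
    exact_mod_cast h0
  · have h7 : 7 ≤ ℓ := by
      by_contra hlt
      rw [not_le] at hlt
      have h2 := hp.two_le
      interval_cases ℓ <;> exact h (by decide)
    obtain ⟨w, rfl⟩ : ∃ w, ℓ = w + 1 := ⟨ℓ - 1, by omega⟩
    have hw : 3 ≤ w := by omega
    have hev : Even w := by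
      rcases hp.eq_two_or_odd' with h2 | hodd
      · omega
      · rcases hodd with ⟨t, ht⟩
        exact ⟨t, by omega⟩
    obtain ⟨c, e, hc, he, hmap⟩ := chat_main w hw hev hp
    obtain ⟨F, hFeq⟩ := chct_main w hw hev
    have hck : (c : k) ≠ 0 := by
      intro h0
      exact hc ((CharP.intCast_eq_zero_iff k (w + 1) c).mp h0)
    have hek : PowerSeries.map (Int.castRingHom k) e = PowerSeries.C (c : k) := by
      ext n
      obtain ⟨t, ht⟩ := he n
      have h2 : PowerSeries.coeff n e
          = PowerSeries.coeff n (PowerSeries.C c) + ((w + 1 : ℕ) : ℤ) * t := by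
        rw [← ht, map_sub]; ring
      rw [PowerSeries.coeff_map, h2, map_add, map_mul,
        eq_intCast (Int.castRingHom k) (((w + 1 : ℕ) : ℤ)),
        Int.cast_natCast, CharP.cast_eq_zero k (w + 1), zero_mul, add_zero,
        PowerSeries.coeff_C, PowerSeries.coeff_C]
      split_ifs <;> simp
    refine chft_main ctri_main k w (by omega) (c ^ 12) (e ^ 12) ?_ ?_
      ⟨Polynomial.C ((c : ℂ) ^ 12) * F, ?_⟩
    · push_cast
      exact pow_ne_zero _ hck
    · rw [map_pow, hek, ← map_pow]
      push_cast
      rfl
    · rw [map_mul, mul_assoc, hFeq, map_pow (PowerSeries.map (Int.castRingHom ℂ)), hmap, mul_pow,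
        map_mul, map_pow (HahnSeries.ofPowerSeries ℤ ℂ) (UpperHalfPlane.qExpansion _ _)]
      congr 1
      rw [← map_pow PowerSeries.C, HahnSeries.ofPowerSeries_C]
      show Polynomial.eval₂ _ _ _ = _
      rw [Polynomial.eval₂_C]

end Fermat.Agent.S28
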