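/-
S28 / package EtaProd (twin B): the eta-product identity for the formal discriminant
`Δ = y ∏ (1 - y^n)^24` over a field with a primitive `r`-th root of unity, and `Δ(y^r) ≠ Δ(y)^r`.
-/
import Fermat.Agent.S28.Interfaces

set_option autoImplicit false

open ModularCurve Polynomial

namespace Fermat.Agent.S28

noncomputable section

open scoped PowerSeries.WithPiTopology

/-- The Euler product `∏ (1 - y^n)` over `k`. -/
def etaProdB_E (k : Type) [Field k] : PowerSeries k :=
  PowerSeries.map (Int.castRingHom k) etaProd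

/-- The finite Euler products. -/
def etaProdB_P (k : Type) [Field k] (M : ℕ) : PowerSeries k :=
  ∏ n ∈ Finset.range M, (1 - PowerSeries.X ^ (n + 1))

theorem etaProdB_map_P (k : Type) [Field k] (M : ℕ) :
    PowerSeries.map (Int.castRingHom k)
      (∏ i ∈ Finset.range M, ((1 : PowerSeries ℤ) - PowerSeries.X ^ (i + 1))) = etaProdB_P k M := by
  rw [etaProdB_P, map_prod]
  refine Finset.prod_congr rfl fun i _ => ?_
  rw [map_sub, map_one, map_pow, PowerSeries.map_X]

theorem etaProdB_tendsto (k : Type) [Field k] [TopologicalSpace k] [DiscreteTopology k] :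
    Filter.Tendsto (etaProdB_P k) Filter.atTop (nhds (etaProdB_E k)) := by
  rw [PowerSeries.WithPiTopology.tendsto_iff_coeff_tendsto]
  intro d
  have h := (PowerSeries.WithPiTopology.multipliable_one_sub_X_pow ℤ).hasProd.tendsto_prod_nat
  have h' := (PowerSeries.WithPiTopology.tendsto_iff_coeff_tendsto ℤ _ _ _).mp h d
  have h'' := ((continuous_of_discreteTopology (f := (Int.castRingHom k))).tendsto _).comp h'
  have e1 : (fun M => PowerSeries.coeff d (etaProdB_P k M)) =
      (⇑(Int.castRingHom k) ∘ fun i =>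
        (PowerSeries.coeff d) (∏ i ∈ Finset.range i,
          ((1 : PowerSeries ℤ) - PowerSeries.X ^ (i + 1)))) := by
    funext M
    rw [Function.comp_apply, ← PowerSeries.coeff_map, etaProdB_map_P]
  rw [e1, etaProdB_E, PowerSeries.coeff_map]
  exact h''

theorem etaProdB_tendsto_rescale (k : Type) [Field k] [TopologicalSpace k] [DiscreteTopology k]
    (c : k) {F : ℕ → PowerSeries k} {g : PowerSeries k}
    (h : Filter.Tendsto F Filter.atTop (nhds g)) :
    Filter.Tendsto (fun M => PowerSeries.rescale c (F M)) Filter.atTop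
      (nhds (PowerSeries.rescale c g)) := by
  rw [PowerSeries.WithPiTopology.tendsto_iff_coeff_tendsto] at h ⊢
  intro d
  simp only [PowerSeries.coeff_rescale]
  exact ((continuous_of_discreteTopology (f := fun x : k => c ^ d * x)).tendsto _).comp (h d)

theorem etaProdB_tendsto_expand (k : Type) [Field k] [TopologicalSpace k] [DiscreteTopology k]
    (a : ℕ) (ha : a ≠ 0) {F : ℕ → PowerSeries k} {g : PowerSeries k}
    (h : Filter.Tendsto F Filter.atTop (nhds g)) :
    Filter.Tendsto (fun M => PowerSeries.expand a ha (F M)) Filter.atTop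
      (nhds (PowerSeries.expand a ha g)) := by
  rw [PowerSeries.WithPiTopology.tendsto_iff_coeff_tendsto] at h ⊢
  intro d
  simp only [PowerSeries.coeff_expand]
  split_ifs
  · exact h _
  · exact tendsto_const_nhds

/-- Products over the multiples of `r`. -/
theorem etaProdB_prod_dvd {A : Type*} [CommMonoid A] (r : ℕ) (hr : 0 < r) (F : ℕ → A) (M : ℕ) :
    ∏ n ∈ Finset.range (r * M), (if r ∣ n + 1 then F (n + 1) else 1) =
      ∏ m ∈ Finset.range M, F (r * (m + 1)) := by
  induction M with
  | zero => simp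
  | succ M ih =>
    rw [Nat.mul_succ, Finset.prod_range_add, ih, Finset.prod_range_succ]
    congr 1
    rw [Finset.prod_eq_single (r - 1)]
    · have h1 : r * M + (r - 1) + 1 = r * (M + 1) := by rw [Nat.mul_succ]; omega
      rw [h1, if_pos (dvd_mul_right _ _)]
    · intro b hb hb'
      rw [if_neg]
      rw [Finset.mem_range] at hb
      intro hdvd
      have h2 : r ∣ b + 1 :=
        (Nat.dvd_add_right (dvd_mul_right r M)).mp (by rwa [add_assoc] at hdvd)
      have h3 := Nat.le_of_dvd (Nat.succ_pos b) h2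
      omega
    · intro h
      exact absurd (Finset.mem_range.mpr (by omega)) h

theorem etaProdB_prod_rescale (k : Type) [Field k] (r : ℕ) [NeZero r] (hr : r.Prime) (ζ : k)
    (hζ : IsPrimitiveRoot ζ r) (n : ℕ) :
    ∏ b ∈ Finset.range r, PowerSeries.rescale (ζ ^ b) ((1 : PowerSeries k) - PowerSeries.X ^ n) =
      if r ∣ n then (1 - PowerSeries.X ^ n) ^ r else 1 - PowerSeries.X ^ (r * n) := by
  have h1 : ∀ b : ℕ, PowerSeries.rescale (ζ ^ b) ((1 : PowerSeries k) - PowerSeries.X ^ n) =
      1 - (PowerSeries.C (ζ ^ n)) ^ b * PowerSeries.X ^ n := by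
    intro b
    rw [map_sub, map_one, map_pow, PowerSeries.rescale_X, mul_pow, ← map_pow, ← map_pow,
      ← pow_mul, ← pow_mul, mul_comm b n]
  simp only [h1]
  split_ifs with hdvd
  · have h2 : ζ ^ n = 1 := by
      obtain ⟨m, rfl⟩ := hdvd
      rw [pow_mul, hζ.pow_eq_one, one_pow]
    simp [h2]
  · have hprim : IsPrimitiveRoot (PowerSeries.C (ζ ^ n) : PowerSeries k) r :=
      (hζ.pow_of_coprime n ((Nat.Prime.coprime_iff_not_dvd hr).mpr hdvd).symm).map_of_injective
        PowerSeries.C_injective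
    have h3 := hprim.pow_sub_pow_eq_prod_sub_mul (1 : PowerSeries k) (PowerSeries.X ^ n) hr.pos
    rw [one_pow, ← pow_mul, mul_comm n r] at h3
    rw [h3]
    refine Finset.prod_nbij (fun b => (PowerSeries.C (ζ ^ n) : PowerSeries k) ^ b) ?_ ?_ ?_
      (fun _ _ => rfl)
    · intro b _
      rw [Polynomial.mem_nthRootsFinset hr.pos, ← pow_mul, mul_comm, pow_mul, hprim.pow_eq_one,
        one_pow]
    · exact hprim.injOn_pow
    · intro μ hμ
      rw [Finset.mem_coe, Polynomial.mem_nthRootsFinset hr.pos] at hμ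
      obtain ⟨i, hi, rfl⟩ := hprim.eq_pow_of_pow_eq_one hμ
      exact ⟨i, Finset.mem_coe.mpr (Finset.mem_range.mpr hi), rfl⟩

theorem etaProdB_expand_P (k : Type) [Field k] (a : ℕ) (ha : a ≠ 0) (M : ℕ) :
    PowerSeries.expand a ha (etaProdB_P k M) =
      ∏ n ∈ Finset.range M, (1 - PowerSeries.X ^ (a * (n + 1))) := by
  rw [etaProdB_P, map_prod]
  refine Finset.prod_congr rfl fun n _ => ?_
  rw [map_sub, map_one, map_pow, PowerSeries.expand_X, ← pow_mul]

theorem etaProdB_finite (k : Type) [Field k] (r : ℕ) [NeZero r] (hr : r.Prime) (ζ : k)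
    (hζ : IsPrimitiveRoot ζ r) (M : ℕ) :
    (∏ b ∈ Finset.range r, PowerSeries.rescale (ζ ^ b) (etaProdB_P k (r * M))) *
        PowerSeries.expand (r * r) (mul_ne_zero hr.ne_zero hr.ne_zero) (etaProdB_P k M) =
      PowerSeries.expand r hr.ne_zero (etaProdB_P k (r * M)) *
        PowerSeries.expand r hr.ne_zero (etaProdB_P k M) ^ r := by
  have hA : ∏ n ∈ Finset.range (r * M),
      (if r ∣ n + 1 then (1 : PowerSeries k) - PowerSeries.X ^ (r * (n + 1)) else 1) =
      ∏ m ∈ Finset.range M, (1 - PowerSeries.X ^ (r * r * (m + 1))) := by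
    rw [etaProdB_prod_dvd (A := PowerSeries k) r hr.pos (fun m => 1 - PowerSeries.X ^ (r * m)) M]
    simp only [mul_assoc]
  have hB : ∏ n ∈ Finset.range (r * M),
      (if r ∣ n + 1 then ((1 : PowerSeries k) - PowerSeries.X ^ (n + 1)) ^ r else 1) =
      ∏ m ∈ Finset.range M, (1 - PowerSeries.X ^ (r * (m + 1))) ^ r :=
    etaProdB_prod_dvd (A := PowerSeries k) r hr.pos (fun m => (1 - PowerSeries.X ^ m) ^ r) M
  have h1 : ∏ b ∈ Finset.range r, PowerSeries.rescale (ζ ^ b) (etaProdB_P k (r * M)) =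
      ∏ n ∈ Finset.range (r * M), (if r ∣ n + 1 then (1 - PowerSeries.X ^ (n + 1)) ^ r
        else 1 - PowerSeries.X ^ (r * (n + 1))) := by
    simp only [etaProdB_P, map_prod]
    rw [Finset.prod_comm]
    exact Finset.prod_congr rfl fun n _ => etaProdB_prod_rescale k r hr ζ hζ (n + 1)
  rw [etaProdB_expand_P, etaProdB_expand_P, etaProdB_expand_P, h1, ← Finset.prod_pow, ← hB, ← hA,
    ← Finset.prod_mul_distrib, ← Finset.prod_mul_distrib]
  refine Finset.prod_congr rfl fun n _ => ?_
  split_ifs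
  · rw [mul_comm]
  · rfl

/-- The eta-product identity for the Euler product, in `k⟦y⟧`. -/
theorem etaProdB_ps_main (k : Type) [Field k] (r : ℕ) [NeZero r] (hr : r.Prime) (ζ : k)
    (hζ : IsPrimitiveRoot ζ r) :
    (∏ b ∈ Finset.range r, PowerSeries.rescale (ζ ^ b) (etaProdB_E k)) *
        PowerSeries.expand (r * r) (mul_ne_zero hr.ne_zero hr.ne_zero) (etaProdB_E k) =
      PowerSeries.expand r hr.ne_zero (etaProdB_E k) ^ (r + 1) := by
  let _ : TopologicalSpace k := ⊥
  have _ : DiscreteTopology k := ⟨rfl⟩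
  have hT := etaProdB_tendsto k
  have hmul : Filter.Tendsto (fun M : ℕ => r * M) Filter.atTop Filter.atTop :=
    Filter.tendsto_atTop_mono (fun M => Nat.le_mul_of_pos_left M hr.pos) Filter.tendsto_id
  have hT1 := hT.comp hmul
  have hL : Filter.Tendsto (fun M => (∏ b ∈ Finset.range r,
        PowerSeries.rescale (ζ ^ b) (etaProdB_P k (r * M))) *
        PowerSeries.expand (r * r) (mul_ne_zero hr.ne_zero hr.ne_zero) (etaProdB_P k M))
      Filter.atTop
      (nhds ((∏ b ∈ Finset.range r, PowerSeries.rescale (ζ ^ b) (etaProdB_E k)) *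
        PowerSeries.expand (r * r) (mul_ne_zero hr.ne_zero hr.ne_zero) (etaProdB_E k))) :=
    (tendsto_finsetProd _ fun b _ => etaProdB_tendsto_rescale k (ζ ^ b) hT1).mul
      (etaProdB_tendsto_expand k _ _ hT)
  have hR : Filter.Tendsto (fun M => PowerSeries.expand r hr.ne_zero (etaProdB_P k (r * M)) *
        PowerSeries.expand r hr.ne_zero (etaProdB_P k M) ^ r) Filter.atTop
      (nhds (PowerSeries.expand r hr.ne_zero (etaProdB_E k) *
        PowerSeries.expand r hr.ne_zero (etaProdB_E k) ^ r)) :=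
    (etaProdB_tendsto_expand k _ _ hT1).mul ((etaProdB_tendsto_expand k _ _ hT).pow r)
  rw [pow_succ']
  refine tendsto_nhds_unique hL ?_
  simp only [etaProdB_finite k r hr ζ hζ]
  exact hR

/-! ### Transfer to Laurent series -/

theorem etaProdB_scale_ofPS (k : Type) [Field k] (c : k) (p : PowerSeries k) :
    scale c (HahnSeries.single (1 : ℤ) (1 : k) * HahnSeries.ofPowerSeries ℤ k p) =
      HahnSeries.single (1 : ℤ) c * HahnSeries.ofPowerSeries ℤ k (PowerSeries.rescale c p) := by
  ext n
  rw [scale_coeff, HahnSeries.coeff_single_mul, HahnSeries.coeff_single_mul, one_mul]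
  rcases lt_or_ge (n - 1) 0 with h | h
  · rw [ofPowerSeries_coeff_of_neg _ h, ofPowerSeries_coeff_of_neg _ h, mul_zero, mul_zero]
  · obtain ⟨m, hm⟩ := Int.eq_ofNat_of_zero_le h
    rw [hm, HahnSeries.ofPowerSeries_apply_coeff, HahnSeries.ofPowerSeries_apply_coeff,
      PowerSeries.coeff_rescale]
    have hn : n = ((m + 1 : ℕ) : ℤ) := by push_cast; omega
    rw [hn, zpow_natCast, pow_succ']
    ring

theorem etaProdB_qExpand_ofPS (k : Type) [Field k] (a : ℕ) [NeZero a] (p : PowerSeries k) :
    qExpand k a (HahnSeries.ofPowerSeries ℤ k p) =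
      HahnSeries.ofPowerSeries ℤ k (PowerSeries.expand a (NeZero.ne a) p) := by
  have ha : (0 : ℤ) < (a : ℤ) := by exact_mod_cast Nat.pos_of_ne_zero (NeZero.ne a)
  ext n
  by_cases hdvd : (a : ℤ) ∣ n
  · obtain ⟨m, rfl⟩ := hdvd
    rw [qExpand_coeff_mul]
    rcases lt_or_ge m 0 with h | h
    · rw [ofPowerSeries_coeff_of_neg _ h,
        ofPowerSeries_coeff_of_neg _ (mul_neg_of_pos_of_neg ha h)]
    · obtain ⟨e, rfl⟩ := Int.eq_ofNat_of_zero_le h
      rw [HahnSeries.ofPowerSeries_apply_coeff, ← Nat.cast_mul,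
        HahnSeries.ofPowerSeries_apply_coeff, PowerSeries.coeff_expand_mul]
  · rw [qExpand_coeff_of_not_dvd _ _ hdvd]
    rcases lt_or_ge n 0 with h | h
    · rw [ofPowerSeries_coeff_of_neg _ h]
    · obtain ⟨d, rfl⟩ := Int.eq_ofNat_of_zero_le h
      rw [HahnSeries.ofPowerSeries_apply_coeff, PowerSeries.coeff_expand_of_not_dvd]
      intro hd
      exact hdvd (Int.natCast_dvd_natCast.mpr hd)

theorem etaProdB_deltaC_eq (k : Type) [Field k] :
    deltaC k = HahnSeries.single (1 : ℤ) (1 : k) *
      HahnSeries.ofPowerSeries ℤ k (etaProdB_E k ^ 24) := by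
  rw [deltaC, dedekindEtaUnit, map_pow]
  rfl

theorem etaProdB_scale_delta (k : Type) [Field k] (c : k) :
    scale c (deltaC k) = HahnSeries.single (1 : ℤ) c *
      HahnSeries.ofPowerSeries ℤ k (PowerSeries.rescale c (etaProdB_E k) ^ 24) := by
  rw [etaProdB_deltaC_eq, etaProdB_scale_ofPS, map_pow]

theorem etaProdB_qExpand_delta (k : Type) [Field k] (a : ℕ) [NeZero a] :
    qExpand k a (deltaC k) = HahnSeries.single (a : ℤ) (1 : k) *
      HahnSeries.ofPowerSeries ℤ k
        (PowerSeries.expand a (NeZero.ne a) (etaProdB_E k) ^ 24) := by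
  rw [etaProdB_deltaC_eq, map_mul, qExpand_single, mul_one, etaProdB_qExpand_ofPS, map_pow]

theorem etaProdB_prod_single (k : Type) [Field k] (f : ℕ → k) (r : ℕ) :
    ∏ b ∈ Finset.range r, HahnSeries.single (1 : ℤ) (f b) =
      HahnSeries.single (r : ℤ) (∏ b ∈ Finset.range r, f b) := by
  induction r with
  | zero => simp
  | succ r ih =>
    rw [Finset.prod_range_succ, Finset.prod_range_succ, ih, HahnSeries.single_mul_single]
    push_cast
    rfl

theorem etaProdB_main (k : Type) [Field k] (r : ℕ) [NeZero r] (hr : r.Prime) (ζ : k)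
    (hζ : IsPrimitiveRoot ζ r) :
    ∃ ε : k, ε ≠ 0 ∧
      (∏ b ∈ Finset.range r, scale (ζ ^ b) (deltaC k)) * qExpand k (r * r) (deltaC k) =
        HahnSeries.C ε * qExpand k r (deltaC k) ^ (r + 1) := by
  refine ⟨∏ b ∈ Finset.range r, ζ ^ b, ?_, ?_⟩
  · exact Finset.prod_ne_zero_iff.mpr fun b _ => pow_ne_zero _ (hζ.ne_zero hr.ne_zero)
  · have hps := etaProdB_ps_main k r hr ζ hζ
    simp only [etaProdB_scale_delta, etaProdB_qExpand_delta]
    rw [Finset.prod_mul_distrib, etaProdB_prod_single, ← map_prod, Finset.prod_pow,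
      mul_mul_mul_comm, ← map_mul, ← mul_pow, hps, HahnSeries.single_mul_single, mul_pow,
      HahnSeries.single_pow]
    have h2 : (HahnSeries.ofPowerSeries ℤ k)
          (PowerSeries.expand r hr.ne_zero (etaProdB_E k) ^ 24) ^ (r + 1) =
        (HahnSeries.ofPowerSeries ℤ k)
          ((PowerSeries.expand r hr.ne_zero (etaProdB_E k) ^ (r + 1)) ^ 24) := by
      rw [← map_pow, ← pow_mul, ← pow_mul, mul_comm]
    rw [h2, ← mul_assoc, HahnSeries.C_apply, HahnSeries.single_mul_single]
    have h3 : (r : ℤ) + ((r * r : ℕ) : ℤ) = 0 + (r + 1) • (r : ℤ) := by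
      rw [nsmul_eq_mul]
      push_cast
      ring
    rw [h3, mul_one, one_pow, mul_one]

/-! ### `Δ(y^r) ≠ Δ(y)^r` -/

/-- In `k⟦y⟧`, two series with constant term `1` and equal `n`-th powers (`n ≥ 1`) are equal. -/
theorem etaProdB_pow_inj (k : Type) [Field k] : ∀ n : ℕ, 0 < n → ∀ a b : PowerSeries k,
    PowerSeries.constantCoeff a = 1 → PowerSeries.constantCoeff b = 1 → a ^ n = b ^ n →
    a = b := by
  intro n
  induction n using Nat.strong_induction_on with
  | _ n ih =>
    intro hn a b ha hb hab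
    by_cases hnk : (n : k) = 0
    · obtain ⟨p, hp⟩ := CharP.exists k
      have hpn : p ∣ n := (CharP.cast_eq_zero_iff k p n).mp hnk
      have hp0 : p ≠ 0 := by
        rintro rfl
        exact hn.ne' (Nat.eq_zero_of_zero_dvd hpn)
      have hpp : p.Prime := (CharP.char_is_prime_or_zero k p).resolve_right hp0
      have _ : Fact p.Prime := ⟨hpp⟩
      have _ : CharP (PowerSeries k) p :=
        charP_of_injective_ringHom (f := (PowerSeries.C : k →+* PowerSeries k))
          PowerSeries.C_injective p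
      obtain ⟨m, rfl⟩ := hpn
      have hm : 0 < m := Nat.pos_of_mul_pos_left hn
      have hlt : m < p * m := by nlinarith [hpp.two_le]
      refine ih m hlt hm a b ha hb ?_
      have h1 : (a ^ m - b ^ m) ^ p = 0 := by
        rw [sub_pow_char, ← pow_mul, ← pow_mul, mul_comm m p, hab, sub_self]
      exact sub_eq_zero.mp (pow_eq_zero_iff hpp.ne_zero |>.mp h1)
    · have h1 : (∑ i ∈ Finset.range n, a ^ i * b ^ (n - 1 - i)) * (a - b) = 0 := by
        rw [geom_sum₂_mul, hab, sub_self]
      rcases mul_eq_zero.mp h1 with h2 | h2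
      · exfalso
        have h3 := congrArg (PowerSeries.constantCoeff) h2
        rw [map_sum] at h3
        simp only [map_mul, map_pow, ha, hb, one_pow, mul_one, map_zero, Finset.sum_const,
          Finset.card_range, nsmul_eq_mul] at h3
        exact hnk h3
      · exact sub_eq_zero.mp h2

theorem etaProdB_constantCoeff_E (k : Type) [Field k] :
    PowerSeries.constantCoeff (etaProdB_E k) = 1 := by
  rw [etaProdB_E, ← PowerSeries.coeff_zero_eq_constantCoeff_apply, PowerSeries.coeff_map,
    PowerSeries.coeff_zero_eq_constantCoeff_apply, constantCoeff_etaProd, map_one]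

theorem etaProdB_coeff_one_P (k : Type) [Field k] (M : ℕ) :
    PowerSeries.coeff 1 (etaProdB_P k (M + 1)) = -1 := by
  induction M with
  | zero => simp [etaProdB_P]
  | succ M ih =>
    have h1 : etaProdB_P k (M + 1 + 1) =
        etaProdB_P k (M + 1) - etaProdB_P k (M + 1) * PowerSeries.X ^ (M + 1 + 1) := by
      rw [etaProdB_P, Finset.prod_range_succ, ← etaProdB_P, mul_sub, mul_one]
    rw [h1, map_sub, ih, PowerSeries.coeff_mul_X_pow', if_neg (by omega), sub_zero]

theorem etaProdB_coeff_one_E (k : Type) [Field k] :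
    PowerSeries.coeff 1 (etaProdB_E k) = -1 := by
  let _ : TopologicalSpace k := ⊥
  have _ : DiscreteTopology k := ⟨rfl⟩
  have hT := (PowerSeries.WithPiTopology.tendsto_iff_coeff_tendsto k _ _ _).mp
    (etaProdB_tendsto k) 1
  refine tendsto_nhds_unique_of_eventuallyEq hT (tendsto_const_nhds (x := (-1 : k))) ?_
  filter_upwards [Filter.eventually_ge_atTop 1] with M hM
  obtain ⟨M', rfl⟩ : ∃ M', M = M' + 1 := ⟨M - 1, by omega⟩
  exact etaProdB_coeff_one_P k M'

theorem etaProdB_delta_ne (k : Type) [Field k] (r : ℕ) [NeZero r] (hr : 2 ≤ r)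
    (hrk : (r : k) ≠ 0) :
    qExpand k r (deltaC k) ≠ deltaC k ^ r := by
  intro h
  rw [etaProdB_qExpand_delta] at h
  rw [etaProdB_deltaC_eq, mul_pow, HahnSeries.single_pow,
    ← map_pow (HahnSeries.ofPowerSeries ℤ k), one_pow, nsmul_eq_mul, mul_one] at h
  have hne : HahnSeries.single (r : ℤ) (1 : k) ≠ 0 := HahnSeries.single_ne_zero one_ne_zero
  have h1 := HahnSeries.ofPowerSeries_injective (mul_left_cancel₀ hne h)
  rw [← pow_mul, mul_comm 24 r, pow_mul] at h1
  have h2 := etaProdB_pow_inj k 24 (by norm_num) _ _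
    (by rw [PowerSeries.constantCoeff_expand, etaProdB_constantCoeff_E])
    (by rw [map_pow, etaProdB_constantCoeff_E, one_pow]) h1
  have h3 := congrArg (PowerSeries.coeff 1) h2
  rw [PowerSeries.coeff_expand_of_not_dvd _ _ _ (by
      intro hdvd
      have := Nat.le_of_dvd one_pos hdvd
      omega),
    PowerSeries.coeff_one_pow, etaProdB_coeff_one_E, etaProdB_constantCoeff_E, one_pow,
    mul_one, mul_neg, mul_one] at h3
  exact hrk (neg_eq_zero.mp h3.symm)

end

end Fermat.Agent.S28
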