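/-
S28, block Prime (twin B) — INTERNAL INTERFACE FILE of the block.

Statement-`Prop`s of the work packages of the block `Prime` (Part D1 of S28: prime level in
characteristic `ℓ`).  Notation: `j = jqModC k`, `ĵ = qExpand k r j = j(y^r)`,
`Δ = deltaC k`, `x_b = scale (ζ ^ b) j = j(ζ^b y)`.
-/
import Fermat.Agent.S28.Interfaces

set_option autoImplicit false

open ModularCurve Polynomial

namespace Fermat.Agent.S28

noncomputable section

/-- (R) If `ĵ = j(y^r)` lies in `k(j)` and is a root of a monic polynomial with coefficients in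
`k[j]`, then `ĵ = R(j)` for a monic polynomial `R` of degree `r`. -/
def pb_RPolyStatement : Prop :=
  ∀ (k : Type) [Field k] (r : ℕ) [NeZero r] (Φ : Polynomial (Polynomial k)),
    Φ.Monic →
    (Φ.map (evalL (jqModC k))).eval (qExpand k r (jqModC k)) = 0 →
    qExpand k r (jqModC k) ∈ IntermediateField.adjoin k {jqModC k} →
    ∃ R : Polynomial k, R.Monic ∧ R.natDegree = r ∧
      qExpand k r (jqModC k) = evalL (jqModC k) R

/-- (F) If `ĵ = R(j)` with `R` monic of degree `r` and `ζ` is a primitive `r`-th root of unity,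
then `∏_{b<r} (X - j(ζ^b y)) = R(X) - ĵ` in `k((y))[X]`. -/
def pb_FactorStatement : Prop :=
  ∀ (k : Type) [Field k] (r : ℕ) [NeZero r] (ζ : k), IsPrimitiveRoot ζ r →
    ∀ R : Polynomial k, R.Monic → R.natDegree = r →
      qExpand k r (jqModC k) = evalL (jqModC k) R →
      ∏ b ∈ Finset.range r, (X - C (scale (ζ ^ b) (jqModC k))) =
        R.map (HahnSeries.C : k →+* LaurentSeries k) - C (qExpand k r (jqModC k))

/-- (I) The divisibility `F ∘ R ∣ F ^ (r + 1)` for a Hasse pair `(F, m)`, from the eta-product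
identity, the factorisation (F) and `ĵ = R(j)`. -/
def pb_IdentityStatement : Prop :=
  ∀ (k : Type) [Field k] [IsAlgClosed k] (r : ℕ) [NeZero r] (ζ : k), ζ ≠ 0 →
    ∀ (R F : Polynomial k) (m : ℕ) (ε : k),
      (∏ b ∈ Finset.range r, scale (ζ ^ b) (deltaC k)) * qExpand k (r * r) (deltaC k) =
        HahnSeries.C ε * qExpand k r (deltaC k) ^ (r + 1) →
      ∏ b ∈ Finset.range r, (X - C (scale (ζ ^ b) (jqModC k))) =
        R.map (HahnSeries.C : k →+* LaurentSeries k) - C (qExpand k r (jqModC k)) →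
      qExpand k r (jqModC k) = evalL (jqModC k) R →
      F.Monic → evalL (jqModC k) F * deltaC k ^ m = 1 →
      F.comp R ∣ F ^ (r + 1)

/-- (E0) In a Hasse identity `F(j) * Δ^m = 1` the degree of `F` is `m`. -/
def pb_HasseDegStatement : Prop :=
  ∀ (k : Type) [Field k] (F : Polynomial k) (m : ℕ),
    evalL (jqModC k) F * deltaC k ^ m = 1 → F.natDegree = m

/-- (E) The end of the argument: if `F = (X - s0)^d` in a Hasse identity and
`R - s0 = (X - s0)^r`, `ĵ = R(j)`, then `Δ(y^r) = Δ(y)^r`. -/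
def pb_EndStatement : Prop :=
  ∀ (k : Type) [Field k] [IsAlgClosed k] (r : ℕ) [NeZero r] (R F : Polynomial k) (m : ℕ) (s0 : k),
    0 < m → evalL (jqModC k) F * deltaC k ^ m = 1 →
    (∃ d : ℕ, F = (X - C s0) ^ d) → R - C s0 = (X - C s0) ^ r →
    qExpand k r (jqModC k) = evalL (jqModC k) R →
    qExpand k r (deltaC k) = deltaC k ^ r

/-- (IC) The degree of `j(y^{r^2})` over `k(j(y^r))` is `r + 1`, from the modular equation and
`j(y^r) ∉ k(j(y))`. -/
def pb_IrredCoreStatement : Prop :=
  ∀ (k : Type) [Field k] (r : ℕ) [NeZero r] (ζ : k), r.Prime → IsPrimitiveRoot ζ r →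
    ModEqAt k r ζ →
    qExpand k r (jqModC k) ∉ IntermediateField.adjoin k {jqModC k} →
    (minpoly ↥(IntermediateField.adjoin k {qExpand k r (jqModC k)})
      (qExpand k (r * r) (jqModC k))).natDegree = r + 1

/-- (IT) Transport along `y ↦ y^r`: the degree of `j(y^r)` over `k(j(y))` equals the degree of
`j(y^{r^2})` over `k(j(y^r))`, which is `r + 1`. -/
def pb_IrredTransportStatement : Prop :=
  ∀ (k : Type) [Field k] (r : ℕ) [NeZero r] (ζ : k), ModEqAt k r ζ →
    (minpoly ↥(IntermediateField.adjoin k {qExpand k r (jqModC k)})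
      (qExpand k (r * r) (jqModC k))).natDegree = r + 1 →
    (minpoly ↥(IntermediateField.adjoin k {jqModC k}) (qExpand k r (jqModC k))).natDegree = r + 1

end

end Fermat.Agent.S28
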