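/-
S28 / package Subst (twin B): substitution toolkit for formal Laurent series, `y ↦ c * y ^ a`.

`scale c` is the substitution `y ↦ c * y`, `qExpand k a` the substitution `y ↦ y ^ a`,
`jsub k c a = j(c * y ^ a)`.  All declarations carry the prefix `substB_`.
-/
import Fermat.Agent.S28.Interfaces

set_option autoImplicit false

open ModularCurve Polynomial

namespace Fermat.Agent.S28

noncomputable section

/-! ## `scale` -/

theorem substB_scale_one {k : Type*} [Field k] (f : LaurentSeries k) : scale 1 f = f := by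
  ext n
  rw [scale_coeff, one_zpow, one_mul]

theorem substB_scale_scale {k : Type*} [Field k] (c d : k) (f : LaurentSeries k) :
    scale c (scale d f) = scale (c * d) f := by
  ext n
  rw [scale_coeff, scale_coeff, scale_coeff, mul_zpow, mul_assoc]

theorem substB_scale_single {k : Type*} [Field k] (c a : k) (n : ℤ) :
    scale c (HahnSeries.single n a : LaurentSeries k) = HahnSeries.single n (c ^ n * a) := by
  ext m
  rw [scale_coeff, HahnSeries.coeff_single, HahnSeries.coeff_single]
  by_cases h : m = n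
  · rw [if_pos h, if_pos h, h]
  · rw [if_neg h, if_neg h, mul_zero]

theorem substB_scale_C {k : Type*} [Field k] (c a : k) :
    scale c (HahnSeries.C a : LaurentSeries k) = HahnSeries.C a := by
  rw [HahnSeries.C_apply, substB_scale_single, zpow_zero, one_mul]

theorem substB_scale_zero {k : Type*} [Field k] (c : k) :
    scale c (0 : LaurentSeries k) = 0 := by
  ext n
  rw [scale_coeff, HahnSeries.coeff_zero, mul_zero]

theorem substB_scale_add {k : Type*} [Field k] (c : k) (f g : LaurentSeries k) :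
    scale c (f + g) = scale c f + scale c g := by
  ext n
  rw [HahnSeries.coeff_add, scale_coeff, scale_coeff, scale_coeff, HahnSeries.coeff_add, mul_add]

theorem substB_scale_one' {k : Type*} [Field k] (c : k) :
    scale c (1 : LaurentSeries k) = 1 := by
  rw [← HahnSeries.C_one, substB_scale_C]

theorem substB_scale_mul {k : Type*} [Field k] (c : k) (hc : c ≠ 0) (f g : LaurentSeries k) :
    scale c (f * g) = scale c f * scale c g := by
  ext n
  rw [scale_coeff, HahnSeries.coeff_mul, HahnSeries.coeff_mul, Finset.mul_sum]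
  refine Finset.sum_congr ?_ ?_
  · ext ij
    simp only [Finset.mem_antidiagonal, HahnSeries.mem_support, scale_coeff, ne_eq,
      mul_eq_zero, zpow_ne_zero _ hc, false_or]
  · intro ij hij
    rw [Finset.mem_antidiagonal] at hij
    rw [scale_coeff, scale_coeff, ← hij.2.2, zpow_add₀ hc]
    ring

/-- `scale c` (the substitution `y ↦ c * y`) as a ring homomorphism, for `c ≠ 0`. -/
def substB_scaleHom {k : Type*} [Field k] (c : k) (hc : c ≠ 0) :
    LaurentSeries k →+* LaurentSeries k where
  toFun := scale c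
  map_one' := substB_scale_one' c
  map_mul' := substB_scale_mul c hc
  map_zero' := substB_scale_zero c
  map_add' := substB_scale_add c

theorem substB_scaleHom_apply {k : Type*} [Field k] (c : k) (hc : c ≠ 0) (f : LaurentSeries k) :
    substB_scaleHom c hc f = scale c f := rfl

theorem substB_scale_injective {k : Type*} [Field k] (c : k) (hc : c ≠ 0) :
    Function.Injective (scale c : LaurentSeries k → LaurentSeries k) := by
  intro f g h
  ext n
  have h1 : (scale c f).coeff n = (scale c g).coeff n := by rw [h]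
  rw [scale_coeff, scale_coeff] at h1
  exact mul_left_cancel₀ (zpow_ne_zero n hc) h1

theorem substB_scale_qExpand {k : Type*} [Field k] (c : k) (a : ℕ) [NeZero a]
    (f : LaurentSeries k) :
    scale c (qExpand k a f) = qExpand k a (scale (c ^ a) f) := by
  ext n
  rw [scale_coeff]
  by_cases hn : (a : ℤ) ∣ n
  · obtain ⟨m, rfl⟩ := hn
    rw [qExpand_coeff_mul, qExpand_coeff_mul, scale_coeff, zpow_mul, zpow_natCast]
  · rw [qExpand_coeff_of_not_dvd a _ hn, qExpand_coeff_of_not_dvd a _ hn, mul_zero]

/-! ## `evalL` -/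

theorem substB_hom_evalL {k : Type*} [Field k] (σ : LaurentSeries k →+* LaurentSeries k)
    (hσ : ∀ a : k, σ (HahnSeries.C a) = HahnSeries.C a) (x : LaurentSeries k) (p : k[X]) :
    σ (evalL x p) = evalL (σ x) p := by
  have h : σ.comp (HahnSeries.C : k →+* LaurentSeries k) = HahnSeries.C := RingHom.ext hσ
  show σ (Polynomial.eval₂ HahnSeries.C x p) = Polynomial.eval₂ HahnSeries.C (σ x) p
  rw [Polynomial.hom_eval₂, h]

theorem substB_hom_comp_evalL {k : Type*} [Field k] (σ : LaurentSeries k →+* LaurentSeries k)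
    (hσ : ∀ a : k, σ (HahnSeries.C a) = HahnSeries.C a) (x : LaurentSeries k) :
    σ.comp (evalL x) = evalL (σ x) :=
  RingHom.ext fun p => substB_hom_evalL σ hσ x p

theorem substB_scale_evalL {k : Type*} [Field k] (c : k) (hc : c ≠ 0) (x : LaurentSeries k)
    (p : k[X]) : scale c (evalL x p) = evalL (scale c x) p :=
  substB_hom_evalL (substB_scaleHom c hc) (fun a => substB_scale_C c a) x p

theorem substB_qExpand_evalL {k : Type*} [Field k] (a : ℕ) [NeZero a] (x : LaurentSeries k)
    (p : k[X]) : qExpand k a (evalL x p) = evalL (qExpand k a x) p :=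
  substB_hom_evalL (qExpand k a) (fun b => qExpand_C a b) x p

/-! ## `jsub` -/

theorem substB_jsub_one_one (k : Type*) [Field k] : jsub k 1 1 = jqModC k := by
  rw [jsub, substB_scale_one, qExpand_one_apply]

theorem substB_jsub_one (k : Type*) [Field k] (a : ℕ) [NeZero a] :
    jsub k 1 a = qExpand k a (jqModC k) := by
  rw [jsub, substB_scale_one]

theorem substB_scale_jsub (k : Type*) [Field k] (c d : k) (a : ℕ) [NeZero a] :
    scale d (jsub k c a) = jsub k (c * d ^ a) a := by
  rw [jsub, jsub, substB_scale_qExpand, substB_scale_scale, mul_comm]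

theorem substB_qExpand_jsub (k : Type*) [Field k] (c : k) (a b : ℕ) [NeZero a] [NeZero b] :
    qExpand k b (jsub k c a) = jsub k c (a * b) := by
  rw [jsub, jsub, qExpand_qExpand]
  exact qExpand_congr (mul_comm b a) _

/-! ## Lowest coefficients of `jsub` and of its powers -/

theorem substB_jsub_coeff_mul (k : Type*) [Field k] (c : k) (a : ℕ) [NeZero a] (m : ℤ) :
    (jsub k c a).coeff ((a : ℤ) * m) = c ^ m * (jqModC k).coeff m := by
  rw [jsub, qExpand_coeff_mul, scale_coeff]

theorem substB_jsub_coeff_of_not_dvd (k : Type*) [Field k] (c : k) (a : ℕ) [NeZero a] (n : ℤ)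
    (hn : ¬ (a : ℤ) ∣ n) : (jsub k c a).coeff n = 0 :=
  qExpand_coeff_of_not_dvd a _ hn

theorem substB_jsub_pow (k : Type*) [Field k] (c : k) (hc : c ≠ 0) (a : ℕ) [NeZero a] (i : ℕ) :
    (jsub k c a) ^ i = qExpand k a (scale c ((jqModC k) ^ i)) := by
  show (qExpand k a (substB_scaleHom c hc (jqModC k))) ^ i =
    qExpand k a (substB_scaleHom c hc ((jqModC k) ^ i))
  rw [map_pow, map_pow]

theorem substB_jsub_pow_coeff_of_lt (k : Type*) [Field k] (c : k) (hc : c ≠ 0) (a : ℕ) [NeZero a]
    (i : ℕ) (n : ℤ) (hn : n < -((a : ℤ) * i)) : ((jsub k c a) ^ i).coeff n = 0 := by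
  rw [substB_jsub_pow k c hc a i]
  by_cases hd : (a : ℤ) ∣ n
  · obtain ⟨m, rfl⟩ := hd
    rw [qExpand_coeff_mul, scale_coeff]
    have ha : (0 : ℤ) < a := by exact_mod_cast Nat.pos_of_ne_zero (NeZero.ne a)
    have hm : m < -(i : ℤ) := by
      by_contra hcon
      rw [not_lt] at hcon
      nlinarith
    rw [coeff_jqModC_pow_of_lt k hm, mul_zero]
  · exact qExpand_coeff_of_not_dvd a _ hd

theorem substB_jsub_pow_coeff_self (k : Type*) [Field k] (c : k) (hc : c ≠ 0) (a : ℕ) [NeZero a]
    (i : ℕ) : ((jsub k c a) ^ i).coeff (-((a : ℤ) * i)) = (c⁻¹) ^ i := by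
  rw [substB_jsub_pow k c hc a i, show -((a : ℤ) * i) = (a : ℤ) * (-(i : ℤ)) by ring,
    qExpand_coeff_mul, scale_coeff, coeff_jqModC_pow_self, mul_one, zpow_neg, zpow_natCast,
    inv_pow]

theorem substB_jsub_coeff_of_lt (k : Type*) [Field k] (c : k) (hc : c ≠ 0) (a : ℕ) [NeZero a]
    (n : ℤ) (hn : n < -(a : ℤ)) : (jsub k c a).coeff n = 0 := by
  have h := substB_jsub_pow_coeff_of_lt k c hc a 1 n (by simpa using hn)
  rwa [pow_one] at h

theorem substB_jsub_coeff_neg (k : Type*) [Field k] (c : k) (hc : c ≠ 0) (a : ℕ) [NeZero a] :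
    (jsub k c a).coeff (-(a : ℤ)) = c⁻¹ := by
  have h := substB_jsub_pow_coeff_self k c hc a 1
  simpa using h

theorem substB_jsub_ne_zero (k : Type*) [Field k] (c : k) (hc : c ≠ 0) (a : ℕ) [NeZero a] :
    jsub k c a ≠ 0 := by
  intro h
  have h1 := substB_jsub_coeff_neg k c hc a
  rw [h, HahnSeries.coeff_zero] at h1
  exact inv_ne_zero hc h1.symm

theorem substB_jsub_order (k : Type*) [Field k] (c : k) (hc : c ≠ 0) (a : ℕ) [NeZero a] :
    (jsub k c a).order = -(a : ℤ) := by
  have hne : (jsub k c a).coeff (-(a : ℤ)) ≠ 0 := by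
    rw [substB_jsub_coeff_neg k c hc a]
    exact inv_ne_zero hc
  refine le_antisymm (HahnSeries.order_le_of_coeff_ne_zero hne) ?_
  by_contra hlt
  rw [not_le] at hlt
  have h0 := substB_jsub_coeff_of_lt k c hc a _ hlt
  exact substB_jsub_ne_zero k c hc a (HahnSeries.coeff_order_eq_zero.mp h0)

theorem substB_jsub_eq_iff (k : Type*) [Field k] (c c' : k) (hc : c ≠ 0) (hc' : c' ≠ 0)
    (a a' : ℕ) [NeZero a] [NeZero a'] :
    jsub k c a = jsub k c' a' → a = a' ∧ c = c' := by
  intro h
  have ho : -(a : ℤ) = -(a' : ℤ) := by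
    rw [← substB_jsub_order k c hc a, ← substB_jsub_order k c' hc' a', h]
  have haa : a = a' := by omega
  refine ⟨haa, ?_⟩
  have h1 := substB_jsub_coeff_neg k c hc a
  have h2 := substB_jsub_coeff_neg k c' hc' a'
  rw [h, ho] at h1
  exact inv_injective (h1.symm.trans h2)

/-! ## The lowest term of a polynomial in `jsub` -/

theorem substB_evalL_coeff {k : Type*} [Field k] (x : LaurentSeries k) (p : k[X]) (n : ℤ) :
    (evalL x p).coeff n = ∑ i ∈ Finset.range (p.natDegree + 1), p.coeff i * (x ^ i).coeff n := by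
  show (Polynomial.eval₂ HahnSeries.C x p).coeff n = _
  rw [Polynomial.eval₂_eq_sum_range, HahnSeries.coeff_sum]
  refine Finset.sum_congr rfl fun i _ => ?_
  rw [HahnSeries.C_mul_eq_smul, HahnSeries.coeff_smul, smul_eq_mul]

theorem substB_evalL_coeff_of_lt (k : Type*) [Field k] (c : k) (hc : c ≠ 0) (a : ℕ) [NeZero a]
    (p : k[X]) (n : ℤ) (hn : n < -((a : ℤ) * p.natDegree)) :
    (evalL (jsub k c a) p).coeff n = 0 := by
  rw [substB_evalL_coeff]
  refine Finset.sum_eq_zero fun i hi => ?_
  have hi' : i ≤ p.natDegree := Nat.lt_succ_iff.mp (Finset.mem_range.mp hi)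
  have ha : (0 : ℤ) ≤ a := Int.natCast_nonneg a
  have hle : (a : ℤ) * i ≤ (a : ℤ) * p.natDegree :=
    mul_le_mul_of_nonneg_left (by exact_mod_cast hi') ha
  rw [substB_jsub_pow_coeff_of_lt k c hc a i n (by omega), mul_zero]

theorem substB_evalL_coeff_top (k : Type*) [Field k] (c : k) (hc : c ≠ 0) (a : ℕ) [NeZero a]
    (p : k[X]) :
    (evalL (jsub k c a) p).coeff (-((a : ℤ) * p.natDegree)) =
      p.leadingCoeff * (c⁻¹) ^ p.natDegree := by
  rw [substB_evalL_coeff, Finset.sum_eq_single p.natDegree]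
  · rw [substB_jsub_pow_coeff_self k c hc a, Polynomial.coeff_natDegree]
  · intro i hi hne
    have hi' : i < p.natDegree :=
      lt_of_le_of_ne (Nat.lt_succ_iff.mp (Finset.mem_range.mp hi)) hne
    have ha : (0 : ℤ) < a := by exact_mod_cast Nat.pos_of_ne_zero (NeZero.ne a)
    have hlt : (a : ℤ) * i < (a : ℤ) * p.natDegree :=
      mul_lt_mul_of_pos_left (by exact_mod_cast hi') ha
    rw [substB_jsub_pow_coeff_of_lt k c hc a i _ (by omega), mul_zero]
  · intro h
    exact absurd (Finset.mem_range.mpr (Nat.lt_succ_self _)) h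

theorem substB_evalL_order (k : Type*) [Field k] (c : k) (hc : c ≠ 0) (a : ℕ) [NeZero a]
    (p : k[X]) (hp : p ≠ 0) :
    (evalL (jsub k c a) p).order = -((a : ℤ) * p.natDegree) ∧
    (evalL (jsub k c a) p).coeff (-((a : ℤ) * p.natDegree)) =
      p.leadingCoeff * (c⁻¹) ^ p.natDegree := by
  have htop := substB_evalL_coeff_top k c hc a p
  have hne : (evalL (jsub k c a) p).coeff (-((a : ℤ) * p.natDegree)) ≠ 0 := by
    rw [htop]
    exact mul_ne_zero (Polynomial.leadingCoeff_ne_zero.mpr hp) (pow_ne_zero _ (inv_ne_zero hc))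
  refine ⟨le_antisymm (HahnSeries.order_le_of_coeff_ne_zero hne) ?_, htop⟩
  by_contra hlt
  rw [not_le] at hlt
  have h0 := substB_evalL_coeff_of_lt k c hc a p _ hlt
  exact (HahnSeries.ne_zero_of_coeff_ne_zero hne) (HahnSeries.coeff_order_eq_zero.mp h0)

theorem substB_evalL_injective (k : Type*) [Field k] (c : k) (hc : c ≠ 0) (a : ℕ) [NeZero a] :
    Function.Injective (evalL (jsub k c a)) := by
  rw [injective_iff_map_eq_zero]
  intro p hp
  by_contra hne
  have h := (substB_evalL_order k c hc a p hne).2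
  rw [hp, HahnSeries.coeff_zero] at h
  exact mul_ne_zero (Polynomial.leadingCoeff_ne_zero.mpr hne) (pow_ne_zero _ (inv_ne_zero hc))
    h.symm

/-! ## The modular equation after substitution -/

/-- the modular equation after the substitution `y ↦ c * y ^ a` -/
theorem substB_modEq (k : Type) [Field k] (r : ℕ) [NeZero r] (ζ : k)
    (Φ : Polynomial (Polynomial k))
    (h : Φ.map (evalL (qExpand k r (jqModC k))) =
      (X - C (qExpand k (r * r) (jqModC k))) *
        ∏ b ∈ Finset.range r, (X - C (scale (ζ ^ b) (jqModC k))))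
    (c : k) (hc : c ≠ 0) (a : ℕ) [NeZero a] :
    Φ.map (evalL (jsub k (c ^ r) (a * r))) =
      (X - C (jsub k (c ^ (r * r)) (a * (r * r)))) *
        ∏ b ∈ Finset.range r, (X - C (jsub k (ζ ^ b * c) a)) := by
  have hσC : ∀ b : k, ((qExpand k a).comp (substB_scaleHom c hc)) (HahnSeries.C b) =
      HahnSeries.C b := fun b => by
    rw [RingHom.comp_apply, substB_scaleHom_apply, substB_scale_C, qExpand_C]
  have hσq : ∀ (m : ℕ) [NeZero m], ((qExpand k a).comp (substB_scaleHom c hc))
      (qExpand k m (jqModC k)) = jsub k (c ^ m) (a * m) := by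
    intro m _
    rw [RingHom.comp_apply, substB_scaleHom_apply, substB_scale_qExpand, qExpand_qExpand, jsub]
  have hσs : ∀ d : k, ((qExpand k a).comp (substB_scaleHom c hc)) (scale d (jqModC k)) =
      jsub k (d * c) a := by
    intro d
    rw [RingHom.comp_apply, substB_scaleHom_apply, substB_scale_scale, mul_comm, jsub]
  have h1 := congrArg (Polynomial.map ((qExpand k a).comp (substB_scaleHom c hc))) h
  rw [Polynomial.map_map, substB_hom_comp_evalL _ hσC, hσq r, Polynomial.map_mul,
    Polynomial.map_sub, Polynomial.map_X, Polynomial.map_C, hσq (r * r),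
    Polynomial.map_prod] at h1
  rw [h1]
  congr 1
  refine Finset.prod_congr rfl fun b _ => ?_
  rw [Polynomial.map_sub, Polynomial.map_X, Polynomial.map_C, hσs]

/-- the swapped modular equation `Φ(j(y^r), j(y)) = 0` -/
theorem substB_modEq_swap (k : Type) [Field k] (r : ℕ) [NeZero r] (ζ : k)
    (Φ : Polynomial (Polynomial k))
    (h : Φ.map (evalL (qExpand k r (jqModC k))) =
      (X - C (qExpand k (r * r) (jqModC k))) *
        ∏ b ∈ Finset.range r, (X - C (scale (ζ ^ b) (jqModC k)))) :
    (Φ.map (evalL (jqModC k))).eval (qExpand k r (jqModC k)) = 0 := by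
  apply qExpand_injective (R := k) r
  have h2 : qExpand k r ((Φ.map (evalL (jqModC k))).eval (qExpand k r (jqModC k))) =
      (Φ.map (evalL (qExpand k r (jqModC k)))).eval (qExpand k (r * r) (jqModC k)) := by
    rw [Polynomial.eval_map, Polynomial.eval_map, Polynomial.hom_eval₂,
      substB_hom_comp_evalL (qExpand k r) (fun b => qExpand_C r b), qExpand_qExpand]
  rw [map_zero, h2, h, Polynomial.eval_mul, Polynomial.eval_sub, Polynomial.eval_X,
    Polynomial.eval_C, sub_self, zero_mul]

/-! ## Roots of unity -/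

/-- roots of unity in `k((y))` are constants -/
theorem substB_pow_eq_one (k : Type*) [Field k] [IsAlgClosed k] (w : LaurentSeries k) (m : ℕ)
    (hm : 0 < m) (h : w ^ m = 1) : ∃ a : k, w = HahnSeries.C a := by
  have hint : IsIntegral k w :=
    ⟨X ^ m - C 1, Polynomial.monic_X_pow_sub_C 1 hm.ne', by simp [h]⟩
  have hdeg := IsAlgClosed.degree_eq_one_of_irreducible k (minpoly.irreducible hint)
  obtain ⟨a, ha⟩ := minpoly.mem_range_of_degree_eq_one k w hdeg
  refine ⟨a, ?_⟩
  rw [← ha, algebraMap_laurentSeries_eq_single]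
  rfl

end

end Fermat.Agent.S28
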