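/-
S28, block Prime (twin B): toolkit shim.  Re-exports the substitution toolkit (package `Subst`)
under the names `pb_tk_*` used by the packages of this block.
-/
import Fermat.Agent.S28.SubstB

set_option autoImplicit false

open ModularCurve Polynomial

namespace Fermat.Agent.S28

noncomputable section

theorem pb_tk_scale_one {k : Type*} [Field k] (f : LaurentSeries k) : scale 1 f = f :=
  substB_scale_one f

theorem pb_tk_scale_scale {k : Type*} [Field k] (c d : k) (f : LaurentSeries k) :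
    scale c (scale d f) = scale (c * d) f :=
  substB_scale_scale c d f

theorem pb_tk_scale_C {k : Type*} [Field k] (c a : k) :
    scale c (HahnSeries.C a : LaurentSeries k) = HahnSeries.C a :=
  substB_scale_C c a

theorem pb_tk_scale_single {k : Type*} [Field k] (c a : k) (n : ℤ) :
    scale c (HahnSeries.single n a : LaurentSeries k) = HahnSeries.single n (c ^ n * a) :=
  substB_scale_single c a n

def pb_tk_scaleHom {k : Type*} [Field k] (c : k) (hc : c ≠ 0) : LaurentSeries k →+* LaurentSeries k :=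
  substB_scaleHom c hc

theorem pb_tk_scaleHom_apply {k : Type*} [Field k] (c : k) (hc : c ≠ 0) (f : LaurentSeries k) :
    pb_tk_scaleHom c hc f = scale c f :=
  substB_scaleHom_apply c hc f

theorem pb_tk_scale_injective {k : Type*} [Field k] (c : k) (hc : c ≠ 0) :
    Function.Injective (scale c : LaurentSeries k → LaurentSeries k) :=
  substB_scale_injective c hc

theorem pb_tk_scale_qExpand {k : Type*} [Field k] (c : k) (a : ℕ) [NeZero a] (f : LaurentSeries k) :
    scale c (qExpand k a f) = qExpand k a (scale (c ^ a) f) :=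
  substB_scale_qExpand c a f

theorem pb_tk_scale_evalL {k : Type*} [Field k] (c : k) (hc : c ≠ 0) (x : LaurentSeries k) (p : k[X]) :
    scale c (evalL x p) = evalL (scale c x) p :=
  substB_scale_evalL c hc x p

theorem pb_tk_qExpand_evalL {k : Type*} [Field k] (a : ℕ) [NeZero a] (x : LaurentSeries k) (p : k[X]) :
    qExpand k a (evalL x p) = evalL (qExpand k a x) p :=
  substB_qExpand_evalL a x p

theorem pb_tk_jsub_one_one (k : Type*) [Field k] : jsub k 1 1 = jqModC k :=
  substB_jsub_one_one k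

theorem pb_tk_jsub_one (k : Type*) [Field k] (a : ℕ) [NeZero a] : jsub k 1 a = qExpand k a (jqModC k) :=
  substB_jsub_one k a

theorem pb_tk_scale_jsub (k : Type*) [Field k] (c d : k) (a : ℕ) [NeZero a] :
    scale d (jsub k c a) = jsub k (c * d ^ a) a :=
  substB_scale_jsub k c d a

theorem pb_tk_qExpand_jsub (k : Type*) [Field k] (c : k) (a b : ℕ) [NeZero a] [NeZero b] :
    qExpand k b (jsub k c a) = jsub k c (a * b) :=
  substB_qExpand_jsub k c a b

theorem pb_tk_jsub_coeff_of_lt (k : Type*) [Field k] (c : k) (hc : c ≠ 0) (a : ℕ) [NeZero a] (n : ℤ)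
    (hn : n < -(a : ℤ)) : (jsub k c a).coeff n = 0 :=
  substB_jsub_coeff_of_lt k c hc a n hn

theorem pb_tk_jsub_coeff_neg (k : Type*) [Field k] (c : k) (hc : c ≠ 0) (a : ℕ) [NeZero a] :
    (jsub k c a).coeff (-(a : ℤ)) = c⁻¹ :=
  substB_jsub_coeff_neg k c hc a

theorem pb_tk_jsub_coeff_of_not_dvd (k : Type*) [Field k] (c : k) (a : ℕ) [NeZero a] (n : ℤ)
    (hn : ¬ (a : ℤ) ∣ n) : (jsub k c a).coeff n = 0 :=
  substB_jsub_coeff_of_not_dvd k c a n hn

theorem pb_tk_jsub_order (k : Type*) [Field k] (c : k) (hc : c ≠ 0) (a : ℕ) [NeZero a] :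
    (jsub k c a).order = -(a : ℤ) :=
  substB_jsub_order k c hc a

theorem pb_tk_jsub_eq_iff (k : Type*) [Field k] (c c' : k) (hc : c ≠ 0) (hc' : c' ≠ 0) (a a' : ℕ)
    [NeZero a] [NeZero a'] : jsub k c a = jsub k c' a' → a = a' ∧ c = c' :=
  substB_jsub_eq_iff k c c' hc hc' a a'

theorem pb_tk_evalL_injective (k : Type*) [Field k] (c : k) (hc : c ≠ 0) (a : ℕ) [NeZero a] :
    Function.Injective (evalL (jsub k c a)) :=
  substB_evalL_injective k c hc a

theorem pb_tk_evalL_order (k : Type*) [Field k] (c : k) (hc : c ≠ 0) (a : ℕ) [NeZero a] (p : k[X])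
    (hp : p ≠ 0) :
    (evalL (jsub k c a) p).order = -((a : ℤ) * p.natDegree) ∧
    (evalL (jsub k c a) p).coeff (-((a : ℤ) * p.natDegree)) = p.leadingCoeff * (c⁻¹) ^ p.natDegree :=
  substB_evalL_order k c hc a p hp

theorem pb_tk_modEq (k : Type) [Field k] (r : ℕ) [NeZero r] (ζ : k) (Φ : Polynomial (Polynomial k))
    (h : Φ.map (evalL (qExpand k r (jqModC k))) =
      (X - C (qExpand k (r * r) (jqModC k))) *
        ∏ b ∈ Finset.range r, (X - C (scale (ζ ^ b) (jqModC k))))
    (c : k) (hc : c ≠ 0) (a : ℕ) [NeZero a] :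
    Φ.map (evalL (jsub k (c ^ r) (a * r))) =
      (X - C (jsub k (c ^ (r * r)) (a * (r * r)))) *
        ∏ b ∈ Finset.range r, (X - C (jsub k (ζ ^ b * c) a)) :=
  substB_modEq k r ζ Φ h c hc a

theorem pb_tk_modEq_swap (k : Type) [Field k] (r : ℕ) [NeZero r] (ζ : k) (Φ : Polynomial (Polynomial k))
    (h : Φ.map (evalL (qExpand k r (jqModC k))) =
      (X - C (qExpand k (r * r) (jqModC k))) *
        ∏ b ∈ Finset.range r, (X - C (scale (ζ ^ b) (jqModC k)))) :
    (Φ.map (evalL (jqModC k))).eval (qExpand k r (jqModC k)) = 0 :=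
  substB_modEq_swap k r ζ Φ h

theorem pb_tk_pow_eq_one (k : Type*) [Field k] [IsAlgClosed k] (w : LaurentSeries k) (m : ℕ) (hm : 0 < m)
    (h : w ^ m = 1) : ∃ a : k, w = HahnSeries.C a :=
  substB_pow_eq_one k w m hm h

end

end Fermat.Agent.S28
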