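/-
S28, block Prime (twin B), package End: the degree of a Hasse polynomial, and the final
contradiction `Δ(y^r) = Δ(y)^r`.  All declarations carry the prefix `pb_end_`.
-/
import Fermat.Agent.S28.PBInterfaces
import Fermat.Agent.S28.PBToolkit

set_option autoImplicit false

open ModularCurve Polynomial

namespace Fermat.Agent.S28

noncomputable section

/-! ## The lowest term of `Δ` -/

theorem pb_end_delta_coeff (k : Type*) [Field k] (n : ℤ) :
    (deltaC k).coeff n =
      (HahnSeries.ofPowerSeries ℤ k (dedekindEtaUnit.map (Int.castRingHom k))).coeff (n - 1) := by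
  rw [deltaC, HahnSeries.coeff_single_mul, one_mul]

theorem pb_end_delta_coeff_one (k : Type*) [Field k] : (deltaC k).coeff 1 = 1 := by
  have h := HahnSeries.ofPowerSeries_apply_coeff (Γ := ℤ)
    (dedekindEtaUnit.map (Int.castRingHom k)) 0
  rw [Nat.cast_zero] at h
  rw [pb_end_delta_coeff, sub_self, h, PowerSeries.coeff_map,
    PowerSeries.coeff_zero_eq_constantCoeff, constantCoeff_dedekindEtaUnit, map_one]

theorem pb_end_delta_coeff_of_lt (k : Type*) [Field k] (n : ℤ) (hn : n < 1) :
    (deltaC k).coeff n = 0 := by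
  rw [pb_end_delta_coeff]
  exact ofPowerSeries_coeff_of_neg _ (by omega)

theorem pb_end_delta_ne_zero (k : Type*) [Field k] : deltaC k ≠ 0 := by
  intro h
  have h1 := pb_end_delta_coeff_one k
  rw [h, HahnSeries.coeff_zero] at h1
  exact zero_ne_one h1

theorem pb_end_delta_order (k : Type*) [Field k] : (deltaC k).order = 1 := by
  have hne : (deltaC k).coeff 1 ≠ 0 := by
    rw [pb_end_delta_coeff_one]
    exact one_ne_zero
  refine le_antisymm (HahnSeries.order_le_of_coeff_ne_zero hne) ?_
  by_contra hlt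
  rw [not_le] at hlt
  have h0 := pb_end_delta_coeff_of_lt k _ hlt
  exact pb_end_delta_ne_zero k (HahnSeries.coeff_order_eq_zero.mp h0)

theorem pb_end_delta_leadingCoeff (k : Type*) [Field k] : (deltaC k).leadingCoeff = 1 := by
  rw [HahnSeries.leadingCoeff_eq, pb_end_delta_order, pb_end_delta_coeff_one]

/-! ## The degree of a Hasse polynomial -/

theorem pb_end_deg : pb_HasseDegStatement := by
  intro k _ F m h
  have hF0 : F ≠ 0 := by
    rintro rfl
    rw [map_zero, zero_mul] at h
    exact zero_ne_one h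
  have hA : evalL (jqModC k) F ≠ 0 := left_ne_zero_of_mul_eq_one h
  have hB : deltaC k ^ m ≠ 0 := right_ne_zero_of_mul_eq_one h
  have ho := (pb_tk_evalL_order k 1 one_ne_zero 1 F hF0).1
  rw [pb_tk_jsub_one_one] at ho
  have h1 : (evalL (jqModC k) F * deltaC k ^ m).order = 0 := by
    rw [h, HahnSeries.order_one]
  rw [HahnSeries.order_mul hA hB, HahnSeries.order_pow, ho, pb_end_delta_order] at h1
  simp only [Nat.cast_one, one_mul, nsmul_eq_mul, mul_one] at h1
  omega

/-! ## The end of the argument -/

theorem pb_end_main : pb_EndStatement := by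
  intro k _ _ r _ R F m s0 hm hF hFd hR hjR
  obtain ⟨d, rfl⟩ := hFd
  have hdm : d = m := by
    have h := pb_end_deg k _ m hF
    rwa [Polynomial.natDegree_pow, Polynomial.natDegree_X_sub_C, mul_one] at h
  subst hdm
  have hev : evalL (jqModC k) (X - C s0) = jqModC k - HahnSeries.C s0 := by
    simp [evalL]
  rw [map_pow, hev] at hF
  have hw : ((jqModC k - HahnSeries.C s0) * deltaC k) ^ d = 1 := by
    rw [mul_pow]
    exact hF
  obtain ⟨a, ha⟩ := pb_tk_pow_eq_one k _ d hm hw
  -- the lowest term of `j - s0`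
  have huo := pb_tk_evalL_order k 1 one_ne_zero 1 (X - C s0) (X_sub_C_ne_zero s0)
  rw [pb_tk_jsub_one_one, hev, Polynomial.natDegree_X_sub_C, Polynomial.leadingCoeff_X_sub_C] at huo
  simp only [Nat.cast_one, mul_one, inv_one, pow_one] at huo
  have hul : (jqModC k - HahnSeries.C s0).leadingCoeff = 1 := by
    rw [HahnSeries.leadingCoeff_eq, huo.1, huo.2]
  -- the constant `a` is `1`
  have hc := HahnSeries.coeff_mul_order_add_order (jqModC k - HahnSeries.C s0) (deltaC k)
  rw [hul, pb_end_delta_leadingCoeff, huo.1, pb_end_delta_order, ha, HahnSeries.C_apply,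
    neg_add_cancel, HahnSeries.coeff_single_same, mul_one] at hc
  rw [hc, HahnSeries.C_one] at ha
  -- apply `y ↦ y ^ r`
  have hq := congrArg (qExpand k r) ha
  rw [map_mul, map_sub, qExpand_C, map_one, hjR] at hq
  have hRs : evalL (jqModC k) R - HahnSeries.C s0 = (jqModC k - HahnSeries.C s0) ^ r := by
    have h1 := congrArg (evalL (jqModC k)) hR
    rw [map_pow, hev, map_sub] at h1
    rw [← h1]
    simp [evalL]
  rw [hRs] at hq
  have hne : (jqModC k - HahnSeries.C s0) ^ r ≠ 0 := left_ne_zero_of_mul_eq_one hq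
  apply mul_left_cancel₀ hne
  rw [hq, ← mul_pow, ha, one_pow]

end

end Fermat.Agent.S28
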