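import Fermat.Agent.S28.PBInterfaces
import Fermat.Agent.S28.PBToolkit

/-
S28, block Prime (twin B), package `Factor`:
`∏_{b<r} (X - j(ζ^b y)) = R(X) - ĵ` in `k((y))[X]`, for `ĵ = j(y^r) = R(j)` with `R` monic of
degree `r` and `ζ` a primitive `r`-th root of unity.
-/

set_option autoImplicit false

open ModularCurve Polynomial

namespace Fermat.Agent.S28

/-- `scale c j = jsub k c 1`. -/
theorem pb_factor_scale_eq_jsub (k : Type) [Field k] (c : k) :
    scale c (jqModC k) = jsub k c 1 := by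
  have h := pb_tk_scale_jsub k 1 c 1
  rw [pb_tk_jsub_one_one, one_mul, pow_one] at h
  exact h

/-- The series `j(ζ^b y)`, `b < r`, are pairwise distinct. -/
theorem pb_factor_injOn (k : Type) [Field k] (r : ℕ) (ζ : k) (hζ : IsPrimitiveRoot ζ r)
    (hζ0 : ζ ≠ 0) (b b' : ℕ) (hb : b < r) (hb' : b' < r)
    (h : scale (ζ ^ b) (jqModC k) = scale (ζ ^ b') (jqModC k)) : b = b' := by
  rw [pb_factor_scale_eq_jsub, pb_factor_scale_eq_jsub] at h
  have h2 := (pb_tk_jsub_eq_iff k _ _ (pow_ne_zero b hζ0) (pow_ne_zero b' hζ0) 1 1 h).2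
  exact hζ.pow_inj hb hb' h2

/-- Each `j(ζ^b y)` is a root of `R(X) - ĵ`. -/
theorem pb_factor_isRoot (k : Type) [Field k] (r : ℕ) [NeZero r] (ζ : k)
    (hζ : IsPrimitiveRoot ζ r) (hζ0 : ζ ≠ 0) (R : Polynomial k)
    (hR : qExpand k r (jqModC k) = evalL (jqModC k) R) (b : ℕ) :
    (R.map (HahnSeries.C : k →+* LaurentSeries k) - C (qExpand k r (jqModC k))).IsRoot
      (scale (ζ ^ b) (jqModC k)) := by
  have hc : ζ ^ b ≠ 0 := pow_ne_zero b hζ0
  have h1 : R.eval₂ (HahnSeries.C : k →+* LaurentSeries k) (scale (ζ ^ b) (jqModC k)) =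
      evalL (scale (ζ ^ b) (jqModC k)) R := rfl
  have h2 : (ζ ^ b) ^ r = 1 := by
    rw [← pow_mul, mul_comm, pow_mul, hζ.pow_eq_one, one_pow]
  rw [IsRoot.def, eval_sub, eval_C, eval_map, h1, ← pb_tk_scale_evalL _ hc, ← hR,
    pb_tk_scale_qExpand, h2, pb_tk_scale_one, sub_self]

theorem pb_factor_main : pb_FactorStatement := by
  intro k _ r _ ζ hζ R hRm hRd hR
  have hr : r ≠ 0 := NeZero.ne r
  have hζ0 : ζ ≠ 0 := hζ.ne_zero hr
  -- (a) `P` is monic of degree `r`
  have hmapm : (R.map (HahnSeries.C : k →+* LaurentSeries k)).Monic := hRm.map _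
  have hmapd : (R.map (HahnSeries.C : k →+* LaurentSeries k)).natDegree = r := by
    rw [hRm.natDegree_map, hRd]
  have hPd : (R.map (HahnSeries.C : k →+* LaurentSeries k) -
      C (qExpand k r (jqModC k))).natDegree = r := by
    rw [natDegree_sub_C, hmapd]
  have hPm : (R.map (HahnSeries.C : k →+* LaurentSeries k) -
      C (qExpand k r (jqModC k))).Monic := by
    apply hmapm.sub_of_left
    refine lt_of_le_of_lt degree_C_le ?_
    rw [degree_eq_natDegree hmapm.ne_zero, hmapd]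
    exact_mod_cast Nat.pos_of_ne_zero hr
  -- (d) the product divides `P`
  have hdvd : ∏ b ∈ Finset.range r, (X - C (scale (ζ ^ b) (jqModC k))) ∣
      R.map (HahnSeries.C : k →+* LaurentSeries k) - C (qExpand k r (jqModC k)) := by
    apply Finset.prod_dvd_of_coprime
    · intro b hb b' hb' hne
      apply isCoprime_X_sub_C_of_isUnit_sub
      apply IsUnit.mk0
      rw [sub_ne_zero]
      intro h
      exact hne (pb_factor_injOn k r ζ hζ hζ0 b b' (Finset.mem_range.mp hb)
        (Finset.mem_range.mp hb') h)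
    · intro b _
      rw [dvd_iff_isRoot]
      exact pb_factor_isRoot k r ζ hζ hζ0 R hR b
  have hprodm : (∏ b ∈ Finset.range r, (X - C (scale (ζ ^ b) (jqModC k)))).Monic :=
    monic_prod_of_monic _ _ (fun b _ => monic_X_sub_C _)
  have hprodd : (∏ b ∈ Finset.range r, (X - C (scale (ζ ^ b) (jqModC k)))).natDegree = r := by
    rw [natDegree_prod_of_monic _ _ (fun b _ => monic_X_sub_C _)]
    simp
  exact (eq_of_monic_of_dvd_of_natDegree_le hprodm hPm hdvd (by rw [hPd, hprodd])).symm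

end Fermat.Agent.S28
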