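/-
S28, block Prime (twin B), package Identity: `F ∘ R ∣ F ^ (r + 1)` for a Hasse pair `(F, m)`.

From the eta-product identity, the factorisation `∏_{b<r} (X - j(ζ^b y)) = R(X) - j(y^r)` and
`j(y^r) = R(j)` we deduce the polynomial identity `F ^ (r + 1) = G * F ∘ R * ε ^ m` in `k[X]`
(by comparing both sides after evaluation at `j(y^r)`, which is injective).
-/
import Fermat.Agent.S28.PBInterfaces
import Fermat.Agent.S28.PBToolkit

set_option autoImplicit false

open ModularCurve Polynomial

namespace Fermat.Agent.S28

theorem pb_identity_evalL_C {k : Type} [Field k] (x : LaurentSeries k) (a : k) :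
    evalL x (C a) = HahnSeries.C a :=
  Polynomial.eval₂_C _ _

theorem pb_identity_evalL_X {k : Type} [Field k] (x : LaurentSeries k) :
    evalL x X = x :=
  Polynomial.eval₂_X _ _

/-- Evaluation of a monic polynomial over an algebraically closed field at a Laurent series, as a
product over its roots. -/
theorem pb_identity_evalL_roots {k : Type} [Field k] [IsAlgClosed k] (F : k[X]) (hF : F.Monic)
    (x : LaurentSeries k) :
    evalL x F = (F.roots.map (fun s => x - HahnSeries.C s)).prod := by
  have h := (IsAlgClosed.splits F).eq_prod_roots_of_monic hF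
  conv_lhs => rw [h]
  rw [map_multiset_prod, Multiset.map_map]
  refine congrArg Multiset.prod (Multiset.map_congr rfl ?_)
  intro s _
  show evalL x (X - C s) = x - HahnSeries.C s
  rw [map_sub, pb_identity_evalL_X, pb_identity_evalL_C]

/-- Exchange of a finite product with a product over a multiset. -/
theorem pb_identity_prod_exchange {M ι κ : Type*} [CommMonoid M] (s : Finset ι) (t : Multiset κ)
    (f : ι → κ → M) :
    ∏ b ∈ s, (t.map (fun a => f b a)).prod = (t.map (fun a => ∏ b ∈ s, f b a)).prod := by
  induction t using Multiset.induction_on with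
  | empty => simp
  | cons a t ih => simp [Finset.prod_mul_distrib, ih]

/-- Composition and evaluation at a Laurent series. -/
theorem pb_identity_evalL_comp {k : Type} [Field k] (x : LaurentSeries k) (F R : k[X]) :
    evalL (evalL x R) F = evalL x (F.comp R) := by
  show Polynomial.eval₂ HahnSeries.C (Polynomial.eval₂ HahnSeries.C x R) F =
    Polynomial.eval₂ HahnSeries.C x (F.comp R)
  rw [Polynomial.eval₂_comp]

/-- Cancellation: `A * D = 1` and `B * D = 1` force `A = B`. -/
theorem pb_identity_cancel {M : Type*} [CommMonoid M] (A B D : M) (hA : A * D = 1)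
    (hB : B * D = 1) : A = B := by
  calc A = A * (B * D) := by rw [hB, mul_one]
    _ = B * (A * D) := by rw [mul_left_comm]
    _ = B := by rw [hA, mul_one]

/-- The product of the `evalL x_b F` over `b < r` is the evaluation of a polynomial at `ĵ`. -/
theorem pb_identity_prod_eval {k : Type} [Field k] [IsAlgClosed k] (r : ℕ) [NeZero r] (ζ : k)
    (R F : Polynomial k)
    (hfac : ∏ b ∈ Finset.range r, (X - C (scale (ζ ^ b) (jqModC k))) =
      R.map (HahnSeries.C : k →+* LaurentSeries k) - C (qExpand k r (jqModC k)))
    (hFm : F.Monic) :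
    ∏ b ∈ Finset.range r, evalL (scale (ζ ^ b) (jqModC k)) F =
      evalL (qExpand k r (jqModC k))
        (F.roots.map (fun s => C ((-1 : k) ^ r) * (C (R.eval s) - X))).prod := by
  have hs : ∀ s : k, ∏ b ∈ Finset.range r, (HahnSeries.C s - scale (ζ ^ b) (jqModC k)) =
      HahnSeries.C (R.eval s) - qExpand k r (jqModC k) := by
    intro s
    have h := congrArg (Polynomial.eval (HahnSeries.C s)) hfac
    simp only [Polynomial.eval_prod, Polynomial.eval_sub, Polynomial.eval_X, Polynomial.eval_C,
      Polynomial.eval_map, Polynomial.eval₂_at_apply] at h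
    exact h
  have hs' : ∀ s : k, ∏ b ∈ Finset.range r, (scale (ζ ^ b) (jqModC k) - HahnSeries.C s) =
      evalL (qExpand k r (jqModC k)) (C ((-1 : k) ^ r) * (C (R.eval s) - X)) := by
    intro s
    have h1 : ∏ b ∈ Finset.range r, (scale (ζ ^ b) (jqModC k) - HahnSeries.C s) =
        ∏ b ∈ Finset.range r, ((-1 : LaurentSeries k) *
          (HahnSeries.C s - scale (ζ ^ b) (jqModC k))) := by
      refine Finset.prod_congr rfl ?_
      intro b _
      ring
    rw [h1, Finset.prod_mul_distrib, Finset.prod_const, Finset.card_range, hs s, map_mul,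
      map_sub, pb_identity_evalL_C, pb_identity_evalL_C, pb_identity_evalL_X, map_pow, map_neg,
      map_one]
  calc ∏ b ∈ Finset.range r, evalL (scale (ζ ^ b) (jqModC k)) F
      = ∏ b ∈ Finset.range r,
          (F.roots.map (fun s => scale (ζ ^ b) (jqModC k) - HahnSeries.C s)).prod := by
        refine Finset.prod_congr rfl ?_
        intro b _
        exact pb_identity_evalL_roots F hFm _
    _ = (F.roots.map (fun s => ∏ b ∈ Finset.range r,
          (scale (ζ ^ b) (jqModC k) - HahnSeries.C s))).prod :=
        pb_identity_prod_exchange (Finset.range r) F.roots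
          (fun b s => scale (ζ ^ b) (jqModC k) - HahnSeries.C s)
    _ = (F.roots.map (fun s => evalL (qExpand k r (jqModC k))
          (C ((-1 : k) ^ r) * (C (R.eval s) - X)))).prod := by
        refine congrArg Multiset.prod (Multiset.map_congr rfl ?_)
        intro s _
        exact hs' s
    _ = evalL (qExpand k r (jqModC k))
          (F.roots.map (fun s => C ((-1 : k) ^ r) * (C (R.eval s) - X))).prod := by
        rw [map_multiset_prod, Multiset.map_map]
        rfl

theorem pb_identity_main : pb_IdentityStatement := by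
  intro k _ _ r _ ζ hζ R F m ε heta hfac hR hFm hH
  -- Step 1: apply the substitutions to the Hasse identity.
  have H1 : evalL (qExpand k r (jqModC k)) F * qExpand k r (deltaC k) ^ m = 1 := by
    have h := congrArg (qExpand k r) hH
    rwa [map_mul, map_pow, map_one, pb_tk_qExpand_evalL] at h
  have H2 : ∀ b : ℕ, evalL (scale (ζ ^ b) (jqModC k)) F * scale (ζ ^ b) (deltaC k) ^ m = 1 := by
    intro b
    have hb : ζ ^ b ≠ 0 := pow_ne_zero b hζ
    have h := congrArg (pb_tk_scaleHom (ζ ^ b) hb) hH
    rw [map_mul, map_pow, map_one, pb_tk_scaleHom_apply, pb_tk_scaleHom_apply,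
      pb_tk_scale_evalL _ hb] at h
    exact h
  have H3 : evalL (qExpand k (r * r) (jqModC k)) F * qExpand k (r * r) (deltaC k) ^ m = 1 := by
    have h := congrArg (qExpand k (r * r)) hH
    rwa [map_mul, map_pow, map_one, pb_tk_qExpand_evalL] at h
  -- Step 2: the identity (★).
  have hA : ((∏ b ∈ Finset.range r, evalL (scale (ζ ^ b) (jqModC k)) F) *
      evalL (qExpand k (r * r) (jqModC k)) F * HahnSeries.C ε ^ m) *
      (qExpand k r (deltaC k) ^ m) ^ (r + 1) = 1 := by
    have hprod : (∏ b ∈ Finset.range r, evalL (scale (ζ ^ b) (jqModC k)) F) *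
        (∏ b ∈ Finset.range r, scale (ζ ^ b) (deltaC k)) ^ m = 1 := by
      rw [← Finset.prod_pow, ← Finset.prod_mul_distrib]
      exact Finset.prod_eq_one fun b _ => H2 b
    have heta' := congrArg (fun z => z ^ m) heta
    simp only [mul_pow] at heta'
    calc ((∏ b ∈ Finset.range r, evalL (scale (ζ ^ b) (jqModC k)) F) *
          evalL (qExpand k (r * r) (jqModC k)) F * HahnSeries.C ε ^ m) *
          (qExpand k r (deltaC k) ^ m) ^ (r + 1)
        = (∏ b ∈ Finset.range r, evalL (scale (ζ ^ b) (jqModC k)) F) *
          evalL (qExpand k (r * r) (jqModC k)) F *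
          (HahnSeries.C ε ^ m * (qExpand k r (deltaC k) ^ (r + 1)) ^ m) := by ring
      _ = (∏ b ∈ Finset.range r, evalL (scale (ζ ^ b) (jqModC k)) F) *
          evalL (qExpand k (r * r) (jqModC k)) F *
          ((∏ b ∈ Finset.range r, scale (ζ ^ b) (deltaC k)) ^ m *
            qExpand k (r * r) (deltaC k) ^ m) := by rw [heta']
      _ = ((∏ b ∈ Finset.range r, evalL (scale (ζ ^ b) (jqModC k)) F) *
            (∏ b ∈ Finset.range r, scale (ζ ^ b) (deltaC k)) ^ m) *
          (evalL (qExpand k (r * r) (jqModC k)) F * qExpand k (r * r) (deltaC k) ^ m) := by ring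
      _ = 1 := by rw [hprod, H3, mul_one]
  have hB : evalL (qExpand k r (jqModC k)) F ^ (r + 1) *
      (qExpand k r (deltaC k) ^ m) ^ (r + 1) = 1 := by
    rw [← mul_pow, H1, one_pow]
  have hstar := pb_identity_cancel _ _ _ hA hB
  -- Step 3: `j(y^(r*r)) = R(ĵ)`.
  have hRR : qExpand k (r * r) (jqModC k) = evalL (qExpand k r (jqModC k)) R := by
    rw [← qExpand_qExpand, ← pb_tk_qExpand_evalL, ← hR]
  -- Steps 4 and 5.
  rw [pb_identity_prod_eval r ζ R F hfac hFm, hRR, pb_identity_evalL_comp] at hstar
  have hC : (HahnSeries.C ε : LaurentSeries k) ^ m =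
      evalL (qExpand k r (jqModC k)) (C (ε ^ m)) := by
    rw [pb_identity_evalL_C, map_pow]
  rw [hC, ← map_mul, ← map_mul, ← map_pow] at hstar
  have hinj : Function.Injective (evalL (qExpand k r (jqModC k))) := by
    have h := pb_tk_evalL_injective k 1 one_ne_zero r
    rwa [pb_tk_jsub_one k r] at h
  have hpoly := hinj hstar
  exact ⟨(F.roots.map (fun s => C ((-1 : k) ^ r) * (C (R.eval s) - X))).prod * C (ε ^ m), by
    rw [← hpoly]; ring⟩

end Fermat.Agent.S28
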