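/-
S28, block Prime (twin B), package IrredCore (independent twin T):
the degree of `j(y^{r^2})` over `k(j(y^r))` is `r + 1`, from the modular equation and
`j(y^r) ∉ k(j(y))`.
-/
import Fermat.Agent.S28.PBInterfaces
import Fermat.Agent.S28.PBToolkit

set_option autoImplicit false

open ModularCurve Polynomial

namespace Fermat.Agent.S28

/-- `scale ζ` fixes `k(j(y^r))` pointwise when `ζ ^ r = 1`. -/
theorem pb_irredCoreT_fix (k : Type) [Field k] (r : ℕ) [NeZero r] (ζ : k) (hζ0 : ζ ≠ 0)
    (hζr : ζ ^ r = 1) (z : LaurentSeries k)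
    (hz : z ∈ IntermediateField.adjoin k {qExpand k r (jqModC k)}) :
    scale ζ z = z := by
  have key : ∀ z ∈ IntermediateField.adjoin k {qExpand k r (jqModC k)},
      pb_tk_scaleHom ζ hζ0 z = z := by
    intro z hz
    induction hz using IntermediateField.adjoin_induction with
    | mem x hx =>
      rw [Set.mem_singleton_iff] at hx
      subst hx
      rw [pb_tk_scaleHom_apply, pb_tk_scale_qExpand, hζr, pb_tk_scale_one]
    | algebraMap a =>
      rw [pb_tk_scaleHom_apply, algebraMap_laurentSeries_eq_single, ← HahnSeries.C_apply,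
        pb_tk_scale_C]
    | add x y _ _ hx hy => rw [map_add, hx, hy]
    | inv x _ hx => rw [map_inv₀, hx]
    | mul x y _ _ hx hy => rw [map_mul, hx, hy]
  rw [← pb_tk_scaleHom_apply ζ hζ0, key z hz]

/-- `scale ζ` permutes the roots of a polynomial with coefficients in `k(j(y^r))`. -/
theorem pb_irredCoreT_root (k : Type) [Field k] (r : ℕ) [NeZero r] (ζ : k) (hζ0 : ζ ≠ 0)
    (hζr : ζ ^ r = 1)
    (μ : Polynomial ↥(IntermediateField.adjoin k {qExpand k r (jqModC k)}))
    (z : LaurentSeries k)
    (hz : (μ.map (algebraMap ↥(IntermediateField.adjoin k {qExpand k r (jqModC k)})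
      (LaurentSeries k))).eval z = 0) :
    (μ.map (algebraMap ↥(IntermediateField.adjoin k {qExpand k r (jqModC k)})
      (LaurentSeries k))).eval (scale ζ z) = 0 := by
  have hmap : (μ.map (algebraMap ↥(IntermediateField.adjoin k {qExpand k r (jqModC k)})
      (LaurentSeries k))).map (pb_tk_scaleHom ζ hζ0) =
      μ.map (algebraMap ↥(IntermediateField.adjoin k {qExpand k r (jqModC k)})
        (LaurentSeries k)) := by
    refine Polynomial.ext fun n => ?_
    rw [Polynomial.coeff_map, Polynomial.coeff_map, pb_tk_scaleHom_apply]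
    exact pb_irredCoreT_fix k r ζ hζ0 hζr _ (μ.coeff n).2
  calc (μ.map (algebraMap ↥(IntermediateField.adjoin k {qExpand k r (jqModC k)})
        (LaurentSeries k))).eval (scale ζ z)
      = ((μ.map (algebraMap ↥(IntermediateField.adjoin k {qExpand k r (jqModC k)})
          (LaurentSeries k))).map (pb_tk_scaleHom ζ hζ0)).eval (pb_tk_scaleHom ζ hζ0 z) := by
        rw [hmap, pb_tk_scaleHom_apply]
    _ = pb_tk_scaleHom ζ hζ0 ((μ.map (algebraMap
          ↥(IntermediateField.adjoin k {qExpand k r (jqModC k)})
          (LaurentSeries k))).eval z) := Polynomial.eval_map_apply _ _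
    _ = 0 := by rw [hz, map_zero]

/-- If one `j(ζ^b y)` is a root, then all of them are. -/
theorem pb_irredCoreT_orbit (k : Type) [Field k] (r : ℕ) [NeZero r] (ζ : k) (hζ0 : ζ ≠ 0)
    (hζr : ζ ^ r = 1)
    (μ : Polynomial ↥(IntermediateField.adjoin k {qExpand k r (jqModC k)}))
    (b : ℕ) (hb : b ≤ r)
    (hz : (μ.map (algebraMap ↥(IntermediateField.adjoin k {qExpand k r (jqModC k)})
      (LaurentSeries k))).eval (scale (ζ ^ b) (jqModC k)) = 0) (c : ℕ) :
    (μ.map (algebraMap ↥(IntermediateField.adjoin k {qExpand k r (jqModC k)})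
      (LaurentSeries k))).eval (scale (ζ ^ c) (jqModC k)) = 0 := by
  have h : ∀ n : ℕ, (μ.map (algebraMap ↥(IntermediateField.adjoin k {qExpand k r (jqModC k)})
      (LaurentSeries k))).eval (scale (ζ ^ n * ζ ^ b) (jqModC k)) = 0 := by
    intro n
    induction n with
    | zero => simpa using hz
    | succ n ih =>
      have := pb_irredCoreT_root k r ζ hζ0 hζr μ _ ih
      rwa [pb_tk_scale_scale, ← mul_assoc, ← pow_succ'] at this
  have h1 := h (c + (r - b))
  rwa [pow_add, mul_assoc, pow_sub_mul_pow ζ hb, hζr, mul_one] at h1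

/-- (IC) The degree of `j(y^{r^2})` over `k(j(y^r))` is `r + 1`. -/
theorem pb_irredCoreT_main : pb_IrredCoreStatement := by
  classical
  intro k _ r _ ζ hr hζ hmod hnot
  obtain ⟨Φ, hΦm, hΦd, hΦ⟩ := hmod
  have hζr : ζ ^ r = 1 := hζ.pow_eq_one
  have hζ0 : ζ ≠ 0 := hζ.ne_zero (NeZero.ne r)
  have hr2 : 2 ≤ r := hr.two_le
  -- Step 1: integrality and the divisibility
  have hmem : qExpand k r (jqModC k) ∈ IntermediateField.adjoin k {qExpand k r (jqModC k)} :=
    IntermediateField.mem_adjoin_simple_self k _
  have hφ : (algebraMap ↥(IntermediateField.adjoin k {qExpand k r (jqModC k)})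
      (LaurentSeries k)).comp
      (Polynomial.eval₂RingHom
        (algebraMap k ↥(IntermediateField.adjoin k {qExpand k r (jqModC k)}))
        ⟨qExpand k r (jqModC k), hmem⟩) = evalL (qExpand k r (jqModC k)) := by
    refine Polynomial.ringHom_ext (fun a => ?_) ?_
    · have h1 : (algebraMap ↥(IntermediateField.adjoin k {qExpand k r (jqModC k)})
          (LaurentSeries k)) (algebraMap k
            ↥(IntermediateField.adjoin k {qExpand k r (jqModC k)}) a) =
          HahnSeries.C a := by
        rw [← IsScalarTower.algebraMap_apply, algebraMap_laurentSeries_eq_single,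
          HahnSeries.C_apply]
      simpa [evalL] using h1
    · simp [evalL]
  have hΨm : (Φ.map (Polynomial.eval₂RingHom
      (algebraMap k ↥(IntermediateField.adjoin k {qExpand k r (jqModC k)}))
      ⟨qExpand k r (jqModC k), hmem⟩)).Monic := hΦm.map _
  have hΨΩ : (Φ.map (Polynomial.eval₂RingHom
      (algebraMap k ↥(IntermediateField.adjoin k {qExpand k r (jqModC k)}))
      ⟨qExpand k r (jqModC k), hmem⟩)).map
      (algebraMap ↥(IntermediateField.adjoin k {qExpand k r (jqModC k)}) (LaurentSeries k)) =
      (X - C (qExpand k (r * r) (jqModC k))) *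
        ∏ b ∈ Finset.range r, (X - C (scale (ζ ^ b) (jqModC k))) := by
    rw [Polynomial.map_map, hφ, hΦ]
  have hΨd : (Φ.map (Polynomial.eval₂RingHom
      (algebraMap k ↥(IntermediateField.adjoin k {qExpand k r (jqModC k)}))
      ⟨qExpand k r (jqModC k), hmem⟩)).natDegree = r + 1 := by
    rw [hΦm.natDegree_map, hΦd]
  have hΨx : Polynomial.aeval (qExpand k (r * r) (jqModC k)) (Φ.map (Polynomial.eval₂RingHom
      (algebraMap k ↥(IntermediateField.adjoin k {qExpand k r (jqModC k)}))
      ⟨qExpand k r (jqModC k), hmem⟩)) = 0 := by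
    rw [Polynomial.aeval_def, Polynomial.eval₂_eq_eval_map, hΨΩ]
    simp
  have hint : IsIntegral ↥(IntermediateField.adjoin k {qExpand k r (jqModC k)})
      (qExpand k (r * r) (jqModC k)) := ⟨_, hΨm, hΨx⟩
  have hdvd := minpoly.dvd ↥(IntermediateField.adjoin k {qExpand k r (jqModC k)})
    (qExpand k (r * r) (jqModC k)) hΨx
  have hle : (minpoly ↥(IntermediateField.adjoin k {qExpand k r (jqModC k)})
      (qExpand k (r * r) (jqModC k))).natDegree ≤ r + 1 := by
    rw [← hΨd]
    exact Polynomial.natDegree_le_of_dvd hdvd hΨm.ne_zero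
  have hμm := minpoly.monic hint
  have hdvdΩ := Polynomial.map_dvd
    (algebraMap ↥(IntermediateField.adjoin k {qExpand k r (jqModC k)}) (LaurentSeries k)) hdvd
  rw [hΨΩ] at hdvdΩ
  have hμx : ((minpoly ↥(IntermediateField.adjoin k {qExpand k r (jqModC k)})
      (qExpand k (r * r) (jqModC k))).map
      (algebraMap ↥(IntermediateField.adjoin k {qExpand k r (jqModC k)})
        (LaurentSeries k))).eval (qExpand k (r * r) (jqModC k)) = 0 := by
    rw [Polynomial.eval_map, ← Polynomial.aeval_def]
    exact minpoly.aeval _ _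
  have hμΩm := hμm.map
    (algebraMap ↥(IntermediateField.adjoin k {qExpand k r (jqModC k)}) (LaurentSeries k))
  have hμΩd : ((minpoly ↥(IntermediateField.adjoin k {qExpand k r (jqModC k)})
      (qExpand k (r * r) (jqModC k))).map
      (algebraMap ↥(IntermediateField.adjoin k {qExpand k r (jqModC k)})
        (LaurentSeries k))).natDegree =
      (minpoly ↥(IntermediateField.adjoin k {qExpand k r (jqModC k)})
        (qExpand k (r * r) (jqModC k))).natDegree := hμm.natDegree_map _
  -- distinctness facts
  have hsc : ∀ c : k, scale c (jqModC k) = jsub k c 1 := by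
    intro c
    have h := pb_tk_scale_jsub k 1 c 1
    rw [pb_tk_jsub_one_one, one_mul, pow_one] at h
    exact h
  have hxj : qExpand k (r * r) (jqModC k) = jsub k 1 (r * r) := (pb_tk_jsub_one k (r * r)).symm
  have hinj : ∀ b ∈ Finset.range r, ∀ c ∈ Finset.range r,
      scale (ζ ^ b) (jqModC k) = scale (ζ ^ c) (jqModC k) → b = c := by
    intro b hb c hc h
    rw [hsc, hsc] at h
    have h2 := (pb_tk_jsub_eq_iff k (ζ ^ b) (ζ ^ c) (pow_ne_zero _ hζ0) (pow_ne_zero _ hζ0)
      1 1 h).2
    exact hζ.pow_inj (Finset.mem_range.mp hb) (Finset.mem_range.mp hc) h2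
  have hne : ∀ b : ℕ, qExpand k (r * r) (jqModC k) ≠ scale (ζ ^ b) (jqModC k) := by
    intro b h
    rw [hsc, hxj] at h
    have h2 := (pb_tk_jsub_eq_iff k 1 (ζ ^ b) one_ne_zero (pow_ne_zero _ hζ0) (r * r) 1 h).1
    nlinarith
  -- Step 4: dichotomy
  by_cases hA : ∃ b ∈ Finset.range r,
      ((minpoly ↥(IntermediateField.adjoin k {qExpand k r (jqModC k)})
        (qExpand k (r * r) (jqModC k))).map
        (algebraMap ↥(IntermediateField.adjoin k {qExpand k r (jqModC k)})
          (LaurentSeries k))).eval (scale (ζ ^ b) (jqModC k)) = 0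
  · -- Case A: all the `r + 1` conjugates are roots
    obtain ⟨b, hb, hroot⟩ := hA
    have hall := pb_irredCoreT_orbit k r ζ hζ0 hζr _ b (Finset.mem_range.mp hb).le hroot
    have hsub : (insert (qExpand k (r * r) (jqModC k))
        ((Finset.range r).image (fun c => scale (ζ ^ c) (jqModC k)))).val ⊆
        ((minpoly ↥(IntermediateField.adjoin k {qExpand k r (jqModC k)})
          (qExpand k (r * r) (jqModC k))).map
          (algebraMap ↥(IntermediateField.adjoin k {qExpand k r (jqModC k)})
            (LaurentSeries k))).roots := by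
      intro z hz
      rw [Finset.mem_val, Finset.mem_insert, Finset.mem_image] at hz
      rw [Polynomial.mem_roots hμΩm.ne_zero, Polynomial.IsRoot.def]
      rcases hz with rfl | ⟨c, _, rfl⟩
      · exact hμx
      · exact hall c
    have hcard := Polynomial.card_le_degree_of_subset_roots hsub
    rw [Finset.card_insert_of_notMem, Finset.card_image_of_injOn, Finset.card_range, hμΩd]
      at hcard
    · omega
    · intro b hb c hc h
      exact hinj b hb c hc h
    · intro h
      rw [Finset.mem_image] at h
      obtain ⟨c, _, hc⟩ := h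
      exact hne c hc.symm
  · -- Case B: impossible
    exfalso
    have hcop : IsCoprime ((minpoly ↥(IntermediateField.adjoin k {qExpand k r (jqModC k)})
        (qExpand k (r * r) (jqModC k))).map
        (algebraMap ↥(IntermediateField.adjoin k {qExpand k r (jqModC k)})
          (LaurentSeries k)))
        (∏ b ∈ Finset.range r, (X - C (scale (ζ ^ b) (jqModC k)))) := by
      refine IsCoprime.prod_right fun b hb => ?_
      refine IsCoprime.symm ?_
      rw [(Polynomial.irreducible_X_sub_C _).coprime_iff_not_dvd, Polynomial.dvd_iff_isRoot,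
        Polynomial.IsRoot.def]
      exact fun h => hA ⟨b, hb, h⟩
    have hdvd1 := hcop.dvd_of_dvd_mul_right hdvdΩ
    have hle1 : (minpoly ↥(IntermediateField.adjoin k {qExpand k r (jqModC k)})
        (qExpand k (r * r) (jqModC k))).natDegree ≤ 1 := by
      rw [← hμΩd]
      have := Polynomial.natDegree_le_of_dvd hdvd1 (Polynomial.X_sub_C_ne_zero _)
      rwa [Polynomial.natDegree_X_sub_C] at this
    have hpos := minpoly.natDegree_pos hint
    have hone : (minpoly ↥(IntermediateField.adjoin k {qExpand k r (jqModC k)})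
        (qExpand k (r * r) (jqModC k))).natDegree = 1 := by omega
    rw [minpoly.natDegree_eq_one_iff] at hone
    obtain ⟨w, hw⟩ := hone
    have hxK : qExpand k (r * r) (jqModC k) ∈
        IntermediateField.adjoin k {qExpand k r (jqModC k)} := by
      rw [← hw]
      exact w.2
    have hK : IntermediateField.adjoin k {qExpand k r (jqModC k)} =
        (IntermediateField.adjoin k {jqModC k}).map (qExpandAlgHomC k r) := by
      rw [IntermediateField.adjoin_map, Set.image_singleton, qExpandAlgHomC_apply]
    rw [hK, IntermediateField.mem_map] at hxK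
    obtain ⟨z, hz, hzx⟩ := hxK
    rw [qExpandAlgHomC_apply, ← qExpand_qExpand] at hzx
    have := qExpand_injective r hzx
    exact hnot (this ▸ hz)

end Fermat.Agent.S28
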