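/-
S28, block Prime (twin B), package IrredTransport (sub-lead's copy): transport of the degree along
`y ↦ y ^ r`.
-/
import Fermat.Agent.S28.PBInterfaces
import Fermat.Agent.S28.PBToolkit

set_option autoImplicit false

open ModularCurve Polynomial

namespace Fermat.Agent.S28

theorem pb_irredTransportL_algebraMap (k : Type) [Field k] (a : k) :
    algebraMap k (LaurentSeries k) a = HahnSeries.C a := by
  rw [algebraMap_laurentSeries_eq_single]
  rfl

/-- evaluation at an element of an intermediate field, followed by the inclusion, is `evalL`. -/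
theorem pb_irredTransportL_comp (k : Type) [Field k] (K : IntermediateField k (LaurentSeries k))
    (z : LaurentSeries k) (hz : z ∈ K) :
    (algebraMap ↥K (LaurentSeries k)).comp
      (Polynomial.eval₂RingHom (algebraMap k ↥K) (⟨z, hz⟩ : ↥K)) = evalL z := by
  refine Polynomial.ringHom_ext ?_ ?_
  · intro a
    simp only [RingHom.comp_apply, Polynomial.coe_eval₂RingHom, Polynomial.eval₂_C, evalL]
    rw [← IsScalarTower.algebraMap_apply, pb_irredTransportL_algebraMap]
  · simp only [RingHom.comp_apply, Polynomial.coe_eval₂RingHom, Polynomial.eval₂_X, evalL]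
    rfl

/-- `qExpand k r` maps `k(j)` into `k(j(y^r))`. -/
theorem pb_irredTransportL_mem (k : Type) [Field k] (r : ℕ) [NeZero r] (z : LaurentSeries k)
    (hz : z ∈ IntermediateField.adjoin k {jqModC k}) :
    qExpand k r z ∈ IntermediateField.adjoin k {qExpand k r (jqModC k)} := by
  have h : (IntermediateField.adjoin k {jqModC k}).map (qExpandAlgHomC k r) =
      IntermediateField.adjoin k {qExpand k r (jqModC k)} := by
    rw [IntermediateField.adjoin_map, Set.image_singleton, qExpandAlgHomC_apply]
  rw [← h]
  exact ⟨z, hz, rfl⟩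

theorem pb_irredTransportL_main : pb_IrredTransportStatement := by
  intro k _ r _ ζ hME hdeg
  obtain ⟨Φ, hΦm, hΦd, hΦ⟩ := hME
  have hswap := pb_tk_modEq_swap k r ζ Φ hΦ
  -- (a) upper bound
  have hjmem : jqModC k ∈ IntermediateField.adjoin k {jqModC k} :=
    IntermediateField.mem_adjoin_simple_self k _
  have hcomp := pb_irredTransportL_comp k (IntermediateField.adjoin k {jqModC k}) (jqModC k) hjmem
  set φ : Polynomial k →+* ↥(IntermediateField.adjoin k {jqModC k}) :=
    Polynomial.eval₂RingHom (algebraMap k ↥(IntermediateField.adjoin k {jqModC k}))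
      (⟨jqModC k, hjmem⟩ : ↥(IntermediateField.adjoin k {jqModC k})) with hφ
  have hΨm : (Φ.map φ).Monic := hΦm.map φ
  have hΨd : (Φ.map φ).natDegree = r + 1 := by rw [hΦm.natDegree_map, hΦd]
  have hΨ0 : Polynomial.aeval (qExpand k r (jqModC k)) (Φ.map φ) = 0 := by
    rw [Polynomial.aeval_def, Polynomial.eval₂_map, hcomp, ← Polynomial.eval_map]
    exact hswap
  have hint : IsIntegral ↥(IntermediateField.adjoin k {jqModC k}) (qExpand k r (jqModC k)) :=
    ⟨Φ.map φ, hΨm, hΨ0⟩
  have hle : (minpoly ↥(IntermediateField.adjoin k {jqModC k})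
      (qExpand k r (jqModC k))).natDegree ≤ r + 1 := by
    rw [← hΨd]
    exact Polynomial.natDegree_le_of_dvd (minpoly.dvd _ _ hΨ0) hΨm.ne_zero
  -- (b) transport
  set ψ : ↥(IntermediateField.adjoin k {jqModC k}) →+*
      ↥(IntermediateField.adjoin k {qExpand k r (jqModC k)}) :=
    ((qExpand k r).comp (algebraMap ↥(IntermediateField.adjoin k {jqModC k})
      (LaurentSeries k))).codRestrict (IntermediateField.adjoin k {qExpand k r (jqModC k)})
      (fun z => pb_irredTransportL_mem k r z z.2) with hψ
  have hψcomp : (algebraMap ↥(IntermediateField.adjoin k {qExpand k r (jqModC k)})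
      (LaurentSeries k)).comp ψ =
      (qExpand k r).comp (algebraMap ↥(IntermediateField.adjoin k {jqModC k})
        (LaurentSeries k)) := by
    ext z
    rfl
  have hμm := minpoly.monic hint
  have hpm : ((minpoly ↥(IntermediateField.adjoin k {jqModC k})
      (qExpand k r (jqModC k))).map ψ).Monic := hμm.map ψ
  have hp0 : Polynomial.aeval (qExpand k (r * r) (jqModC k))
      ((minpoly ↥(IntermediateField.adjoin k {jqModC k}) (qExpand k r (jqModC k))).map ψ) = 0 := by
    rw [Polynomial.aeval_def, Polynomial.eval₂_map, hψcomp, ← qExpand_qExpand,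
      ← Polynomial.hom_eval₂, ← Polynomial.aeval_def, minpoly.aeval, map_zero]
  have hge : (minpoly ↥(IntermediateField.adjoin k {qExpand k r (jqModC k)})
      (qExpand k (r * r) (jqModC k))).natDegree ≤
      (minpoly ↥(IntermediateField.adjoin k {jqModC k}) (qExpand k r (jqModC k))).natDegree := by
    have h1 := Polynomial.natDegree_le_of_dvd (minpoly.dvd _ _ hp0) hpm.ne_zero
    rwa [hμm.natDegree_map] at h1
  omega

end Fermat.Agent.S28
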