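/-
S28, block Prime (twin B), package RPoly: if `ĵ = j(y^r)` lies in `k(j)` and is integral over
`k[j]`, then `ĵ = R(j)` with `R` monic of degree `r`.
-/
import Fermat.Agent.S28.PBInterfaces
import Fermat.Agent.S28.PBToolkit

set_option autoImplicit false

open ModularCurve Polynomial

namespace Fermat.Agent.S28

noncomputable section

/-- `evalL x` and `Polynomial.aeval x` agree. -/
theorem pb_rpoly_evalL_eq_aeval {k : Type} [Field k] (x : LaurentSeries k) (p : k[X]) :
    evalL x p = Polynomial.aeval x p := by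
  have h : (HahnSeries.C : k →+* LaurentSeries k) = algebraMap k (LaurentSeries k) := by
    refine RingHom.ext fun a => ?_
    rw [algebraMap_laurentSeries_eq_single]
    rfl
  rw [Polynomial.aeval_def, ← h]
  rfl

/-- `aeval j` is injective. -/
theorem pb_rpoly_aeval_injective (k : Type) [Field k] :
    Function.Injective (Polynomial.aeval (jqModC k) : k[X] →ₐ[k] LaurentSeries k) := by
  intro p q hpq
  apply pb_tk_evalL_injective k 1 one_ne_zero 1
  rw [pb_tk_jsub_one_one, pb_rpoly_evalL_eq_aeval, pb_rpoly_evalL_eq_aeval]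
  exact hpq

/-- `k[j]` is isomorphic to the polynomial ring. -/
def pb_rpoly_equiv (k : Type) [Field k] : k[X] ≃ₐ[k] Algebra.adjoin k {jqModC k} :=
  (AlgEquiv.ofInjective _ (pb_rpoly_aeval_injective k)).trans
    (Subalgebra.equivOfEq _ _ (Algebra.adjoin_singleton_eq_range_aeval k (jqModC k)).symm)

theorem pb_rpoly_equiv_coe (k : Type) [Field k] (p : k[X]) :
    ((pb_rpoly_equiv k p : Algebra.adjoin k {jqModC k}) : LaurentSeries k) =
      evalL (jqModC k) p := by
  rw [pb_rpoly_evalL_eq_aeval]
  rfl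

theorem pb_rpoly_isIntegrallyClosed (k : Type) [Field k] :
    IsIntegrallyClosed (Algebra.adjoin k {jqModC k}) :=
  IsIntegrallyClosed.of_equiv (pb_rpoly_equiv k).toRingEquiv

open scoped IntermediateField.algebraAdjoinAdjoin in
/-- An element of `k(j)` which is a root of a monic polynomial over `k[j]` is a polynomial
in `j`. -/
theorem pb_rpoly_mem (k : Type) [Field k] (Φ : Polynomial (Polynomial k)) (hΦ : Φ.Monic)
    (x : LaurentSeries k) (hroot : (Φ.map (evalL (jqModC k))).eval x = 0)
    (hmem : x ∈ IntermediateField.adjoin k {jqModC k}) :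
    ∃ R : Polynomial k, x = evalL (jqModC k) R := by
  have hic := pb_rpoly_isIntegrallyClosed k
  have hint : IsIntegral (Algebra.adjoin k {jqModC k})
      (⟨x, hmem⟩ : IntermediateField.adjoin k {jqModC k}) := by
    refine ⟨Φ.map ((pb_rpoly_equiv k : k[X] →+* Algebra.adjoin k {jqModC k})),
      hΦ.map _, ?_⟩
    apply (algebraMap (IntermediateField.adjoin k {jqModC k}) (LaurentSeries k)).injective
    rw [Polynomial.hom_eval₂, Polynomial.eval₂_map, map_zero]
    have hcomp : (((algebraMap (IntermediateField.adjoin k {jqModC k}) (LaurentSeries k)).comp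
        (algebraMap (Algebra.adjoin k {jqModC k}) (IntermediateField.adjoin k {jqModC k}))).comp
        ((pb_rpoly_equiv k : k[X] →+* Algebra.adjoin k {jqModC k}))) = evalL (jqModC k) := by
      exact RingHom.ext fun p => pb_rpoly_equiv_coe k p
    rw [hcomp]
    rw [Polynomial.eval_map] at hroot
    exact hroot
  obtain ⟨y, hy⟩ := IsIntegrallyClosed.isIntegral_iff.mp hint
  refine ⟨(pb_rpoly_equiv k).symm y, ?_⟩
  rw [← pb_rpoly_equiv_coe, AlgEquiv.apply_symm_apply]
  have := congrArg (Subtype.val) hy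
  exact this.symm

theorem pb_rpoly_main : pb_RPolyStatement := by
  intro k _ r _ Φ hΦ hroot hmem
  obtain ⟨R, hR⟩ := pb_rpoly_mem k Φ hΦ _ hroot hmem
  have hcoeff : (qExpand k r (jqModC k)).coeff (-(r : ℤ)) = 1 := by
    rw [← pb_tk_jsub_one, pb_tk_jsub_coeff_neg k 1 one_ne_zero r, inv_one]
  have hR0 : R ≠ 0 := by
    rintro rfl
    rw [hR, map_zero, HahnSeries.coeff_zero] at hcoeff
    exact zero_ne_one hcoeff
  have hord := pb_tk_evalL_order k 1 one_ne_zero 1 R hR0
  rw [pb_tk_jsub_one_one, ← hR] at hord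
  obtain ⟨h1, h2⟩ := hord
  have h3 : (qExpand k r (jqModC k)).order = -(r : ℤ) := by
    rw [← pb_tk_jsub_one, pb_tk_jsub_order k 1 one_ne_zero r]
  have hdeg : R.natDegree = r := by
    rw [h3] at h1
    have : (r : ℤ) = ((1 : ℕ) : ℤ) * R.natDegree := by linarith
    simp at this
    exact_mod_cast this.symm
  refine ⟨R, ?_, hdeg, hR⟩
  rw [hdeg] at h2
  simp only [Nat.cast_one, one_mul, inv_one, one_pow, mul_one] at h2
  rw [hcoeff] at h2
  exact h2.symm

end

end Fermat.Agent.S28
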