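/-
S28 package `RootArg`: a pure polynomial-algebra lemma over an algebraically closed field.

If `F` is monic of degree `m > 0`, `R` is monic of degree `r ≥ 2` with `(r : k) ≠ 0`, and
`F.comp R ∣ F ^ (r + 1)`, then `F = (X - C s0) ^ m` and `R - C s0 = (X - C s0) ^ r` for some `s0`.
-/
import Fermat.Agent.S28.Interfaces

set_option autoImplicit false

open Polynomial

namespace Fermat.Agent.S28

/-- A monic polynomial over an algebraically closed field all of whose roots are equal to `a` is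
the power `(X - C a) ^ natDegree`. -/
theorem rootArg_eq_pow_of_roots (k : Type) [Field k] [IsAlgClosed k] (P : k[X]) (a : k)
    (hP : P.Monic) (hroots : ∀ t : k, P.eval t = 0 → t = a) :
    P = (X - C a) ^ P.natDegree := by
  have hs : P.Splits := IsAlgClosed.splits P
  have hrep : P.roots = Multiset.replicate P.natDegree a := by
    rw [Multiset.eq_replicate]
    refine ⟨hs.natDegree_eq_card_roots.symm, fun b hb => ?_⟩
    exact hroots b ((mem_roots hP.ne_zero).1 hb)
  conv_lhs => rw [hs.eq_prod_roots_of_monic hP, hrep]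
  simp

/-- For a monic polynomial `R` of degree `r ≥ 1`, the polynomial `R - C z` is monic of degree `r`. -/
theorem rootArg_sub_C_monic (k : Type) [Field k] (r : ℕ) (R : k[X]) (hr : 0 < r) (hR : R.Monic)
    (hRd : R.natDegree = r) (z : k) : (R - C z).Monic ∧ (R - C z).natDegree = r := by
  have hdeg : (C z).degree < R.degree := by
    refine lt_of_le_of_lt degree_C_le ?_
    rw [degree_eq_natDegree hR.ne_zero, hRd]
    exact_mod_cast hr
  exact ⟨hR.sub_of_left hdeg, by rw [natDegree_sub_C, hRd]⟩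

/-- A monic polynomial of positive degree over an algebraically closed field takes every value. -/
theorem rootArg_eval_surjective (k : Type) [Field k] [IsAlgClosed k] (r : ℕ) (R : k[X])
    (hr : 0 < r) (hR : R.Monic) (hRd : R.natDegree = r) (z : k) : ∃ t : k, R.eval t = z := by
  obtain ⟨hmon, hnd⟩ := rootArg_sub_C_monic k r R hr hR hRd z
  obtain ⟨t, ht⟩ := IsAlgClosed.exists_root (R - C z) (by
    rw [degree_eq_natDegree hmon.ne_zero, hnd]
    exact_mod_cast hr.ne')
  refine ⟨t, ?_⟩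
  have ht' : (R - C z).eval t = 0 := ht
  rw [eval_sub, eval_C, sub_eq_zero] at ht'
  exact ht'

theorem rootArg_main (k : Type) [Field k] [IsAlgClosed k] (r m : ℕ) (F R : k[X]) (hr : 2 ≤ r)
    (hrk : (r : k) ≠ 0)
    (hm : 0 < m) (hF : F.Monic) (hFd : F.natDegree = m) (hR : R.Monic) (hRd : R.natDegree = r)
    (h : F.comp R ∣ F ^ (r + 1)) :
    ∃ s0 : k, F = (X - C s0) ^ m ∧ R - C s0 = (X - C s0) ^ r := by
  classical
  have hr0 : 0 < r := by omega
  -- Step 1: if `R t` is a root of `F` then so is `t`.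
  have h1 : ∀ t : k, F.eval (R.eval t) = 0 → F.eval t = 0 := by
    intro t ht
    obtain ⟨Q, hQ⟩ := h
    have h' := congrArg (eval t) hQ
    rw [eval_pow, eval_mul, eval_comp, ht, zero_mul] at h'
    exact (pow_eq_zero_iff (Nat.succ_ne_zero r)).1 h'
  -- Step 2: `R` is surjective as a function `k → k`.
  have h2 : ∀ z : k, ∃ t : k, R.eval t = z := rootArg_eval_surjective k r R hr0 hR hRd
  -- The finite root set `Z` of `F`.
  set Z : Finset k := F.roots.toFinset with hZ
  have hmemZ : ∀ t, t ∈ Z ↔ F.eval t = 0 := by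
    intro t
    rw [hZ, Multiset.mem_toFinset, mem_roots hF.ne_zero, IsRoot.def]
  set P : Finset k := Z.filter (fun t => R.eval t ∈ Z) with hP
  have himg : P.image (fun t => R.eval t) = Z := by
    ext z
    simp only [Finset.mem_image, hP, Finset.mem_filter]
    constructor
    · rintro ⟨t, ⟨_, ht⟩, rfl⟩
      exact ht
    · intro hz
      obtain ⟨t, rfl⟩ := h2 z
      exact ⟨t, ⟨(hmemZ t).2 (h1 t ((hmemZ _).1 hz)), hz⟩, rfl⟩
  have hPsub : P ⊆ Z := Finset.filter_subset _ _
  have hcard1 : Z.card ≤ P.card := by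
    conv_lhs => rw [← himg]
    exact Finset.card_image_le
  have hPZ : P = Z := Finset.eq_of_subset_of_card_le hPsub hcard1
  have hinj : Set.InjOn (fun t => R.eval t) (Z : Set k) := by
    rw [← Finset.card_image_iff]
    have h' := himg
    rw [hPZ] at h'
    rw [h']
  -- Step 3: for `z ∈ Z` the polynomial `R - C z` is an `r`-th power `(X - C t) ^ r` with `t ∈ Z`.
  have h3 : ∀ z ∈ Z, ∃ t ∈ Z, R - C z = (X - C t) ^ r := by
    intro z hz
    obtain ⟨t, rfl⟩ := h2 z
    have htZ : t ∈ Z := (hmemZ t).2 (h1 t ((hmemZ _).1 hz))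
    refine ⟨t, htZ, ?_⟩
    obtain ⟨hmon, hnd⟩ := rootArg_sub_C_monic k r R hr0 hR hRd (R.eval t)
    have hpow := rootArg_eq_pow_of_roots k (R - C (R.eval t)) t hmon ?_
    · rwa [hnd] at hpow
    · intro u hu
      have hu' : R.eval u = R.eval t := by
        rw [eval_sub, eval_C, sub_eq_zero] at hu
        exact hu
      have huZ : u ∈ Z := (hmemZ u).2 (h1 u (by rw [hu']; exact (hmemZ _).1 hz))
      exact hinj huZ htZ hu'
  -- Step 4: `Z` has at most one element.
  have h4 : ∀ z₁ ∈ Z, ∀ z₂ ∈ Z, z₁ = z₂ := by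
    intro z₁ hz₁ z₂ hz₂
    obtain ⟨t₁, _, ht₁⟩ := h3 z₁ hz₁
    obtain ⟨t₂, _, ht₂⟩ := h3 z₂ hz₂
    have hd₁ := congrArg derivative ht₁
    have hd₂ := congrArg derivative ht₂
    rw [derivative_sub, derivative_C, sub_zero, derivative_X_sub_C_pow] at hd₁ hd₂
    have hd := congrArg (eval t₁) (hd₁.symm.trans hd₂)
    have hr1 : r - 1 ≠ 0 := by omega
    simp only [eval_mul, eval_pow, eval_sub, eval_X, eval_C, sub_self, zero_pow hr1, mul_zero] at hd
    have ht : t₁ = t₂ := by
      rcases mul_eq_zero.1 hd.symm with h0 | h0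
      · exact absurd h0 hrk
      · exact sub_eq_zero.1 (pow_eq_zero_iff hr1 |>.1 h0)
    have e₁ := congrArg (eval t₁) ht₁
    have e₂ := congrArg (eval t₂) ht₂
    simp only [eval_sub, eval_C, eval_pow, eval_X, sub_self, zero_pow hr0.ne'] at e₁ e₂
    rw [sub_eq_zero] at e₁ e₂
    rw [← e₁, ← e₂, ht]
  -- Step 5: conclusion.
  obtain ⟨s0, hs0⟩ := IsAlgClosed.exists_root F (by
    rw [degree_eq_natDegree hF.ne_zero, hFd]
    exact_mod_cast hm.ne')
  have hs0Z : s0 ∈ Z := (hmemZ s0).2 hs0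
  refine ⟨s0, ?_, ?_⟩
  · have hpow := rootArg_eq_pow_of_roots k F s0 hF (fun t ht => h4 t ((hmemZ t).2 ht) s0 hs0Z)
    rwa [hFd] at hpow
  · obtain ⟨t, htZ, ht⟩ := h3 s0 hs0Z
    rw [h4 t htZ s0 hs0Z] at ht
    exact ht

end Fermat.Agent.S28
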