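/-
S28, block Prime (twin B): integration.  `pb_level` and `pb_irred`.
-/
import Fermat.Agent.S28.PBInterfaces
import Fermat.Agent.S28.PBToolkit
import Fermat.Agent.S28.EtaProdB
import Fermat.Agent.S28.RootArg
import Fermat.Agent.S28.PBRPoly
import Fermat.Agent.S28.PBFactor
import Fermat.Agent.S28.PBIdentity
import Fermat.Agent.S28.PBEnd
import Fermat.Agent.S28.PBIrredCoreT
import Fermat.Agent.S28.PBIrredTransportL

set_option autoImplicit false

open ModularCurve Polynomial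

namespace Fermat.Agent.S28

/-- `r` is invertible in a field of characteristic `ℓ ≠ r` (`r`, `ℓ` primes). -/
theorem pb_main_cast_ne_zero (ℓ : ℕ) [Fact ℓ.Prime] (k : Type) [Field k] [CharP k ℓ] (r : ℕ)
    (hr : r.Prime) (hrl : r ≠ ℓ) : (r : k) ≠ 0 := by
  intro h
  rw [CharP.cast_eq_zero_iff k ℓ] at h
  exact hrl ((Nat.prime_dvd_prime_iff_eq (Fact.out : ℓ.Prime) hr).mp h).symm

/-- an algebraically closed field has a primitive `r`-th root of unity when `r ≠ 0` in it. -/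
theorem pb_main_exists_primitiveRoot (k : Type) [Field k] [IsAlgClosed k] (r : ℕ)
    (hrk : (r : k) ≠ 0) : ∃ ζ : k, IsPrimitiveRoot ζ r := by
  have : NeZero (r : k) := ⟨hrk⟩
  obtain ⟨ζ, hζ⟩ := IsAlgClosed.exists_root (Polynomial.cyclotomic r k)
    (by
      rw [Polynomial.degree_cyclotomic]
      have hr0 : r ≠ 0 := by
        rintro rfl
        exact hrk (by simp)
      have : 0 < Nat.totient r := Nat.totient_pos.mpr (Nat.pos_of_ne_zero hr0)
      exact_mod_cast this.ne')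
  exact ⟨ζ, Polynomial.isRoot_cyclotomic_iff.mp hζ⟩

theorem pb_level : ModEqStatement → HasseStatement → PrimeLevelStatement := by
  intro hME hH ℓ _ k _ _ _ r _ hr hrl hmem
  have hrk : (r : k) ≠ 0 := pb_main_cast_ne_zero ℓ k r hr hrl
  obtain ⟨ζ, hζ⟩ := pb_main_exists_primitiveRoot k r hrk
  obtain ⟨Φ, hΦm, -, hΦ⟩ := hME k r hr ζ hζ
  obtain ⟨F, m, hm, hFm, hF⟩ := hH ℓ k
  have hswap := pb_tk_modEq_swap k r ζ Φ hΦ
  obtain ⟨R, hRm, hRd, hR⟩ := pb_rpoly_main k r Φ hΦm hswap hmem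
  have hfac := pb_factor_main k r ζ hζ R hRm hRd hR
  obtain ⟨ε, -, heta⟩ := etaProdB_main k r hr ζ hζ
  have hdvd := pb_identity_main k r ζ (hζ.ne_zero hr.ne_zero) R F m ε heta hfac hR hFm hF
  have hFd := pb_end_deg k F m hF
  obtain ⟨s0, hF', hR'⟩ := rootArg_main k r m F R hr.two_le hrk hm hFm hFd hRm hRd hdvd
  exact etaProdB_delta_ne k r hr.two_le hrk (pb_end_main k r R F m s0 hm hF ⟨m, hF'⟩ hR' hR)

theorem pb_irred : ModEqStatement → PrimeLevelStatement → PrimeIrredStatement := by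
  intro hME hPL ℓ _ k _ _ _ r _ hr hrl
  have hrk : (r : k) ≠ 0 := pb_main_cast_ne_zero ℓ k r hr hrl
  obtain ⟨ζ, hζ⟩ := pb_main_exists_primitiveRoot k r hrk
  have hME' := hME k r hr ζ hζ
  exact pb_irredTransportL_main k r ζ hME'
    (pb_irredCoreT_main k r ζ hr hζ hME' (hPL ℓ k r hr hrl))

end Fermat.Agent.S28
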