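/-
S28, block Tower (twin A) — INTERNAL INTERFACE FILE.

Part D2 of S28: for `ℓ ∤ N` and `k` algebraically closed of characteristic `ℓ`, the degree of
`k(j(q^d) : d ∣ N)` over `k(j(q))` is at least `ψ(N)`.

Shared definitions and statement-`Prop`s of the work packages of the block; the proofs are in the
files `Fermat/Agent/S28/TA<Package>.lean`, the integration in `TAMain.lean`.

Notation.  `Ω = LaurentSeries k = k((y))`, `ta_J k c a = j(c * y ^ a)` (`= jsub k c a` for `a ≠ 0`),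
`K0 = ta_K0 k N = k(j(y^N))`, `L_M = ta_L k N M = k(j(y^(N p^i)) : p prime, p^i ∣ M)` (this contains
`j(y^N)`: take `i = 0`).  The variable `q` of the statement is `y ^ N`.
-/
import Fermat.Agent.S28.Interfaces

set_option autoImplicit false

open ModularCurve Polynomial

namespace Fermat.Agent.S28

noncomputable section

/-! ## Shared definitions -/

/-- `ta_J k c a = jsub k c a = j(c * y ^ a)`, without the instance argument `NeZero a`
(junk value `0` for `a = 0`). -/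
def ta_J (k : Type) [Field k] (c : k) (a : ℕ) : LaurentSeries k :=
  if h : a = 0 then 0 else @jsub k _ c a ⟨h⟩

theorem ta_J_eq (k : Type) [Field k] (c : k) (a : ℕ) [NeZero a] : ta_J k c a = jsub k c a :=
  dif_neg (NeZero.ne a)

/-- `K0 = k(j(y^N))`, the image of `k(j(q))`. -/
def ta_K0 (k : Type) [Field k] (N : ℕ) : IntermediateField k (LaurentSeries k) :=
  IntermediateField.adjoin k {ta_J k 1 N}

/-- The generators `j(y^(N p^i))`, `p` prime, `p ^ i ∣ M` (including `j(y^N)`, for `i = 0`). -/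
def ta_gens (k : Type) [Field k] (N M : ℕ) : Set (LaurentSeries k) :=
  {x | ∃ p i : ℕ, p.Prime ∧ p ^ i ∣ M ∧ x = ta_J k 1 (N * p ^ i)}

/-- `L_M = k(j(y^(N p^i)) : p prime, p ^ i ∣ M)`. -/
def ta_L (k : Type) [Field k] (N M : ℕ) : IntermediateField k (LaurentSeries k) :=
  IntermediateField.adjoin k (ta_gens k N M)

/-- The twisting embedding `τ : L_M → Ω` sends `j(y^(N p^i))` to `j(y^(N / p^i))`
for every prime power `p ^ i ∣ M` (in particular it fixes `j(y^N)`, hence `K0`). -/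
def ta_Tau (k : Type) [Field k] (N M : ℕ) (τ : ↥(ta_L k N M) →ₐ[k] LaurentSeries k) : Prop :=
  ∀ (x : ↥(ta_L k N M)) (p i : ℕ), p.Prime → p ^ i ∣ M →
    (x : LaurentSeries k) = ta_J k 1 (N * p ^ i) → τ x = ta_J k 1 (N / p ^ i)

/-- `P(M)`, part (a): at least `ψ(M)` elements of `L_M` linearly independent over `K0`. -/
def ta_Pa (k : Type) [Field k] (N M : ℕ) : Prop :=
  ∃ (n : ℕ) (b : Fin n → LaurentSeries k), dedekindPsi M ≤ n ∧ (∀ i, b i ∈ ta_L k N M) ∧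
    LinearIndependent ↥(ta_K0 k N) b

/-- `P(M)`, part (b): the twisting embedding exists. -/
def ta_Pb (k : Type) [Field k] (N M : ℕ) : Prop :=
  ∃ τ : ↥(ta_L k N M) →ₐ[k] LaurentSeries k, ta_Tau k N M τ

/-! ## Work packages -/

/-- (Orbit) A monic divisor `Q` of `(X - ρ) ∏_{b<r} (X - j(ζ^b y^a))` whose coefficients are fixed
by the substitution `y ↦ c y`, where `c ^ a = ζ ^ u` with `u` prime to `r`, is one of the four
obvious ones (the roots `j(ζ^b y^a)` are permuted transitively). -/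
def ta_OrbitStatement : Prop :=
  ∀ (k : Type) [Field k] (r a u : ℕ), r.Prime → a ≠ 0 → Nat.Coprime u r →
    ∀ ζ c : k, IsPrimitiveRoot ζ r → c ≠ 0 → c ^ a = ζ ^ u →
    ∀ ρ : LaurentSeries k, (∀ b : ℕ, ρ ≠ ta_J k (ζ ^ b) a) →
    ∀ Q : Polynomial (LaurentSeries k), Q.Monic →
      Q ∣ (X - C ρ) * ∏ b ∈ Finset.range r, (X - C (ta_J k (ζ ^ b) a)) →
      (∀ n : ℕ, scale c (Q.coeff n) = Q.coeff n) →
      Q = 1 ∨ Q = X - C ρ ∨ Q = ∏ b ∈ Finset.range r, (X - C (ta_J k (ζ ^ b) a)) ∨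
        Q = (X - C ρ) * ∏ b ∈ Finset.range r, (X - C (ta_J k (ζ ^ b) a))

/-- (RootTrack) Root tracking: a `k`-embedding `φ` of a field `E ⊆ Ω` (embedded by `f`) into a
field `Ω' ⊇ Ω` (embedded by `ι`) which fixes `j(y^N)` sends `j(y^(N p^j))` to some
`j(c y^a)` with `N / p^j ∣ a`, provided `p ^ j ∣ N` and `E` contains `j(y^(N p^t))` for `t ≤ j`. -/
def ta_RootTrackStatement : Prop :=
  ∀ (N : ℕ) [NeZero N] (ℓ : ℕ) [Fact ℓ.Prime], ¬ ℓ ∣ N →
  ∀ (k : Type) [Field k] [CharP k ℓ] [IsAlgClosed k]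
    (E : Type) [Field E] [Algebra k E] (f : E →ₐ[k] LaurentSeries k)
    (Ω' : Type) [Field Ω'] [Algebra k Ω'] (ι : LaurentSeries k →ₐ[k] Ω') (φ : E →ₐ[k] Ω'),
    (∀ x : E, f x = ta_J k 1 N → φ x = ι (ta_J k 1 N)) →
    ∀ p j : ℕ, p.Prime → p ^ j ∣ N → (∀ t ≤ j, ta_J k 1 (N * p ^ t) ∈ Set.range f) →
    ∀ x : E, f x = ta_J k 1 (N * p ^ j) →
      ∃ (c : k) (a : ℕ), c ≠ 0 ∧ a ≠ 0 ∧ (N / p ^ j) ∣ a ∧ φ x = ι (ta_J k c a)

/-- (PrimeN) `PrimeIrredStatement` transported along `y ↦ y ^ N`: `j(y^(N r))` has degree `r + 1`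
over `K0 = k(j(y^N))`. -/
def ta_PrimeNStatement : Prop :=
  ∀ (N : ℕ) [NeZero N] (ℓ : ℕ) [Fact ℓ.Prime] (k : Type) [Field k] [CharP k ℓ] [IsAlgClosed k]
    (r : ℕ), r.Prime → r ≠ ℓ →
    (minpoly ↥(ta_K0 k N) (ta_J k 1 (N * r))).natDegree = r + 1

/-- (Alg) `L_M` is algebraic over `K0` for `M ∣ N`. -/
def ta_AlgStatement : Prop :=
  ∀ (N : ℕ) [NeZero N] (ℓ : ℕ) [Fact ℓ.Prime], ¬ ℓ ∣ N →
  ∀ (k : Type) [Field k] [CharP k ℓ] [IsAlgClosed k] (M : ℕ), M ∣ N →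
    ∀ x ∈ ta_L k N M, IsIntegral ↥(ta_K0 k N) x

/-- (LemB) LEMMA B: for a prime `r ∣ N` with `r ∤ M`, `j(y^(N r)) ∉ L_M`. -/
def ta_LemBStatement : Prop :=
  ∀ (N : ℕ) [NeZero N] (ℓ : ℕ) [Fact ℓ.Prime], ¬ ℓ ∣ N →
  ∀ (k : Type) [Field k] [CharP k ℓ] [IsAlgClosed k] (M r : ℕ), r.Prime → M * r ∣ N → ¬ r ∣ M →
    ta_J k 1 (N * r) ∉ ta_L k N M

/-- (Div) `ξ = j(y^(N r^(i+1)))` is integral over `L_M`, and the image under `τ` of its minimal
polynomial divides `(X - j(y^(a r^2))) ∏_{b<r} (X - j(ζ^b y^a))`, `a = N / r^(i+1)`. -/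
def ta_DivStatement : Prop :=
  ∀ (N : ℕ) [NeZero N] (k : Type) [Field k] (M r i : ℕ), r.Prime → M * r ∣ N → r ^ i ∣ M →
  ∀ ζ : k, IsPrimitiveRoot ζ r →
  ∀ τ : ↥(ta_L k N M) →ₐ[k] LaurentSeries k, ta_Tau k N M τ →
    IsIntegral ↥(ta_L k N M) (ta_J k 1 (N * r ^ (i + 1))) ∧
    (minpoly ↥(ta_L k N M) (ta_J k 1 (N * r ^ (i + 1)))).map τ.toRingHom ∣
      (X - C (ta_J k 1 (N / r ^ (i + 1) * (r * r)))) *
        ∏ b ∈ Finset.range r, (X - C (ta_J k (ζ ^ b) (N / r ^ (i + 1))))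

/-- (Fix) The substitution `y ↦ g^M y`, `g ^ N = 1`, fixes `τ(L_M)` pointwise. -/
def ta_FixStatement : Prop :=
  ∀ (N : ℕ) [NeZero N] (k : Type) [Field k] (M : ℕ), M ∣ N → ∀ g : k, g ^ N = 1 →
  ∀ τ : ↥(ta_L k N M) →ₐ[k] LaurentSeries k, ta_Tau k N M τ →
    ∀ x : ↥(ta_L k N M), scale (g ^ M) (τ x) = τ x

/-- (Five) If `j(y^(N r)) ∉ L_M` then its minimal polynomial over `L_M` does not have degree `r`
(the cofactor in the modular equation would give a root in `L_M`). -/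
def ta_FiveStatement : Prop :=
  ∀ (N : ℕ) [NeZero N] (k : Type) [Field k] (M r : ℕ), r.Prime → r ∣ N →
  ∀ ζ : k, IsPrimitiveRoot ζ r →
    ta_J k 1 (N * r) ∉ ta_L k N M →
    (minpoly ↥(ta_L k N M) (ta_J k 1 (N * r))).natDegree ≠ r

/-- (Key) THE KEY STEP: for `r ^ i ∥ M`, `M r ∣ N`, the element `ξ = j(y^(N r^(i+1)))` is integral
over `L_M`, of degree `≥ r` (`≥ r + 1` if `i = 0`), and `j(y^(N / r^(i+1)))` is a root of the image
under `τ` of its minimal polynomial. -/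
def ta_KeyStatement : Prop :=
  ∀ (N : ℕ) [NeZero N] (ℓ : ℕ) [Fact ℓ.Prime], ¬ ℓ ∣ N →
  ∀ (k : Type) [Field k] [CharP k ℓ] [IsAlgClosed k] (M r i : ℕ), r.Prime → M * r ∣ N →
    r ^ i ∣ M → ¬ r ^ (i + 1) ∣ M →
  ∀ τ : ↥(ta_L k N M) →ₐ[k] LaurentSeries k, ta_Tau k N M τ →
    IsIntegral ↥(ta_L k N M) (ta_J k 1 (N * r ^ (i + 1))) ∧
    (if i = 0 then r + 1 else r) ≤
      (minpoly ↥(ta_L k N M) (ta_J k 1 (N * r ^ (i + 1)))).natDegree ∧
    Polynomial.eval₂ τ.toRingHom (ta_J k 1 (N / r ^ (i + 1)))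
      (minpoly ↥(ta_L k N M) (ta_J k 1 (N * r ^ (i + 1)))) = 0

/-- (Ext) Extension of an embedding to a simple algebraic extension: if `ρ` is a root of the image
under `τ` of the minimal polynomial of `ξ` over `L`, then `τ` extends to every intermediate field
`L' ≤ L(ξ)` with `ξ ↦ ρ`. -/
def ta_ExtStatement : Prop :=
  ∀ (k : Type) [Field k] (Ω : Type) [Field Ω] [Algebra k Ω] (L L' : IntermediateField k Ω)
    (τ : ↥L →ₐ[k] Ω) (ξ ρ : Ω),
    IsIntegral ↥L ξ → Polynomial.eval₂ τ.toRingHom ρ (minpoly ↥L ξ) = 0 →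
    L' ≤ IntermediateField.adjoin k ((L : Set Ω) ∪ {ξ}) →
    ∃ τ' : ↥L' →ₐ[k] Ω, (∀ (x : ↥L') (y : ↥L), (x : Ω) = (y : Ω) → τ' x = τ y) ∧
      (∀ x : ↥L', (x : Ω) = ξ → τ' x = ρ)

/-- (Indep) The tower argument: if the `b s ∈ L` are independent over `K0 ≤ L` and `ξ` has degree
`≥ d` over `L`, then the `b s * ξ ^ t`, `t < d`, are independent over `K0`. -/
def ta_IndepStatement : Prop :=
  ∀ (k : Type) [Field k] (Ω : Type) [Field Ω] [Algebra k Ω] (K0 L : IntermediateField k Ω),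
    K0 ≤ L → ∀ (n d : ℕ) (b : Fin n → Ω), (∀ i, b i ∈ L) → LinearIndependent ↥K0 b →
    ∀ ξ : Ω, IsIntegral ↥L ξ → d ≤ (minpoly ↥L ξ).natDegree →
      LinearIndependent ↥K0 (fun p : Fin n × Fin d => b p.1 * ξ ^ (p.2 : ℕ))

/-- (Step) The induction step `P(M) ⟹ P(M r)` for a prime `r` with `M r ∣ N`. -/
def ta_StepStatement : Prop :=
  ∀ (N : ℕ) [NeZero N] (ℓ : ℕ) [Fact ℓ.Prime], ¬ ℓ ∣ N →
  ∀ (k : Type) [Field k] [CharP k ℓ] [IsAlgClosed k] (M r : ℕ), r.Prime → M * r ∣ N →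
    ta_Pa k N M → ta_Pb k N M → ta_Pa k N (M * r) ∧ ta_Pb k N (M * r)

/-- (Transport) `P(N)`(a) gives `ψ(N)` elements of `k(j(y^d) : d ∣ N)` independent over
`k(j(y))` (transport along the injective substitution `y ↦ y ^ N`). -/
def ta_TransportStatement : Prop :=
  ∀ (N : ℕ) [NeZero N] (k : Type) [Field k], ta_Pa k N N →
    ∃ b : Fin (dedekindPsi N) → LaurentSeries k,
      (∀ i, b i ∈ modularFunctionFieldFullC k N) ∧
      LinearIndependent ↥(IntermediateField.adjoin k {jqModC k}) b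

end

end Fermat.Agent.S28
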