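/-
S28, block Tower (twin A) — shared basic lemmas for the packages of the block:
the substitution toolkit (`SubstB`) restated for `ta_J` (no `NeZero` instance arguments),
the packaged modular equation, membership facts for `ta_K0`, `ta_L`, and roots of unity.
-/
import Fermat.Agent.S28.TAInterfaces
import Fermat.Agent.S28.SubstB

set_option autoImplicit false

open ModularCurve Polynomial

namespace Fermat.Agent.S28

noncomputable section

/-! ## `ta_J` -/

theorem ta_J_of_ne (k : Type) [Field k] (c : k) {a : ℕ} (h : a ≠ 0) :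
    ta_J k c a = @jsub k _ c a ⟨h⟩ := dif_neg h

theorem ta_J_zero (k : Type) [Field k] (c : k) : ta_J k c 0 = 0 := dif_pos rfl

theorem ta_J_one_eq (k : Type) [Field k] (a : ℕ) [NeZero a] :
    ta_J k 1 a = qExpand k a (jqModC k) := by
  rw [ta_J_eq, substB_jsub_one]

theorem ta_J_one_one (k : Type) [Field k] : ta_J k 1 1 = jqModC k := by
  rw [ta_J_eq, substB_jsub_one_one]

theorem ta_scale_J (k : Type) [Field k] (c d : k) {a : ℕ} (h : a ≠ 0) :
    scale d (ta_J k c a) = ta_J k (c * d ^ a) a := by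
  have : NeZero a := ⟨h⟩
  rw [ta_J_eq, ta_J_eq, substB_scale_jsub]

theorem ta_qExpand_J (k : Type) [Field k] (c : k) {a : ℕ} (h : a ≠ 0) (b : ℕ) [NeZero b] :
    qExpand k b (ta_J k c a) = ta_J k c (a * b) := by
  have : NeZero a := ⟨h⟩
  rw [ta_J_eq, ta_J_eq, substB_qExpand_jsub]

theorem ta_qExpand_J' (k : Type) [Field k] (c : k) {a : ℕ} (h : a ≠ 0) (b : ℕ) [NeZero b] :
    qExpand k b (ta_J k c a) = ta_J k c (b * a) := by
  rw [ta_qExpand_J k c h b, mul_comm]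

theorem ta_J_coeff_neg (k : Type) [Field k] (c : k) (hc : c ≠ 0) {a : ℕ} (h : a ≠ 0) :
    (ta_J k c a).coeff (-(a : ℤ)) = c⁻¹ := by
  have : NeZero a := ⟨h⟩
  rw [ta_J_eq, substB_jsub_coeff_neg k c hc a]

theorem ta_J_coeff_of_not_dvd (k : Type) [Field k] (c : k) (a : ℕ) (n : ℤ)
    (hn : ¬ (a : ℤ) ∣ n) : (ta_J k c a).coeff n = 0 := by
  by_cases h : a = 0
  · subst h
    rw [ta_J_zero, HahnSeries.coeff_zero]
  · haveI : NeZero a := ⟨h⟩
    rw [ta_J_eq, substB_jsub_coeff_of_not_dvd k c a n hn]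

theorem ta_J_ne_zero (k : Type) [Field k] (c : k) (hc : c ≠ 0) {a : ℕ} (h : a ≠ 0) :
    ta_J k c a ≠ 0 := by
  have : NeZero a := ⟨h⟩
  rw [ta_J_eq]
  exact substB_jsub_ne_zero k c hc a

/-- `j(c y^a) = j(c' y^a')` forces `a = a'` and `c = c'`. -/
theorem ta_J_inj (k : Type) [Field k] (c c' : k) (hc : c ≠ 0) (hc' : c' ≠ 0) {a a' : ℕ}
    (h : a ≠ 0) (h' : a' ≠ 0) : ta_J k c a = ta_J k c' a' → a = a' ∧ c = c' := by
  have : NeZero a := ⟨h⟩
  have : NeZero a' := ⟨h'⟩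
  rw [ta_J_eq, ta_J_eq]
  exact substB_jsub_eq_iff k c c' hc hc' a a'

/-! ## `evalL` and `aeval` -/

theorem ta_C_eq_algebraMap (k : Type) [Field k] (c : k) :
    (HahnSeries.C c : LaurentSeries k) = algebraMap k (LaurentSeries k) c := by
  rw [algebraMap_laurentSeries_eq_single]
  rfl

theorem ta_evalL_eq_aeval (k : Type) [Field k] (x : LaurentSeries k) (p : k[X]) :
    evalL x p = Polynomial.aeval x p := by
  show Polynomial.eval₂ HahnSeries.C x p = Polynomial.eval₂ (algebraMap k (LaurentSeries k)) x p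
  congr 1
  exact RingHom.ext fun c => ta_C_eq_algebraMap k c

theorem ta_evalL_eq_aeval' (k : Type) [Field k] (x : LaurentSeries k) :
    evalL x = (Polynomial.aeval x : k[X] →ₐ[k] LaurentSeries k).toRingHom :=
  RingHom.ext fun p => ta_evalL_eq_aeval k x p

/-! ## The modular equation, packaged for `ta_J` -/

/-- The modular equation of prime level `r`, in all the substituted forms used in the block. -/
theorem ta_modEq_pack (hME : ModEqStatement) (k : Type) [Field k] (r : ℕ) (hr : r.Prime) (ζ : k)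
    (hζ : IsPrimitiveRoot ζ r) :
    ∃ Φ : Polynomial (Polynomial k), Φ.Monic ∧ Φ.natDegree = r + 1 ∧
      (∀ (c : k), c ≠ 0 → ∀ (a : ℕ), a ≠ 0 →
        Φ.map (evalL (ta_J k (c ^ r) (a * r))) =
          (X - C (ta_J k (c ^ (r * r)) (a * (r * r)))) *
            ∏ b ∈ Finset.range r, (X - C (ta_J k (ζ ^ b * c) a))) ∧
      (∀ (a : ℕ), a ≠ 0 → (Φ.map (evalL (ta_J k 1 a))).eval (ta_J k 1 (a * r)) = 0) := by
  have : NeZero r := ⟨hr.ne_zero⟩
  obtain ⟨Φ, hmon, hdeg, hΦ⟩ := hME k r hr ζ hζ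
  refine ⟨Φ, hmon, hdeg, ?_, ?_⟩
  · intro c hc a ha
    have : NeZero a := ⟨ha⟩
    have h := substB_modEq k r ζ Φ hΦ c hc a
    rw [ta_J_eq, ta_J_eq]
    rw [h]
    congr 1
    refine Finset.prod_congr rfl fun b _ => ?_
    rw [ta_J_eq]
  · intro a ha
    have : NeZero a := ⟨ha⟩
    have h := substB_modEq_swap k r ζ Φ hΦ
    have h2 := congrArg (qExpand k a) h
    rw [map_zero, Polynomial.eval_map, Polynomial.hom_eval₂,
      substB_hom_comp_evalL (qExpand k a) (fun b => qExpand_C a b), qExpand_qExpand,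
      ← ta_J_one_eq, ← ta_J_one_eq, ← Polynomial.eval_map] at h2
    exact h2

/-! ## Membership facts -/

theorem ta_mem_gens (k : Type) [Field k] (N M : ℕ) {p i : ℕ} (hp : p.Prime) (h : p ^ i ∣ M) :
    ta_J k 1 (N * p ^ i) ∈ ta_gens k N M := ⟨p, i, hp, h, rfl⟩

theorem ta_mem_L (k : Type) [Field k] (N M : ℕ) {p i : ℕ} (hp : p.Prime) (h : p ^ i ∣ M) :
    ta_J k 1 (N * p ^ i) ∈ ta_L k N M :=
  IntermediateField.subset_adjoin k _ (ta_mem_gens k N M hp h)

theorem ta_JN_mem_gens (k : Type) [Field k] (N M : ℕ) : ta_J k 1 N ∈ ta_gens k N M :=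
  ⟨2, 0, Nat.prime_two, by simp, by simp⟩

theorem ta_JN_mem_L (k : Type) [Field k] (N M : ℕ) : ta_J k 1 N ∈ ta_L k N M :=
  IntermediateField.subset_adjoin k _ (ta_JN_mem_gens k N M)

theorem ta_JN_mem_K0 (k : Type) [Field k] (N : ℕ) : ta_J k 1 N ∈ ta_K0 k N :=
  IntermediateField.subset_adjoin k _ rfl

theorem ta_K0_le_L (k : Type) [Field k] (N M : ℕ) : ta_K0 k N ≤ ta_L k N M := by
  rw [ta_K0, IntermediateField.adjoin_le_iff]
  intro x hx
  rw [Set.mem_singleton_iff] at hx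
  subst hx
  exact ta_JN_mem_L k N M

theorem ta_gens_mono (k : Type) [Field k] (N : ℕ) {M M' : ℕ} (h : M ∣ M') :
    ta_gens k N M ⊆ ta_gens k N M' := by
  rintro x ⟨p, i, hp, hpi, rfl⟩
  exact ⟨p, i, hp, hpi.trans h, rfl⟩

theorem ta_L_mono (k : Type) [Field k] (N : ℕ) {M M' : ℕ} (h : M ∣ M') :
    ta_L k N M ≤ ta_L k N M' :=
  IntermediateField.adjoin.mono k _ _ (ta_gens_mono k N h)

/-- Elements of the range of `y ↦ y ^ e` have coefficients only at multiples of `e`. -/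
theorem ta_fieldRange_coeff (k : Type) [Field k] (e : ℕ) [NeZero e] {x : LaurentSeries k}
    (hx : x ∈ (qExpandAlgHomC k e).fieldRange) (n : ℤ) (hn : ¬ (e : ℤ) ∣ n) : x.coeff n = 0 := by
  obtain ⟨z, rfl⟩ := AlgHom.mem_fieldRange.mp hx
  rw [qExpandAlgHomC_apply]
  exact qExpand_coeff_of_not_dvd e z hn

/-- `j(c y^a)` is a series in `y ^ e` for `e ∣ a`. -/
theorem ta_J_mem_fieldRange (k : Type) [Field k] (c : k) (e : ℕ) [NeZero e] {a : ℕ} (ha : a ≠ 0)
    (h : e ∣ a) : ta_J k c a ∈ (qExpandAlgHomC k e).fieldRange := by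
  obtain ⟨m, rfl⟩ := h
  have hm : m ≠ 0 := fun h0 => ha (by rw [h0, mul_zero])
  exact AlgHom.mem_fieldRange.mpr
    ⟨ta_J k c m, by rw [qExpandAlgHomC_apply, ta_qExpand_J' k c hm e]⟩

/-- `L_M ⊆ k((y^N))`. -/
theorem ta_L_le_fieldRange (k : Type) [Field k] (N : ℕ) [NeZero N] (M : ℕ) :
    ta_L k N M ≤ (qExpandAlgHomC k N).fieldRange := by
  rw [ta_L, IntermediateField.adjoin_le_iff]
  rintro x ⟨p, i, hp, -, rfl⟩
  exact ta_J_mem_fieldRange k 1 N (Nat.mul_ne_zero (NeZero.ne N) (pow_ne_zero i hp.ne_zero))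
    (dvd_mul_right N _)

/-- Elements of `L_M` have coefficients only at multiples of `N`. -/
theorem ta_L_coeff (k : Type) [Field k] (N : ℕ) [NeZero N] (M : ℕ) {x : LaurentSeries k}
    (hx : x ∈ ta_L k N M) (n : ℤ) (hn : ¬ (N : ℤ) ∣ n) : x.coeff n = 0 :=
  ta_fieldRange_coeff k N (ta_L_le_fieldRange k N M hx) n hn

/-! ## Roots of unity -/

theorem ta_natCast_ne_zero (ℓ : ℕ) [Fact ℓ.Prime] (k : Type) [Field k] [CharP k ℓ] {n : ℕ}
    (h : ¬ ℓ ∣ n) : (n : k) ≠ 0 := fun h0 => h ((CharP.cast_eq_zero_iff k ℓ n).mp h0)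

/-- Primitive `n`-th roots of unity exist in an algebraically closed field of characteristic
`ℓ ∤ n`. -/
theorem ta_exists_primitiveRoot (ℓ : ℕ) [Fact ℓ.Prime] (k : Type) [Field k] [CharP k ℓ]
    [IsAlgClosed k] {n : ℕ} (h : ¬ ℓ ∣ n) : ∃ g : k, IsPrimitiveRoot g n := by
  have : NeZero (n : k) := ⟨ta_natCast_ne_zero ℓ k h⟩
  exact HasEnoughRootsOfUnity.exists_primitiveRoot k n

end

end Fermat.Agent.S28
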