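/-
S28, block Tower (twin A) — package Alg.

`L_M = ta_L k N M = k(j(y^(N p^i)) : p prime, p^i ∣ M)` is algebraic over `K0 = ta_K0 k N = k(j(y^N))`
for `M ∣ N`: the generators are integral over `K0` by the modular equation of level `p`
(induction on `i`), and the elements of `Ω` integral over the field `K0` are closed under the
field operations.
-/
import Fermat.Agent.S28.TABasic

set_option autoImplicit false

open ModularCurve Polynomial

namespace Fermat.Agent.S28

/-- Elements of `K0` are integral over `K0`. -/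
theorem ta_alg_of_mem_K0 (k : Type) [Field k] (N : ℕ) {x : LaurentSeries k}
    (hx : x ∈ ta_K0 k N) : IsIntegral ↥(ta_K0 k N) x :=
  isIntegral_algebraMap (R := ↥(ta_K0 k N)) (A := LaurentSeries k) (x := ⟨x, hx⟩)

/-- Constants are integral over `K0`. -/
theorem ta_alg_const (k : Type) [Field k] (N : ℕ) (c : k) :
    IsIntegral ↥(ta_K0 k N) (algebraMap k (LaurentSeries k) c) :=
  ta_alg_of_mem_K0 k N ((ta_K0 k N).algebraMap_mem c)

/-- Polynomial expressions over `k` in an element integral over `K0` are integral over `K0`. -/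
theorem ta_alg_aeval (k : Type) [Field k] (N : ℕ) {z : LaurentSeries k}
    (hz : IsIntegral ↥(ta_K0 k N) z) (q : k[X]) :
    IsIntegral ↥(ta_K0 k N) (Polynomial.aeval z q) := by
  induction q using Polynomial.induction_on with
  | C a =>
    rw [Polynomial.aeval_C]
    exact ta_alg_const k N a
  | add p q hp hq =>
    rw [map_add]
    exact hp.add hq
  | monomial n a _ =>
    rw [map_mul, Polynomial.aeval_C, map_pow, Polynomial.aeval_X]
    exact (ta_alg_const k N a).mul (hz.pow _)

/-- One step: if `j(y^a)` is integral over `K0` then so is `j(y^(a p))`, by the modular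
equation of level `p` (`p` a prime different from the characteristic). -/
theorem ta_alg_step (hME : ModEqStatement) (ℓ : ℕ) [Fact ℓ.Prime] (k : Type) [Field k]
    [CharP k ℓ] [IsAlgClosed k] (N p : ℕ) (hp : p.Prime) (hpl : ¬ ℓ ∣ p) (a : ℕ) (ha : a ≠ 0)
    (hz : IsIntegral ↥(ta_K0 k N) (ta_J k 1 a)) :
    IsIntegral ↥(ta_K0 k N) (ta_J k 1 (a * p)) := by
  obtain ⟨ζ, hζ⟩ := ta_exists_primitiveRoot ℓ k hpl
  obtain ⟨Φ, hmon, hdeg, -, hroot⟩ := ta_modEq_pack hME k p hp ζ hζ
  have h0 := hroot a ha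
  refine IsIntegral.of_aeval_monic_of_isIntegral_coeff (p := Φ.map (evalL (ta_J k 1 a)))
    (hmon.map _) ?_ ?_ ?_
  · rw [hmon.natDegree_map, hdeg]
    exact Nat.succ_ne_zero _
  · rw [h0]
    exact isIntegral_zero
  · intro i
    rw [Polynomial.coeff_map, ta_evalL_eq_aeval]
    exact ta_alg_aeval k N hz _

/-- The generators `j(y^(N p^i))`, `p ^ i ∣ N`, are integral over `K0`. -/
theorem ta_alg_gen (hME : ModEqStatement) (N : ℕ) [NeZero N] (ℓ : ℕ) [Fact ℓ.Prime]
    (hℓ : ¬ ℓ ∣ N) (k : Type) [Field k] [CharP k ℓ] [IsAlgClosed k] (p : ℕ) (hp : p.Prime) :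
    ∀ i : ℕ, p ^ i ∣ N → IsIntegral ↥(ta_K0 k N) (ta_J k 1 (N * p ^ i)) := by
  intro i
  induction i with
  | zero =>
    intro _
    rw [pow_zero, mul_one]
    exact ta_alg_of_mem_K0 k N (ta_JN_mem_K0 k N)
  | succ i ih =>
    intro h
    have hpN : p ∣ N := (dvd_pow_self p (Nat.succ_ne_zero i)).trans h
    have hpi : p ^ i ∣ N := (pow_dvd_pow p (Nat.le_succ i)).trans h
    have hpl : ¬ ℓ ∣ p := fun hlp => hℓ (hlp.trans hpN)
    have h1 := ta_alg_step hME ℓ k N p hp hpl (N * p ^ i)
      (Nat.mul_ne_zero (NeZero.ne N) (pow_ne_zero i hp.ne_zero)) (ih hpi)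
    rwa [mul_assoc, ← pow_succ] at h1

/-- (Alg) `L_M` is algebraic over `K0` for `M ∣ N`. -/
theorem ta_alg_main : ModEqStatement → ta_AlgStatement := by
  intro hME N _ ℓ _ hℓ k _ _ _ M hM x hx
  rw [ta_L] at hx
  induction hx using IntermediateField.adjoin_induction with
  | mem x hx =>
    obtain ⟨p, i, hp, hpi, rfl⟩ := hx
    exact ta_alg_gen hME N ℓ hℓ k p hp i (hpi.trans hM)
  | algebraMap c => exact ta_alg_const k N c
  | add x y _ _ hx hy => exact hx.add hy
  | inv x _ hx => exact hx.inv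
  | mul x y _ _ hx hy => exact hx.mul hy

end Fermat.Agent.S28
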