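/-
S28, block Tower (twin A) — package Div.

`ξ = j(y^(N r^(i+1)))` is integral over `L_M` (root of the modular polynomial of level `r`
specialised at `j(y^(N r^i)) ∈ L_M`), and the image under the twisting embedding `τ` of its
minimal polynomial divides `(X - j(y^(a r^2))) ∏_{b<r} (X - j(ζ^b y^a))`, `a = N / r^(i+1)`.
-/
import Fermat.Agent.S28.TABasic

set_option autoImplicit false

open ModularCurve Polynomial

namespace Fermat.Agent.S28

noncomputable section

/-- For a `k`-algebra hom `g : ↥L →ₐ[k] Ω` and `x : ↥L`, the ring homs `g ∘ aeval x` and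
`evalL (g x)` agree. -/
theorem ta_div_comp_aeval (k : Type) [Field k] (L : IntermediateField k (LaurentSeries k))
    (g : ↥L →ₐ[k] LaurentSeries k) (x : ↥L) :
    g.toRingHom.comp (Polynomial.aeval x : k[X] →ₐ[k] ↥L).toRingHom = evalL (g x) := by
  refine RingHom.ext fun p => ?_
  rw [ta_evalL_eq_aeval, Polynomial.aeval_algHom_apply]
  rfl

/-- Specialising `Φ ∈ k[X][X]` at `x ∈ L` and then applying `g` is specialising at `g x`. -/
theorem ta_div_map_map (k : Type) [Field k] (L : IntermediateField k (LaurentSeries k))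
    (g : ↥L →ₐ[k] LaurentSeries k) (x : ↥L) (Φ : Polynomial (Polynomial k)) :
    (Φ.map (Polynomial.aeval x : k[X] →ₐ[k] ↥L).toRingHom).map g.toRingHom =
      Φ.map (evalL (g x)) := by
  rw [Polynomial.map_map, ta_div_comp_aeval]

/-- (Div) `ξ = j(y^(N r^(i+1)))` is integral over `L_M`, and the image under `τ` of its minimal
polynomial divides `(X - j(y^(a r^2))) ∏_{b<r} (X - j(ζ^b y^a))`, `a = N / r^(i+1)`. -/
theorem ta_div_main : ModEqStatement → ta_DivStatement := by
  intro hME N _ k _ M r i hr hMr hi ζ hζ τ hτ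
  obtain ⟨Φ, hmon, -, h1, h2⟩ := ta_modEq_pack hME k r hr ζ hζ
  have hN : N ≠ 0 := NeZero.ne N
  have hri : r ^ (i + 1) ∣ N := by
    rw [pow_succ]
    exact (Nat.mul_dvd_mul_right hi r).trans hMr
  obtain ⟨a, ha⟩ := hri
  have ha0 : a ≠ 0 := by
    rintro rfl
    exact hN (by rw [ha, mul_zero])
  have hdiv1 : N / r ^ (i + 1) = a := by
    rw [ha]
    exact Nat.mul_div_cancel_left a (pow_pos hr.pos _)
  have hdiv2 : N / r ^ i = a * r := by
    rw [ha, pow_succ, mul_assoc, Nat.mul_div_cancel_left _ (pow_pos hr.pos _), mul_comm]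
  have hxi : ta_J k 1 (N * r ^ i) ∈ ta_L k N M := ta_mem_L k N M hr hi
  -- the modular polynomial specialised at `x_i = j(y^(N r^i)) ∈ L`
  have key : ∀ (xi' : ↥(ta_L k N M)), (xi' : LaurentSeries k) = ta_J k 1 (N * r ^ i) →
      IsIntegral ↥(ta_L k N M) (ta_J k 1 (N * r ^ (i + 1))) ∧
      (minpoly ↥(ta_L k N M) (ta_J k 1 (N * r ^ (i + 1)))).map τ.toRingHom ∣
        (X - C (ta_J k 1 (N / r ^ (i + 1) * (r * r)))) *
          ∏ b ∈ Finset.range r, (X - C (ta_J k (ζ ^ b) (N / r ^ (i + 1)))) := by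
    intro xi' hxi'
    have hΨ1 : (Φ.map (Polynomial.aeval xi' : k[X] →ₐ[k] ↥(ta_L k N M)).toRingHom).map
        (algebraMap ↥(ta_L k N M) (LaurentSeries k)) =
        Φ.map (evalL (ta_J k 1 (N * r ^ i))) := by
      have h := ta_div_map_map k (ta_L k N M)
        (IsScalarTower.toAlgHom k ↥(ta_L k N M) (LaurentSeries k)) xi' Φ
      rw [← hxi']
      exact h
    have hroot : Polynomial.aeval (ta_J k 1 (N * r ^ (i + 1)))
        (Φ.map (Polynomial.aeval xi' : k[X] →ₐ[k] ↥(ta_L k N M)).toRingHom) = 0 := by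
      rw [Polynomial.aeval_def, ← Polynomial.eval_map, hΨ1, pow_succ, ← mul_assoc]
      exact h2 (N * r ^ i) (Nat.mul_ne_zero hN (pow_ne_zero i hr.ne_zero))
    have hint : IsIntegral ↥(ta_L k N M) (ta_J k 1 (N * r ^ (i + 1))) :=
      ⟨_, hmon.map _, hroot⟩
    refine ⟨hint, ?_⟩
    have hdvd2 := Polynomial.map_dvd τ.toRingHom (minpoly.dvd _ _ hroot)
    have hτxi : τ xi' = ta_J k 1 (N / r ^ i) := hτ xi' r i hr hi hxi'
    have h1' := h1 1 one_ne_zero a ha0
    simp only [one_pow, mul_one] at h1'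
    rw [ta_div_map_map k (ta_L k N M) τ xi' Φ, hτxi, hdiv2, h1'] at hdvd2
    rw [hdiv1]
    exact hdvd2
  exact key ⟨ta_J k 1 (N * r ^ i), hxi⟩ rfl

end

end Fermat.Agent.S28
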