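/-
S28, block Tower (twin A) — package Ext: extension of an embedding to a simple algebraic
extension (pure field theory).
-/
import Fermat.Agent.S28.TABasic

set_option autoImplicit false

open ModularCurve Polynomial

namespace Fermat.Agent.S28

/-- The extension of `τ : L → Ω` to the simple extension `L(ξ)` sending `ξ` to a root `ρ` of the
image under `τ` of the minimal polynomial of `ξ` over `L` (as a ring homomorphism). -/
noncomputable def ta_ext_lift {k : Type} [Field k] {Ω : Type} [Field Ω] [Algebra k Ω]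
    (L : IntermediateField k Ω) (τ : ↥L →ₐ[k] Ω) (ξ ρ : Ω) (hint : IsIntegral ↥L ξ)
    (hroot : Polynomial.eval₂ τ.toRingHom ρ (minpoly ↥L ξ) = 0) :
    ↥(IntermediateField.adjoin ↥L {ξ}) →+* Ω :=
  (AdjoinRoot.lift τ.toRingHom ρ hroot).comp
    ((IntermediateField.adjoinRootEquivAdjoin ↥L hint).symm : _ →+* _)

theorem ta_ext_lift_algebraMap {k : Type} [Field k] {Ω : Type} [Field Ω] [Algebra k Ω]
    (L : IntermediateField k Ω) (τ : ↥L →ₐ[k] Ω) (ξ ρ : Ω) (hint : IsIntegral ↥L ξ)
    (hroot : Polynomial.eval₂ τ.toRingHom ρ (minpoly ↥L ξ) = 0) (y : ↥L) :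
    ta_ext_lift L τ ξ ρ hint hroot (algebraMap ↥L ↥(IntermediateField.adjoin ↥L {ξ}) y) = τ y := by
  unfold ta_ext_lift
  rw [RingHom.comp_apply, RingHom.coe_coe, AlgEquiv.commutes]
  exact AdjoinRoot.lift_of hroot

theorem ta_ext_lift_gen {k : Type} [Field k] {Ω : Type} [Field Ω] [Algebra k Ω]
    (L : IntermediateField k Ω) (τ : ↥L →ₐ[k] Ω) (ξ ρ : Ω) (hint : IsIntegral ↥L ξ)
    (hroot : Polynomial.eval₂ τ.toRingHom ρ (minpoly ↥L ξ) = 0) :
    ta_ext_lift L τ ξ ρ hint hroot (IntermediateField.AdjoinSimple.gen ↥L ξ) = ρ := by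
  unfold ta_ext_lift
  rw [RingHom.comp_apply, RingHom.coe_coe,
    IntermediateField.adjoinRootEquivAdjoin_symm_apply_gen]
  exact AdjoinRoot.lift_root hroot

/-- `k(L ∪ {ξ})` is contained in `L(ξ)`. -/
theorem ta_ext_adjoin_le {k : Type} [Field k] {Ω : Type} [Field Ω] [Algebra k Ω]
    (L : IntermediateField k Ω) (ξ : Ω) {x : Ω}
    (hx : x ∈ IntermediateField.adjoin k ((L : Set Ω) ∪ {ξ})) :
    x ∈ IntermediateField.adjoin ↥L {ξ} := by
  have hle : IntermediateField.adjoin k ((L : Set Ω) ∪ {ξ}) ≤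
      (IntermediateField.adjoin ↥L {ξ}).restrictScalars k := by
    rw [IntermediateField.adjoin_le_iff]
    rintro z (hz | hz)
    · exact IntermediateField.algebraMap_mem (IntermediateField.adjoin ↥L {ξ}) (⟨z, hz⟩ : ↥L)
    · rw [Set.mem_singleton_iff] at hz
      subst hz
      exact IntermediateField.mem_adjoin_simple_self ↥L z
  exact hle hx

theorem ta_ext_main : ta_ExtStatement := by
  intro k _ Ω _ _ L L' τ ξ ρ hint hroot hL'
  have hmem : ∀ x : ↥L', (x : Ω) ∈ IntermediateField.adjoin ↥L {ξ} := fun x =>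
    ta_ext_adjoin_le L ξ (hL' x.2)
  -- the inclusion `L' → L(ξ)` as a ring homomorphism
  let incl : ↥L' →+* ↥(IntermediateField.adjoin ↥L {ξ}) :=
    { toFun := fun x => ⟨(x : Ω), hmem x⟩
      map_one' := rfl
      map_mul' := fun _ _ => rfl
      map_zero' := rfl
      map_add' := fun _ _ => rfl }
  have hincl : ∀ x : ↥L', ((incl x : ↥(IntermediateField.adjoin ↥L {ξ})) : Ω) = (x : Ω) :=
    fun _ => rfl
  let τ₁ : ↥(IntermediateField.adjoin ↥L {ξ}) →+* Ω := ta_ext_lift L τ ξ ρ hint hroot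
  have key : ∀ (x : ↥L') (y : ↥L), (x : Ω) = (y : Ω) → τ₁ (incl x) = τ y := by
    intro x y hxy
    have h1 : incl x = algebraMap ↥L ↥(IntermediateField.adjoin ↥L {ξ}) y := by
      apply Subtype.ext
      rw [hincl, hxy]
      rfl
    rw [h1]
    exact ta_ext_lift_algebraMap L τ ξ ρ hint hroot y
  let τ' : ↥L' →ₐ[k] Ω :=
    { (τ₁.comp incl) with
      commutes' := by
        intro c
        have h2 := key (algebraMap k ↥L' c) (algebraMap k ↥L c) rfl
        have h3 : τ (algebraMap k ↥L c) = algebraMap k Ω c := τ.commutes c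
        change τ₁ (incl (algebraMap k ↥L' c)) = algebraMap k Ω c
        rw [h2, h3] }
  refine ⟨τ', ?_, ?_⟩
  · intro x y hxy
    exact key x y hxy
  · intro x hx
    have h1 : incl x = IntermediateField.AdjoinSimple.gen ↥L ξ := by
      apply Subtype.ext
      rw [hincl, hx]
      rfl
    change τ₁ (incl x) = ρ
    rw [h1]
    exact ta_ext_lift_gen L τ ξ ρ hint hroot

end Fermat.Agent.S28
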