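/-
S28, block Tower (twin A) — package Five.

If `j(y^(N r)) ∉ L_M` (for a prime `r ∣ N`), then its minimal polynomial over `L_M` does not have
degree `r`: otherwise the cofactor of the minimal polynomial in the modular equation
`Φ(X, j(y^N))` (monic of degree `r + 1`, with coefficients in `L_M`) would be linear and give a root
of `Φ(X, j(y^N))` in `L_M`; the roots are `j(y^(N r))` (excluded by hypothesis) and the
`j(ζ^b y^(N / r))`, which are not series in `y ^ N`.
-/
import Fermat.Agent.S28.TABasic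

set_option autoImplicit false

open ModularCurve Polynomial

namespace Fermat.Agent.S28

noncomputable section

/-- Transport of `Φ(X, j0)` from `L[X]` to `Ω[X]`. -/
theorem ta_five_map (k : Type) [Field k] (L : IntermediateField k (LaurentSeries k))
    (j0 : ↥L) (Φ : Polynomial (Polynomial k)) :
    (Φ.map (Polynomial.aeval j0 : k[X] →ₐ[k] ↥L).toRingHom).map
        (algebraMap ↥L (LaurentSeries k)) = Φ.map (evalL (j0 : LaurentSeries k)) := by
  rw [Polynomial.map_map]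
  congr 1
  refine RingHom.ext fun p => ?_
  rw [ta_evalL_eq_aeval]
  exact (Polynomial.aeval_algHom_apply L.val j0 p).symm

/-- A root in `L` of a monic polynomial `Ψ = μ * ν` of degree `r + 1` with `μ` monic of
degree `r`. -/
theorem ta_five_root {F : Type} [Field F] (Ψ μ : Polynomial F) (r : ℕ) (hΨ : Ψ.Monic)
    (hΨd : Ψ.natDegree = r + 1) (hμ : μ.Monic) (hμd : μ.natDegree = r) (hdvd : μ ∣ Ψ) :
    ∃ x₀ : F, Ψ.eval x₀ = 0 := by
  obtain ⟨ν, rfl⟩ := hdvd
  have hν : ν.Monic := hμ.of_mul_monic_left hΨ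
  have hνd : ν.natDegree = 1 := by
    rw [hμ.natDegree_mul hν, hμd] at hΨd
    omega
  refine ⟨-(ν.coeff 0), ?_⟩
  have h0 : ν.eval (-(ν.coeff 0)) = 0 := by
    have h := hν.eq_X_add_C hνd
    generalize ν.coeff 0 = c at h ⊢
    rw [h, Polynomial.eval_add, Polynomial.eval_X, Polynomial.eval_C, neg_add_cancel]
  rw [Polynomial.eval_mul, h0, mul_zero]

theorem ta_five_main : ModEqStatement → ta_FiveStatement := by
  intro hME N _ k _ M r hr hrN ζ hζ hnot hdeg
  obtain ⟨Φ, hmon, hnd, hfac, -⟩ := ta_modEq_pack hME k r hr ζ hζ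
  obtain ⟨a, rfl⟩ := hrN
  have ha : a ≠ 0 := fun h0 => NeZero.ne (r * a) (by rw [h0, mul_zero])
  have hζ0 : ζ ≠ 0 := hζ.ne_zero hr.ne_zero
  -- the modular equation over `L`
  have hj0 : ta_J k 1 (r * a) ∈ ta_L k (r * a) M := ta_JN_mem_L k (r * a) M
  have hmap : (Φ.map (Polynomial.aeval (⟨ta_J k 1 (r * a), hj0⟩ : ↥(ta_L k (r * a) M)) :
        k[X] →ₐ[k] ↥(ta_L k (r * a) M)).toRingHom).map
        (algebraMap ↥(ta_L k (r * a) M) (LaurentSeries k)) =
      (X - C (ta_J k 1 (r * a * r))) * ∏ b ∈ Finset.range r, (X - C (ta_J k (ζ ^ b) a)) := by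
    rw [ta_five_map]
    have h := hfac 1 one_ne_zero a ha
    simp only [one_pow, mul_one] at h
    have e1 : a * r = r * a := mul_comm a r
    have e2 : a * (r * r) = r * a * r := by ring
    rw [e1, e2] at h
    exact h
  set ΨL : Polynomial ↥(ta_L k (r * a) M) :=
    Φ.map (Polynomial.aeval (⟨ta_J k 1 (r * a), hj0⟩ : ↥(ta_L k (r * a) M)) :
        k[X] →ₐ[k] ↥(ta_L k (r * a) M)).toRingHom with hΨL
  have hΨmon : ΨL.Monic := hmon.map _
  have hΨdeg : ΨL.natDegree = r + 1 := by rw [hΨL, hmon.natDegree_map, hnd]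
  -- `ξ` is a root of `ΨL`
  have hroot : Polynomial.aeval (ta_J k 1 (r * a * r)) ΨL = 0 := by
    rw [Polynomial.aeval_def, ← Polynomial.eval_map, hmap, Polynomial.eval_mul,
      Polynomial.eval_sub, Polynomial.eval_X, Polynomial.eval_C, sub_self, zero_mul]
  have hint : IsIntegral ↥(ta_L k (r * a) M) (ta_J k 1 (r * a * r)) := ⟨ΨL, hΨmon, hroot⟩
  have hdvd : minpoly ↥(ta_L k (r * a) M) (ta_J k 1 (r * a * r)) ∣ ΨL := minpoly.dvd _ _ hroot
  obtain ⟨x₀, hx₀⟩ := ta_five_root ΨL _ r hΨmon hΨdeg (minpoly.monic hint) hdeg hdvd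
  -- map the root to `Ω`
  have hx₀' : (ΨL.map (algebraMap ↥(ta_L k (r * a) M) (LaurentSeries k))).eval
      (algebraMap ↥(ta_L k (r * a) M) (LaurentSeries k) x₀) = 0 := by
    rw [Polynomial.eval_map_apply, hx₀, map_zero]
  rw [hmap, Polynomial.eval_mul, Polynomial.eval_prod, mul_eq_zero, Finset.prod_eq_zero_iff]
    at hx₀'
  have hx₀mem : algebraMap ↥(ta_L k (r * a) M) (LaurentSeries k) x₀ ∈ ta_L k (r * a) M := x₀.2
  rcases hx₀' with h1 | ⟨b, -, hb⟩
  · rw [Polynomial.eval_sub, Polynomial.eval_X, Polynomial.eval_C, sub_eq_zero] at h1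
    exact hnot (h1 ▸ hx₀mem)
  · rw [Polynomial.eval_sub, Polynomial.eval_X, Polynomial.eval_C, sub_eq_zero] at hb
    have hndvd : ¬ ((r * a : ℕ) : ℤ) ∣ -(a : ℤ) := by
      rw [Int.dvd_neg, Int.natCast_dvd_natCast]
      intro hd
      have h1 := Nat.le_of_dvd (Nat.pos_of_ne_zero ha) hd
      have h2 := hr.two_le
      nlinarith [Nat.pos_of_ne_zero ha]
    have hc0 := ta_L_coeff k (r * a) M hx₀mem (-(a : ℤ)) hndvd
    rw [hb, ta_J_coeff_neg k (ζ ^ b) (pow_ne_zero b hζ0) ha] at hc0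
    exact inv_ne_zero (pow_ne_zero b hζ0) hc0

end

end Fermat.Agent.S28
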