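/-
S28, block Tower (twin A) — package Fix: the substitution `y ↦ g^M y` fixes `τ(L_M)` pointwise.
-/
import Fermat.Agent.S28.TABasic

set_option autoImplicit false

open ModularCurve Polynomial

namespace Fermat.Agent.S28

noncomputable section

theorem ta_fix_pow {k : Type} [Field k] (g : k) (N M q : ℕ) (hq : q ∣ M) (hMN : M ∣ N)
    (hg : g ^ N = 1) : (g ^ M) ^ (N / q) = 1 := by
  obtain ⟨m, rfl⟩ := hq
  obtain ⟨e, rfl⟩ := hMN
  rcases Nat.eq_zero_or_pos q with h0 | h0
  · subst h0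
    simp
  · rw [mul_assoc, Nat.mul_div_cancel_left _ h0, ← pow_mul,
      show q * m * (m * e) = q * (m * e) * m by ring, pow_mul, ← mul_assoc, hg, one_pow]

/-- The substitution `y ↦ c y` as a `k`-algebra endomorphism of `k((y))`. -/
def ta_fix_scaleAlg {k : Type} [Field k] (c : k) (hc : c ≠ 0) :
    LaurentSeries k →ₐ[k] LaurentSeries k :=
  { substB_scaleHom c hc with
    commutes' := fun a => by
      show substB_scaleHom c hc (algebraMap k (LaurentSeries k) a) =
        algebraMap k (LaurentSeries k) a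
      rw [← ta_C_eq_algebraMap, substB_scaleHom_apply, substB_scale_C] }

theorem ta_fix_scaleAlg_apply {k : Type} [Field k] (c : k) (hc : c ≠ 0) (f : LaurentSeries k) :
    ta_fix_scaleAlg c hc f = scale c f := rfl

theorem ta_fix_main : ta_FixStatement := by
  intro N _ k _ M hMN g hg τ hτ x
  have hg0 : g ≠ 0 := by
    rintro rfl
    rw [zero_pow (NeZero.ne N)] at hg
    exact zero_ne_one hg
  have hc : g ^ M ≠ 0 := pow_ne_zero _ hg0
  have h : (ta_fix_scaleAlg (g ^ M) hc).comp τ = τ := by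
    refine IntermediateField.algHom_ext_of_eq_adjoin k
      (rfl : ta_L k N M = IntermediateField.adjoin k (ta_gens k N M)) ?_
    intro y hy
    obtain ⟨p, i, hp, hpi, rfl⟩ := hy
    have hdiv : N / p ^ i ≠ 0 :=
      (Nat.div_pos (Nat.le_of_dvd (Nat.pos_of_ne_zero (NeZero.ne N)) (hpi.trans hMN))
        (pow_pos hp.pos i)).ne'
    have h2 : τ ⟨ta_J k 1 (N * p ^ i), ta_mem_L k N M hp hpi⟩ = ta_J k 1 (N / p ^ i) :=
      hτ _ p i hp hpi rfl
    show ta_fix_scaleAlg (g ^ M) hc (τ ⟨ta_J k 1 (N * p ^ i), ta_mem_L k N M hp hpi⟩) =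
      τ ⟨ta_J k 1 (N * p ^ i), ta_mem_L k N M hp hpi⟩
    rw [h2, ta_fix_scaleAlg_apply, ta_scale_J k 1 _ hdiv, ta_fix_pow g N M (p ^ i) hpi hMN hg,
      one_mul]
  have h3 := DFunLike.congr_fun h x
  exact h3

end

end Fermat.Agent.S28
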