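/-
S28, block Tower (twin A) — package Ind: `P(M)` for all `M ∣ N` by induction, and the reduction
of the main statement to the step and the transport.
-/
import Fermat.Agent.S28.TABasic

set_option autoImplicit false

open ModularCurve Polynomial

namespace Fermat.Agent.S28

noncomputable section

/-- `P(1)`. -/
theorem ta_ind_base (k : Type) [Field k] (N : ℕ) : ta_Pa k N 1 ∧ ta_Pb k N 1 := by
  refine ⟨⟨1, fun _ => 1, ?_, fun _ => one_mem _, ?_⟩, ⟨(ta_L k N 1).val, ?_⟩⟩
  · rw [dedekindPsi_one]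
  · exact LinearIndependent.of_subsingleton (0 : Fin 1) one_ne_zero
  · intro x p i hp hpi hx
    have h1 : p ^ i = 1 := Nat.dvd_one.mp hpi
    rw [h1, mul_one] at hx
    rw [h1, Nat.div_one, ← hx]
    rfl

/-- `P(M)` for all `M ∣ N`. -/
theorem ta_ind_all (hStep : ta_StepStatement) (N : ℕ) [NeZero N] (ℓ : ℕ) [Fact ℓ.Prime]
    (hN : ¬ ℓ ∣ N) (k : Type) [Field k] [CharP k ℓ] [IsAlgClosed k] :
    ∀ M : ℕ, M ∣ N → ta_Pa k N M ∧ ta_Pb k N M := by
  intro M
  induction M using Nat.strong_induction_on with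
  | _ M ih =>
    intro hMN
    by_cases hM1 : M = 1
    · subst hM1
      exact ta_ind_base k N
    · obtain ⟨r, hr, hrM⟩ := Nat.exists_prime_and_dvd hM1
      obtain ⟨M', rfl⟩ := hrM
      have hM'0 : M' ≠ 0 := by
        rintro rfl
        rw [mul_zero, zero_dvd_iff] at hMN
        exact NeZero.ne N hMN
      have hlt : M' < r * M' := by
        have := hr.two_le
        nlinarith [Nat.pos_of_ne_zero hM'0]
      have h1 := ih M' hlt (dvd_trans (dvd_mul_left M' r) hMN)
      have h2 := hStep N ℓ hN k M' r hr (by rwa [mul_comm]) h1.1 h1.2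
      rwa [mul_comm] at h2

theorem ta_ind_main (hStep : ta_StepStatement) (hTr : ta_TransportStatement) :
    ModLDegStatement := by
  intro N _ ℓ _ hN k _ _ _
  exact hTr N k (ta_ind_all hStep N ℓ hN k N dvd_rfl).1

end

end Fermat.Agent.S28
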