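/-
S28, block Tower (twin A) — package Indep: the tower argument for linear independence.
-/
import Fermat.Agent.S28.TABasic

set_option autoImplicit false

open ModularCurve Polynomial

namespace Fermat.Agent.S28

noncomputable section

theorem ta_indep_main : ta_IndepStatement := by
  intro k _ Ω _ _ K0 L hKL n d b hb hli ξ hξ hd
  have hpow : LinearIndependent ↥L (fun t : Fin d => ξ ^ (t : ℕ)) :=
    (linearIndependent_pow (K := ↥L) ξ).comp (Fin.castLE hd) (Fin.castLE_injective hd)
  rw [Fintype.linearIndependent_iff] at hpow hli ⊢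
  intro g hg
  have hc : ∀ t : Fin d, (∑ s : Fin n, g (s, t) • b s) ∈ L := fun t =>
    sum_mem fun s _ => by
      rw [Algebra.smul_def]
      exact mul_mem (hKL (g (s, t)).2) (hb s)
  have h1 := hpow (fun t => ⟨∑ s : Fin n, g (s, t) • b s, hc t⟩) ?_
  · rintro ⟨s, t⟩
    have h2 : ∑ s : Fin n, g (s, t) • b s = 0 := congrArg Subtype.val (h1 t)
    exact hli (fun s => g (s, t)) h2 s
  · rw [← hg, Fintype.sum_prod_type_right]
    refine Finset.sum_congr rfl fun t _ => ?_
    rw [Algebra.smul_def]
    show (∑ s : Fin n, g (s, t) • b s) * ξ ^ (t : ℕ) = _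
    rw [Finset.sum_mul]
    refine Finset.sum_congr rfl fun s _ => ?_
    rw [Algebra.smul_def, Algebra.smul_def, mul_assoc]

end

end Fermat.Agent.S28
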