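/-
S28, block Tower (twin A) — package Key: assembly of THE KEY STEP.

For `r ^ i ∥ M`, `M r ∣ N`, the element `ξ = j(y^(N r^(i+1)))` is integral over `L_M`, of degree
`≥ r` (`≥ r + 1` if `i = 0`), and `j(y^(N / r^(i+1)))` is a root of the image under the twisting
embedding `τ` of its minimal polynomial.
-/
import Fermat.Agent.S28.TABasic

set_option autoImplicit false

open ModularCurve Polynomial

namespace Fermat.Agent.S28

noncomputable section

/-- The arithmetic of the key step: `M = r^i u` with `u` prime to `r`, `N = r^(i+1) a`. -/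
theorem ta_key_arith (N M r i : ℕ) (hN : N ≠ 0) (hr : r.Prime) (hMr : M * r ∣ N)
    (hri : r ^ i ∣ M) (hri' : ¬ r ^ (i + 1) ∣ M) :
    ∃ u a : ℕ, a ≠ 0 ∧ Nat.Coprime u r ∧ M = r ^ i * u ∧ N = r ^ (i + 1) * a ∧
      N / r ^ (i + 1) = a ∧ M * a = (N / r) * u := by
  obtain ⟨e, rfl⟩ := hMr
  obtain ⟨u, rfl⟩ := hri
  have hru : ¬ r ∣ u := fun ⟨v, hv⟩ => hri' ⟨v, by rw [hv]; ring⟩
  have hcop : Nat.Coprime u r := ((Nat.Prime.coprime_iff_not_dvd hr).mpr hru).symm
  have hN' : r ^ i * u * r * e = r ^ (i + 1) * (u * e) := by ring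
  have hN'' : r ^ i * u * r * e = r * (r ^ i * (u * e)) := by ring
  have hrpos : 0 < r := hr.pos
  refine ⟨u, u * e, ?_, hcop, rfl, hN', ?_, ?_⟩
  · intro h0
    apply hN
    rw [hN', h0, mul_zero]
  · rw [hN']
    exact Nat.mul_div_cancel_left _ (pow_pos hrpos _)
  · rw [hN'', Nat.mul_div_cancel_left _ hrpos]
    ring

/-- If the image under `τ` of the minimal polynomial of `ξ` over `L` is `X - C ρ`, then `ξ ∈ L`
and `τ ξ = ρ`. -/
theorem ta_key_linear (k : Type) [Field k] (L : IntermediateField k (LaurentSeries k))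
    (τ : ↥L →ₐ[k] LaurentSeries k) (ξ ρ : LaurentSeries k)
    (h : (minpoly ↥L ξ).map τ.toRingHom = X - C ρ) :
    ∃ x₀ : ↥L, (x₀ : LaurentSeries k) = ξ ∧ τ x₀ = ρ := by
  have hdeg : (minpoly ↥L ξ).natDegree = 1 := by
    rw [← Polynomial.natDegree_map τ.toRingHom, h, Polynomial.natDegree_X_sub_C]
  obtain ⟨x₀, hx₀⟩ := minpoly.natDegree_eq_one_iff.mp hdeg
  refine ⟨x₀, hx₀, ?_⟩
  have hmin : minpoly ↥L ξ = X - C x₀ := by
    rw [← hx₀]
    exact minpoly.eq_X_sub_C _ x₀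
  rw [hmin, Polynomial.map_sub, Polynomial.map_X, Polynomial.map_C] at h
  have h0 := congrArg (fun p : Polynomial (LaurentSeries k) => p.coeff 0) h
  simpa using h0

/-- THE KEY STEP, assembled from the packages Orbit, LemB, Div, Fix and Five. -/
theorem ta_key_main : ta_OrbitStatement → ta_LemBStatement → ta_DivStatement → ta_FixStatement →
    ta_FiveStatement → ta_KeyStatement := by
  intro hOrbit hLemB hDiv hFix hFive N _ ℓ _ hℓN k _ _ _ M r i hr hMr hri hri' τ hτ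
  have hN0 : N ≠ 0 := NeZero.ne N
  obtain ⟨u, a, ha, hcop, hM, hNa, hdiv, hMa⟩ := ta_key_arith N M r i hN0 hr hMr hri hri'
  have hMN : M ∣ N := (dvd_mul_right M r).trans hMr
  have hrN : r ∣ N := (dvd_mul_left r M).trans hMr
  have hr0 : r ≠ 0 := hr.ne_zero
  have hr2 : 2 ≤ r := hr.two_le
  -- roots of unity
  obtain ⟨g, hg⟩ := ta_exists_primitiveRoot ℓ k hℓN
  have hNr' : N = N / r * r := (Nat.div_mul_cancel hrN).symm
  obtain ⟨ζ, hζdef⟩ : ∃ ζ : k, ζ = g ^ (N / r) := ⟨_, rfl⟩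
  have hζ : IsPrimitiveRoot ζ r := by
    rw [hζdef]
    exact hg.pow (Nat.pos_of_ne_zero hN0) hNr'
  have hζ0 : ζ ≠ 0 := hζ.ne_zero hr0
  have hg0 : g ≠ 0 := hg.ne_zero hN0
  have hc : g ^ M ≠ 0 := pow_ne_zero _ hg0
  have hca : (g ^ M) ^ a = ζ ^ u := by
    rw [hζdef, ← pow_mul, ← pow_mul, hMa]
  -- Step 1
  obtain ⟨hint, hdvd⟩ := hDiv N k M r i hr hMr hri ζ hζ τ hτ
  rw [hdiv] at hdvd ⊢
  -- Step 2
  have hfix := hFix N k M hMN g hg.pow_eq_one τ hτ
  obtain ⟨ξ, hξ⟩ : ∃ ξ : LaurentSeries k, ξ = ta_J k 1 (N * r ^ (i + 1)) := ⟨_, rfl⟩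
  rw [← hξ] at hint hdvd ⊢
  obtain ⟨μ, hμ⟩ : ∃ μ : Polynomial ↥(ta_L k N M), μ = minpoly ↥(ta_L k N M) ξ := ⟨_, rfl⟩
  rw [← hμ] at hdvd ⊢
  have hμmonic : μ.Monic := by
    rw [hμ]
    exact minpoly.monic hint
  have hQmonic : (μ.map τ.toRingHom).Monic := hμmonic.map _
  have hQdeg : (μ.map τ.toRingHom).natDegree = μ.natDegree := hμmonic.natDegree_map _
  have hμpos : 0 < μ.natDegree := by
    rw [hμ]
    exact minpoly.natDegree_pos hint
  have hQfix : ∀ n : ℕ, scale (g ^ M) ((μ.map τ.toRingHom).coeff n) =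
      (μ.map τ.toRingHom).coeff n := by
    intro n
    rw [Polynomial.coeff_map]
    exact hfix _
  -- Step 3
  have hρ : ∀ b : ℕ, ta_J k 1 (a * (r * r)) ≠ ta_J k (ζ ^ b) a := by
    intro b hb
    have h1 := (ta_J_inj k 1 (ζ ^ b) one_ne_zero (pow_ne_zero _ hζ0)
      (Nat.mul_ne_zero ha (Nat.mul_ne_zero hr0 hr0)) ha hb).1
    have h2 : a * (r * r) = a * 1 := by rw [h1, mul_one]
    have h3 := Nat.eq_of_mul_eq_mul_left (Nat.pos_of_ne_zero ha) h2
    nlinarith
  have hroot0 : (∏ b ∈ Finset.range r, (X - C (ta_J k (ζ ^ b) a))).eval (ta_J k 1 a) = 0 := by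
    rw [Polynomial.eval_prod]
    apply Finset.prod_eq_zero (Finset.mem_range.mpr hr.pos)
    rw [pow_zero]
    simp
  have hdegprod : (∏ b ∈ Finset.range r, (X - C (ta_J k (ζ ^ b) a))).natDegree = r := by
    rw [Polynomial.natDegree_finsetProd_X_sub_C_eq_card, Finset.card_range]
  have hprodmonic : (∏ b ∈ Finset.range r, (X - C (ta_J k (ζ ^ b) a))).Monic :=
    Polynomial.monic_prod_of_monic _ _ fun b _ => Polynomial.monic_X_sub_C _
  -- the element `ξ` is not in `L_M` when `i = 0`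
  have hnotmem : i = 0 → ξ ∉ ta_L k N M := by
    intro hi
    subst hi
    rw [hξ, zero_add, pow_one]
    refine hLemB N ℓ hℓN k M r hr hMr ?_
    simpa using hri'
  refine ⟨hint, ?_⟩
  rcases hOrbit k r a u hr ha hcop ζ (g ^ M) hζ hc hca _ hρ _ hQmonic hdvd hQfix with h | h | h | h
  · -- `Q = 1`: impossible
    exfalso
    rw [h, Polynomial.natDegree_one] at hQdeg
    omega
  · -- `Q = X - C ρ∞`: impossible
    exfalso
    rw [hμ] at h
    obtain ⟨x₀, hx₀, hτx₀⟩ := ta_key_linear k (ta_L k N M) τ ξ _ h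
    rcases Nat.eq_zero_or_pos i with hi | hi
    · exact hnotmem hi (hx₀ ▸ x₀.2)
    · obtain ⟨i', rfl⟩ := Nat.exists_eq_succ_of_ne_zero hi.ne'
      have hi'M : r ^ i' ∣ M := (pow_dvd_pow r (Nat.le_succ i')).trans hri
      have hdiv' : N / r ^ i' = a * (r * r) := by
        rw [hNa]
        have : r ^ (i' + 1 + 1) * a = r ^ i' * (a * (r * r)) := by ring
        rw [this]
        exact Nat.mul_div_cancel_left _ (pow_pos hr.pos _)
      have hy := hτ ⟨ta_J k 1 (N * r ^ i'), ta_mem_L k N M hr hi'M⟩ r i' hr hi'M rfl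
      rw [hdiv', ← hτx₀] at hy
      have hyx := congrArg Subtype.val (τ.toRingHom.injective hy)
      rw [hx₀, hξ] at hyx
      have h1 := (ta_J_inj k 1 1 one_ne_zero one_ne_zero
        (Nat.mul_ne_zero hN0 (pow_ne_zero _ hr0)) (Nat.mul_ne_zero hN0 (pow_ne_zero _ hr0)) hyx).1
      have h2 := Nat.eq_of_mul_eq_mul_left (Nat.pos_of_ne_zero hN0) h1
      have h3 := Nat.pow_right_injective hr2 h2
      omega
  · -- `Q = ∏ (X - C ρ_b)`
    have hdeg : μ.natDegree = r := by rw [← hQdeg, h, hdegprod]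
    constructor
    · split_ifs with hi
      · exfalso
        have hmem := hnotmem hi
        subst hi
        rw [zero_add, pow_one] at hξ
        rw [hξ] at hmem
        apply hFive N k M r hr hrN ζ hζ hmem
        rw [← hξ, ← hμ]
        exact hdeg
      · exact hdeg.ge
    · rw [← Polynomial.eval_map, h]
      exact hroot0
  · -- `Q = (X - C ρ∞) * ∏ (X - C ρ_b)`
    have hdeg : μ.natDegree = r + 1 := by
      rw [← hQdeg, h, (Polynomial.monic_X_sub_C _).natDegree_mul hprodmonic,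
        Polynomial.natDegree_X_sub_C, hdegprod, add_comm]
    constructor
    · split_ifs with hi
      · exact hdeg.ge
      · rw [hdeg]
        exact Nat.le_succ r
    · rw [← Polynomial.eval_map, h, Polynomial.eval_mul, hroot0, mul_zero]

end

end Fermat.Agent.S28
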