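/-
S28, block Tower (twin A) — package LemB.

LEMMA B: for a prime `r` with `M r ∣ N` and `r ∤ M`, the series `ξ = j(y^(N r))` does not lie in
`L_M = k(j(y^(N p^i)) : p prime, p^i ∣ M)`.

Proof: by the modular equation and the degree statement `ta_PrimeNStatement`, the series
`ρ = j(y^(N / r))` is a conjugate of `ξ` over `K0 = k(j(y^N))`.  If `ξ ∈ L_M`, there is a
`K0`-embedding of `L_M` into an algebraic closure of `k((y))` sending `ξ` to `ρ`; by root tracking
it maps `L_M` into `k((y^e))`, `e = N / M`, but `ρ ∉ k((y^e))`.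
-/
import Fermat.Agent.S28.TABasic

set_option autoImplicit false

open ModularCurve Polynomial

namespace Fermat.Agent.S28

noncomputable section

/-- Abstract extension lemma: if the elements of `S` are integral over `K0` and `ρ` is a root of
the minimal polynomial over `K0` of `ξ ∈ K0(S)`, then there is a `K0`-embedding of `K0(S)` into
the algebraic closure of `Ω` sending `ξ` to `ρ`. -/
theorem ta_lemB_ext (k : Type) [Field k] (Ω : Type) [Field Ω] [Algebra k Ω]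
    (K0 : IntermediateField k Ω) (S : Set Ω) (hS : ∀ s ∈ S, IsIntegral ↥K0 s) (ξ ρ : Ω)
    (hξ : ξ ∈ IntermediateField.adjoin ↥K0 S)
    (hρ : Polynomial.aeval ρ (minpoly ↥K0 ξ) = 0) :
    ∃ σ : ↥(IntermediateField.adjoin ↥K0 S) →ₐ[↥K0] AlgebraicClosure Ω,
      σ ⟨ξ, hξ⟩ = algebraMap Ω (AlgebraicClosure Ω) ρ := by
  refine IntermediateField.exists_algHom_adjoin_of_splits_of_aeval
    (fun s hs => ⟨hS s hs, IsAlgClosed.splits _⟩) hξ ?_
  rw [Polynomial.aeval_algebraMap_apply, hρ, map_zero]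

/-- Abstract form of the embedding: for `ξ ∈ k(S)`, `S` integral over `K0`, and a `K0`-conjugate
`ρ` of `ξ`, there are a field `E`, an embedding `f : E → Ω` whose image contains `S`, and an
embedding `φ` of `E` into the algebraic closure `Ω̄` of `Ω` which agrees with `f` on the preimage
of `K0` and sends the preimage of `ξ` to `ρ`; moreover `E` is generated by the preimages of `K0`
and `S` (expressed as an induction principle for subfields of `Ω̄`). -/
theorem ta_lemB_abs (k : Type) [Field k] (Ω : Type) [Field Ω] [Algebra k Ω]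
    (K0 : IntermediateField k Ω) (S : Set Ω) (hS : ∀ s ∈ S, IsIntegral ↥K0 s) (ξ ρ : Ω)
    (hξ : ξ ∈ IntermediateField.adjoin k S)
    (hρ : Polynomial.aeval ρ (minpoly ↥K0 ξ) = 0) :
    ∃ (E : Type) (_ : Field E) (_ : Algebra k E) (f : E →ₐ[k] Ω)
      (φ : E →ₐ[k] AlgebraicClosure Ω),
      S ⊆ Set.range f ∧
      (∀ x : E, f x ∈ K0 → φ x = algebraMap Ω (AlgebraicClosure Ω) (f x)) ∧
      (∃ x : E, f x = ξ ∧ φ x = algebraMap Ω (AlgebraicClosure Ω) ρ) ∧
      (∀ T : IntermediateField k (AlgebraicClosure Ω),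
        (∀ c ∈ K0, algebraMap Ω (AlgebraicClosure Ω) c ∈ T) →
        (∀ x : E, f x ∈ S → φ x ∈ T) → ∀ x : E, φ x ∈ T) := by
  have hle : IntermediateField.adjoin k S ≤
      (IntermediateField.adjoin ↥K0 S).restrictScalars k :=
    IntermediateField.adjoin_le_iff.mpr fun y hy => IntermediateField.subset_adjoin ↥K0 _ hy
  have hξ' : ξ ∈ IntermediateField.adjoin ↥K0 S := hle hξ
  obtain ⟨σ, hσ⟩ := ta_lemB_ext k Ω K0 S hS ξ ρ hξ' hρ
  refine ⟨↥(IntermediateField.adjoin ↥K0 S), inferInstance, inferInstance,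
    (IntermediateField.val _).restrictScalars k, σ.restrictScalars k, ?_, ?_, ?_, ?_⟩
  · intro s hs
    exact ⟨⟨s, IntermediateField.subset_adjoin _ _ hs⟩, rfl⟩
  · intro x hx
    have hx' : x = algebraMap ↥K0 ↥(IntermediateField.adjoin ↥K0 S) ⟨x.1, hx⟩ := Subtype.ext rfl
    have h2 := σ.commutes ⟨x.1, hx⟩
    rw [← hx'] at h2
    exact h2
  · exact ⟨⟨ξ, hξ'⟩, rfl, hσ⟩
  · intro T hK0 hgen
    have hall : ∀ y (hy : y ∈ IntermediateField.adjoin ↥K0 S), σ ⟨y, hy⟩ ∈ T := by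
      intro y hy
      induction hy using IntermediateField.adjoin_induction with
      | mem x hx => exact hgen ⟨x, IntermediateField.subset_adjoin _ _ hx⟩ hx
      | algebraMap c =>
        have h2 := σ.commutes c
        have h3 : σ ⟨algebraMap ↥K0 Ω c, IntermediateField.algebraMap_mem _ c⟩ =
            algebraMap Ω (AlgebraicClosure Ω) (c : Ω) := h2
        rw [h3]
        exact hK0 _ c.2
      | add x y hx hy hx' hy' =>
        have h2 : σ ⟨x + y, add_mem hx hy⟩ = σ ⟨x, hx⟩ + σ ⟨y, hy⟩ := map_add σ ⟨x, hx⟩ ⟨y, hy⟩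
        rw [h2]
        exact add_mem hx' hy'
      | inv x hx hx' =>
        have h2 : σ ⟨x⁻¹, inv_mem hx⟩ = (σ ⟨x, hx⟩)⁻¹ := map_inv₀ σ ⟨x, hx⟩
        rw [h2]
        exact inv_mem hx'
      | mul x y hx hy hx' hy' =>
        have h2 : σ ⟨x * y, mul_mem hx hy⟩ = σ ⟨x, hx⟩ * σ ⟨y, hy⟩ := map_mul σ ⟨x, hx⟩ ⟨y, hy⟩
        rw [h2]
        exact mul_mem hx' hy'
    intro x
    exact hall x.1 x.2

/-- Step (1): `ρ = j(y^a)` is a root of the minimal polynomial of `ξ = j(y^(N r))` over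
`K0 = k(j(y^N))`, where `N = a r`. -/
theorem ta_lemB_conj (hME : ModEqStatement) (hPN : ta_PrimeNStatement)
    (N : ℕ) [NeZero N] (ℓ : ℕ) [Fact ℓ.Prime] (hℓ : ¬ ℓ ∣ N) (k : Type) [Field k] [CharP k ℓ]
    [IsAlgClosed k] (r a : ℕ) (hr : r.Prime) (hNa : N = a * r) :
    Polynomial.aeval (ta_J k 1 a) (minpoly ↥(ta_K0 k N) (ta_J k 1 (N * r))) = 0 := by
  have hrℓ : ¬ ℓ ∣ r := fun h => hℓ (hNa ▸ Dvd.dvd.mul_left h a)
  have hr_ne : r ≠ ℓ := fun h => hrℓ (h ▸ dvd_rfl)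
  have ha : a ≠ 0 := by
    rintro rfl
    exact NeZero.ne N (by rw [hNa, zero_mul])
  obtain ⟨ζ, hζ⟩ := ta_exists_primitiveRoot ℓ k hrℓ
  obtain ⟨Φ, hmon, hdeg, hΦ1, -⟩ := ta_modEq_pack hME k r hr ζ hζ
  have h1 := hΦ1 1 one_ne_zero a ha
  simp only [one_pow, mul_one] at h1
  rw [← mul_assoc, ← hNa] at h1
  -- the modular polynomial with coefficients in `K0`
  set j0 : ↥(ta_K0 k N) := ⟨ta_J k 1 N, ta_JN_mem_K0 k N⟩ with hj0
  set Ψ : Polynomial ↥(ta_K0 k N) :=
    Φ.map (Polynomial.aeval j0 : k[X] →ₐ[k] ↥(ta_K0 k N)).toRingHom with hΨ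
  have hΨmap : Ψ.map (algebraMap ↥(ta_K0 k N) (LaurentSeries k)) =
      Φ.map (evalL (ta_J k 1 N)) := by
    rw [hΨ, Polynomial.map_map]
    congr 1
    refine RingHom.ext fun p => ?_
    rw [ta_evalL_eq_aeval]
    show algebraMap ↥(ta_K0 k N) (LaurentSeries k) (Polynomial.aeval j0 p) = _
    rw [← Polynomial.aeval_algebraMap_apply]
    rfl
  have hΨmon : Ψ.Monic := hmon.map _
  have hΨdeg : Ψ.natDegree = r + 1 := by rw [hΨ, hmon.natDegree_map, hdeg]
  have hξ : Polynomial.aeval (ta_J k 1 (N * r)) Ψ = 0 := by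
    rw [← Polynomial.eval_map_algebraMap, hΨmap, h1, Polynomial.eval_mul, Polynomial.eval_sub,
      Polynomial.eval_X, Polynomial.eval_C, sub_self, zero_mul]
  have hρ : Polynomial.aeval (ta_J k 1 a) Ψ = 0 := by
    rw [← Polynomial.eval_map_algebraMap, hΨmap, h1, Polynomial.eval_mul, Polynomial.eval_prod,
      Finset.prod_eq_zero (Finset.mem_range.mpr hr.pos) (by simp), mul_zero]
  have hint : IsIntegral ↥(ta_K0 k N) (ta_J k 1 (N * r)) := ⟨Ψ, hΨmon, hξ⟩
  have hdvd := minpoly.dvd ↥(ta_K0 k N) (ta_J k 1 (N * r)) hξ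
  have hmindeg := hPN N ℓ k r hr hr_ne
  have heq : Ψ = minpoly ↥(ta_K0 k N) (ta_J k 1 (N * r)) :=
    Polynomial.eq_of_monic_of_dvd_of_natDegree_le (minpoly.monic hint) hΨmon hdvd
      (by rw [hΨdeg, hmindeg])
  rw [← heq]
  exact hρ

/-- LEMMA B with explicit cofactors: `N = a r = M e`, `e ∤ a`. -/
theorem ta_lemB_core (hME : ModEqStatement) (hPN : ta_PrimeNStatement)
    (hRT : ta_RootTrackStatement) (hAlg : ta_AlgStatement)
    (N : ℕ) [NeZero N] (ℓ : ℕ) [Fact ℓ.Prime] (hℓ : ¬ ℓ ∣ N) (k : Type) [Field k] [CharP k ℓ]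
    [IsAlgClosed k] (M r a e : ℕ) (hr : r.Prime) (hNa : N = a * r) (hNe : N = M * e)
    (hnd : ¬ e ∣ a) : ta_J k 1 (N * r) ∉ ta_L k N M := by
  intro hmem
  have hN : N ≠ 0 := NeZero.ne N
  have ha : a ≠ 0 := by
    rintro rfl
    exact hN (by rw [hNa, zero_mul])
  have he : e ≠ 0 := by
    rintro rfl
    exact hN (by rw [hNe, mul_zero])
  have hM : M ∣ N := ⟨e, hNe⟩
  have : NeZero e := ⟨he⟩
  -- Step 1: `ρ` is a conjugate of `ξ` over `K0`
  have hconj := ta_lemB_conj hME hPN N ℓ hℓ k r a hr hNa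
  -- Step 2: the embedding
  have hS : ∀ s ∈ ta_gens k N M, IsIntegral ↥(ta_K0 k N) s := fun s hs =>
    hAlg N ℓ hℓ k M hM s (IntermediateField.subset_adjoin k _ hs)
  obtain ⟨E, _, _, f, φ, hrange, hφK0, ⟨xξ, hfξ, hφξ⟩, hind⟩ :=
    ta_lemB_abs k (LaurentSeries k) (ta_K0 k N) (ta_gens k N M) hS _ _ hmem hconj
  let ι : LaurentSeries k →ₐ[k] AlgebraicClosure (LaurentSeries k) :=
    IsScalarTower.toAlgHom k _ _
  let W : IntermediateField k (LaurentSeries k) := (qExpandAlgHomC k e).fieldRange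
  have hK0W : ta_K0 k N ≤ W := by
    rw [ta_K0, IntermediateField.adjoin_le_iff]
    intro x hx
    rw [Set.mem_singleton_iff] at hx
    subst hx
    exact ta_J_mem_fieldRange k 1 e hN ⟨M, by rw [hNe, mul_comm]⟩
  have hfix : ∀ x : E, f x = ta_J k 1 N → φ x = ι (ta_J k 1 N) := by
    intro x hx
    have h2 := hφK0 x (hx ▸ ta_JN_mem_K0 k N)
    rw [hx] at h2
    exact h2
  -- Steps 3 and 4: root tracking for the generators; all of `E` is mapped into `W`
  have hall : ∀ x : E, φ x ∈ W.map ι := by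
    refine hind (W.map ι) (fun c hc => (IntermediateField.map_mem_map W ι).mpr (hK0W hc)) ?_
    rintro x ⟨p, j, hp, hpj, hx⟩
    obtain ⟨c, a', hc, ha', hdiv, hφ⟩ := hRT N ℓ hℓ k E f (AlgebraicClosure (LaurentSeries k))
      ι φ hfix p j hp (hpj.trans hM)
      (fun t ht => hrange (ta_mem_gens k N M hp ((pow_dvd_pow p ht).trans hpj))) x hx
    rw [hφ]
    refine (IntermediateField.map_mem_map W ι).mpr
      (ta_J_mem_fieldRange k c e ha' (dvd_trans ?_ hdiv))
    obtain ⟨t, ht⟩ := hpj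
    refine ⟨t, ?_⟩
    rw [hNe, ht, mul_assoc, Nat.mul_div_cancel_left _ (pow_pos hp.pos j)]
    exact mul_comm _ _
  -- Step 5: contradiction
  have h5 := hall xξ
  have hφξ' : φ xξ = ι (ta_J k 1 a) := hφξ
  rw [hφξ'] at h5
  have hz : ta_J k 1 a ∈ W := (IntermediateField.map_mem_map W ι).mp h5
  have hcoeff := ta_fieldRange_coeff k e hz (-(a : ℤ)) (by
    rw [dvd_neg, Int.natCast_dvd_natCast]
    exact hnd)
  rw [ta_J_coeff_neg k 1 one_ne_zero ha, inv_one] at hcoeff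
  exact one_ne_zero hcoeff

/-- LEMMA B: for a prime `r` with `M r ∣ N` and `r ∤ M`, `j(y^(N r)) ∉ L_M`. -/
theorem ta_lemB_main : ModEqStatement → ta_PrimeNStatement → ta_RootTrackStatement →
    ta_AlgStatement → ta_LemBStatement := by
  intro hME hPN hRT hAlg N _ ℓ _ hℓ k _ _ _ M r hr hdvd hrM
  obtain ⟨s, hs⟩ := hdvd
  have hs0 : s ≠ 0 := by
    rintro rfl
    exact NeZero.ne N (by rw [hs, mul_zero])
  refine ta_lemB_core hME hPN hRT hAlg N ℓ hℓ k M r (M * s) (r * s) hr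
    (by rw [hs]; ring) (by rw [hs]; ring) ?_
  intro h
  exact hrM ((Nat.mul_dvd_mul_iff_right (Nat.pos_of_ne_zero hs0)).mp h)

end

end Fermat.Agent.S28
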