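/-
S28, block Tower (twin A) — package Orbit.

A monic divisor `Q` of `(X - ρ) ∏_{b<r} (X - j(ζ^b y^a))` whose coefficients are fixed by the
substitution `y ↦ c y`, where `c ^ a = ζ ^ u` with `u` prime to `r`, is one of the four obvious
ones: the substitution permutes the roots `j(ζ^b y^a)` transitively.
-/
import Fermat.Agent.S28.TABasic

set_option autoImplicit false

open ModularCurve Polynomial

namespace Fermat.Agent.S28

/-- A monic divisor of `X - C ρ` over a field is `1` or `X - C ρ`. -/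
theorem ta_orbit_monic_dvd_linear {K : Type*} [Field K] (ρ : K) (R : K[X]) (hR : R.Monic)
    (hdvd : R ∣ X - C ρ) : R = 1 ∨ R = X - C ρ := by
  have hdeg : R.natDegree ≤ 1 := by
    have h := Polynomial.natDegree_le_of_dvd hdvd (X_sub_C_ne_zero ρ)
    rwa [natDegree_X_sub_C] at h
  rcases Nat.eq_zero_or_pos R.natDegree with h0 | hpos
  · left
    exact Polynomial.eq_one_of_monic_natDegree_zero hR h0
  · right
    exact (Polynomial.eq_of_monic_of_dvd_of_natDegree_le hR (monic_X_sub_C ρ) hdvd
      (by rw [natDegree_X_sub_C]; omega)).symm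

/-- (Orbit) The package statement. -/
theorem ta_orbit_main : ta_OrbitStatement := by
  intro k _ r a u hr ha hu ζ c hζ hc hca ρ _hρ Q hQ hdvd hfix
  classical
  -- the substitution `y ↦ c y` fixes `Q`
  have hQσ : Q.map (substB_scaleHom c hc) = Q := by
    refine Polynomial.ext fun n => ?_
    rw [Polynomial.coeff_map, substB_scaleHom_apply]
    exact hfix n
  -- hence it permutes the roots of `Q`
  have hroot : ∀ s : LaurentSeries k, Q.eval s = 0 → Q.eval (scale c s) = 0 := by
    intro s hs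
    have h := Polynomial.eval₂_at_apply (p := Q) (substB_scaleHom c hc) s
    rw [← Polynomial.eval_map, hQσ, hs, map_zero, substB_scaleHom_apply] at h
    exact h
  have hr0 : NeZero r := ⟨hr.ne_zero⟩
  have hζ0 : ζ ≠ 0 := hζ.ne_zero hr.ne_zero
  have hstep : ∀ z : k, Q.eval (ta_J k z a) = 0 → Q.eval (ta_J k (z * ζ ^ u) a) = 0 := by
    intro z hz
    have h := hroot _ hz
    rwa [ta_scale_J k z c ha, hca] at h
  have hiter : ∀ (t : ℕ) (z : k), Q.eval (ta_J k z a) = 0 →
      Q.eval (ta_J k (z * (ζ ^ u) ^ t) a) = 0 := by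
    intro t
    induction t with
    | zero =>
      intro z hz
      rwa [pow_zero, mul_one]
    | succ t ih =>
      intro z hz
      have h := hstep _ (ih z hz)
      rwa [mul_assoc, ← pow_succ] at h
  have hζu : IsPrimitiveRoot (ζ ^ u) r := hζ.pow_of_coprime u hu
  -- transitivity: one root `j(ζ^b y^a)` gives all of them
  have hall : ∀ b b' : ℕ, Q.eval (ta_J k (ζ ^ b) a) = 0 → Q.eval (ta_J k (ζ ^ b') a) = 0 := by
    intro b b' hb
    have hx : (ζ ^ b' * (ζ ^ b)⁻¹) ^ r = 1 := by
      rw [mul_pow, inv_pow, ← pow_mul, ← pow_mul, mul_comm b' r, mul_comm b r, pow_mul, pow_mul,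
        hζ.pow_eq_one, one_pow, one_pow, inv_one, mul_one]
    obtain ⟨t, -, ht⟩ := hζu.eq_pow_of_pow_eq_one hx
    have h := hiter t _ hb
    have he : ζ ^ b * (ζ ^ b' * (ζ ^ b)⁻¹) = ζ ^ b' := by
      rw [mul_comm (ζ ^ b') _, ← mul_assoc, mul_inv_cancel₀ (pow_ne_zero b hζ0), one_mul]
    rwa [ht, he] at h
  -- the roots `j(ζ^b y^a)`, `b < r`, are pairwise distinct
  have hinj : ∀ b ∈ Finset.range r, ∀ b' ∈ Finset.range r,
      ta_J k (ζ ^ b) a = ta_J k (ζ ^ b') a → b = b' := by
    intro b hb b' hb' h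
    have h2 := (ta_J_inj k _ _ (pow_ne_zero b hζ0) (pow_ne_zero b' hζ0) ha ha h).2
    exact hζ.pow_inj (Finset.mem_range.mp hb) (Finset.mem_range.mp hb') h2
  have hcop : (↑(Finset.range r) : Set ℕ).Pairwise (Function.onFun IsCoprime
      fun b => (X - C (ta_J k (ζ ^ b) a) : Polynomial (LaurentSeries k))) := by
    intro b hb b' hb' hne
    apply Polynomial.isCoprime_X_sub_C_of_isUnit_sub
    rw [isUnit_iff_ne_zero, sub_ne_zero]
    exact fun h => hne (hinj b hb b' hb' h)
  have hPmonic : (∏ b ∈ Finset.range r,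
      (X - C (ta_J k (ζ ^ b) a) : Polynomial (LaurentSeries k))).Monic :=
    Polynomial.monic_prod_of_monic _ _ (fun b _ => monic_X_sub_C _)
  have hP0 := hPmonic.ne_zero
  by_cases hex : ∃ b ∈ Finset.range r, Q.eval (ta_J k (ζ ^ b) a) = 0
  · -- Case A: all `j(ζ^b y^a)` are roots of `Q`
    obtain ⟨b, -, hb⟩ := hex
    have hPQ : (∏ b ∈ Finset.range r,
        (X - C (ta_J k (ζ ^ b) a) : Polynomial (LaurentSeries k))) ∣ Q := by
      refine Finset.prod_dvd_of_coprime hcop fun b' _ => ?_
      rw [Polynomial.dvd_iff_isRoot]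
      exact hall b b' hb
    obtain ⟨R, hR⟩ := hPQ
    have hRmonic : R.Monic := by
      rw [hR] at hQ
      exact hPmonic.of_mul_monic_left hQ
    have hRdvd : R ∣ X - C ρ := by
      rw [hR, mul_comm (X - C ρ) _] at hdvd
      exact (mul_dvd_mul_iff_left hP0).mp hdvd
    rcases ta_orbit_monic_dvd_linear ρ R hRmonic hRdvd with h1 | h1
    · right; right; left
      rw [hR, h1, mul_one]
    · right; right; right
      rw [hR, h1, mul_comm]
  · -- Case B: no `j(ζ^b y^a)` is a root of `Q`
    have hcopQ : IsCoprime Q (∏ b ∈ Finset.range r,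
        (X - C (ta_J k (ζ ^ b) a) : Polynomial (LaurentSeries k))) := by
      refine IsCoprime.prod_right fun b hb => ?_
      have hirr : Irreducible (X - C (ta_J k (ζ ^ b) a) : Polynomial (LaurentSeries k)) :=
        Polynomial.irreducible_X_sub_C _
      have hnd : ¬ (X - C (ta_J k (ζ ^ b) a) : Polynomial (LaurentSeries k)) ∣ Q := by
        rw [Polynomial.dvd_iff_isRoot]
        exact fun h => hex ⟨b, hb, h⟩
      exact ((hirr.coprime_iff_not_dvd).mpr hnd).symm
    have hQdvd : Q ∣ X - C ρ := hcopQ.dvd_of_dvd_mul_right hdvd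
    rcases ta_orbit_monic_dvd_linear ρ Q hQ hQdvd with h1 | h1
    · left
      exact h1
    · right; left
      exact h1

end Fermat.Agent.S28
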