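/-
S28, block Tower (twin A) — package PrimeN.

`PrimeIrredStatement` transported along the injective substitution `y ↦ y ^ N`:
`j(y^(N r))` has degree `r + 1` over `K0 = k(j(y^N))`.
-/
import Fermat.Agent.S28.TABasic

set_option autoImplicit false

open ModularCurve Polynomial

namespace Fermat.Agent.S28

/-- Transport of a polynomial relation along a `k`-algebra endomorphism `θ` of a field `Ω`:
for `P ∈ F[X]`, `θ (P(x)) = (θ P)(θ x)`, where `θ P` has coefficients in `θ(F)`. -/
theorem ta_primeN_aeval_map {k Ω : Type} [Field k] [Field Ω] [Algebra k Ω] (θ : Ω →ₐ[k] Ω)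
    (F : IntermediateField k Ω) (x : Ω) (P : Polynomial ↥F) :
    θ (Polynomial.aeval x P) =
      Polynomial.aeval (θ x)
        (P.map ((IntermediateField.equivMap F θ : ↥F ≃ₐ[k] ↥(F.map θ)) : ↥F →+* ↥(F.map θ))) := by
  have hcomp : (algebraMap ↥(F.map θ) Ω).comp
      ((IntermediateField.equivMap F θ : ↥F ≃ₐ[k] ↥(F.map θ)) : ↥F →+* ↥(F.map θ)) =
      (θ : Ω →+* Ω).comp (algebraMap ↥F Ω) := RingHom.ext fun _ => rfl
  exact Polynomial.map_aeval_eq_aeval_map hcomp P x

/-- The minimal polynomial of `θ x` over `θ(F)` is the image of the minimal polynomial of `x`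
over `F` (for `x` integral over `F`). -/
theorem ta_primeN_minpoly_map {k Ω : Type} [Field k] [Field Ω] [Algebra k Ω] (θ : Ω →ₐ[k] Ω)
    (F : IntermediateField k Ω) (x : Ω) (hx : IsIntegral ↥F x) :
    minpoly ↥(F.map θ) (θ x) =
      (minpoly ↥F x).map
        ((IntermediateField.equivMap F θ : ↥F ≃ₐ[k] ↥(F.map θ)) : ↥F →+* ↥(F.map θ)) := by
  symm
  refine minpoly.eq_of_irreducible_of_monic ?_ ?_ ?_
  · have h := (MulEquiv.irreducible_iff (Polynomial.mapEquiv
      ((IntermediateField.equivMap F θ : ↥F ≃ₐ[k] ↥(F.map θ)) : ↥F ≃+* ↥(F.map θ)))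
      (x := minpoly ↥F x)).mpr (minpoly.irreducible hx)
    exact h
  · rw [← ta_primeN_aeval_map θ F x (minpoly ↥F x), minpoly.aeval, map_zero]
  · exact (minpoly.monic hx).map _

/-- Degree form of the transport, with the image field given up to equality. -/
theorem ta_primeN_natDegree {k Ω : Type} [Field k] [Field Ω] [Algebra k Ω] (θ : Ω →ₐ[k] Ω)
    (F K : IntermediateField k Ω) (hFK : F.map θ = K) (x : Ω) (hx : IsIntegral ↥F x) :
    (minpoly ↥K (θ x)).natDegree = (minpoly ↥F x).natDegree := by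
  subst hFK
  rw [ta_primeN_minpoly_map θ F x hx, Polynomial.natDegree_map]

/-- (PrimeN) `j(y^(N r))` has degree `r + 1` over `K0 = k(j(y^N))`. -/
theorem ta_primeN_main : PrimeIrredStatement → ta_PrimeNStatement := by
  intro hPI N _ ℓ _ k _ _ _ r hr hrℓ
  have : NeZero r := ⟨hr.ne_zero⟩
  have h := hPI ℓ k r hr hrℓ
  have hx : IsIntegral ↥(IntermediateField.adjoin k {jqModC k}) (qExpand k r (jqModC k)) := by
    by_contra hni
    rw [minpoly.eq_zero hni, Polynomial.natDegree_zero] at h
    omega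
  have hmap : (IntermediateField.adjoin k {jqModC k}).map (qExpandAlgHomC k N) = ta_K0 k N := by
    rw [IntermediateField.adjoin_map, Set.image_singleton, qExpandAlgHomC_apply, ← ta_J_one_eq]
    rfl
  have hθx : qExpandAlgHomC k N (qExpand k r (jqModC k)) = ta_J k 1 (N * r) := by
    rw [qExpandAlgHomC_apply, qExpand_qExpand, ta_J_one_eq]
  have hdeg := ta_primeN_natDegree (qExpandAlgHomC k N) (IntermediateField.adjoin k {jqModC k})
    (ta_K0 k N) hmap (qExpand k r (jqModC k)) hx
  rw [hθx] at hdeg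
  rw [hdeg, h]

end Fermat.Agent.S28
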