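/-
S28, block Tower (twin A) — package RootTrack.

Root tracking: a `k`-embedding `φ` of a field `E ⊆ Ω = k((y))` (embedded by `f`) into a field
`Ω' ⊇ Ω` (embedded by `ι`) which fixes `j(y^N)` sends `j(y^(N p^j))` to some `j(c y^a)` with
`N / p^j ∣ a`, provided `p ^ j ∣ N` and `E` contains `j(y^(N p^t))` for `t ≤ j`.

The proof is an induction on `j`; the induction step uses the modular equation of level `p`
(`ta_modEq_pack`): `j(y^(A p))` is a root of `Φ(X, j(y^A))`, so its image under `φ` is a root of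
`Φ(X, φ(j(y^A))) = Φ(X, j(c y^(a p)))`, whose roots are `j(c'^(p p) y^(a p p))` and
`j(ζ^b c' y^a)`, `b < p` (where `c' ^ p = c`).
-/
import Fermat.Agent.S28.TABasic

set_option autoImplicit false

open ModularCurve Polynomial

namespace Fermat.Agent.S28

/-- Transport of the "specialised" two-variable polynomial `Φ(X, x)` along a `k`-algebra hom. -/
theorem ta_root_map_aeval (k : Type) [Field k] (A B : Type) [CommRing A] [Algebra k A]
    [CommRing B] [Algebra k B] (g : A →ₐ[k] B) (x : A) (Φ : Polynomial (Polynomial k)) :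
    (Φ.map (Polynomial.aeval x : k[X] →ₐ[k] A).toRingHom).map g.toRingHom =
      Φ.map (Polynomial.aeval (g x) : k[X] →ₐ[k] B).toRingHom := by
  rw [Polynomial.map_map]
  congr 1
  refine RingHom.ext fun q => ?_
  exact (Polynomial.aeval_algHom_apply g x q).symm

/-- If `y` is a root of `Φ(X, x)` then `g y` is a root of `Φ(X, g x)`. -/
theorem ta_root_eval_hom (k : Type) [Field k] (A B : Type) [CommRing A] [Algebra k A]
    [CommRing B] [Algebra k B] (g : A →ₐ[k] B) (x y : A) (Φ : Polynomial (Polynomial k))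
    (h : (Φ.map (Polynomial.aeval x : k[X] →ₐ[k] A).toRingHom).eval y = 0) :
    (Φ.map (Polynomial.aeval (g x) : k[X] →ₐ[k] B).toRingHom).eval (g y) = 0 := by
  rw [← ta_root_map_aeval k A B g x Φ]
  have h2 := Polynomial.eval_map_apply
    (p := Φ.map (Polynomial.aeval x : k[X] →ₐ[k] A).toRingHom) (f := g.toRingHom) y
  rw [h, map_zero] at h2
  exact h2

/-- The induction step of root tracking, in terms of the modular equation of level `p`. -/
theorem ta_root_step (hME : ModEqStatement) (ℓ : ℕ) [Fact ℓ.Prime] (k : Type) [Field k]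
    [CharP k ℓ] [IsAlgClosed k] (E : Type) [Field E] [Algebra k E]
    (f : E →ₐ[k] LaurentSeries k) (Ω' : Type) [Field Ω'] [Algebra k Ω']
    (ι : LaurentSeries k →ₐ[k] Ω') (φ : E →ₐ[k] Ω') (p : ℕ) (hp : p.Prime) (hℓp : ¬ ℓ ∣ p)
    (A : ℕ) (hA : A ≠ 0) (x' x : E) (hx' : f x' = ta_J k 1 A) (hx : f x = ta_J k 1 (A * p))
    (c : k) (hc : c ≠ 0) (a₂ : ℕ) (ha₂ : a₂ ≠ 0) (hφ : φ x' = ι (ta_J k c (a₂ * p))) :
    (∃ c' : k, c' ≠ 0 ∧ φ x = ι (ta_J k c' (a₂ * (p * p)))) ∨
      (∃ c' : k, c' ≠ 0 ∧ φ x = ι (ta_J k c' a₂)) := by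
  obtain ⟨ζ, hζ⟩ := ta_exists_primitiveRoot ℓ k hℓp
  obtain ⟨Φ, -, -, hi, hii⟩ := ta_modEq_pack hME k p hp ζ hζ
  -- (1) `x` is a root of `Φ(X, x')` in `E`
  have h1 : (Φ.map (Polynomial.aeval x' : k[X] →ₐ[k] E).toRingHom).eval x = 0 := by
    apply f.toRingHom.injective
    rw [map_zero]
    have h := hii A hA
    rw [ta_evalL_eq_aeval', ← hx', ← hx, ← ta_root_map_aeval k E (LaurentSeries k) f x' Φ] at h
    rw [← h]
    exact (Polynomial.eval_map_apply
      (p := Φ.map (Polynomial.aeval x' : k[X] →ₐ[k] E).toRingHom) (f := f.toRingHom) x).symm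
  -- (2) `φ x` is a root of `Φ(X, φ x') = Φ(X, ι (j(c y^(a₂ p))))`
  have h2 := ta_root_eval_hom k E Ω' φ x' x Φ h1
  rw [hφ, ← ta_root_map_aeval k (LaurentSeries k) Ω' ι (ta_J k c (a₂ * p)) Φ,
    ← ta_evalL_eq_aeval'] at h2
  -- (3) the factorisation of `Φ(X, j(c y^(a₂ p)))`
  obtain ⟨c', hc'⟩ := IsAlgClosed.exists_pow_nat_eq c hp.pos
  have hc'0 : c' ≠ 0 := by
    rintro rfl
    rw [zero_pow hp.ne_zero] at hc'
    exact hc hc'.symm
  have h3 := hi c' hc'0 a₂ ha₂
  rw [hc'] at h3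
  rw [h3, Polynomial.map_mul, Polynomial.eval_mul, Polynomial.map_sub, Polynomial.map_X,
    Polynomial.map_C, Polynomial.eval_sub, Polynomial.eval_X, Polynomial.eval_C,
    Polynomial.map_prod, Polynomial.eval_prod, mul_eq_zero, Finset.prod_eq_zero_iff] at h2
  rcases h2 with h2 | ⟨b, -, h2⟩
  · left
    exact ⟨c' ^ (p * p), pow_ne_zero _ hc'0, sub_eq_zero.mp h2⟩
  · right
    rw [Polynomial.map_sub, Polynomial.map_X, Polynomial.map_C, Polynomial.eval_sub,
      Polynomial.eval_X, Polynomial.eval_C] at h2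
    exact ⟨ζ ^ b * c', mul_ne_zero (pow_ne_zero _ (hζ.ne_zero hp.ne_zero)) hc'0,
      sub_eq_zero.mp h2⟩

/-- (RootTrack) Root tracking. -/
theorem ta_root_main : ModEqStatement → ta_RootTrackStatement := by
  intro hME N _ ℓ _ hℓN k _ _ _ E _ _ f Ω' _ _ ι φ hfix p j hp
  induction j with
  | zero =>
    intro _ _ x hx
    refine ⟨1, N, one_ne_zero, NeZero.ne N, ?_, ?_⟩
    · rw [pow_zero, Nat.div_one]
    · rw [pow_zero, mul_one] at hx
      exact hfix x hx
  | succ j ih =>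
    intro hdvd hrange x hx
    have hdvd' : p ^ j ∣ N := (pow_dvd_pow p (Nat.le_succ j)).trans hdvd
    obtain ⟨x', hx'⟩ := hrange j (Nat.le_succ j)
    obtain ⟨c, a₁, hc, ha₁, hdiv, hφ⟩ :=
      ih hdvd' (fun t ht => hrange t (ht.trans (Nat.le_succ j))) x' hx'
    obtain ⟨m, hN⟩ := hdvd
    have hm : N / p ^ (j + 1) = m := by
      rw [hN]
      exact Nat.mul_div_cancel_left m (pow_pos hp.pos _)
    have hm' : N / p ^ j = p * m := by
      rw [hN, pow_succ, mul_assoc]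
      exact Nat.mul_div_cancel_left _ (pow_pos hp.pos _)
    rw [hm'] at hdiv
    obtain ⟨t, ht⟩ := hdiv
    have ha₁' : a₁ = m * t * p := by rw [ht]; ring
    have ha₂ : m * t ≠ 0 := by
      intro h0
      rw [ha₁', h0, zero_mul] at ha₁
      exact ha₁ rfl
    have hpN : p ∣ N := (dvd_pow_self p (Nat.succ_ne_zero j)).trans ⟨m, hN⟩
    have hℓp : ¬ ℓ ∣ p := fun h => hℓN (h.trans hpN)
    have hA : N * p ^ j ≠ 0 := Nat.mul_ne_zero (NeZero.ne N) (pow_ne_zero j hp.ne_zero)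
    have hx2 : f x = ta_J k 1 (N * p ^ j * p) := by
      rw [hx, pow_succ, mul_assoc]
    rw [ha₁'] at hφ
    rw [hm]
    rcases ta_root_step hME ℓ k E f Ω' ι φ p hp hℓp (N * p ^ j) hA x' x hx' hx2 c hc (m * t) ha₂
      hφ with ⟨c', hc', h⟩ | ⟨c', hc', h⟩
    · refine ⟨c', m * t * (p * p), hc', ?_, ?_, h⟩
      · exact Nat.mul_ne_zero ha₂ (Nat.mul_ne_zero hp.ne_zero hp.ne_zero)
      · exact (Dvd.intro t rfl).mul_right _
    · exact ⟨c', m * t, hc', ha₂, Dvd.intro _ rfl, h⟩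

end Fermat.Agent.S28
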