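/-
S28, block Tower (twin A) — package Step: the induction step `P(M) ⟹ P(M r)`.
-/
import Fermat.Agent.S28.TABasic

set_option autoImplicit false

open ModularCurve Polynomial

namespace Fermat.Agent.S28

noncomputable section

/-! ## The Dedekind `ψ` function -/

/-- The indicator function of the squarefree numbers, as an arithmetic function. -/
def ta_step_sqf : ArithmeticFunction ℕ :=
  ⟨fun n => if Squarefree n then 1 else 0, by simp⟩

theorem ta_step_sqf_apply (n : ℕ) : ta_step_sqf n = if Squarefree n then 1 else 0 := rfl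

theorem ta_step_sqf_isMultiplicative : ta_step_sqf.IsMultiplicative := by
  refine ⟨by simp [ta_step_sqf_apply], ?_⟩
  intro m n h
  simp only [ta_step_sqf_apply, Nat.squarefree_mul_iff]
  by_cases hm : Squarefree m <;> by_cases hn : Squarefree n <;> simp [hm, hn, h]

theorem ta_step_psi_eq (N : ℕ) :
    dedekindPsi N = (ta_step_sqf * ArithmeticFunction.id) N := by
  rw [dedekindPsi, ArithmeticFunction.mul_apply,
    Nat.sum_divisorsAntidiagonal (f := fun a b => ta_step_sqf a * ArithmeticFunction.id b),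
    Finset.sum_filter]
  refine Finset.sum_congr rfl fun d _ => ?_
  by_cases hd : Squarefree d <;> simp [ta_step_sqf_apply, hd]

theorem ta_step_psi_mul {m n : ℕ} (h : m.Coprime n) :
    dedekindPsi (m * n) = dedekindPsi m * dedekindPsi n := by
  rw [ta_step_psi_eq, ta_step_psi_eq, ta_step_psi_eq]
  exact (ta_step_sqf_isMultiplicative.mul
    ArithmeticFunction.isMultiplicative_id).map_mul_of_coprime h

theorem ta_step_psi_prime_pow {p : ℕ} (hp : p.Prime) (k : ℕ) :
    dedekindPsi (p ^ (k + 1)) = p ^ (k + 1) + p ^ k := by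
  rw [dedekindPsi, Finset.sum_filter, Nat.sum_divisors_prime_pow hp,
    Finset.sum_range_succ', Finset.sum_range_succ']
  have h0 : ∀ i ∈ Finset.range k,
      (if Squarefree (p ^ (i + 1 + 1)) then p ^ (k + 1) / p ^ (i + 1 + 1) else 0) = 0 := by
    intro i _
    rw [if_neg]
    intro hsq
    have h1 : IsUnit p := hsq p ⟨p ^ i, by ring⟩
    exact hp.ne_one (Nat.isUnit_iff.mp h1)
  rw [Finset.sum_eq_zero h0, zero_add]
  have h2 : p ^ (k + 1) / p = p ^ k := by
    rw [pow_succ]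
    exact Nat.mul_div_cancel _ hp.pos
  simp [hp.prime.squarefree, h2, add_comm]

/-- `ψ(r^i u r) = ψ(r^i u) * (r + 1)` if `i = 0`, `ψ(r^i u) * r` otherwise (`r ∤ u`). -/
theorem ta_step_psi_step {r : ℕ} (hr : r.Prime) (i u : ℕ) (hu : ¬ r ∣ u) :
    dedekindPsi (r ^ i * u * r) = dedekindPsi (r ^ i * u) * (if i = 0 then r + 1 else r) := by
  have hcop : ∀ j : ℕ, (r ^ j).Coprime u := fun j =>
    Nat.Coprime.pow_left j ((Nat.Prime.coprime_iff_not_dvd hr).mpr hu)
  have h1 : r ^ i * u * r = r ^ (i + 1) * u := by ring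
  rw [h1, ta_step_psi_mul (hcop (i + 1)), ta_step_psi_mul (hcop i)]
  rcases Nat.eq_zero_or_pos i with hi | hi
  · subst hi
    rw [if_pos rfl, ta_step_psi_prime_pow hr 0]
    simp [dedekindPsi_one]
    ring
  · obtain ⟨i', rfl⟩ : ∃ i', i = i' + 1 := ⟨i - 1, by omega⟩
    rw [if_neg (by omega), ta_step_psi_prime_pow hr (i' + 1), ta_step_psi_prime_pow hr i']
    ring

/-! ## Prime powers dividing `M r` -/

/-- A prime power dividing `r^i u r` (`r ∤ u`) but not `r^i u` is `r^(i+1)`. -/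
theorem ta_step_primePow {r : ℕ} (hr : r.Prime) (i u : ℕ) (hu : ¬ r ∣ u) {p j : ℕ} (hp : p.Prime)
    (h : p ^ j ∣ r ^ i * u * r) (h' : ¬ p ^ j ∣ r ^ i * u) : p = r ∧ j = i + 1 := by
  have hpr : p = r := by
    by_contra hne
    have hcop : (p ^ j).Coprime r :=
      Nat.Coprime.pow_left j ((Nat.coprime_primes hp hr).mpr hne)
    exact h' (hcop.dvd_of_dvd_mul_right h)
  subst hpr
  refine ⟨rfl, ?_⟩
  have hcopu : ∀ t : ℕ, (p ^ t).Coprime u := fun t =>
    Nat.Coprime.pow_left t ((Nat.Prime.coprime_iff_not_dvd hp).mpr hu)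
  have h1 : p ^ i * u * p = p ^ (i + 1) * u := by ring
  rw [h1] at h
  have h2 : p ^ j ∣ p ^ (i + 1) := (hcopu j).dvd_of_dvd_mul_right h
  have h3 : j ≤ i + 1 := (Nat.pow_dvd_pow_iff_le_right hp.one_lt).mp h2
  have h4 : ¬ j ≤ i := fun hle => h' (Dvd.dvd.mul_right (pow_dvd_pow p hle) u)
  omega

/-! ## The step -/

theorem ta_step_main (hKey : ta_KeyStatement) (hExt : ta_ExtStatement) (hInd : ta_IndepStatement) :
    ta_StepStatement := by
  intro N _ ℓ _ hN k _ _ _ M r hr hMr hPa hPb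
  obtain ⟨n, b, hn, hb, hli⟩ := hPa
  obtain ⟨τ, hτ⟩ := hPb
  have hM0 : M ≠ 0 := by
    rintro rfl
    rw [zero_mul, zero_dvd_iff] at hMr
    exact NeZero.ne N hMr
  obtain ⟨i, u, hu, rfl⟩ := Nat.exists_eq_pow_mul_and_not_dvd hM0 r hr.ne_one
  have hi : r ^ i ∣ r ^ i * u := dvd_mul_right _ _
  have hi' : ¬ r ^ (i + 1) ∣ r ^ i * u := by
    intro h
    rw [pow_succ] at h
    exact hu ((Nat.mul_dvd_mul_iff_left (pow_pos hr.pos i)).mp h)
  obtain ⟨hint, hdeg, hroot⟩ := hKey N ℓ hN k (r ^ i * u) r i hr hMr hi hi' τ hτ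
  have hξ : ta_J k 1 (N * r ^ (i + 1)) ∈ ta_L k N (r ^ i * u * r) :=
    ta_mem_L k N (r ^ i * u * r) hr ⟨u, by ring⟩
  have hLL : ta_L k N (r ^ i * u) ≤ ta_L k N (r ^ i * u * r) := ta_L_mono k N (dvd_mul_right _ _)
  refine ⟨?_, ?_⟩
  · -- part (a)
    have h := hInd k (LaurentSeries k) (ta_K0 k N) (ta_L k N (r ^ i * u)) (ta_K0_le_L k N _) n
      (if i = 0 then r + 1 else r) b hb hli (ta_J k 1 (N * r ^ (i + 1))) hint hdeg
    refine ⟨n * (if i = 0 then r + 1 else r),
      fun q => b (finProdFinEquiv.symm q).1 *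
        ta_J k 1 (N * r ^ (i + 1)) ^ ((finProdFinEquiv.symm q).2 : ℕ), ?_, ?_, ?_⟩
    · rw [ta_step_psi_step hr i u hu]
      exact Nat.mul_le_mul_right _ hn
    · intro q
      exact mul_mem (hLL (hb _)) (pow_mem hξ _)
    · exact h.comp _ finProdFinEquiv.symm.injective
  · -- part (b)
    have hle : ta_L k N (r ^ i * u * r) ≤ IntermediateField.adjoin k
        (((ta_L k N (r ^ i * u) : IntermediateField k (LaurentSeries k)) : Set (LaurentSeries k)) ∪
          {ta_J k 1 (N * r ^ (i + 1))}) := by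
      rw [ta_L, IntermediateField.adjoin_le_iff]
      rintro x ⟨p, j, hp, hpj, rfl⟩
      apply IntermediateField.subset_adjoin
      by_cases hpjM : p ^ j ∣ r ^ i * u
      · exact Or.inl (ta_mem_L k N _ hp hpjM)
      · obtain ⟨rfl, rfl⟩ := ta_step_primePow hr i u hu hp hpj hpjM
        exact Or.inr rfl
    obtain ⟨τ', h1, h2⟩ := hExt k (LaurentSeries k) (ta_L k N (r ^ i * u))
      (ta_L k N (r ^ i * u * r)) τ (ta_J k 1 (N * r ^ (i + 1))) (ta_J k 1 (N / r ^ (i + 1)))
      hint hroot hle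
    refine ⟨τ', ?_⟩
    intro x p j hp hpj hx
    by_cases hpjM : p ^ j ∣ r ^ i * u
    · have hxL : (x : LaurentSeries k) ∈ ta_L k N (r ^ i * u) := by
        rw [hx]
        exact ta_mem_L k N _ hp hpjM
      rw [h1 x ⟨x, hxL⟩ rfl]
      exact hτ ⟨x, hxL⟩ p j hp hpjM hx
    · obtain ⟨rfl, rfl⟩ := ta_step_primePow hr i u hu hp hpj hpjM
      exact h2 x hx

end

end Fermat.Agent.S28
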