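/-
S28, block Tower (twin A) — MAIN THEOREM of the block (Part D2 of S28):
the modular equation and the prime-level irreducibility imply the degree statement mod `ℓ`.
-/
import Fermat.Agent.S28.TAOrbit
import Fermat.Agent.S28.TARoot
import Fermat.Agent.S28.TAPrimeN
import Fermat.Agent.S28.TAAlg
import Fermat.Agent.S28.TALemB
import Fermat.Agent.S28.TADiv
import Fermat.Agent.S28.TAFive
import Fermat.Agent.S28.TAKey
import Fermat.Agent.S28.TAExt
import Fermat.Agent.S28.TAFix
import Fermat.Agent.S28.TAIndep
import Fermat.Agent.S28.TAStep
import Fermat.Agent.S28.TATransport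
import Fermat.Agent.S28.TAInd

set_option autoImplicit false

namespace Fermat.Agent.S28

/-- Part D2 of S28: for `ℓ ∤ N` and `k` algebraically closed of characteristic `ℓ` there are `ψ(N)`
elements of `k(j(q^d) : d ∣ N)` linearly independent over `k(j(q))`. -/
theorem ta_main : ModEqStatement → PrimeIrredStatement → ModLDegStatement := by
  intro hME hPI
  have hLemB : ta_LemBStatement :=
    ta_lemB_main hME (ta_primeN_main hPI) (ta_root_main hME) (ta_alg_main hME)
  have hKey : ta_KeyStatement :=
    ta_key_main ta_orbit_main hLemB (ta_div_main hME) ta_fix_main (ta_five_main hME)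
  exact ta_ind_main (ta_step_main hKey ta_ext_main ta_indep_main) ta_transport_main

end Fermat.Agent.S28
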