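/-
S28, block ChartKernel (twin B, prefix `kb_`): internal interface file.

Goal of the block: `kb_main : Char0DegStatement → DegStatement → ChartKernelStatement`
(file `KBMain.lean`).  This file contains only shared definitions and the statements (`Prop`s) of
the work packages; each package file `KB<Pkg>.lean` proves its statement from other statements
taken as explicit hypotheses.

Notation used in the comments: `L = LaurentSeries ℚ`, `K0 = ℚ(jq) ⊆ L` (`kb_K0`), `ℤ_(ℓ)` is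
`↥(GaloisRep.ratLocalizedAt ℓ)`, `F = ↥(modularFunctionFieldFull N)`, `cQ = coeffMap (Int.castRingHom ℚ)`,
`jZ = jqModC ℤ`, `P(j) = kb_evK P` for `P ∈ ℤ[T]`, "`ℓ ∣ P`" is `Polynomial.C (ℓ : ℤ) ∣ P`.
-/
import Fermat.Agent.S28.Interfaces

set_option autoImplicit false

open ModularCurve ModularCurve.IgusaScheme

namespace Fermat.Agent.S28

noncomputable section

/-! ## Shared definitions -/

/-- `K0 = ℚ(jq)`, the subfield of `LaurentSeries ℚ` generated by `jq`. -/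
abbrev kb_K0 : IntermediateField ℚ (LaurentSeries ℚ) := IntermediateField.adjoin ℚ {jq}

/-- `jq` as an element of `K0`. -/
def kb_jK : ↥kb_K0 := ⟨jq, IntermediateField.mem_adjoin_simple_self ℚ jq⟩

/-- `P ↦ P(jq)`, from `ℤ[T]` to `K0`. -/
def kb_evK : Polynomial ℤ →+* ↥kb_K0 :=
  Polynomial.eval₂RingHom (Int.castRingHom ↥kb_K0) kb_jK

/-- `p ↦ p(t)`, from `ℚ[T]` to `K0` (used for `t = kb_jK` and `t = kb_jK⁻¹`). -/
def kb_evQ (t : ↥kb_K0) : Polynomial ℚ →+* ↥kb_K0 :=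
  Polynomial.eval₂RingHom (algebraMap ℚ ↥kb_K0) t

/-- `p ↦ p(t)`, from `ℤ_(ℓ)[T]` to `K0` (used for `t = kb_jK` and `t = kb_jK⁻¹`). -/
def kb_evA (ℓ : ℕ) (t : ↥kb_K0) : Polynomial ↥(GaloisRep.ratLocalizedAt ℓ) →+* ↥kb_K0 :=
  Polynomial.eval₂RingHom (algebraMap ↥(GaloisRep.ratLocalizedAt ℓ) ↥kb_K0) t

/-- `p ↦ p(t)`, from `ℤ_(ℓ)[T]` to `LaurentSeries ℚ`. -/
def kb_evL (ℓ : ℕ) (t : ↥kb_K0) :
    Polynomial ↥(GaloisRep.ratLocalizedAt ℓ) →+* LaurentSeries ℚ :=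
  (algebraMap ↥kb_K0 (LaurentSeries ℚ)).comp (kb_evA ℓ t)

/-- The underlying set of the Gauss valuation ring `O₀` of `K0 = ℚ(j)` at `ℓ`: fractions
`f(j) / g(j)` with `f, g ∈ ℤ[T]` and `ℓ ∤ g`. -/
def kb_OSet (ℓ : ℕ) : Set ↥kb_K0 :=
  {c | ∃ g f : Polynomial ℤ, ¬ Polynomial.C (ℓ : ℤ) ∣ g ∧ kb_evK g * c = kb_evK f}

/-- The Gauss valuation ring `O₀` as a subring of `K0` (the closure of `kb_OSet ℓ`, which is
already a subring: `kb_OSubStatement`). -/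
def kb_O (ℓ : ℕ) : Subring ↥kb_K0 := Subring.closure (kb_OSet ℓ)

/-! ## Toolkit statements (package `Tool`) -/

/-- (T1) `jq` is transcendental: `P ↦ P(jq)` is injective on `ℤ[T]`. -/
def kb_TranscStatement : Prop := Function.Injective kb_evK

/-- (T2) Every finite family of elements of `K0` has a common denominator in `ℤ[j]`. -/
def kb_FracStatement : Prop :=
  ∀ (n : ℕ) (c : Fin n → ↥kb_K0), ∃ (g : Polynomial ℤ) (f : Fin n → Polynomial ℤ),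
    g ≠ 0 ∧ ∀ i, kb_evK g * c i = kb_evK (f i)

/-- (T3) `P(jq)`, viewed in `LaurentSeries ℚ`, is the image of the integral series `P(jZ)`. -/
def kb_EvCoeStatement : Prop :=
  ∀ P : Polynomial ℤ, ((kb_evK P : ↥kb_K0) : LaurentSeries ℚ) =
    coeffMap (Int.castRingHom ℚ) (evalL (jqModC ℤ) P)

/-- (T4) Images of integral series are `ℓ`-integral, and `ℓ`-integral series are closed under
multiplication. -/
def kb_LIntStatement : Prop :=
  ∀ ℓ : ℕ, (∀ s : LaurentSeries ℤ, LInt ℓ (coeffMap (Int.castRingHom ℚ) s)) ∧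
    (∀ x y : LaurentSeries ℚ, LInt ℓ x → LInt ℓ y → LInt ℓ (x * y))

/-- (T5) If `ℓ⁻¹ • cQ s` is `ℓ`-integral for an integral series `s`, then `ℓ` divides all
coefficients of `s`. -/
def kb_LIntDvdStatement : Prop :=
  ∀ (ℓ : ℕ) [Fact ℓ.Prime] (s : LaurentSeries ℤ),
    LInt ℓ ((ℓ : ℚ)⁻¹ • coeffMap (Int.castRingHom ℚ) s) → ∀ n : ℤ, (ℓ : ℤ) ∣ s.coeff n

/-- (T6) Removal of the common `ℓ`-content of a tuple `(g, f_0, …, f_{n-1})` of integer
polynomials with `g ≠ 0`. -/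
def kb_ContentStatement : Prop :=
  ∀ (ℓ : ℕ) [Fact ℓ.Prime] (n : ℕ) (g : Polynomial ℤ) (f : Fin n → Polynomial ℤ), g ≠ 0 →
    ∃ (e : ℕ) (g' : Polynomial ℤ) (f' : Fin n → Polynomial ℤ),
      g = Polynomial.C (ℓ : ℤ) ^ e * g' ∧ (∀ i, f i = Polynomial.C (ℓ : ℤ) ^ e * f' i) ∧
      ¬ (Polynomial.C (ℓ : ℤ) ∣ g' ∧ ∀ i, Polynomial.C (ℓ : ℤ) ∣ f' i)

/-! ## Package statements -/

/-- (K1)+(K2), package `Basis`: the family `m` of `DegStatement` maps to a `K0`-basis of `F`: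
every `x ∈ F` satisfies `g(j) * x = ∑ f_i(j) * cQ (m i)` with `g ≠ 0`.  (The `DEG` property of `m`
is carried along for the next package.) -/
def kb_BasisStatement : Prop :=
  ∀ (N : ℕ) [NeZero N] (ℓ : ℕ) [Fact ℓ.Prime], ¬ ℓ ∣ N →
    ∃ m : Fin (dedekindPsi N) → LaurentSeries ℤ,
      (∀ i, coeffMap (Int.castRingHom ℚ) (m i) ∈ modularFunctionFieldFull N) ∧
      (∀ f : Fin (dedekindPsi N) → Polynomial ℤ,
        (∀ n : ℤ, (ℓ : ℤ) ∣ (∑ i, evalL (jqModC ℤ) (f i) * m i).coeff n) →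
        ∀ (i : Fin (dedekindPsi N)) (n : ℕ), (ℓ : ℤ) ∣ (f i).coeff n) ∧
      ∀ x : LaurentSeries ℚ, x ∈ modularFunctionFieldFull N →
        ∃ (g : Polynomial ℤ) (f : Fin (dedekindPsi N) → Polynomial ℤ), g ≠ 0 ∧
          ((kb_evK g : ↥kb_K0) : LaurentSeries ℚ) * x =
            ∑ i, ((kb_evK (f i) : ↥kb_K0) : LaurentSeries ℚ) * coeffMap (Int.castRingHom ℚ) (m i)

/-- (K3)+(K4), package `IntO`: every `ℓ`-integral element of `F` is integral over `O₀`. -/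
def kb_IntOStatement : Prop :=
  ∀ (N : ℕ) [NeZero N] (ℓ : ℕ) [Fact ℓ.Prime], ¬ ℓ ∣ N →
    ∀ x : LaurentSeries ℚ, x ∈ modularFunctionFieldFull N → LInt ℓ x → IsIntegral ↥(kb_O ℓ) x

/-- (O), package `O`, part 1: `kb_OSet ℓ` is a subring, i.e. equals its subring closure. -/
def kb_OSubStatement : Prop :=
  ∀ (ℓ : ℕ) [Fact ℓ.Prime] (c : ↥kb_K0), c ∈ kb_O ℓ → c ∈ kb_OSet ℓ

/-- (O), package `O`, part 2: `O₀` is integrally closed in `K0` (it is a valuation ring). -/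
def kb_OIntClosedStatement : Prop :=
  ∀ (ℓ : ℕ) [Fact ℓ.Prime] (c : ↥kb_K0), IsIntegral ↥(kb_O ℓ) c → c ∈ kb_O ℓ

/-- (K5a), package `ICB`: `ℚ[t]` is integrally closed in `K0` for `t = j` and `t = j⁻¹`. -/
def kb_ICBStatement : Prop :=
  ∀ t : ↥kb_K0, (t = kb_jK ∨ t = kb_jK⁻¹) →
    ∀ c : ↥kb_K0, (kb_evQ t).IsIntegralElem c → ∃ p : Polynomial ℚ, kb_evQ t p = c

/-- (K5b), package `OBA`: `O₀ ∩ ℚ[t] ⊆ ℤ_(ℓ)[t]` for `t = j` and `t = j⁻¹`: a rational polynomial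
whose value at `t` lies in `O₀` has all its coefficients in `ℤ_(ℓ)`. -/
def kb_OBAStatement : Prop :=
  ∀ (ℓ : ℕ) [Fact ℓ.Prime] (t : ↥kb_K0), (t = kb_jK ∨ t = kb_jK⁻¹) →
    ∀ p : Polynomial ℚ, kb_evQ t p ∈ kb_O ℓ → ∀ n : ℕ, p.coeff n ∈ GaloisRep.ratLocalizedAt ℓ

/-- (K6), package `K6`: if `ℓ * y` is integral over `ℤ_(ℓ)[t]` and `y` is integral over `O₀`, then
`y` is integral over `ℤ_(ℓ)[t]` (`t = j` or `t = j⁻¹`; integrality over `ℤ_(ℓ)[t]` is expressed by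
the ring homomorphism `kb_evL ℓ t : ℤ_(ℓ)[T] → L`). -/
def kb_K6Statement : Prop :=
  ∀ (ℓ : ℕ) [Fact ℓ.Prime] (t : ↥kb_K0), (t = kb_jK ∨ t = kb_jK⁻¹) →
    ∀ y : LaurentSeries ℚ, (kb_evL ℓ t).IsIntegralElem ((ℓ : LaurentSeries ℚ) * y) →
      IsIntegral ↥(kb_O ℓ) y → (kb_evL ℓ t).IsIntegralElem y

/-- (CH), package `CH`: membership in the chart algebra `chartAlg N ℓ {tF}` is integrality with
respect to `kb_evL ℓ t`, when `tF : F` and `t : K0` are the same Laurent series. -/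
def kb_CHStatement : Prop :=
  ∀ (N : ℕ) [NeZero N] (ℓ : ℕ) [Fact ℓ.Prime] (tF : ↥(modularFunctionFieldFull N)) (t : ↥kb_K0),
    (tF : LaurentSeries ℚ) = (t : LaurentSeries ℚ) →
    ∀ x : ↥(modularFunctionFieldFull N),
      x ∈ chartAlg N ℓ {tF} ↔ (kb_evL ℓ t).IsIntegralElem (x : LaurentSeries ℚ)

end

end Fermat.Agent.S28
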