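/-
S28, block ChartKernel (twin B), package K6 (minimal polynomial argument).

`kb_k6_main : kb_ICBStatement → kb_OBAStatement → kb_OIntClosedStatement → kb_K6Statement`.
-/
import Fermat.Agent.S28.KBInterfaces

set_option autoImplicit false

open ModularCurve ModularCurve.IgusaScheme

namespace Fermat.Agent.S28

noncomputable section

/-- If `y` is integral with respect to `K → L` composed with `r : R → K`, then all coefficients of
the minimal polynomial of `y` over `K` are integral with respect to `r`. -/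
theorem kb_k6_coeff {K L R : Type*} [Field K] [Field L] [Algebra K L] [CommRing R]
    (r : R →+* K) (y : L) (hy : ((algebraMap K L).comp r).IsIntegralElem y) (i : ℕ) :
    r.IsIntegralElem ((minpoly K y).coeff i) := by
  obtain ⟨f, hfm, hf0⟩ := hy
  have hroot : Polynomial.aeval y (f.map r) = 0 := by
    rw [Polynomial.aeval_def, Polynomial.eval₂_map]
    exact hf0
  have hyK : IsIntegral K y := ⟨f.map r, hfm.map r, by
    rw [← Polynomial.aeval_def]; exact hroot⟩
  have hdvd : minpoly K y ∣ f.map r := minpoly.dvd K y hroot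
  let _ : Algebra R K := r.toAlgebra
  have hlift := integralClosure.mem_lifts_of_monic_of_dvd_map K hfm (minpoly.monic hyK) hdvd
  rw [Polynomial.lifts_iff_coeff_lifts] at hlift
  obtain ⟨c, hc⟩ := hlift i
  have hint : IsIntegral R ((minpoly K y).coeff i) := by
    rw [← hc]
    exact c.2
  exact hint

/-- The abstract minimal polynomial argument. -/
theorem kb_k6_abstract {K L RA RB RO : Type*} [Field K] [Field L] [Algebra K L]
    [CommRing RA] [CommRing RB] [CommRing RO]
    (a : RA →+* K) (b : RB →+* K) (o : RO →+* K)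
    (hB : ∀ c : K, b.IsIntegralElem c → ∃ p, b p = c)
    (hO : ∀ c : K, o.IsIntegralElem c → ∃ u, o u = c)
    (hOBA : ∀ c : K, (∃ u, o u = c) → (∃ p, b p = c) → ∃ q, a q = c)
    (y : L) (hyB : ((algebraMap K L).comp b).IsIntegralElem y)
    (hyO : ((algebraMap K L).comp o).IsIntegralElem y) :
    ((algebraMap K L).comp a).IsIntegralElem y := by
  have hyK : IsIntegral K y := by
    obtain ⟨f, hfm, hf0⟩ := hyB
    exact ⟨f.map b, hfm.map b, by rw [Polynomial.eval₂_map]; exact hf0⟩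
  have hlifts : minpoly K y ∈ Polynomial.lifts a := by
    rw [Polynomial.lifts_iff_coeff_lifts]
    intro i
    exact hOBA _ (hO _ (kb_k6_coeff o y hyO i)) (hB _ (kb_k6_coeff b y hyB i))
  obtain ⟨q, hq, -, hqm⟩ :=
    Polynomial.lifts_and_natDegree_eq_and_monic hlifts (minpoly.monic hyK)
  refine ⟨q, hqm, ?_⟩
  rw [← Polynomial.eval₂_map, hq, ← Polynomial.aeval_def]
  exact minpoly.aeval K y

/-- `kb_evA ℓ t` factors through `kb_evQ t` via the coefficient inclusion `ℤ_(ℓ)[T] → ℚ[T]`. -/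
theorem kb_k6_evA_eq (ℓ : ℕ) (t : ↥kb_K0) (q : Polynomial ↥(GaloisRep.ratLocalizedAt ℓ)) :
    kb_evA ℓ t q = kb_evQ t (q.map (algebraMap ↥(GaloisRep.ratLocalizedAt ℓ) ℚ)) := by
  simp only [kb_evA, kb_evQ, Polynomial.coe_eval₂RingHom]
  rw [Polynomial.eval₂_map]
  rfl

/-- The package K6. -/
theorem kb_k6_main : kb_ICBStatement → kb_OBAStatement → kb_OIntClosedStatement →
    kb_K6Statement := by
  intro hICB hOBA hOIC ℓ _ t ht y hly hyO
  have hℓ : (ℓ : ℚ) ≠ 0 := Nat.cast_ne_zero.mpr (Fact.out : ℓ.Prime).ne_zero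
  -- the three maps
  refine kb_k6_abstract (K := ↥kb_K0) (L := LaurentSeries ℚ) (kb_evA ℓ t) (kb_evQ t)
    (kb_O ℓ).subtype (hICB t ht) ?_ ?_ y ?_ hyO
  · intro c hc
    exact ⟨⟨c, hOIC ℓ c hc⟩, rfl⟩
  · rintro c ⟨u, rfl⟩ ⟨p, hp⟩
    have hp' : kb_evQ t p ∈ kb_O ℓ := by
      rw [hp]; exact u.2
    have hcoef := hOBA ℓ t ht p hp'
    have hpl : p ∈ Polynomial.lifts (algebraMap ↥(GaloisRep.ratLocalizedAt ℓ) ℚ) := by
      rw [Polynomial.lifts_iff_coeff_lifts]
      intro n
      exact ⟨⟨p.coeff n, hcoef n⟩, rfl⟩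
    obtain ⟨q, hq⟩ := (Polynomial.mem_lifts p).mp hpl
    exact ⟨q, by rw [kb_k6_evA_eq, hq, hp]⟩
  · -- integrality of `y` over `ℚ[t]`
    obtain ⟨P, hPm, hP0⟩ := hly
    set β : Polynomial ℚ →+* LaurentSeries ℚ :=
      (algebraMap ↥kb_K0 (LaurentSeries ℚ)).comp (kb_evQ t) with hβ
    have hfac : kb_evL ℓ t =
        β.comp (Polynomial.mapRingHom (algebraMap ↥(GaloisRep.ratLocalizedAt ℓ) ℚ)) := by
      refine RingHom.ext fun q => ?_
      simp only [kb_evL, RingHom.comp_apply, hβ, Polynomial.coe_mapRingHom]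
      rw [kb_k6_evA_eq]
    have h1 : β.IsIntegralElem ((ℓ : LaurentSeries ℚ) * y) := by
      refine ⟨P.map (Polynomial.mapRingHom (algebraMap ↥(GaloisRep.ratLocalizedAt ℓ) ℚ)),
        hPm.map _, ?_⟩
      rw [Polynomial.eval₂_map, ← hfac]
      exact hP0
    have h2 : β.IsIntegralElem (β (Polynomial.C ((ℓ : ℚ)⁻¹))) := β.isIntegralElem_map
    have h3 : β (Polynomial.C ((ℓ : ℚ)⁻¹)) * ((ℓ : LaurentSeries ℚ) * y) = y := by
      have h4 : β (Polynomial.C ((ℓ : ℚ)⁻¹)) * (ℓ : LaurentSeries ℚ) = 1 := by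
        have h5 : (ℓ : LaurentSeries ℚ) = β (Polynomial.C (ℓ : ℚ)) := by
          rw [Polynomial.C_eq_natCast, map_natCast]
        rw [h5, ← map_mul, ← Polynomial.C_mul, inv_mul_cancel₀ hℓ, Polynomial.C_1, map_one]
      rw [← mul_assoc, h4, one_mul]
    rw [← h3]
    exact RingHom.IsIntegralElem.mul β h2 h1

end

end Fermat.Agent.S28
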