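/-
S28 package `Subst`: substitution toolkit for formal Laurent series (`y ↦ c * y ^ a`).
-/
import Fermat.Agent.S28.Interfaces
import Fermat.Prelude.Thm_ModularCurve_coeff_jqModC_neg_one
import Fermat.Prelude.Thm_ModularCurve_coeff_jqModC_pow_self
import Fermat.Prelude.Thm_ModularCurve_coeff_jqModC_pow_of_lt

set_option autoImplicit false

open ModularCurve Polynomial

namespace Fermat.Agent.S28

noncomputable section

/-! ## `scale` -/

theorem subst_scale_one {k : Type*} [Field k] (f : LaurentSeries k) : scale 1 f = f := by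
  ext n
  rw [scale_coeff, one_zpow, one_mul]

theorem subst_scale_scale {k : Type*} [Field k] (c d : k) (f : LaurentSeries k) :
    scale c (scale d f) = scale (c * d) f := by
  ext n
  rw [scale_coeff, scale_coeff, scale_coeff, mul_zpow, mul_assoc]

theorem subst_scale_single {k : Type*} [Field k] (c a : k) (n : ℤ) :
    scale c (HahnSeries.single n a : LaurentSeries k) = HahnSeries.single n (c ^ n * a) := by
  ext m
  rw [scale_coeff, HahnSeries.coeff_single, HahnSeries.coeff_single]
  by_cases h : m = n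
  · rw [if_pos h, if_pos h, h]
  · rw [if_neg h, if_neg h, mul_zero]

theorem subst_scale_C {k : Type*} [Field k] (c a : k) :
    scale c (HahnSeries.C a : LaurentSeries k) = HahnSeries.C a := by
  rw [HahnSeries.C_apply, subst_scale_single, zpow_zero, one_mul]

theorem subst_scale_zero {k : Type*} [Field k] (c : k) :
    scale c (0 : LaurentSeries k) = 0 := by
  ext n
  rw [scale_coeff, HahnSeries.coeff_zero, mul_zero]

theorem subst_scale_one' {k : Type*} [Field k] (c : k) :
    scale c (1 : LaurentSeries k) = 1 := by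
  rw [← HahnSeries.C_one, subst_scale_C]

theorem subst_scale_add {k : Type*} [Field k] (c : k) (f g : LaurentSeries k) :
    scale c (f + g) = scale c f + scale c g := by
  ext n
  rw [scale_coeff, HahnSeries.coeff_add, HahnSeries.coeff_add, scale_coeff, scale_coeff, mul_add]

theorem subst_scale_mul {k : Type*} [Field k] (c : k) (hc : c ≠ 0) (f g : LaurentSeries k) :
    scale c (f * g) = scale c f * scale c g := by
  ext n
  rw [scale_coeff, HahnSeries.coeff_mul, HahnSeries.coeff_mul, Finset.mul_sum]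
  refine Finset.sum_congr ?_ ?_
  · ext ij
    have h1 : c ^ ij.1 ≠ 0 := zpow_ne_zero _ hc
    have h2 : c ^ ij.2 ≠ 0 := zpow_ne_zero _ hc
    simp [h1, h2]
  · intro ij hij
    have h : ij.1 + ij.2 = n := by
      simp at hij
      exact hij.2.2
    rw [scale_coeff, scale_coeff, ← h, zpow_add₀ hc]
    ring

/-- `scale c` as a ring homomorphism, for `c ≠ 0`. -/
def subst_scaleHom {k : Type*} [Field k] (c : k) (hc : c ≠ 0) :
    LaurentSeries k →+* LaurentSeries k where
  toFun := scale c
  map_one' := subst_scale_one' c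
  map_mul' := subst_scale_mul c hc
  map_zero' := subst_scale_zero c
  map_add' := subst_scale_add c

theorem subst_scaleHom_apply {k : Type*} [Field k] (c : k) (hc : c ≠ 0) (f : LaurentSeries k) :
    subst_scaleHom c hc f = scale c f := rfl

theorem subst_scale_injective {k : Type*} [Field k] (c : k) (hc : c ≠ 0) :
    Function.Injective (scale c : LaurentSeries k → LaurentSeries k) := by
  intro f g h
  have h' : scale c⁻¹ (scale c f) = scale c⁻¹ (scale c g) := by rw [h]
  rwa [subst_scale_scale, subst_scale_scale, inv_mul_cancel₀ hc, subst_scale_one,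
    subst_scale_one] at h'

theorem subst_scale_qExpand {k : Type*} [Field k] (c : k) (a : ℕ) [NeZero a] (f : LaurentSeries k) :
    scale c (qExpand k a f) = qExpand k a (scale (c ^ a) f) := by
  ext n
  rw [scale_coeff]
  by_cases hn : (a : ℤ) ∣ n
  · obtain ⟨m, rfl⟩ := hn
    rw [qExpand_coeff_mul, qExpand_coeff_mul, scale_coeff, zpow_mul, zpow_natCast]
  · rw [qExpand_coeff_of_not_dvd a _ hn, qExpand_coeff_of_not_dvd a _ hn, mul_zero]

theorem subst_scale_evalL {k : Type*} [Field k] (c : k) (hc : c ≠ 0) (x : LaurentSeries k) (p : k[X]) :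
    scale c (evalL x p) = evalL (scale c x) p := by
  have h := Polynomial.hom_eval₂ p (HahnSeries.C : k →+* LaurentSeries k) (subst_scaleHom c hc) x
  have hC : (subst_scaleHom c hc).comp (HahnSeries.C : k →+* LaurentSeries k) = HahnSeries.C := by
    ext1 a
    exact subst_scale_C c a
  rw [hC] at h
  exact h

theorem subst_qExpand_evalL {k : Type*} [Field k] (a : ℕ) [NeZero a] (x : LaurentSeries k) (p : k[X]) :
    qExpand k a (evalL x p) = evalL (qExpand k a x) p := by
  have h := Polynomial.hom_eval₂ p (HahnSeries.C : k →+* LaurentSeries k) (qExpand k a) x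
  have hC : (qExpand k a).comp (HahnSeries.C : k →+* LaurentSeries k) = HahnSeries.C := by
    ext1 b
    exact qExpand_C a b
  rw [hC] at h
  exact h

/-! ## `jsub` -/

theorem subst_jsub_one_one (k : Type*) [Field k] : jsub k 1 1 = jqModC k := by
  rw [jsub, qExpand_one_apply, subst_scale_one]

theorem subst_jsub_one (k : Type*) [Field k] (a : ℕ) [NeZero a] :
    jsub k 1 a = qExpand k a (jqModC k) := by
  rw [jsub, subst_scale_one]

theorem subst_scale_jsub (k : Type*) [Field k] (c d : k) (a : ℕ) [NeZero a] :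
    scale d (jsub k c a) = jsub k (c * d ^ a) a := by
  rw [jsub, jsub, subst_scale_qExpand, subst_scale_scale, mul_comm]

theorem subst_qExpand_jsub (k : Type*) [Field k] (c : k) (a b : ℕ) [NeZero a] [NeZero b] :
    qExpand k b (jsub k c a) = jsub k c (a * b) := by
  rw [jsub, jsub, qExpand_qExpand]
  exact qExpand_congr (mul_comm b a) _

/-! ## Coefficients and order of `jsub` -/

/-- The order of a Laurent series, read off from its lowest non-zero coefficient. -/
theorem subst_order_eq {k : Type*} [Field k] (f : LaurentSeries k) (n : ℤ) (h1 : f.coeff n ≠ 0)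
    (h2 : ∀ m : ℤ, m < n → f.coeff m = 0) : f.order = n := by
  refine le_antisymm (HahnSeries.order_le_of_coeff_ne_zero h1) ?_
  by_contra hlt
  have h3 := h2 _ (not_le.mp hlt)
  rw [HahnSeries.coeff_order_eq_zero] at h3
  rw [h3, HahnSeries.coeff_zero] at h1
  exact h1 rfl

/-- Powers of `jsub k c a` are substitutions of powers of the formal `j`. -/
theorem subst_jsub_pow (k : Type*) [Field k] (c : k) (hc : c ≠ 0) (a : ℕ) [NeZero a] (i : ℕ) :
    jsub k c a ^ i = qExpand k a (scale c (jqModC k ^ i)) := by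
  rw [jsub, ← subst_scaleHom_apply c hc, ← subst_scaleHom_apply c hc, map_pow, map_pow]

theorem subst_jsub_pow_coeff_of_lt (k : Type*) [Field k] (c : k) (hc : c ≠ 0) (a : ℕ) [NeZero a]
    (i : ℕ) (n : ℤ) (hn : n < -((a : ℤ) * i)) : (jsub k c a ^ i).coeff n = 0 := by
  rw [subst_jsub_pow k c hc a i]
  by_cases hd : (a : ℤ) ∣ n
  · obtain ⟨m, rfl⟩ := hd
    rw [qExpand_coeff_mul, scale_coeff]
    have ha : (0 : ℤ) < a := by exact_mod_cast Nat.pos_of_ne_zero (NeZero.ne a)
    have hm : m < -(i : ℤ) := by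
      by_contra hge
      have h1 : (a : ℤ) * (-(i : ℤ)) ≤ (a : ℤ) * m :=
        mul_le_mul_of_nonneg_left (not_lt.mp hge) ha.le
      linarith
    rw [coeff_jqModC_pow_of_lt k hm, mul_zero]
  · exact qExpand_coeff_of_not_dvd a _ hd

theorem subst_jsub_pow_coeff_neg (k : Type*) [Field k] (c : k) (hc : c ≠ 0) (a : ℕ) [NeZero a]
    (i : ℕ) : (jsub k c a ^ i).coeff (-((a : ℤ) * i)) = (c⁻¹) ^ i := by
  rw [subst_jsub_pow k c hc a i, show -((a : ℤ) * i) = (a : ℤ) * (-(i : ℤ)) by ring,
    qExpand_coeff_mul, scale_coeff, coeff_jqModC_pow_self, mul_one, zpow_neg, zpow_natCast,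
    inv_pow]

theorem subst_jsub_coeff_of_lt (k : Type*) [Field k] (c : k) (hc : c ≠ 0) (a : ℕ) [NeZero a]
    (n : ℤ) (hn : n < -(a : ℤ)) : (jsub k c a).coeff n = 0 := by
  have h := subst_jsub_pow_coeff_of_lt k c hc a 1 n (by simpa using hn)
  rwa [pow_one] at h

theorem subst_jsub_coeff_neg (k : Type*) [Field k] (c : k) (hc : c ≠ 0) (a : ℕ) [NeZero a] :
    (jsub k c a).coeff (-(a : ℤ)) = c⁻¹ := by
  have h := subst_jsub_pow_coeff_neg k c hc a 1
  rwa [pow_one, pow_one, Nat.cast_one, mul_one] at h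

theorem subst_jsub_coeff_of_not_dvd (k : Type*) [Field k] (c : k) (a : ℕ) [NeZero a] (n : ℤ)
    (hn : ¬ (a : ℤ) ∣ n) : (jsub k c a).coeff n = 0 :=
  qExpand_coeff_of_not_dvd a _ hn

theorem subst_jsub_order (k : Type*) [Field k] (c : k) (hc : c ≠ 0) (a : ℕ) [NeZero a] :
    (jsub k c a).order = -(a : ℤ) :=
  subst_order_eq _ _ (by rw [subst_jsub_coeff_neg k c hc a]; exact inv_ne_zero hc)
    (fun m hm => subst_jsub_coeff_of_lt k c hc a m hm)

theorem subst_jsub_eq_iff (k : Type*) [Field k] (c c' : k) (hc : c ≠ 0) (hc' : c' ≠ 0)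
    (a a' : ℕ) [NeZero a] [NeZero a'] :
    jsub k c a = jsub k c' a' → a = a' ∧ c = c' := by
  intro h
  have ho := congrArg HahnSeries.order h
  rw [subst_jsub_order k c hc a, subst_jsub_order k c' hc' a'] at ho
  have hcoef : (jsub k c a).coeff (-(a : ℤ)) = (jsub k c' a').coeff (-(a : ℤ)) := by rw [h]
  rw [subst_jsub_coeff_neg k c hc a, ho, subst_jsub_coeff_neg k c' hc' a'] at hcoef
  exact ⟨by exact_mod_cast neg_injective ho, inv_injective hcoef⟩

/-! ## Evaluation of polynomials at `jsub` -/

theorem subst_evalL_apply {R : Type*} [CommRing R] (x : LaurentSeries R) (p : R[X]) :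
    evalL x p = p.eval₂ (HahnSeries.C : R →+* LaurentSeries R) x := rfl

theorem subst_evalL_X {R : Type*} [CommRing R] (x : LaurentSeries R) :
    evalL x (X : R[X]) = x := by
  rw [subst_evalL_apply, Polynomial.eval₂_X]

theorem subst_evalL_C {R : Type*} [CommRing R] (x : LaurentSeries R) (a : R) :
    evalL x (C a : R[X]) = HahnSeries.C a := by
  rw [subst_evalL_apply, Polynomial.eval₂_C]

theorem subst_evalL_coeff {R : Type*} [CommRing R] (x : LaurentSeries R) (p : R[X]) (n : ℤ) :
    (evalL x p).coeff n = ∑ i ∈ Finset.range (p.natDegree + 1), p.coeff i * (x ^ i).coeff n := by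
  rw [subst_evalL_apply, Polynomial.eval₂_eq_sum_range, HahnSeries.coeff_sum]
  refine Finset.sum_congr rfl fun i _ => ?_
  rw [HahnSeries.C_mul_eq_smul, HahnSeries.coeff_smul, smul_eq_mul]

theorem subst_evalL_coeff_of_lt (k : Type*) [Field k] (c : k) (hc : c ≠ 0) (a : ℕ) [NeZero a]
    (p : k[X]) (n : ℤ) (hn : n < -((a : ℤ) * p.natDegree)) :
    (evalL (jsub k c a) p).coeff n = 0 := by
  rw [subst_evalL_coeff]
  refine Finset.sum_eq_zero fun i hi => ?_
  have hi' : i ≤ p.natDegree := Nat.lt_succ_iff.mp (Finset.mem_range.mp hi)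
  have ha : (0 : ℤ) ≤ a := Int.natCast_nonneg a
  have h1 : (a : ℤ) * i ≤ (a : ℤ) * p.natDegree :=
    mul_le_mul_of_nonneg_left (by exact_mod_cast hi') ha
  rw [subst_jsub_pow_coeff_of_lt k c hc a i n (by linarith), mul_zero]

theorem subst_evalL_coeff_neg (k : Type*) [Field k] (c : k) (hc : c ≠ 0) (a : ℕ) [NeZero a]
    (p : k[X]) :
    (evalL (jsub k c a) p).coeff (-((a : ℤ) * p.natDegree)) =
      p.leadingCoeff * (c⁻¹) ^ p.natDegree := by
  rw [subst_evalL_coeff, Finset.sum_range_succ, subst_jsub_pow_coeff_neg k c hc a,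
    Finset.sum_eq_zero, zero_add]
  · rfl
  · intro i hi
    have hi' : i < p.natDegree := Finset.mem_range.mp hi
    have ha : (0 : ℤ) < a := by exact_mod_cast Nat.pos_of_ne_zero (NeZero.ne a)
    have h1 : (a : ℤ) * i < (a : ℤ) * p.natDegree :=
      mul_lt_mul_of_pos_left (by exact_mod_cast hi') ha
    rw [subst_jsub_pow_coeff_of_lt k c hc a i _ (by linarith), mul_zero]

theorem subst_evalL_order (k : Type*) [Field k] (c : k) (hc : c ≠ 0) (a : ℕ) [NeZero a]
    (p : k[X]) (hp : p ≠ 0) :
    (evalL (jsub k c a) p).order = -((a : ℤ) * p.natDegree) ∧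
    (evalL (jsub k c a) p).coeff (-((a : ℤ) * p.natDegree)) =
      p.leadingCoeff * (c⁻¹) ^ p.natDegree := by
  refine ⟨subst_order_eq _ _ ?_ (fun m hm => subst_evalL_coeff_of_lt k c hc a p m hm),
    subst_evalL_coeff_neg k c hc a p⟩
  rw [subst_evalL_coeff_neg k c hc a p]
  exact mul_ne_zero (Polynomial.leadingCoeff_ne_zero.mpr hp) (pow_ne_zero _ (inv_ne_zero hc))

theorem subst_evalL_injective (k : Type*) [Field k] (c : k) (hc : c ≠ 0) (a : ℕ) [NeZero a] :
    Function.Injective (evalL (jsub k c a)) := by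
  rw [injective_iff_map_eq_zero]
  intro p hp0
  by_contra hp
  have h := (subst_evalL_order k c hc a p hp).2
  rw [hp0, HahnSeries.coeff_zero] at h
  exact mul_ne_zero (Polynomial.leadingCoeff_ne_zero.mpr hp) (pow_ne_zero _ (inv_ne_zero hc))
    h.symm

/-! ## The modular equation after substitution -/

/-- A ring endomorphism of `k((y))` fixing the constants commutes with `evalL`. -/
theorem subst_comp_evalL {k : Type*} [Field k] (σ : LaurentSeries k →+* LaurentSeries k)
    (hσ : ∀ a : k, σ (HahnSeries.C a) = HahnSeries.C a) (x : LaurentSeries k) :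
    σ.comp (evalL x) = evalL (σ x) := by
  refine Polynomial.ringHom_ext (fun a => ?_) ?_
  · rw [RingHom.comp_apply, subst_evalL_C, subst_evalL_C, hσ]
  · rw [RingHom.comp_apply, subst_evalL_X, subst_evalL_X]

/-- the modular equation after the substitution `y ↦ c * y ^ a` -/
theorem subst_modEq (k : Type) [Field k] (r : ℕ) [NeZero r] (ζ : k) (Φ : Polynomial (Polynomial k))
    (h : Φ.map (evalL (qExpand k r (jqModC k))) =
      (X - C (qExpand k (r * r) (jqModC k))) *
        ∏ b ∈ Finset.range r, (X - C (scale (ζ ^ b) (jqModC k))))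
    (c : k) (hc : c ≠ 0) (a : ℕ) [NeZero a] :
    Φ.map (evalL (jsub k (c ^ r) (a * r))) =
      (X - C (jsub k (c ^ (r * r)) (a * (r * r)))) *
        ∏ b ∈ Finset.range r, (X - C (jsub k (ζ ^ b * c) a)) := by
  have hσC : ∀ b : k, ((qExpand k a).comp (subst_scaleHom c hc)) (HahnSeries.C b) =
      HahnSeries.C b := fun b => by
    rw [RingHom.comp_apply, subst_scaleHom_apply, subst_scale_C, qExpand_C]
  have hσq : ∀ (m : ℕ) [NeZero m], ((qExpand k a).comp (subst_scaleHom c hc))
      (qExpand k m (jqModC k)) = jsub k (c ^ m) (a * m) := by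
    intro m _
    rw [RingHom.comp_apply, subst_scaleHom_apply, subst_scale_qExpand, qExpand_qExpand, jsub]
  have h' := congrArg (Polynomial.map ((qExpand k a).comp (subst_scaleHom c hc))) h
  rw [Polynomial.map_map, subst_comp_evalL _ hσC, hσq r, Polynomial.map_mul, Polynomial.map_sub,
    Polynomial.map_X, Polynomial.map_C, hσq (r * r), Polynomial.map_prod] at h'
  rw [h']
  congr 1
  refine Finset.prod_congr rfl fun b _ => ?_
  rw [Polynomial.map_sub, Polynomial.map_X, Polynomial.map_C, RingHom.comp_apply,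
    subst_scaleHom_apply, subst_scale_scale, mul_comm c, jsub]

/-- the swapped modular equation `Φ(j(y^r), j(y)) = 0` -/
theorem subst_modEq_swap (k : Type) [Field k] (r : ℕ) [NeZero r] (ζ : k)
    (Φ : Polynomial (Polynomial k))
    (h : Φ.map (evalL (qExpand k r (jqModC k))) =
      (X - C (qExpand k (r * r) (jqModC k))) *
        ∏ b ∈ Finset.range r, (X - C (scale (ζ ^ b) (jqModC k)))) :
    (Φ.map (evalL (jqModC k))).eval (qExpand k r (jqModC k)) = 0 := by
  apply qExpand_injective (R := k) r
  rw [map_zero]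
  have hC : ∀ b : k, qExpand k r (HahnSeries.C b) = HahnSeries.C b := fun b => qExpand_C r b
  have h1 : Φ.map (evalL (qExpand k r (jqModC k))) =
      (Φ.map (evalL (jqModC k))).map (qExpand k r) := by
    rw [Polynomial.map_map, subst_comp_evalL (qExpand k r) hC]
  have h2 := congrArg (Polynomial.eval (qExpand k (r * r) (jqModC k))) h
  rw [Polynomial.eval_mul, Polynomial.eval_sub, Polynomial.eval_X, Polynomial.eval_C, sub_self,
    zero_mul, h1, ← qExpand_qExpand r r (jqModC k), Polynomial.eval_map,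
    Polynomial.eval₂_at_apply] at h2
  exact h2

/-! ## Roots of unity in `k((y))` -/

/-- roots of unity in `k((y))` are constants -/
theorem subst_pow_eq_one (k : Type*) [Field k] [IsAlgClosed k] (w : LaurentSeries k) (m : ℕ)
    (hm : 0 < m) (h : w ^ m = 1) : ∃ a : k, w = HahnSeries.C a := by
  have hmonic : (X ^ m - C (1 : k)).Monic := Polynomial.monic_X_pow_sub_C (1 : k) hm.ne'
  have hsplit := (IsAlgClosed.splits (X ^ m - C (1 : k))).eq_prod_roots_of_monic hmonic
  have h0 : evalL w (X ^ m - C (1 : k)) = 0 := by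
    rw [map_sub, map_pow, subst_evalL_X, subst_evalL_C, h, HahnSeries.C_one, sub_self]
  rw [hsplit, map_multiset_prod, Multiset.map_map, Multiset.prod_eq_zero_iff,
    Multiset.mem_map] at h0
  obtain ⟨a, -, ha⟩ := h0
  refine ⟨a, ?_⟩
  have ha' : evalL w (X - C a) = 0 := ha
  rw [map_sub, subst_evalL_X, subst_evalL_C] at ha'
  exact sub_eq_zero.mp ha'

end

end Fermat.Agent.S28
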