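/-
S28, package ChartInt (Part B, statement Q1): elements of the chart algebras have `ℓ`-integral
`q`-expansions.

* `chartInt_jInt : JIntStatement` — `jq` and `jq⁻¹` are `ℓ`-integral.
* `chartInt_main : ChartIntStatement` — elements of `F` integral over `ℤ_(ℓ)[S]`, `S` a set of
  `ℓ`-integral series, are `ℓ`-integral.

The proof shows that the ring `B` of `ℓ`-integral Laurent series is "completely integrally closed"
in `ℚ((q))` (`chartInt_cic`) and that the function field is contained in the fraction field of `B`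
(`chartInt_KG_of_mem`).
-/
import Fermat.Agent.S28.Interfaces

set_option autoImplicit false

open ModularCurve ModularCurve.IgusaScheme

namespace Fermat.Agent.S28

noncomputable section

/-! ## The subring of `ℓ`-integral Laurent series -/

/-- The subring `B` of `ℓ`-integral Laurent series. -/
def chartInt_subring (ℓ : ℕ) : Subring (LaurentSeries ℚ) where
  carrier := {x | LInt ℓ x}
  mul_mem' := by
    intro x y hx hy n
    rw [HahnSeries.coeff_mul]
    exact Subring.sum_mem _ fun ij _ => Subring.mul_mem _ (hx _) (hy _)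
  one_mem' := by
    intro n
    rw [HahnSeries.coeff_one]
    split_ifs
    · exact Subring.one_mem _
    · exact Subring.zero_mem _
  add_mem' := by
    intro x y hx hy n
    rw [HahnSeries.coeff_add]
    exact Subring.add_mem _ (hx _) (hy _)
  zero_mem' := by
    intro n
    rw [HahnSeries.coeff_zero]
    exact Subring.zero_mem _
  neg_mem' := by
    intro x hx n
    rw [HahnSeries.coeff_neg]
    exact Subring.neg_mem _ (hx _)

theorem chartInt_mem_subring {ℓ : ℕ} {x : LaurentSeries ℚ} :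
    x ∈ chartInt_subring ℓ ↔ LInt ℓ x := Iff.rfl

/-- Series with integer coefficients are `ℓ`-integral. -/
theorem chartInt_lint_coeffMap_int (ℓ : ℕ) (w : LaurentSeries ℤ) :
    LInt ℓ (coeffMap (Int.castRingHom ℚ) w) := by
  intro n
  rw [coeffMap_coeff]
  exact intCast_mem (GaloisRep.ratLocalizedAt ℓ) (w.coeff n)

/-- Constant series with `ℓ`-integral value are `ℓ`-integral. -/
theorem chartInt_lint_algebraMap (ℓ : ℕ) {r : ℚ} (hr : r ∈ GaloisRep.ratLocalizedAt ℓ) :
    LInt ℓ (algebraMap ℚ (LaurentSeries ℚ) r) := by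
  intro n
  rw [algebraMap_apply_eq_single, HahnSeries.coeff_single]
  split_ifs
  · exact hr
  · exact Subring.zero_mem _

/-- `qExpand` preserves `ℓ`-integrality. -/
theorem chartInt_lint_qExpand (ℓ : ℕ) (d : ℕ) [NeZero d] {x : LaurentSeries ℚ} (hx : LInt ℓ x) :
    LInt ℓ (qExpand ℚ d x) := by
  intro n
  by_cases hn : (d : ℤ) ∣ n
  · obtain ⟨k, rfl⟩ := hn
    rw [qExpand_coeff_mul]
    exact hx k
  · rw [qExpand_coeff_of_not_dvd d x hn]
    exact Subring.zero_mem _

/-! ## `jq` and `jq⁻¹` -/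

theorem chartInt_lint_jq (ℓ : ℕ) : LInt ℓ jq := by
  have h : jq = coeffMap (Int.castRingHom ℚ) (jqModC ℤ) :=
    (coeffMap_jqModC (Int.castRingHom ℚ)).symm
  rw [h]
  exact chartInt_lint_coeffMap_int ℓ _

/-- The inverse of the `j`-series over `ℤ`. -/
def chartInt_jInvZ : LaurentSeries ℤ :=
  HahnSeries.single (1 : ℤ) (1 : ℤ) * HahnSeries.ofPowerSeries ℤ ℤ (jNum.invOfUnit 1)

theorem chartInt_jqModC_mul_jInvZ : jqModC ℤ * chartInt_jInvZ = 1 := by
  have h1 : jNum.map (Int.castRingHom ℤ) = jNum := by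
    ext n
    simp
  have h2 : jNum * jNum.invOfUnit 1 = 1 :=
    PowerSeries.mul_invOfUnit _ _ (by simp)
  rw [jqModC, chartInt_jInvZ, h1, mul_mul_mul_comm, ← map_mul, h2,
    map_one (HahnSeries.ofPowerSeries ℤ ℤ), HahnSeries.single_mul_single, mul_one, mul_one,
    neg_add_cancel]
  rfl

theorem chartInt_jq_inv : jq⁻¹ = coeffMap (Int.castRingHom ℚ) chartInt_jInvZ := by
  have h : jq * coeffMap (Int.castRingHom ℚ) chartInt_jInvZ = 1 := by
    have h0 : jq = coeffMap (Int.castRingHom ℚ) (jqModC ℤ) :=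
      (coeffMap_jqModC (Int.castRingHom ℚ)).symm
    rw [h0, ← map_mul, chartInt_jqModC_mul_jInvZ, map_one]
  exact inv_eq_of_mul_eq_one_right h

theorem chartInt_lint_jq_inv (ℓ : ℕ) : LInt ℓ jq⁻¹ := by
  rw [chartInt_jq_inv]
  exact chartInt_lint_coeffMap_int ℓ _

/-- `jq` and `jq⁻¹` have `ℓ`-integral coefficients. -/
theorem chartInt_jInt : JIntStatement := fun ℓ _ =>
  ⟨chartInt_lint_jq ℓ, chartInt_lint_jq_inv ℓ⟩

/-! ## Arithmetic of `ℤ_(ℓ)` -/

/-- Membership in `ℤ_(ℓ)` in terms of the `ℓ`-adic valuation. -/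
theorem chartInt_mem_iff_padicValRat (ℓ : ℕ) [hℓ : Fact ℓ.Prime] (q : ℚ) :
    q ∈ GaloisRep.ratLocalizedAt ℓ ↔ 0 ≤ padicValRat ℓ q := by
  have hmem : q ∈ GaloisRep.ratLocalizedAt ℓ ↔ q.den.Coprime ℓ := Iff.rfl
  rw [hmem, padicValRat_def]
  by_cases hdvd : ℓ ∣ q.den
  · have h1 : ¬ q.den.Coprime ℓ := fun hc =>
      (Nat.Prime.coprime_iff_not_dvd hℓ.out).1 hc.symm hdvd
    have h2 : ¬ (ℓ : ℤ) ∣ q.num := by
      intro h
      have h3 : ℓ ∣ q.num.natAbs := Int.natCast_dvd.1 h
      have h4 : ℓ ∣ Nat.gcd q.num.natAbs q.den := Nat.dvd_gcd h3 hdvd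
      rw [q.reduced] at h4
      exact hℓ.out.one_lt.ne' (Nat.dvd_one.1 h4)
    have h5 : padicValInt ℓ q.num = 0 := padicValInt.eq_zero_of_not_dvd h2
    have h6 : 1 ≤ padicValNat ℓ q.den := one_le_padicValNat_of_dvd q.den_ne_zero hdvd
    rw [h5]
    constructor
    · intro h
      exact absurd h h1
    · intro h
      omega
  · have h1 : q.den.Coprime ℓ := ((Nat.Prime.coprime_iff_not_dvd hℓ.out).2 hdvd).symm
    have h2 : padicValNat ℓ q.den = 0 := padicValNat.eq_zero_of_not_dvd hdvd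
    rw [h2]
    constructor
    · intro _
      simp
    · intro _
      exact h1

/-- If `a ≠ 0` and `a * c ^ m ∈ ℤ_(ℓ)` for all `m`, then `c ∈ ℤ_(ℓ)`. -/
theorem chartInt_arith (ℓ : ℕ) [hℓ : Fact ℓ.Prime] (a c : ℚ) (ha : a ≠ 0)
    (h : ∀ m : ℕ, a * c ^ m ∈ GaloisRep.ratLocalizedAt ℓ) : c ∈ GaloisRep.ratLocalizedAt ℓ := by
  by_contra hc
  have hc0 : c ≠ 0 := by
    rintro rfl
    exact hc (Subring.zero_mem _)
  rw [chartInt_mem_iff_padicValRat] at hc
  have hm := h ((padicValRat ℓ a).toNat + 1)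
  rw [chartInt_mem_iff_padicValRat, padicValRat.mul ha (pow_ne_zero _ hc0), padicValRat.pow] at hm
  have h1 : (((padicValRat ℓ a).toNat + 1 : ℕ) : ℤ) * padicValRat ℓ c
      ≤ (((padicValRat ℓ a).toNat + 1 : ℕ) : ℤ) * (-1) :=
    mul_le_mul_of_nonneg_left (by omega) (by positivity)
  have h2 : padicValRat ℓ a ≤ ((padicValRat ℓ a).toNat : ℤ) := Int.self_le_toNat _
  push_cast at h1 hm
  omega

/-! ## `B` is completely integrally closed -/

theorem chartInt_leadingCoeff_pow (y : LaurentSeries ℚ) (m : ℕ) :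
    (y ^ m).leadingCoeff = y.leadingCoeff ^ m := by
  induction m with
  | zero => rw [pow_zero, pow_zero, HahnSeries.leadingCoeff_one]
  | succ m ih => rw [pow_succ, HahnSeries.leadingCoeff_mul, ih, pow_succ]

/-- The ring of `ℓ`-integral Laurent series is completely integrally closed in `ℚ((q))`: if
`d ≠ 0` and all `d * x ^ m` are `ℓ`-integral, then `x` is `ℓ`-integral. -/
theorem chartInt_cic (ℓ : ℕ) [Fact ℓ.Prime] (d x : LaurentSeries ℚ) (hd : d ≠ 0)
    (h : ∀ m : ℕ, LInt ℓ (d * x ^ m)) : LInt ℓ x := by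
  by_contra hx
  -- the set of bad indices
  set T : Set ℤ := {n | x.coeff n ∉ GaloisRep.ratLocalizedAt ℓ} with hT
  have hTsub : T ⊆ x.support := by
    intro n hn
    rw [HahnSeries.mem_support]
    intro h0
    exact hn (by rw [h0]; exact Subring.zero_mem _)
  have hTwf : T.IsWF := x.isWF_support.mono hTsub
  have hTne : T.Nonempty := by
    by_contra hne
    rw [Set.not_nonempty_iff_eq_empty] at hne
    apply hx
    intro n
    by_contra hn
    have : n ∈ T := hn
    rw [hne] at this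
    exact this
  set n₀ : ℤ := hTwf.min hTne with hn₀
  have hn₀mem : x.coeff n₀ ∉ GaloisRep.ratLocalizedAt ℓ := hTwf.min_mem hTne
  have hlt : ∀ n, n < n₀ → x.coeff n ∈ GaloisRep.ratLocalizedAt ℓ := by
    intro n hn
    by_contra hn'
    exact absurd (hTwf.min_le hTne (a := n) hn') (not_le.mpr hn)
  -- the truncation of `x` below `n₀`
  set x' : LaurentSeries ℚ := HahnSeries.truncLT n₀ x with hx'
  have hx'B : x' ∈ chartInt_subring ℓ := by
    intro n
    rw [hx', HahnSeries.coeff_truncLT]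
    split_ifs with hn
    · exact hlt n hn
    · exact Subring.zero_mem _
  set y : LaurentSeries ℚ := x - x' with hy
  have hy_lt : ∀ n, n < n₀ → y.coeff n = 0 := by
    intro n hn
    rw [hy, HahnSeries.coeff_sub, hx', HahnSeries.coeff_truncLT_of_lt hn, sub_self]
  have hy_n₀ : y.coeff n₀ = x.coeff n₀ := by
    rw [hy, HahnSeries.coeff_sub, hx', HahnSeries.coeff_truncLT_of_le le_rfl, sub_zero]
  have hc0 : x.coeff n₀ ≠ 0 := by
    intro h0
    exact hn₀mem (by rw [h0]; exact Subring.zero_mem _)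
  have hy0 : y ≠ 0 := HahnSeries.ne_zero_of_coeff_ne_zero (g := n₀) (by rw [hy_n₀]; exact hc0)
  have hyord : y.order = n₀ := by
    apply le_antisymm
    · exact HahnSeries.order_le_of_coeff_ne_zero (by rw [hy_n₀]; exact hc0)
    · by_contra hlt'
      rw [not_le] at hlt'
      exact hy0 (HahnSeries.coeff_order_eq_zero.1 (hy_lt _ hlt'))
  have hylead : y.leadingCoeff = x.coeff n₀ := by
    rw [HahnSeries.leadingCoeff_eq, hyord, hy_n₀]
  -- `d * y ^ m ∈ B`
  have hdy : ∀ m : ℕ, d * y ^ m ∈ chartInt_subring ℓ := by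
    intro m
    have hyx : y = x + (-x') := by rw [hy, sub_eq_add_neg]
    rw [hyx, add_pow, Finset.mul_sum]
    refine Subring.sum_mem _ fun k _ => ?_
    have : d * (x ^ k * (-x') ^ (m - k) * (m.choose k : LaurentSeries ℚ))
        = (d * x ^ k) * (-x') ^ (m - k) * (m.choose k : LaurentSeries ℚ) := by ring
    rw [this]
    exact Subring.mul_mem _ (Subring.mul_mem _ (h k)
      (Subring.pow_mem _ (Subring.neg_mem _ hx'B) _)) (natCast_mem _ _)
  apply hn₀mem
  apply chartInt_arith ℓ d.leadingCoeff (x.coeff n₀) (HahnSeries.leadingCoeff_ne_zero.mpr hd)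
  intro m
  have h1 := hdy m (d.order + (y ^ m).order)
  rw [HahnSeries.coeff_mul_order_add_order, chartInt_leadingCoeff_pow, hylead] at h1
  exact h1

/-! ## The function field lies in the fraction field of `B` -/

/-- `x` is a quotient of two `ℓ`-integral series. -/
def chartInt_KG (ℓ : ℕ) (x : LaurentSeries ℚ) : Prop :=
  ∃ d : LaurentSeries ℚ, d ≠ 0 ∧ LInt ℓ d ∧ LInt ℓ (d * x)

theorem chartInt_KG_of_lint {ℓ : ℕ} {x : LaurentSeries ℚ} (hx : LInt ℓ x) : chartInt_KG ℓ x :=
  ⟨1, one_ne_zero, (chartInt_subring ℓ).one_mem, by rwa [one_mul]⟩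

theorem chartInt_KG_algebraMap (ℓ : ℕ) (c : ℚ) :
    chartInt_KG ℓ (algebraMap ℚ (LaurentSeries ℚ) c) := by
  refine ⟨algebraMap ℚ (LaurentSeries ℚ) (c.den : ℚ), ?_, ?_, ?_⟩
  · rw [Ne, map_eq_zero]
    exact_mod_cast c.den_ne_zero
  · exact chartInt_lint_algebraMap ℓ (natCast_mem _ _)
  · rw [← map_mul, Rat.den_mul_eq_num]
    exact chartInt_lint_algebraMap ℓ (intCast_mem _ _)

theorem chartInt_KG_add {ℓ : ℕ} {x y : LaurentSeries ℚ} (hx : chartInt_KG ℓ x)
    (hy : chartInt_KG ℓ y) : chartInt_KG ℓ (x + y) := by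
  obtain ⟨d, hd, hdB, hdx⟩ := hx
  obtain ⟨e, he, heB, hey⟩ := hy
  refine ⟨d * e, mul_ne_zero hd he, (chartInt_subring ℓ).mul_mem hdB heB, ?_⟩
  have h : d * e * (x + y) = e * (d * x) + d * (e * y) := by ring
  rw [h]
  exact (chartInt_subring ℓ).add_mem ((chartInt_subring ℓ).mul_mem heB hdx)
    ((chartInt_subring ℓ).mul_mem hdB hey)

theorem chartInt_KG_mul {ℓ : ℕ} {x y : LaurentSeries ℚ} (hx : chartInt_KG ℓ x)
    (hy : chartInt_KG ℓ y) : chartInt_KG ℓ (x * y) := by
  obtain ⟨d, hd, hdB, hdx⟩ := hx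
  obtain ⟨e, he, heB, hey⟩ := hy
  refine ⟨d * e, mul_ne_zero hd he, (chartInt_subring ℓ).mul_mem hdB heB, ?_⟩
  have h : d * e * (x * y) = (d * x) * (e * y) := by ring
  rw [h]
  exact (chartInt_subring ℓ).mul_mem hdx hey

theorem chartInt_KG_inv {ℓ : ℕ} {x : LaurentSeries ℚ} (hx : chartInt_KG ℓ x) :
    chartInt_KG ℓ x⁻¹ := by
  obtain ⟨d, hd, hdB, hdx⟩ := hx
  by_cases hx0 : x = 0
  · rw [hx0, inv_zero]
    exact chartInt_KG_of_lint (chartInt_subring ℓ).zero_mem
  · refine ⟨d * x, mul_ne_zero hd hx0, hdx, ?_⟩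
    rw [mul_assoc, mul_inv_cancel₀ hx0, mul_one]
    exact hdB

/-- Every element of the function field is a quotient of two `ℓ`-integral series. -/
theorem chartInt_KG_of_mem (N : ℕ) (ℓ : ℕ) {x : LaurentSeries ℚ}
    (hx : x ∈ modularFunctionFieldFull N) : chartInt_KG ℓ x := by
  unfold modularFunctionFieldFull at hx
  induction hx using IntermediateField.adjoin_induction with
  | mem x hx =>
    obtain ⟨d, hd, -, rfl⟩ := hx
    have := hd
    exact chartInt_KG_of_lint (chartInt_lint_qExpand ℓ d (chartInt_lint_jq ℓ))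
  | algebraMap c => exact chartInt_KG_algebraMap ℓ c
  | add x y _ _ hx hy => exact chartInt_KG_add hx hy
  | inv x _ hx => exact chartInt_KG_inv hx
  | mul x y _ _ hx hy => exact chartInt_KG_mul hx hy

/-! ## Integral closedness -/

/-- A root `x ∈ Frac B` of a monic polynomial with coefficients in `B` lies in `B`. -/
theorem chartInt_of_monic_root (ℓ : ℕ) [Fact ℓ.Prime] (x : LaurentSeries ℚ)
    (p : Polynomial (LaurentSeries ℚ)) (hp : p.Monic) (hroot : p.eval x = 0)
    (hcoeff : ∀ i, LInt ℓ (p.coeff i)) (hKG : chartInt_KG ℓ x) : LInt ℓ x := by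
  obtain ⟨d₀, hd₀, hd₀B, hd₀x⟩ := hKG
  set n := p.natDegree with hn
  have hxn : x ^ n = -∑ i ∈ Finset.range n, p.coeff i * x ^ i := by
    have h1 := hroot
    rw [Polynomial.eval_eq_sum_range, Finset.sum_range_succ, hp.coeff_natDegree, one_mul] at h1
    exact eq_neg_of_add_eq_zero_right h1
  apply chartInt_cic ℓ (d₀ ^ n) x (pow_ne_zero _ hd₀)
  intro m
  induction m using Nat.strong_induction_on with
  | _ m ih =>
    rcases lt_or_ge m n with hmn | hmn
    · have h2 : d₀ ^ n * x ^ m = d₀ ^ (n - m) * (d₀ * x) ^ m := by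
        rw [mul_pow, ← mul_assoc, ← pow_add, Nat.sub_add_cancel hmn.le]
      rw [h2]
      exact (chartInt_subring ℓ).mul_mem ((chartInt_subring ℓ).pow_mem hd₀B _)
        ((chartInt_subring ℓ).pow_mem hd₀x _)
    · have h2 : d₀ ^ n * x ^ m
          = -∑ i ∈ Finset.range n, p.coeff i * (d₀ ^ n * x ^ (m - n + i)) := by
        conv_lhs => rw [← Nat.sub_add_cancel hmn, pow_add, hxn]
        rw [mul_neg, mul_neg, Finset.mul_sum, Finset.mul_sum]
        congr 1
        apply Finset.sum_congr rfl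
        intro i _
        rw [pow_add]
        ring
      rw [h2]
      refine (chartInt_subring ℓ).neg_mem (Subring.sum_mem _ fun i hi => ?_)
      have hi' := Finset.mem_range.1 hi
      exact (chartInt_subring ℓ).mul_mem (hcoeff i) (ih _ (by omega))

/-- The structure map `ℤ_(ℓ) → F` followed by the inclusion into `ℚ((q))` is the constant map. -/
theorem chartInt_coe_algebraMap (N : ℕ) [NeZero N] (ℓ : ℕ) [Fact ℓ.Prime]
    (r : ↥(GaloisRep.ratLocalizedAt ℓ)) :
    ((algebraMap ↥(GaloisRep.ratLocalizedAt ℓ) ↥(modularFunctionFieldFull N) r :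
        ↥(modularFunctionFieldFull N)) : LaurentSeries ℚ)
        = algebraMap ℚ (LaurentSeries ℚ) (r : ℚ) := by
  have h1 : algebraMap ↥(GaloisRep.ratLocalizedAt ℓ) ↥(modularFunctionFieldFull N) r
      = algebraMap ℚ ↥(modularFunctionFieldFull N) (r : ℚ) := rfl
  rw [h1]
  exact RingHom.congr_fun (Subsingleton.elim
    ((SubringClass.subtype (modularFunctionFieldFull N)).comp
      (algebraMap ℚ ↥(modularFunctionFieldFull N))) (algebraMap ℚ (LaurentSeries ℚ))) (r : ℚ)

/-- Elements of `ℤ_(ℓ)[S]` are `ℓ`-integral if the elements of `S` are. -/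
theorem chartInt_lint_of_mem_adjoin (N : ℕ) [NeZero N] (ℓ : ℕ) [Fact ℓ.Prime]
    (S : Set ↥(modularFunctionFieldFull N))
    (hS : ∀ s ∈ S, LInt ℓ ((s : ↥(modularFunctionFieldFull N)) : LaurentSeries ℚ))
    {x : ↥(modularFunctionFieldFull N)}
    (hx : x ∈ Algebra.adjoin ↥(GaloisRep.ratLocalizedAt ℓ) S) :
    LInt ℓ (x : LaurentSeries ℚ) := by
  induction hx using Algebra.adjoin_induction with
  | mem y hy => exact hS y hy
  | algebraMap r =>
    rw [chartInt_coe_algebraMap]
    exact chartInt_lint_algebraMap ℓ r.2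
  | add y z _ _ hy hz => exact (chartInt_subring ℓ).add_mem hy hz
  | mul y z _ _ hy hz => exact (chartInt_subring ℓ).mul_mem hy hz

/-- (Q1) Elements of `F` integral over `ℤ_(ℓ)[S]`, `S` a set of `ℓ`-integral series, are
`ℓ`-integral series. -/
theorem chartInt_main : ChartIntStatement := by
  intro N _ ℓ _ S hS x hx
  obtain ⟨p, hp, hroot⟩ := (mem_chartAlg_iff N ℓ).mp hx
  let g : ↥(modularFunctionFieldFull N) →+* LaurentSeries ℚ :=
    SubringClass.subtype (modularFunctionFieldFull N)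
  let φ : ↥(Algebra.adjoin ↥(GaloisRep.ratLocalizedAt ℓ) S) →+* LaurentSeries ℚ :=
    g.comp (algebraMap ↥(Algebra.adjoin ↥(GaloisRep.ratLocalizedAt ℓ) S)
      ↥(modularFunctionFieldFull N))
  refine chartInt_of_monic_root ℓ (x : LaurentSeries ℚ) (p.map φ) (hp.map φ) ?_ ?_
    (chartInt_KG_of_mem N ℓ x.2)
  · have h1 : g (Polynomial.eval₂ (algebraMap ↥(Algebra.adjoin ↥(GaloisRep.ratLocalizedAt ℓ) S)
        ↥(modularFunctionFieldFull N)) x p) = 0 := by
      rw [hroot, map_zero]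
    rw [Polynomial.hom_eval₂] at h1
    rw [Polynomial.eval_map]
    exact h1
  · intro i
    rw [Polynomial.coeff_map]
    exact chartInt_lint_of_mem_adjoin N ℓ S hS (p.coeff i).2

end

end Fermat.Agent.S28
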