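/-
S28, package ChartRed (Part B output): the reduction homomorphism on the chart algebras.

Assuming
* (J)  `jq` and `jq⁻¹` are `ℓ`-integral,
* (Q1) the elements of the chart algebras are `ℓ`-integral series,
* (Q2) the three chart algebras are saturated (for `ℓ ∤ N`),
each of the three chart algebras `A` has a ring homomorphism `ρ : A →+* 𝔽_ℓ((q))` (reduction of the
`q`-expansion mod `ℓ`) whose kernel is the ideal generated by `ℓ`.

Construction: `π : ℤ_(ℓ) →+* ZMod ℓ` is the restriction of the rational cast; an `ℓ`-integral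
series lifts uniquely to a Laurent series over `ℤ_(ℓ)`; `ρ` is the lift followed by `π` on the
coefficients.
-/
import Fermat.Agent.S28.Interfaces

set_option autoImplicit false

open ModularCurve ModularCurve.IgusaScheme

namespace Fermat.Agent.S28

noncomputable section

/-- The denominator of an element of `ℤ_(ℓ)` is invertible mod `ℓ`. -/
theorem chartRed_den_ne_zero (ℓ : ℕ) [Fact ℓ.Prime] {x : ℚ}
    (hx : x ∈ GaloisRep.ratLocalizedAt ℓ) : ((x.den : ℕ) : ZMod ℓ) ≠ 0 := by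
  intro h
  rw [ZMod.natCast_eq_zero_iff] at h
  have hc : x.den.Coprime ℓ := hx
  exact ((Nat.Prime.coprime_iff_not_dvd (Fact.out : ℓ.Prime)).1 hc.symm) h

/-- The residue map `ℤ_(ℓ) → 𝔽_ℓ`, `x ↦ x.num / x.den`. -/
def chartRed_pi (ℓ : ℕ) [Fact ℓ.Prime] : ↥(GaloisRep.ratLocalizedAt ℓ) →+* ZMod ℓ where
  toFun x := ((x : ℚ) : ZMod ℓ)
  map_one' := by simp
  map_mul' x y := by
    rw [Subring.coe_mul]
    exact Rat.cast_mul_of_ne_zero (chartRed_den_ne_zero ℓ x.2) (chartRed_den_ne_zero ℓ y.2)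
  map_zero' := by simp
  map_add' x y := by
    rw [Subring.coe_add]
    exact Rat.cast_add_of_ne_zero (chartRed_den_ne_zero ℓ x.2) (chartRed_den_ne_zero ℓ y.2)

theorem chartRed_pi_apply (ℓ : ℕ) [Fact ℓ.Prime] (x : ↥(GaloisRep.ratLocalizedAt ℓ)) :
    chartRed_pi ℓ x = ((x : ℚ) : ZMod ℓ) := rfl

/-- The kernel of the residue map: `π x = 0` iff `x / ℓ` is still `ℓ`-integral. -/
theorem chartRed_pi_eq_zero_iff (ℓ : ℕ) [Fact ℓ.Prime] (x : ↥(GaloisRep.ratLocalizedAt ℓ)) :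
    chartRed_pi ℓ x = 0 ↔ (ℓ : ℚ)⁻¹ * (x : ℚ) ∈ GaloisRep.ratLocalizedAt ℓ := by
  have hℓ : (ℓ : ℚ) ≠ 0 := Nat.cast_ne_zero.mpr (Fact.out : ℓ.Prime).ne_zero
  constructor
  · intro h
    rw [chartRed_pi_apply, Rat.cast_def, div_eq_zero_iff] at h
    rcases h with h | h
    · rw [ZMod.intCast_zmod_eq_zero_iff_dvd] at h
      obtain ⟨k, hk⟩ := h
      have hx : (ℓ : ℚ)⁻¹ * (x : ℚ) = (k : ℚ) / ((x : ℚ).den : ℚ) := by
        conv_lhs => rw [← Rat.num_div_den (x : ℚ), hk]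
        push_cast
        field_simp
      show ((ℓ : ℚ)⁻¹ * (x : ℚ)).den.Coprime ℓ
      rw [hx]
      have hdvd : ((k : ℚ) / ((x : ℚ).den : ℚ)).den ∣ (x : ℚ).den := by
        have := Rat.den_dvd k ((x : ℚ).den : ℤ)
        rw [Rat.divInt_eq_div] at this
        exact_mod_cast this
      exact Nat.Coprime.coprime_dvd_left hdvd x.2
    · exact absurd h (chartRed_den_ne_zero ℓ x.2)
  · intro h
    have hx : x = (ℓ : ↥(GaloisRep.ratLocalizedAt ℓ)) * ⟨_, h⟩ := by
      apply Subtype.ext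
      rw [Subring.coe_mul]
      simp only [Subring.coe_natCast]
      field_simp
    rw [hx, map_mul, map_natCast, ZMod.natCast_self, zero_mul]

/-- Lift of an `ℓ`-integral rational Laurent series to a Laurent series over `ℤ_(ℓ)`. -/
def chartRed_lift (ℓ : ℕ) (x : LaurentSeries ℚ) (hx : LInt ℓ x) :
    LaurentSeries ↥(GaloisRep.ratLocalizedAt ℓ) where
  coeff n := ⟨x.coeff n, hx n⟩
  isPWO_support' := x.isPWO_support.mono fun n hn => by
    simp only [Function.mem_support, ne_eq] at hn ⊢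
    exact fun h => hn (Subtype.ext h)

theorem chartRed_lift_coeff (ℓ : ℕ) (x : LaurentSeries ℚ) (hx : LInt ℓ x) (n : ℤ) :
    (((chartRed_lift ℓ x hx).coeff n : ↥(GaloisRep.ratLocalizedAt ℓ)) : ℚ) = x.coeff n := rfl

/-- The inclusion of Laurent series over `ℤ_(ℓ)` into rational Laurent series. -/
def chartRed_iota (ℓ : ℕ) : LaurentSeries ↥(GaloisRep.ratLocalizedAt ℓ) →+* LaurentSeries ℚ :=
  coeffMap (Subring.subtype (GaloisRep.ratLocalizedAt ℓ))

theorem chartRed_iota_lift (ℓ : ℕ) (x : LaurentSeries ℚ) (hx : LInt ℓ x) :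
    chartRed_iota ℓ (chartRed_lift ℓ x hx) = x := by
  ext n
  rfl

theorem chartRed_iota_injective (ℓ : ℕ) : Function.Injective (chartRed_iota ℓ) := by
  intro a b h
  ext n
  have := congrArg (fun z : LaurentSeries ℚ => z.coeff n) h
  exact this

/-- The image of `chartRed_iota` consists of `ℓ`-integral series. -/
theorem chartRed_iota_lInt (ℓ : ℕ) (a : LaurentSeries ↥(GaloisRep.ratLocalizedAt ℓ)) :
    LInt ℓ (chartRed_iota ℓ a) := fun n => (a.coeff n).2

/-- The lift to `ℤ_(ℓ)((q))` of the `q`-expansion map of a subalgebra of `ℓ`-integral series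
in `F`. -/
def chartRed_lam (N : ℕ) [NeZero N] (ℓ : ℕ) [Fact ℓ.Prime]
    (A : Subalgebra ↥(GaloisRep.ratLocalizedAt ℓ) ↥(modularFunctionFieldFull N))
    (hA : ∀ x ∈ A, LInt ℓ ((x : ↥(modularFunctionFieldFull N)) : LaurentSeries ℚ)) :
    ↥A →+* LaurentSeries ↥(GaloisRep.ratLocalizedAt ℓ) where
  toFun x := chartRed_lift ℓ (((x : ↥(modularFunctionFieldFull N)) : LaurentSeries ℚ)) (hA x x.2)
  map_one' := by
    apply chartRed_iota_injective
    rw [chartRed_iota_lift, map_one]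
    rfl
  map_mul' x y := by
    apply chartRed_iota_injective
    rw [map_mul, chartRed_iota_lift, chartRed_iota_lift, chartRed_iota_lift]
    rfl
  map_zero' := by
    apply chartRed_iota_injective
    rw [chartRed_iota_lift, map_zero]
    rfl
  map_add' x y := by
    apply chartRed_iota_injective
    rw [map_add, chartRed_iota_lift, chartRed_iota_lift, chartRed_iota_lift]
    rfl

theorem chartRed_lam_coeff (N : ℕ) [NeZero N] (ℓ : ℕ) [Fact ℓ.Prime]
    (A : Subalgebra ↥(GaloisRep.ratLocalizedAt ℓ) ↥(modularFunctionFieldFull N))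
    (hA : ∀ x ∈ A, LInt ℓ ((x : ↥(modularFunctionFieldFull N)) : LaurentSeries ℚ))
    (x : ↥A) (n : ℤ) :
    ((((chartRed_lam N ℓ A hA x).coeff n : ↥(GaloisRep.ratLocalizedAt ℓ)) : ℚ)) =
      ((x : ↥(modularFunctionFieldFull N)) : LaurentSeries ℚ).coeff n := rfl

/-- The lift composed with the inclusion `ℤ_(ℓ)((q)) → ℚ((q))` is the `q`-expansion. -/
theorem chartRed_iota_lam (N : ℕ) [NeZero N] (ℓ : ℕ) [Fact ℓ.Prime]
    (A : Subalgebra ↥(GaloisRep.ratLocalizedAt ℓ) ↥(modularFunctionFieldFull N))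
    (hA : ∀ x ∈ A, LInt ℓ ((x : ↥(modularFunctionFieldFull N)) : LaurentSeries ℚ))
    (x : ↥A) :
    chartRed_iota ℓ (chartRed_lam N ℓ A hA x) =
      ((x : ↥(modularFunctionFieldFull N)) : LaurentSeries ℚ) :=
  chartRed_iota_lift ℓ _ _

/-- Reduction mod `ℓ` of `q`-expansions on a subalgebra of `ℓ`-integral series. -/
def chartRed_rho (N : ℕ) [NeZero N] (ℓ : ℕ) [Fact ℓ.Prime]
    (A : Subalgebra ↥(GaloisRep.ratLocalizedAt ℓ) ↥(modularFunctionFieldFull N))
    (hA : ∀ x ∈ A, LInt ℓ ((x : ↥(modularFunctionFieldFull N)) : LaurentSeries ℚ)) :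
    ↥A →+* LaurentSeries (ZMod ℓ) :=
  (coeffMap (chartRed_pi ℓ)).comp (chartRed_lam N ℓ A hA)

theorem chartRed_rho_coeff (N : ℕ) [NeZero N] (ℓ : ℕ) [Fact ℓ.Prime]
    (A : Subalgebra ↥(GaloisRep.ratLocalizedAt ℓ) ↥(modularFunctionFieldFull N))
    (hA : ∀ x ∈ A, LInt ℓ ((x : ↥(modularFunctionFieldFull N)) : LaurentSeries ℚ))
    (x : ↥A) (n : ℤ) :
    (chartRed_rho N ℓ A hA x).coeff n =
      chartRed_pi ℓ ((chartRed_lam N ℓ A hA x).coeff n) := rfl

/-- `ρ x = 0` iff all `q`-expansion coefficients of `x` are divisible by `ℓ` in `ℤ_(ℓ)`. -/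
theorem chartRed_rho_eq_zero_iff (N : ℕ) [NeZero N] (ℓ : ℕ) [Fact ℓ.Prime]
    (A : Subalgebra ↥(GaloisRep.ratLocalizedAt ℓ) ↥(modularFunctionFieldFull N))
    (hA : ∀ x ∈ A, LInt ℓ ((x : ↥(modularFunctionFieldFull N)) : LaurentSeries ℚ))
    (x : ↥A) :
    chartRed_rho N ℓ A hA x = 0 ↔
      LInt ℓ ((ℓ : ℚ)⁻¹ • ((x : ↥(modularFunctionFieldFull N)) : LaurentSeries ℚ)) := by
  constructor
  · intro h n
    have hn : chartRed_pi ℓ ((chartRed_lam N ℓ A hA x).coeff n) = 0 := by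
      rw [← chartRed_rho_coeff, h, HahnSeries.coeff_zero]
    rw [chartRed_pi_eq_zero_iff, chartRed_lam_coeff] at hn
    rw [HahnSeries.coeff_smul, smul_eq_mul]
    exact hn
  · intro h
    ext n
    have hn := h n
    rw [HahnSeries.coeff_smul, smul_eq_mul, ← chartRed_lam_coeff N ℓ A hA x n,
      ← chartRed_pi_eq_zero_iff] at hn
    rw [chartRed_rho_coeff, hn, HahnSeries.coeff_zero]

/-- Kernel of the reduction map on a saturated subalgebra of `ℓ`-integral series. -/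
theorem chartRed_ker (N : ℕ) [NeZero N] (ℓ : ℕ) [Fact ℓ.Prime]
    (A : Subalgebra ↥(GaloisRep.ratLocalizedAt ℓ) ↥(modularFunctionFieldFull N))
    (hA : ∀ x ∈ A, LInt ℓ ((x : ↥(modularFunctionFieldFull N)) : LaurentSeries ℚ))
    (hsat : ∀ x : ↥(modularFunctionFieldFull N), x ∈ A →
        LInt ℓ ((ℓ : ℚ)⁻¹ • (x : LaurentSeries ℚ)) → (ℓ : ℚ)⁻¹ • x ∈ A) :
    RingHom.ker (chartRed_rho N ℓ A hA) = Ideal.span {(ℓ : ↥A)} := by
  ext x
  rw [RingHom.mem_ker, Ideal.mem_span_singleton']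
  constructor
  · intro hx
    rw [chartRed_rho_eq_zero_iff] at hx
    have hy := hsat x x.2 hx
    refine ⟨⟨_, hy⟩, Subtype.ext ?_⟩
    rw [Subalgebra.coe_mul, SubringClass.coe_natCast]
    show ((ℓ : ℚ)⁻¹ • (x : ↥(modularFunctionFieldFull N))) *
      ((ℓ : ℕ) : ↥(modularFunctionFieldFull N)) = (x : ↥(modularFunctionFieldFull N))
    have hℓF : ((ℓ : ℕ) : ↥(modularFunctionFieldFull N)) ≠ 0 :=
      Nat.cast_ne_zero.mpr (Fact.out : ℓ.Prime).ne_zero
    rw [Algebra.smul_def, map_inv₀, map_natCast, mul_comm, ← mul_assoc,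
      mul_inv_cancel₀ hℓF, one_mul]
  · rintro ⟨a, rfl⟩
    rw [map_mul, map_natCast]
    have h0 : ((ℓ : ℕ) : LaurentSeries (ZMod ℓ)) = 0 := by
      rw [← map_natCast (HahnSeries.C : ZMod ℓ →+* LaurentSeries (ZMod ℓ)), ZMod.natCast_self,
        map_zero]
    rw [h0, mul_zero]

/-- The generators of the three chart algebras are `ℓ`-integral series, given (J). -/
theorem chartRed_gens_lInt (hJ : JIntStatement) (N : ℕ) [NeZero N] (ℓ : ℕ) [Fact ℓ.Prime]
    (S : Set ↥(modularFunctionFieldFull N))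
    (hS : S = {jFull N} ∨ S = {(jFull N)⁻¹} ∨ S = {jFull N, (jFull N)⁻¹}) :
    ∀ s ∈ S, LInt ℓ ((s : ↥(modularFunctionFieldFull N)) : LaurentSeries ℚ) := by
  obtain ⟨h1, h2⟩ := hJ ℓ
  have e1 : ((jFull N : ↥(modularFunctionFieldFull N)) : LaurentSeries ℚ) = jq := rfl
  have e2 : (((jFull N)⁻¹ : ↥(modularFunctionFieldFull N)) : LaurentSeries ℚ) = jq⁻¹ := rfl
  intro s hs
  rcases hS with rfl | rfl | rfl
  · rw [Set.mem_singleton_iff] at hs
    subst hs
    rw [e1]; exact h1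
  · rw [Set.mem_singleton_iff] at hs
    subst hs
    rw [e2]; exact h2
  · rcases hs with rfl | hs
    · rw [e1]; exact h1
    · rw [Set.mem_singleton_iff] at hs
      subst hs
      rw [e2]; exact h2

/-- (B-out) For `ℓ ∤ N` each of the three chart algebras has a ring homomorphism to `𝔽_ℓ((q))`
whose kernel is generated by `ℓ`, given (J), (Q1) and (Q2). -/
theorem chartRed_main : JIntStatement → ChartIntStatement → ChartKernelStatement →
    ChartRedStatement := by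
  intro hJ hQ1 hQ2 N _ ℓ _ hℓN S hS
  have hA := hQ1 N ℓ S (chartRed_gens_lInt hJ N ℓ S hS)
  exact ⟨chartRed_rho N ℓ (chartAlg N ℓ S) hA,
    chartRed_ker N ℓ (chartAlg N ℓ S) hA (hQ2 N ℓ hℓN S hS)⟩

end

end Fermat.Agent.S28
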