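/-
S28 / block ChartKernel (twin A) — INTERNAL INTERFACE FILE.

Shared definitions, a few basic lemmas, and the statement-`Prop`s of the work packages of the block
`ka_main : Char0DegStatement → DegStatement → ChartKernelStatement`.

Notation used in the comments: `L = LaurentSeries ℚ`, `F = modularFunctionFieldFull N ⊆ L`,
`K0 = ℚ(jq) ⊆ L`, `ℤ_(ℓ) = GaloisRep.ratLocalizedAt ℓ ⊆ ℚ`, `cQ : ℤ((q)) → L` the coefficientwise
cast, `P(j) = ka_ev P` for `P ∈ ℤ[T]`; "`ℓ ∣ P`" is written `Polynomial.C (ℓ : ℤ) ∣ P`.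
-/
import Fermat.Agent.S28.Interfaces

set_option autoImplicit false

open ModularCurve ModularCurve.IgusaScheme

namespace Fermat.Agent.S28

noncomputable section

/-! ## Shared definitions -/

/-- `cQ`: the coefficientwise cast `ℤ((q)) → ℚ((q))` (an injective ring homomorphism). -/
def ka_cQ : LaurentSeries ℤ →+* LaurentSeries ℚ := coeffMap (Int.castRingHom ℚ)

/-- `P ↦ P(jq)` for integer polynomials `P ∈ ℤ[T]`. -/
def ka_ev : Polynomial ℤ →+* LaurentSeries ℚ :=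
  (evalL jq).comp (Polynomial.mapRingHom (Int.castRingHom ℚ))

/-- `K0 = ℚ(jq)`, as an intermediate field of `ℚ((q)) / ℚ`. -/
abbrev ka_K0 : IntermediateField ℚ (LaurentSeries ℚ) := IntermediateField.adjoin ℚ {jq}

/-- `ℓ` is a prime element of `ℤ[T]` (this gives GAUSS: `ℓ ∣ P * Q → ℓ ∣ P ∨ ℓ ∣ Q`). -/
theorem ka_prime_C (ℓ : ℕ) [Fact ℓ.Prime] : Prime (Polynomial.C (ℓ : ℤ)) :=
  Polynomial.prime_C_iff.mpr (Nat.prime_iff_prime_int.mp Fact.out)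

/-- `O₀`: the Gauss valuation ring of `K0 = ℚ(jq)` at `ℓ`, as a subring of `L`:
`c ∈ O₀ ↔ ∃ g f ∈ ℤ[T], ¬ ℓ ∣ g ∧ g(j) * c = f(j)`. -/
def ka_O0 (ℓ : ℕ) [Fact ℓ.Prime] : Subring (LaurentSeries ℚ) where
  carrier := {c | ∃ g f : Polynomial ℤ, ¬ Polynomial.C (ℓ : ℤ) ∣ g ∧ ka_ev g * c = ka_ev f}
  mul_mem' := by
    rintro a b ⟨g₁, f₁, h₁, e₁⟩ ⟨g₂, f₂, h₂, e₂⟩
    refine ⟨g₁ * g₂, f₁ * f₂, fun h => ?_, ?_⟩
    · exact ((ka_prime_C ℓ).dvd_or_dvd h).elim h₁ h₂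
    · rw [map_mul, map_mul, ← e₁, ← e₂]; ring
  one_mem' := ⟨1, 1, (ka_prime_C ℓ).not_dvd_one, by simp⟩
  add_mem' := by
    rintro a b ⟨g₁, f₁, h₁, e₁⟩ ⟨g₂, f₂, h₂, e₂⟩
    refine ⟨g₁ * g₂, f₁ * g₂ + f₂ * g₁, fun h => ?_, ?_⟩
    · exact ((ka_prime_C ℓ).dvd_or_dvd h).elim h₁ h₂
    · rw [map_mul, map_add, map_mul, map_mul, ← e₁, ← e₂]; ring
  zero_mem' := ⟨1, 0, (ka_prime_C ℓ).not_dvd_one, by simp⟩
  neg_mem' := by
    rintro a ⟨g, f, h, e⟩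
    exact ⟨g, -f, h, by rw [map_neg, ← e]; ring⟩

theorem ka_mem_O0_iff (ℓ : ℕ) [Fact ℓ.Prime] (c : LaurentSeries ℚ) :
    c ∈ ka_O0 ℓ ↔ ∃ g f : Polynomial ℤ, ¬ Polynomial.C (ℓ : ℤ) ∣ g ∧ ka_ev g * c = ka_ev f :=
  Iff.rfl

/-- `B_t = ℚ[t] ⊆ L` (the subring of all `p(t)`, `p ∈ ℚ[T]`). -/
def ka_B (t : LaurentSeries ℚ) : Subring (LaurentSeries ℚ) := (evalL t).range

theorem ka_mem_B_iff (t c : LaurentSeries ℚ) : c ∈ ka_B t ↔ ∃ p : Polynomial ℚ, evalL t p = c :=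
  Iff.rfl

/-- `A_t = ℤ_(ℓ)[t] ⊆ L` (the subring of all `p(t)`, `p ∈ ℤ_(ℓ)[T]`). -/
def ka_A (ℓ : ℕ) (t : LaurentSeries ℚ) : Subring (LaurentSeries ℚ) :=
  ((evalL t).comp (Polynomial.mapRingHom (GaloisRep.ratLocalizedAt ℓ).subtype)).range

theorem ka_mem_A_iff (ℓ : ℕ) (t c : LaurentSeries ℚ) :
    c ∈ ka_A ℓ t ↔ ∃ p : Polynomial ↥(GaloisRep.ratLocalizedAt ℓ),
      evalL t (p.map (GaloisRep.ratLocalizedAt ℓ).subtype) = c :=
  Iff.rfl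

/-- The property of the family `m` provided by `DegStatement`. -/
def ka_DegProp (N : ℕ) (ℓ : ℕ) (m : Fin (dedekindPsi N) → LaurentSeries ℤ) : Prop :=
  (∀ i, coeffMap (Int.castRingHom ℚ) (m i) ∈ modularFunctionFieldFull N) ∧
    ∀ f : Fin (dedekindPsi N) → Polynomial ℤ,
      (∀ n : ℤ, (ℓ : ℤ) ∣ (∑ i, evalL (jqModC ℤ) (f i) * m i).coeff n) →
      ∀ (i : Fin (dedekindPsi N)) (n : ℕ), (ℓ : ℤ) ∣ (f i).coeff n

/-! ## Basic lemmas -/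

theorem ka_cQ_coeff (z : LaurentSeries ℤ) (n : ℤ) : (ka_cQ z).coeff n = ((z.coeff n : ℤ) : ℚ) :=
  rfl

theorem ka_cQ_injective : Function.Injective ka_cQ := by
  intro a b h
  ext n
  have := congrArg (fun z => HahnSeries.coeff z n) h
  simpa [ka_cQ_coeff] using this

theorem ka_cQ_jqModC : ka_cQ (jqModC ℤ) = jq := by
  rw [ka_cQ, coeffMap_jqModC, jqModC_rat]

/-- `P(j) = cQ (P(jZ))`. -/
theorem ka_ev_eq_cQ (P : Polynomial ℤ) : ka_ev P = ka_cQ (evalL (jqModC ℤ) P) := by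
  have h : ka_ev = ka_cQ.comp (evalL (jqModC ℤ)) := by
    refine Polynomial.ringHom_ext (fun a => ?_) ?_
    · simp [ka_ev, evalL, ka_cQ]
    · simp [ka_ev, evalL, ka_cQ_jqModC]
  rw [h]; rfl

theorem ka_ev_C (a : ℤ) : ka_ev (Polynomial.C a) = HahnSeries.C (a : ℚ) := by
  simp [ka_ev, evalL]

theorem ka_ev_X : ka_ev Polynomial.X = jq := by
  simp [ka_ev, evalL]

/-- `LInt` is closed under addition. -/
theorem ka_LInt_add {ℓ : ℕ} {x y : LaurentSeries ℚ} (hx : LInt ℓ x) (hy : LInt ℓ y) :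
    LInt ℓ (x + y) := fun n => by
  rw [HahnSeries.coeff_add]; exact add_mem (hx n) (hy n)

/-- `LInt` is closed under multiplication. -/
theorem ka_LInt_mul {ℓ : ℕ} {x y : LaurentSeries ℚ} (hx : LInt ℓ x) (hy : LInt ℓ y) :
    LInt ℓ (x * y) := fun n => by
  rw [HahnSeries.coeff_mul]
  exact Subring.sum_mem _ fun ij _ => mul_mem (hx _) (hy _)

/-- Series with integer coefficients are `ℓ`-integral. -/
theorem ka_LInt_cQ (ℓ : ℕ) (z : LaurentSeries ℤ) : LInt ℓ (ka_cQ z) := fun n => by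
  rw [ka_cQ_coeff]
  exact intCast_mem _ _

theorem ka_LInt_one (ℓ : ℕ) : LInt ℓ 1 := by
  have := ka_LInt_cQ ℓ 1
  rwa [map_one] at this

theorem ka_LInt_jq (ℓ : ℕ) : LInt ℓ jq := by
  rw [← ka_cQ_jqModC]; exact ka_LInt_cQ ℓ _

theorem ka_LInt_ev (ℓ : ℕ) (P : Polynomial ℤ) : LInt ℓ (ka_ev P) := by
  rw [ka_ev_eq_cQ]; exact ka_LInt_cQ ℓ _

/-- An integer lying in `ℓ ℤ_(ℓ)` is divisible by `ℓ`. -/
theorem ka_int_dvd_of_mem {ℓ : ℕ} [Fact ℓ.Prime] {a : ℤ} {r : ℚ}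
    (hr : r ∈ GaloisRep.ratLocalizedAt ℓ) (h : (a : ℚ) = (ℓ : ℚ) * r) : (ℓ : ℤ) ∣ a := by
  have h1 : (a : ℚ) * r.den = ℓ * r.num := by rw [h, mul_assoc, Rat.mul_den_eq_num]
  have h2 : a * (r.den : ℤ) = ℓ * r.num := by exact_mod_cast h1
  have h3 : (ℓ : ℤ) ∣ a * r.den := ⟨r.num, h2⟩
  have hcop : IsCoprime (ℓ : ℤ) (r.den : ℤ) := by
    rw [Nat.isCoprime_iff_coprime]
    exact Nat.Coprime.symm hr
  exact hcop.dvd_of_dvd_mul_right h3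

/-- `A_t ≤ B_t`. -/
theorem ka_A_le_B (ℓ : ℕ) (t : LaurentSeries ℚ) : ka_A ℓ t ≤ ka_B t := by
  rintro c ⟨p, rfl⟩
  exact ⟨_, rfl⟩

/-- Constants are in `B_t`. -/
theorem ka_C_mem_B (t : LaurentSeries ℚ) (a : ℚ) : HahnSeries.C a ∈ ka_B t :=
  ⟨Polynomial.C a, by simp [evalL]⟩

theorem ka_self_mem_B (t : LaurentSeries ℚ) : t ∈ ka_B t :=
  ⟨Polynomial.X, by simp [evalL]⟩

theorem ka_self_mem_A (ℓ : ℕ) (t : LaurentSeries ℚ) : t ∈ ka_A ℓ t :=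
  ⟨Polynomial.X, by simp [evalL]⟩

/-! ## Statements of the work packages -/

/-- (T) `jq` is transcendental over `ℚ`, in polynomial form. -/
def ka_TransStatement : Prop :=
  ∀ p : Polynomial ℚ, evalL jq p = 0 → p = 0

/-- (Frac) Every element of `K0 = ℚ(jq)` is a quotient `f(j) / g(j)` with `f, g ∈ ℤ[T]`, `g ≠ 0`. -/
def ka_FracStatement : Prop :=
  ∀ c : LaurentSeries ℚ, c ∈ ka_K0 → ∃ f g : Polynomial ℤ, g ≠ 0 ∧ ka_ev g * c = ka_ev f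

/-- (K1)+(K2) Basis: for a family `m` as in `DegStatement`, every `x ∈ F` satisfies a normalised
relation `g(j) * x = ∑ f_i(j) * cQ (m_i)` with `g ≠ 0` and `(g, f_0, …)` not all divisible by `ℓ`. -/
def ka_BasisStatement : Prop :=
  ∀ (N : ℕ) [NeZero N] (ℓ : ℕ) [Fact ℓ.Prime] (m : Fin (dedekindPsi N) → LaurentSeries ℤ),
    ka_DegProp N ℓ m →
    ∀ x : LaurentSeries ℚ, x ∈ modularFunctionFieldFull N →
      ∃ (g : Polynomial ℤ) (f : Fin (dedekindPsi N) → Polynomial ℤ),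
        g ≠ 0 ∧ ¬ (Polynomial.C (ℓ : ℤ) ∣ g ∧ ∀ i, Polynomial.C (ℓ : ℤ) ∣ f i) ∧
        ka_ev g * x = ∑ i, ka_ev (f i) * ka_cQ (m i)

/-- (K3)+(K4) Every `ℓ`-integral element of `F` is integral over the Gauss valuation ring `O₀`. -/
def ka_IntO0Statement : Prop :=
  ∀ (N : ℕ) [NeZero N] (ℓ : ℕ) [Fact ℓ.Prime], ¬ ℓ ∣ N →
    ∀ y : LaurentSeries ℚ, y ∈ modularFunctionFieldFull N → LInt ℓ y →
      IsIntegral ↥(ka_O0 ℓ) y

/-- (O) `O₀` is integrally closed in `K0`. -/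
def ka_O0ClosedStatement : Prop :=
  ∀ (ℓ : ℕ) [Fact ℓ.Prime] (c : LaurentSeries ℚ), c ∈ ka_K0 →
    IsIntegral ↥(ka_O0 ℓ) c → c ∈ ka_O0 ℓ

/-- (K5a) `B_t = ℚ[t]` is integrally closed in `K0`, for `t = jq` and `t = jq⁻¹`. -/
def ka_BClosedStatement : Prop :=
  ∀ t : LaurentSeries ℚ, (t = jq ∨ t = jq⁻¹) →
    ∀ c : LaurentSeries ℚ, c ∈ ka_K0 → IsIntegral ↥(ka_B t) c → c ∈ ka_B t

/-- (K5b) `O₀ ∩ B_t ⊆ A_t`, for `t = jq` and `t = jq⁻¹`. -/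
def ka_InterStatement : Prop :=
  ∀ (ℓ : ℕ) [Fact ℓ.Prime] (t : LaurentSeries ℚ), (t = jq ∨ t = jq⁻¹) →
    ∀ c : LaurentSeries ℚ, c ∈ ka_O0 ℓ → c ∈ ka_B t → c ∈ ka_A ℓ t

/-- (K6, inside `L`) An element of `L` integral over `O₀` and over `B_t` is integral over `A_t`
(minimal polynomial over `K0`). -/
def ka_SingleLStatement : Prop :=
  ∀ (ℓ : ℕ) [Fact ℓ.Prime] (t : LaurentSeries ℚ), (t = jq ∨ t = jq⁻¹) →
    ∀ y : LaurentSeries ℚ, IsIntegral ↥(ka_O0 ℓ) y → IsIntegral ↥(ka_B t) y →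
      IsIntegral ↥(ka_A ℓ t) y

/-- (K6, transport) Membership in the chart algebra of a single generator `s ∈ F` is integrality
over the subring `A_s = ℤ_(ℓ)[s]` of `L`. -/
def ka_TransportStatement : Prop :=
  ∀ (N : ℕ) [NeZero N] (ℓ : ℕ) [Fact ℓ.Prime] (s x : ↥(modularFunctionFieldFull N)),
    x ∈ chartAlg N ℓ {s} ↔
      IsIntegral ↥(ka_A ℓ (s : LaurentSeries ℚ)) (x : LaurentSeries ℚ)

/-! ## Basic lemmas using the statements -/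

/-- `ℓ ∣ P` coefficientwise. -/
theorem ka_C_dvd_iff (ℓ : ℕ) (P : Polynomial ℤ) :
    Polynomial.C (ℓ : ℤ) ∣ P ↔ ∀ n : ℕ, (ℓ : ℤ) ∣ P.coeff n :=
  Polynomial.C_dvd_iff_dvd_coeff _ _

theorem ka_ne_zero_of_not_dvd {ℓ : ℕ} {g : Polynomial ℤ} (h : ¬ Polynomial.C (ℓ : ℤ) ∣ g) :
    g ≠ 0 := fun h0 => h (h0 ▸ dvd_zero _)

/-- The scalar action of `ℚ` on `L` is multiplication by the constant series. -/
theorem ka_smul_eq (a : ℚ) (x : LaurentSeries ℚ) : a • x = HahnSeries.C a * x := by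
  rw [HahnSeries.C_mul_eq_smul]

theorem ka_algebraMap_eq_C (a : ℚ) : algebraMap ℚ (LaurentSeries ℚ) a = HahnSeries.C a := by
  rw [algebraMap_apply_eq_single, HahnSeries.C_apply]

/-- `evalL t` is `Polynomial.aeval t` (over `ℚ`). -/
theorem ka_evalL_eq_aeval (t : LaurentSeries ℚ) (p : Polynomial ℚ) :
    evalL t p = Polynomial.aeval t p := by
  rw [Polynomial.aeval_def]
  have : (HahnSeries.C : ℚ →+* LaurentSeries ℚ) = algebraMap ℚ (LaurentSeries ℚ) :=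
    RingHom.ext fun a => (ka_algebraMap_eq_C a).symm
  rw [← this]; rfl

theorem ka_jq_mem_K0 : jq ∈ ka_K0 := IntermediateField.mem_adjoin_simple_self ℚ jq

theorem ka_jq_inv_mem_K0 : jq⁻¹ ∈ ka_K0 := inv_mem ka_jq_mem_K0

theorem ka_evalL_mem_K0 {t : LaurentSeries ℚ} (ht : t ∈ ka_K0) (p : Polynomial ℚ) :
    evalL t p ∈ ka_K0 := by
  rw [ka_evalL_eq_aeval, Polynomial.aeval_eq_sum_range]
  exact sum_mem fun i _ => (ka_K0).smul_mem (pow_mem ht i)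

theorem ka_ev_mem_K0 (P : Polynomial ℤ) : ka_ev P ∈ ka_K0 :=
  ka_evalL_mem_K0 ka_jq_mem_K0 _

/-- `B_t ≤ K0` for `t ∈ K0`. -/
theorem ka_B_le_K0 {t : LaurentSeries ℚ} (ht : t ∈ ka_K0) {c : LaurentSeries ℚ}
    (hc : c ∈ ka_B t) : c ∈ ka_K0 := by
  obtain ⟨p, rfl⟩ := hc
  exact ka_evalL_mem_K0 ht p

theorem ka_ev_injective (hT : ka_TransStatement) : Function.Injective ka_ev := by
  rw [injective_iff_map_eq_zero]
  intro P hP
  have h := hT _ hP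
  exact (Polynomial.map_eq_zero_iff (RingHom.injective_int (Int.castRingHom ℚ))).mp h

theorem ka_ev_ne_zero (hT : ka_TransStatement) {g : Polynomial ℤ} (hg : g ≠ 0) : ka_ev g ≠ 0 :=
  fun h => hg (ka_ev_injective hT (h.trans (map_zero _).symm))

/-- `O₀ ≤ K0`. -/
theorem ka_O0_le_K0 (hT : ka_TransStatement) {ℓ : ℕ} [Fact ℓ.Prime] {c : LaurentSeries ℚ}
    (hc : c ∈ ka_O0 ℓ) : c ∈ ka_K0 := by
  obtain ⟨g, f, hg, e⟩ := hc
  have hg0 : ka_ev g ≠ 0 := ka_ev_ne_zero hT (ka_ne_zero_of_not_dvd hg)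
  have : c = ka_ev f / ka_ev g := by
    rw [eq_div_iff hg0, mul_comm]; exact e
  rw [this]
  exact div_mem (ka_ev_mem_K0 f) (ka_ev_mem_K0 g)

theorem ka_ev_mem_O0 (ℓ : ℕ) [Fact ℓ.Prime] (P : Polynomial ℤ) : ka_ev P ∈ ka_O0 ℓ :=
  ⟨1, P, (ka_prime_C ℓ).not_dvd_one, by simp⟩

theorem ka_jq_mem_O0 (ℓ : ℕ) [Fact ℓ.Prime] : jq ∈ ka_O0 ℓ := by
  rw [← ka_ev_X]; exact ka_ev_mem_O0 ℓ _

/-- A quotient `f(j) / g(j)` with `¬ ℓ ∣ g` lies in `O₀`. -/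
theorem ka_div_mem_O0 (hT : ka_TransStatement) {ℓ : ℕ} [Fact ℓ.Prime] {g f : Polynomial ℤ}
    (hg : ¬ Polynomial.C (ℓ : ℤ) ∣ g) : ka_ev f / ka_ev g ∈ ka_O0 ℓ :=
  ⟨g, f, hg, mul_div_cancel₀ _ (ka_ev_ne_zero hT (ka_ne_zero_of_not_dvd hg))⟩

/-- Removal of the common `ℓ`-content of a finite family of integer polynomials, not all zero. -/
theorem ka_content_removal (ℓ : ℕ) [Fact ℓ.Prime] {ι : Type*} [Finite ι] (F : ι → Polynomial ℤ)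
    (hF : ∃ i, F i ≠ 0) :
    ∃ (e : ℕ) (F' : ι → Polynomial ℤ), (∀ i, F i = Polynomial.C (ℓ : ℤ) ^ e * F' i) ∧
      ¬ ∀ i, Polynomial.C (ℓ : ℤ) ∣ F' i := by
  classical
  obtain ⟨i₀, hi₀⟩ := hF
  have hfin : FiniteMultiplicity (Polynomial.C (ℓ : ℤ)) (F i₀) :=
    FiniteMultiplicity.of_not_isUnit (ka_prime_C ℓ).not_isUnit hi₀
  have hex : ∃ e : ℕ, ¬ ∀ i, Polynomial.C (ℓ : ℤ) ^ (e + 1) ∣ F i := by
    obtain ⟨n, hn⟩ := hfin
    exact ⟨n, fun h => hn (h i₀)⟩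
  have hmin : ∀ i, Polynomial.C (ℓ : ℤ) ^ (Nat.find hex) ∣ F i := by
    intro i
    rcases Nat.eq_zero_or_pos (Nat.find hex) with h0 | hpos
    · rw [h0, pow_zero]; exact one_dvd _
    · have := Nat.find_min hex (Nat.sub_one_lt hpos.ne')
      rw [not_not] at this
      have h := this i
      rwa [Nat.sub_add_cancel hpos] at h
  choose F' hF' using hmin
  refine ⟨Nat.find hex, F', hF', fun hall => Nat.find_spec hex fun i => ?_⟩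
  obtain ⟨G, hG⟩ := hall i
  exact ⟨G, by rw [hF' i, hG, pow_succ]; ring⟩

/-- If all coefficients of `p ∈ ℚ[T]` are in `ℤ_(ℓ)` then `p(t) ∈ A_t`. -/
theorem ka_evalL_mem_A {ℓ : ℕ} (t : LaurentSeries ℚ) {p : Polynomial ℚ}
    (hp : ∀ n, p.coeff n ∈ GaloisRep.ratLocalizedAt ℓ) : evalL t p ∈ ka_A ℓ t := by
  have h : p ∈ Polynomial.lifts (GaloisRep.ratLocalizedAt ℓ).subtype :=
    (Polynomial.lifts_iff_coeff_lifts p).mpr fun n => ⟨⟨p.coeff n, hp n⟩, rfl⟩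
  obtain ⟨p', rfl⟩ := (Polynomial.mem_lifts _).mp h
  exact ⟨p', rfl⟩

/-- Integrality over a subring of `L` passes to a larger subring. -/
theorem ka_isIntegral_mono {R R' : Subring (LaurentSeries ℚ)} (h : R ≤ R')
    {x : LaurentSeries ℚ} (hx : IsIntegral ↥R x) : IsIntegral ↥R' x :=
  hx.map_of_comp_eq (Subring.inclusion h) (RingHom.id (LaurentSeries ℚ)) (by ext; rfl)

/-- Elements of a subring of `L` are integral over it. -/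
theorem ka_isIntegral_of_mem {R : Subring (LaurentSeries ℚ)} {x : LaurentSeries ℚ}
    (hx : x ∈ R) : IsIntegral ↥R x :=
  isIntegral_algebraMap (R := ↥R) (A := LaurentSeries ℚ) (x := ⟨x, hx⟩)

end

end Fermat.Agent.S28
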