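/-
S28 / block ChartKernel (twin A) — package KA/BClosed (K5a).

`B_t = ℚ[t]` is integrally closed in `K0 = ℚ(jq)`, for `t = jq` and `t = jq⁻¹`.

Route: `ℚ[T]` is a UFD, hence integrally closed in its fraction field `K`; the injective evaluation
`φ = evalL t : ℚ[T] → L` extends to a field homomorphism `ψ : K → L`, and an element
`c = φ r / φ s` integral over `φ (ℚ[T])` is the image of an element of `K` integral over `ℚ[T]`.
-/
import Fermat.Agent.S28.KAInterfaces

set_option autoImplicit false

open ModularCurve ModularCurve.IgusaScheme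

namespace Fermat.Agent.S28

noncomputable section

/-- From integrality over `B_t = (evalL t).range` we get a monic polynomial over `ℚ[T]` having
`c` as a root via `evalL t`. -/
theorem ka_bclosed_exists_monic (t c : LaurentSeries ℚ) (hint : IsIntegral ↥(ka_B t) c) :
    ∃ Q : Polynomial (Polynomial ℚ), Q.Monic ∧ Polynomial.eval₂ (evalL t) c Q = 0 := by
  obtain ⟨P, hP, hPc⟩ := hint
  have hl : P.map (ka_B t).subtype ∈ Polynomial.lifts (evalL t) := by
    rw [Polynomial.lifts_iff_coeff_lifts]
    intro n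
    rw [Polynomial.coeff_map]
    exact (P.coeff n).2
  obtain ⟨Q, hQ, -, hQm⟩ := Polynomial.lifts_and_natDegree_eq_and_monic hl (hP.map _)
  refine ⟨Q, hQm, ?_⟩
  rw [← Polynomial.eval_map, hQ, Polynomial.eval_map]
  exact hPc

/-- GENERIC LEMMA: if `evalL t` is injective (i.e. `t` is transcendental over `ℚ`), then a quotient
`p(t) / q(t)` which is integral over `B_t = ℚ[t]` lies in `B_t`. -/
theorem ka_bclosed_generic (t : LaurentSeries ℚ)
    (hinj : ∀ p : Polynomial ℚ, evalL t p = 0 → p = 0)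
    (r s : Polynomial ℚ) (c : LaurentSeries ℚ) (hc : c = evalL t r / evalL t s)
    (hint : IsIntegral ↥(ka_B t) c) : c ∈ ka_B t := by
  have hφ : Function.Injective (evalL t) := (injective_iff_map_eq_zero _).mpr hinj
  obtain ⟨Q, hQm, hQc⟩ := ka_bclosed_exists_monic t c hint
  have hψ : ∀ p : Polynomial ℚ,
      (IsFractionRing.lift hφ : FractionRing (Polynomial ℚ) →+* LaurentSeries ℚ)
        (algebraMap (Polynomial ℚ) (FractionRing (Polynomial ℚ)) p) = evalL t p :=
    fun p => IsFractionRing.lift_algebraMap hφ p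
  have hcomp : (IsFractionRing.lift hφ : FractionRing (Polynomial ℚ) →+* LaurentSeries ℚ).comp
      (algebraMap (Polynomial ℚ) (FractionRing (Polynomial ℚ))) = evalL t := RingHom.ext hψ
  have hz : (IsFractionRing.lift hφ : FractionRing (Polynomial ℚ) →+* LaurentSeries ℚ)
      (algebraMap (Polynomial ℚ) (FractionRing (Polynomial ℚ)) r /
        algebraMap (Polynomial ℚ) (FractionRing (Polynomial ℚ)) s) = c := by
    rw [hc, map_div₀, hψ, hψ]
  have hzint : IsIntegral (Polynomial ℚ)
      (algebraMap (Polynomial ℚ) (FractionRing (Polynomial ℚ)) r /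
        algebraMap (Polynomial ℚ) (FractionRing (Polynomial ℚ)) s) := by
    refine ⟨Q, hQm, (IsFractionRing.lift hφ :
      FractionRing (Polynomial ℚ) →+* LaurentSeries ℚ).injective ?_⟩
    rw [map_zero, Polynomial.hom_eval₂, hz, hcomp]
    exact hQc
  obtain ⟨y, hy⟩ := IsIntegrallyClosed.algebraMap_eq_of_integral hzint
  exact ⟨y, by rw [← hψ, hy, hz]⟩

/-- Elements of `ℚ(t)` are quotients `r(t) / s(t)`. -/
theorem ka_bclosed_frac_of_mem_adjoin (t c : LaurentSeries ℚ)
    (hc : c ∈ IntermediateField.adjoin ℚ {t}) :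
    ∃ r s : Polynomial ℚ, c = evalL t r / evalL t s := by
  obtain ⟨r, s, h⟩ := (IntermediateField.mem_adjoin_simple_iff ℚ c).mp hc
  exact ⟨r, s, by rw [ka_evalL_eq_aeval, ka_evalL_eq_aeval]; exact h⟩

/-- `jq⁻¹` is transcendental over `ℚ` (polynomial form), given that `jq` is. -/
theorem ka_bclosed_trans_inv (hT : ka_TransStatement) :
    ∀ p : Polynomial ℚ, evalL jq⁻¹ p = 0 → p = 0 := by
  have h1 : Transcendental ℚ jq := by
    rw [transcendental_iff]
    intro p hp
    exact hT p (by rw [ka_evalL_eq_aeval]; exact hp)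
  have h2 : Transcendental ℚ jq⁻¹ := fun h => h1 (IsAlgebraic.inv_iff.mp h)
  rw [transcendental_iff] at h2
  intro p hp
  exact h2 p (by rw [← ka_evalL_eq_aeval]; exact hp)

/-- `ℚ(jq⁻¹) = ℚ(jq)`. -/
theorem ka_bclosed_adjoin_inv :
    IntermediateField.adjoin ℚ {jq⁻¹} = ka_K0 := by
  refine le_antisymm ?_ ?_
  · rw [IntermediateField.adjoin_simple_le_iff]
    exact ka_jq_inv_mem_K0
  · rw [IntermediateField.adjoin_simple_le_iff]
    have h : jq⁻¹ ∈ IntermediateField.adjoin ℚ {jq⁻¹} :=
      IntermediateField.mem_adjoin_simple_self ℚ jq⁻¹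
    have h' := inv_mem h
    rwa [inv_inv] at h'

/-- (K5a) `B_t = ℚ[t]` is integrally closed in `K0`, for `t = jq` and `t = jq⁻¹`. -/
theorem ka_bclosed_main : ka_TransStatement → ka_BClosedStatement := by
  intro hT t ht c hc hint
  rcases ht with rfl | rfl
  · obtain ⟨r, s, hrs⟩ := ka_bclosed_frac_of_mem_adjoin jq c hc
    exact ka_bclosed_generic jq hT r s c hrs hint
  · obtain ⟨r, s, hrs⟩ := ka_bclosed_frac_of_mem_adjoin jq⁻¹ c
      (by rw [ka_bclosed_adjoin_inv]; exact hc)
    exact ka_bclosed_generic jq⁻¹ (ka_bclosed_trans_inv hT) r s c hrs hint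

end

end Fermat.Agent.S28
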