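/-
S28 / block ChartKernel (twin A) — package KA/Basis, (K1)+(K2).

Every `x ∈ F = modularFunctionFieldFull N` satisfies a normalised relation
`g(j) * x = ∑ f_i(j) * cQ (m_i)` over the family `m` of `DegStatement`, with `g ≠ 0` and
`(g, f_0, …)` not all divisible by `ℓ`.
-/
import Fermat.Agent.S28.KAInterfaces

set_option autoImplicit false

open ModularCurve ModularCurve.IgusaScheme

namespace Fermat.Agent.S28

noncomputable section

/-- Step 1: a family of `ψ(N) + 1` elements of `F` is linearly dependent over `K0 = ℚ(jq)`;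
the dependence is stated inside `L` (coefficients in `K0`, not all zero). -/
theorem ka_basis_dep (hC : Char0DegStatement) (N : ℕ) [NeZero N]
    (v : Fin (dedekindPsi N + 1) → LaurentSeries ℚ)
    (hv : ∀ i, v i ∈ modularFunctionFieldFull N) :
    ∃ c : Fin (dedekindPsi N + 1) → LaurentSeries ℚ,
      (∀ i, c i ∈ ka_K0) ∧ (∃ i, c i ≠ 0) ∧ ∑ i, c i * v i = 0 := by
  have h : ¬ LinearIndependent ↥ka_K0 v := fun h => by
    have h1 := hC N _ v hv h
    omega
  rw [Fintype.not_linearIndependent_iff] at h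
  obtain ⟨g, hg, i, hi⟩ := h
  refine ⟨fun i => (g i : LaurentSeries ℚ), fun i => (g i).2,
    ⟨i, fun h0 => hi (Subtype.ext h0)⟩, ?_⟩
  rw [← hg]
  rfl

/-- Step 2: clearing denominators in a linear relation with coefficients in `K0`. -/
theorem ka_basis_clear (hT : ka_TransStatement) (hF : ka_FracStatement) {n : ℕ}
    (c v : Fin n → LaurentSeries ℚ) (hc : ∀ i, c i ∈ ka_K0) (hne : ∃ i, c i ≠ 0)
    (hsum : ∑ i, c i * v i = 0) :
    ∃ P : Fin n → Polynomial ℤ, (∃ i, P i ≠ 0) ∧ ∑ i, ka_ev (P i) * v i = 0 := by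
  classical
  choose ff gg hgg hfg using fun i => hF (c i) (hc i)
  have hG : (∏ k, gg k) ≠ 0 := Finset.prod_ne_zero_iff.mpr fun k _ => hgg k
  have key : ∀ i, ka_ev (ff i * ∏ k ∈ Finset.univ.erase i, gg k) = ka_ev (∏ k, gg k) * c i := by
    intro i
    rw [← Finset.mul_prod_erase Finset.univ gg (Finset.mem_univ i), map_mul, map_mul, ← hfg i]
    ring
  refine ⟨fun i => ff i * ∏ k ∈ Finset.univ.erase i, gg k, ?_, ?_⟩
  · obtain ⟨i, hi⟩ := hne
    refine ⟨i, fun h0 => ?_⟩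
    have h0' : ff i * ∏ k ∈ Finset.univ.erase i, gg k = 0 := h0
    have h1 := key i
    rw [h0', map_zero] at h1
    exact mul_ne_zero (ka_ev_ne_zero hT hG) hi h1.symm
  · have h2 : ∀ i, ka_ev (ff i * ∏ k ∈ Finset.univ.erase i, gg k) * v i =
        ka_ev (∏ k, gg k) * (c i * v i) := fun i => by rw [key i, mul_assoc]
    simp only [h2]
    rw [← Finset.mul_sum, hsum, mul_zero]

/-- Step 3: removing the common `ℓ`-content of the coefficients of a linear relation. -/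
theorem ka_basis_content (hT : ka_TransStatement) (ℓ : ℕ) [Fact ℓ.Prime] {n : ℕ}
    (v : Fin n → LaurentSeries ℚ) (P : Fin n → Polynomial ℤ) (hP : ∃ i, P i ≠ 0)
    (hsum : ∑ i, ka_ev (P i) * v i = 0) :
    ∃ P' : Fin n → Polynomial ℤ, (¬ ∀ i, Polynomial.C (ℓ : ℤ) ∣ P' i) ∧
      ∑ i, ka_ev (P' i) * v i = 0 := by
  obtain ⟨e, P', hP', hnd⟩ := ka_content_removal ℓ P hP
  refine ⟨P', hnd, ?_⟩
  have hℓ : (Polynomial.C (ℓ : ℤ)) ^ e ≠ 0 := pow_ne_zero e (ka_prime_C ℓ).ne_zero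
  have h2 : ∀ i, ka_ev (P i) * v i =
      ka_ev (Polynomial.C (ℓ : ℤ) ^ e) * (ka_ev (P' i) * v i) := fun i => by
    rw [hP' i, map_mul, mul_assoc]
  simp only [h2] at hsum
  rw [← Finset.mul_sum] at hsum
  exact (mul_eq_zero.mp hsum).resolve_left (ka_ev_ne_zero hT hℓ)

/-- Step 5 (the role of `ka_DegProp`): a relation `∑ f_i(j) * cQ (m_i) = 0` forces `ℓ ∣ f_i` for
all `i`. -/
theorem ka_basis_indep (N : ℕ) (ℓ : ℕ) (m : Fin (dedekindPsi N) → LaurentSeries ℤ)
    (hm : ka_DegProp N ℓ m) (f : Fin (dedekindPsi N) → Polynomial ℤ)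
    (h : ∑ i, ka_ev (f i) * ka_cQ (m i) = 0) : ∀ i, Polynomial.C (ℓ : ℤ) ∣ f i := by
  have h1 : ka_cQ (∑ i, evalL (jqModC ℤ) (f i) * m i) = 0 := by
    rw [map_sum, ← h]
    exact Finset.sum_congr rfl fun i _ => by rw [map_mul, ka_ev_eq_cQ]
  have h2 : (∑ i, evalL (jqModC ℤ) (f i) * m i) = 0 :=
    ka_cQ_injective (h1.trans (map_zero _).symm)
  intro i
  rw [ka_C_dvd_iff]
  exact hm.2 f (fun n => by rw [h2, HahnSeries.coeff_zero]; exact dvd_zero _) i

/-- (K1)+(K2): every `x ∈ F` satisfies a normalised relation over the family `m`. -/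
theorem ka_basis_main :
    ka_TransStatement → ka_FracStatement → Char0DegStatement → ka_BasisStatement := by
  intro hT hF hC N _ ℓ _ m hm x hx
  have hv : ∀ i, (Fin.snoc (fun i => ka_cQ (m i)) x : Fin (dedekindPsi N + 1) → LaurentSeries ℚ) i
      ∈ modularFunctionFieldFull N := by
    intro i
    refine Fin.lastCases ?_ (fun j => ?_) i
    · rw [Fin.snoc_last]; exact hx
    · rw [Fin.snoc_castSucc]; exact hm.1 j
  obtain ⟨c, hc, hne, hsum⟩ := ka_basis_dep hC N _ hv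
  obtain ⟨P, hP, hsumP⟩ := ka_basis_clear hT hF c _ hc hne hsum
  obtain ⟨P', hnd, hsumP'⟩ := ka_basis_content hT ℓ _ P hP hsumP
  rw [Fin.sum_univ_castSucc] at hsumP'
  simp only [Fin.snoc_castSucc, Fin.snoc_last] at hsumP'
  have hrel : ka_ev (P' (Fin.last _)) * x =
      ∑ i : Fin (dedekindPsi N), ka_ev (-(P' i.castSucc)) * ka_cQ (m i) := by
    simp only [map_neg, neg_mul, Finset.sum_neg_distrib]
    exact eq_neg_of_add_eq_zero_right hsumP'
  have hnorm : ¬ (Polynomial.C (ℓ : ℤ) ∣ P' (Fin.last _) ∧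
      ∀ i : Fin (dedekindPsi N), Polynomial.C (ℓ : ℤ) ∣ -(P' i.castSucc)) := by
    rintro ⟨h1, h2⟩
    refine hnd fun i => ?_
    refine Fin.lastCases h1 (fun j => ?_) i
    exact (dvd_neg).mp (h2 j)
  refine ⟨P' (Fin.last _), fun i => -(P' i.castSucc), fun hg0 => ?_, hnorm, hrel⟩
  refine hnorm ⟨hg0 ▸ dvd_zero _, ?_⟩
  refine ka_basis_indep N ℓ m hm _ ?_
  rw [← hrel, hg0, map_zero, zero_mul]

end

end Fermat.Agent.S28
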