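/-
S28 / block ChartKernel (twin A) — package KA/IntO: (K3)+(K4).

Every `ℓ`-integral element of `F = modularFunctionFieldFull N` is integral over the Gauss valuation
ring `O₀ = ka_O0 ℓ` of `K0 = ℚ(jq)`.
-/
import Fermat.Agent.S28.KAInterfaces

set_option autoImplicit false

open ModularCurve ModularCurve.IgusaScheme

namespace Fermat.Agent.S28

noncomputable section

/-- Coefficients of a constant multiple of a Laurent series. -/
theorem ka_into_coeff_C_mul (a : ℚ) (w : LaurentSeries ℚ) (n : ℤ) :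
    (HahnSeries.C a * w).coeff n = a * w.coeff n := by
  rw [HahnSeries.C_mul_eq_smul, HahnSeries.coeff_smul, smul_eq_mul]

/-- The right-hand side of a relation is the cast of an integral series. -/
theorem ka_into_sum_eq_cQ {ψ : ℕ} (m : Fin ψ → LaurentSeries ℤ) (f : Fin ψ → Polynomial ℤ) :
    ∑ i, ka_ev (f i) * ka_cQ (m i) = ka_cQ (∑ i, evalL (jqModC ℤ) (f i) * m i) := by
  rw [map_sum]
  refine Finset.sum_congr rfl fun i _ => ?_
  rw [map_mul, ka_ev_eq_cQ]

/-- (K3) KEY LEMMA: in a normalised relation `g(j) * z = ∑ f_i(j) * cQ (m_i)` with `z` an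
`ℓ`-integral series, the denominator `g` is not divisible by `ℓ`. -/
theorem ka_into_key {N : ℕ} {ℓ : ℕ} [Fact ℓ.Prime] {m : Fin (dedekindPsi N) → LaurentSeries ℤ}
    (hm : ka_DegProp N ℓ m) {z : LaurentSeries ℚ} (hz : LInt ℓ z)
    {g : Polynomial ℤ} {f : Fin (dedekindPsi N) → Polynomial ℤ}
    (hnorm : ¬ (Polynomial.C (ℓ : ℤ) ∣ g ∧ ∀ i, Polynomial.C (ℓ : ℤ) ∣ f i))
    (hrel : ka_ev g * z = ∑ i, ka_ev (f i) * ka_cQ (m i)) :
    ¬ Polynomial.C (ℓ : ℤ) ∣ g := by
  intro hdvd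
  refine hnorm ⟨hdvd, fun i => ?_⟩
  obtain ⟨g', rfl⟩ := hdvd
  rw [ka_C_dvd_iff]
  intro n
  refine hm.2 f (fun k => ?_) i n
  have hS : ka_cQ (∑ i, evalL (jqModC ℤ) (f i) * m i)
      = HahnSeries.C (ℓ : ℚ) * (ka_ev g' * z) := by
    rw [← ka_into_sum_eq_cQ, ← hrel, map_mul, ka_ev_C, mul_assoc, Int.cast_natCast]
  have hw : LInt ℓ (ka_ev g' * z) := ka_LInt_mul (ka_LInt_ev ℓ g') hz
  have hk : (ka_cQ (∑ i, evalL (jqModC ℤ) (f i) * m i)).coeff k
      = (HahnSeries.C (ℓ : ℚ) * (ka_ev g' * z)).coeff k := by rw [hS]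
  rw [ka_cQ_coeff, ka_into_coeff_C_mul] at hk
  exact ka_int_dvd_of_mem (hw k) hk

/-- (span) Every `ℓ`-integral element of `F` lies in the `O₀`-span of the family `cQ (m i)`. -/
theorem ka_into_mem_span (hT : ka_TransStatement) (hB : ka_BasisStatement) {N : ℕ} [NeZero N]
    {ℓ : ℕ} [Fact ℓ.Prime] {m : Fin (dedekindPsi N) → LaurentSeries ℤ} (hm : ka_DegProp N ℓ m)
    {z : LaurentSeries ℚ} (hzF : z ∈ modularFunctionFieldFull N) (hz : LInt ℓ z) :
    z ∈ Submodule.span ↥(ka_O0 ℓ) (Set.range fun i => ka_cQ (m i)) := by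
  obtain ⟨g, f, hg0, hnorm, hrel⟩ := hB N ℓ m hm z hzF
  have hg : ¬ Polynomial.C (ℓ : ℤ) ∣ g := ka_into_key hm hz hnorm hrel
  have hg0' : ka_ev g ≠ 0 := ka_ev_ne_zero hT hg0
  have hz' : z = ∑ i,
      (⟨ka_ev (f i) / ka_ev g, ka_div_mem_O0 hT hg⟩ : ↥(ka_O0 ℓ)) • ka_cQ (m i) := by
    simp only [Subring.smul_def, smul_eq_mul]
    rw [← mul_right_inj' hg0', hrel, Finset.mul_sum]
    refine Finset.sum_congr rfl fun i _ => ?_
    rw [← mul_assoc, mul_div_cancel₀ _ hg0']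
  rw [hz']
  exact Submodule.sum_mem _ fun i _ =>
    Submodule.smul_mem _ _ (Submodule.subset_span ⟨i, rfl⟩)

/-- (K4) Every `ℓ`-integral element of `F` is integral over `O₀`, given a family `m` as in
`DegStatement`. -/
theorem ka_into_isIntegral (hT : ka_TransStatement) (hB : ka_BasisStatement) {N : ℕ} [NeZero N]
    {ℓ : ℕ} [Fact ℓ.Prime] {m : Fin (dedekindPsi N) → LaurentSeries ℤ} (hm : ka_DegProp N ℓ m)
    {y : LaurentSeries ℚ} (hyF : y ∈ modularFunctionFieldFull N) (hy : LInt ℓ y) :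
    IsIntegral ↥(ka_O0 ℓ) y := by
  have hbF : ∀ i, ka_cQ (m i) ∈ modularFunctionFieldFull N := hm.1
  refine isIntegral_of_smul_mem_submodule (R := ↥(ka_O0 ℓ)) (A := LaurentSeries ℚ)
    (M := LaurentSeries ℚ) (Submodule.span ↥(ka_O0 ℓ) (Set.range fun i => ka_cQ (m i)))
    ?_ ?_ y ?_
  · intro hbot
    have h1 : (1 : LaurentSeries ℚ) ∈
        Submodule.span ↥(ka_O0 ℓ) (Set.range fun i => ka_cQ (m i)) :=
      ka_into_mem_span hT hB hm (one_mem _) (ka_LInt_one ℓ)
    rw [hbot, Submodule.mem_bot] at h1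
    exact one_ne_zero h1
  · exact Submodule.fg_span (Set.finite_range _)
  · intro n hn
    induction hn using Submodule.span_induction with
    | mem x hx =>
      obtain ⟨i, rfl⟩ := hx
      rw [smul_eq_mul]
      exact ka_into_mem_span hT hB hm (mul_mem hyF (hbF i)) (ka_LInt_mul hy (ka_LInt_cQ ℓ _))
    | zero => rw [smul_zero]; exact Submodule.zero_mem _
    | add u v _ _ hu hv => rw [smul_add]; exact Submodule.add_mem _ hu hv
    | smul r u _ hu =>
      rw [smul_comm]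
      exact Submodule.smul_mem _ r hu

/-- (K3)+(K4): every `ℓ`-integral element of `F` is integral over the Gauss valuation ring `O₀`. -/
theorem ka_into_main :
    ka_TransStatement → ka_BasisStatement → DegStatement → ka_IntO0Statement := by
  intro hT hB hDeg N _ ℓ _ hℓN y hyF hy
  obtain ⟨m, hm⟩ := hDeg N ℓ hℓN
  have hm' : ka_DegProp N ℓ m := hm
  exact ka_into_isIntegral hT hB hm' hyF hy

end

end Fermat.Agent.S28
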