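/-
S28 / block ChartKernel (twin A) — package KA/Inter (K5b):
`O₀ ∩ B_t ⊆ A_t` for `t = jq` and `t = jq⁻¹`.
-/
import Fermat.Agent.S28.KAInterfaces

set_option autoImplicit false

open ModularCurve ModularCurve.IgusaScheme

namespace Fermat.Agent.S28

noncomputable section

/-- The inverse of an integer prime to `ℓ` lies in `ℤ_(ℓ)`. -/
theorem ka_inter_inv_mem {ℓ : ℕ} [Fact ℓ.Prime] {D : ℤ} (hD : ¬ (ℓ : ℤ) ∣ D) :
    ((D : ℚ)⁻¹) ∈ GaloisRep.ratLocalizedAt ℓ := by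
  have hℓ : ℓ.Prime := Fact.out
  have hD0 : D ≠ 0 := fun h => hD (h ▸ dvd_zero _)
  show ((D : ℚ)⁻¹).den.Coprime ℓ
  rw [Rat.inv_intCast_den, if_neg hD0]
  refine Nat.Coprime.symm ((Nat.Prime.coprime_iff_not_dvd hℓ).mpr fun h => hD ?_)
  exact Int.natCast_dvd.mpr h

/-- Clearing the denominators of a rational polynomial. -/
theorem ka_inter_clear_denom (p : Polynomial ℚ) :
    ∃ (D : ℤ) (P : Polynomial ℤ), D ≠ 0 ∧
      P.map (Int.castRingHom ℚ) = Polynomial.C (D : ℚ) * p := by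
  obtain ⟨b, hbM, hb⟩ := IsLocalization.integerNormalization_spec (nonZeroDivisors ℤ) p
  refine ⟨b, IsLocalization.integerNormalization (nonZeroDivisors ℤ) p,
    nonZeroDivisors.ne_zero hbM, ?_⟩
  have h2 : (algebraMap ℤ ℚ) = Int.castRingHom ℚ := rfl
  rw [h2] at hb
  rw [hb]
  ext n
  rw [Polynomial.coeff_smul, Polynomial.coeff_C_mul, zsmul_eq_mul]

/-- Splitting off the `ℓ`-part of a nonzero integer. -/
theorem ka_inter_split (ℓ : ℕ) [Fact ℓ.Prime] {D : ℤ} (hD : D ≠ 0) :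
    ∃ (e : ℕ) (D' : ℤ), ¬ (ℓ : ℤ) ∣ D' ∧ D = (ℓ : ℤ) ^ e * D' := by
  have hℓ : Prime (ℓ : ℤ) := Nat.prime_iff_prime_int.mp Fact.out
  exact WfDvdMonoid.max_power_factor hD hℓ.irreducible

/-- From `g(jq) * p(jq) = f(jq)` to the polynomial identity `g * p = f` in `ℚ[T]`. -/
theorem ka_inter_poly_eq (hT : ka_TransStatement) {g f : Polynomial ℤ} {p : Polynomial ℚ}
    (e : ka_ev g * evalL jq p = ka_ev f) :
    g.map (Int.castRingHom ℚ) * p = f.map (Int.castRingHom ℚ) := by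
  have h0 : evalL jq (g.map (Int.castRingHom ℚ) * p - f.map (Int.castRingHom ℚ)) = 0 := by
    rw [map_sub, map_mul]
    exact sub_eq_zero.mpr e
  exact sub_eq_zero.mp (hT _ h0)

/-- (★) for `t = jq`: if `p(jq) ∈ O₀` then all coefficients of `p` lie in `ℤ_(ℓ)`. -/
theorem ka_inter_star_jq (hT : ka_TransStatement) (ℓ : ℕ) [Fact ℓ.Prime] (p : Polynomial ℚ)
    (h : evalL jq p ∈ ka_O0 ℓ) (n : ℕ) : p.coeff n ∈ GaloisRep.ratLocalizedAt ℓ := by
  obtain ⟨g, f, hg, e⟩ := h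
  have h1 := ka_inter_poly_eq hT e
  obtain ⟨D, P, hD, hP⟩ := ka_inter_clear_denom p
  -- `g * P = C D * f` in `ℤ[T]`
  have h2 : g * P = Polynomial.C D * f := by
    apply Polynomial.map_injective (Int.castRingHom ℚ) (RingHom.injective_int _)
    rw [Polynomial.map_mul, Polynomial.map_mul, hP, Polynomial.map_C, ← h1, eq_intCast]
    ring
  obtain ⟨e', D', hD', rfl⟩ := ka_inter_split ℓ hD
  have h3 : Polynomial.C (ℓ : ℤ) ^ e' ∣ g * P := by
    rw [h2, map_mul, map_pow, mul_assoc]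
    exact dvd_mul_right _ _
  obtain ⟨P', rfl⟩ := (ka_prime_C ℓ).pow_dvd_of_dvd_mul_left e' hg h3
  have hℓ0 : ((ℓ : ℚ)) ^ e' ≠ 0 :=
    pow_ne_zero _ (Nat.cast_ne_zero.mpr (Fact.out : ℓ.Prime).ne_zero)
  have hD'0 : (D' : ℚ) ≠ 0 := by
    intro h0
    apply hD'
    have : D' = 0 := by exact_mod_cast h0
    rw [this]; exact dvd_zero _
  -- `C D' * p = P'.map _`
  have h4 : Polynomial.C (D' : ℚ) * p = P'.map (Int.castRingHom ℚ) := by
    have h5 : Polynomial.C ((ℓ : ℚ) ^ e') * (Polynomial.C (D' : ℚ) * p) =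
        Polynomial.C ((ℓ : ℚ) ^ e') * P'.map (Int.castRingHom ℚ) := by
      rw [Polynomial.map_mul, Polynomial.map_pow, Polynomial.map_C, eq_intCast, Int.cast_mul,
        Int.cast_pow, Int.cast_natCast] at hP
      rw [← mul_assoc, ← map_mul, map_pow]
      exact hP.symm
    exact mul_left_cancel₀ (Polynomial.C_ne_zero.mpr hℓ0) h5
  have h6 : p.coeff n = ((P'.coeff n : ℤ) : ℚ) * (D' : ℚ)⁻¹ := by
    have h7 := congrArg (fun q => Polynomial.coeff q n) h4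
    simp only [Polynomial.coeff_C_mul, Polynomial.coeff_map, eq_intCast] at h7
    rw [← h7, mul_comm, ← mul_assoc, inv_mul_cancel₀ hD'0, one_mul]
  rw [h6]
  exact mul_mem (intCast_mem _ _) (ka_inter_inv_mem hD')

/-- The reversal identity `p.reverse(jq) = jq ^ deg p * p(jq⁻¹)`. -/
theorem ka_inter_reverse (p : Polynomial ℚ) :
    evalL jq p.reverse = jq ^ p.natDegree * evalL jq⁻¹ p := by
  let _ : Invertible (jq⁻¹ : LaurentSeries ℚ) := invertibleOfNonzero (inv_ne_zero jq_ne_zero)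
  have h := Polynomial.eval₂_reverse_mul_pow (HahnSeries.C : ℚ →+* LaurentSeries ℚ) (jq⁻¹) p
  rw [invOf_eq_inv, inv_inv] at h
  have hjn : jq ^ p.natDegree ≠ 0 := pow_ne_zero _ jq_ne_zero
  show Polynomial.eval₂ _ jq p.reverse = jq ^ p.natDegree * Polynomial.eval₂ _ jq⁻¹ p
  rw [← h, inv_pow, mul_comm, mul_assoc, inv_mul_cancel₀ hjn, mul_one]

/-- (★) for `t = jq⁻¹`. -/
theorem ka_inter_star_jq_inv (hT : ka_TransStatement) (ℓ : ℕ) [Fact ℓ.Prime] (p : Polynomial ℚ)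
    (h : evalL jq⁻¹ p ∈ ka_O0 ℓ) (n : ℕ) : p.coeff n ∈ GaloisRep.ratLocalizedAt ℓ := by
  have h1 : evalL jq p.reverse ∈ ka_O0 ℓ := by
    rw [ka_inter_reverse]
    exact mul_mem (pow_mem (ka_jq_mem_O0 ℓ) _) h
  have h2 := ka_inter_star_jq hT ℓ p.reverse h1
  rcases le_or_gt n p.natDegree with hn | hn
  · have h3 := h2 (p.natDegree - n)
    rw [Polynomial.coeff_reverse, Polynomial.revAt_le (Nat.sub_le _ _), Nat.sub_sub_self hn] at h3
    exact h3
  · rw [Polynomial.coeff_eq_zero_of_natDegree_lt hn]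
    exact zero_mem _

/-- (K5b) `O₀ ∩ B_t ⊆ A_t`, for `t = jq` and `t = jq⁻¹`. -/
theorem ka_inter_main : ka_TransStatement → ka_InterStatement := by
  intro hT ℓ _ t ht c hcO hcB
  obtain ⟨p, rfl⟩ := hcB
  refine ka_evalL_mem_A t fun n => ?_
  rcases ht with rfl | rfl
  · exact ka_inter_star_jq hT ℓ p hcO n
  · exact ka_inter_star_jq_inv hT ℓ p hcO n

end

end Fermat.Agent.S28
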