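/-
S28 / block ChartKernel (twin A) — package KA/OClosed.

(O) The Gauss valuation ring `O₀ = ka_O0 ℓ` of `K0 = ℚ(jq)` is integrally closed in `K0`:
`ka_oclosed_main : ka_TransStatement → ka_FracStatement → ka_O0ClosedStatement`.

Proof: (V) for `c ∈ K0`, either `c ∈ O₀` or `c ≠ 0 ∧ c⁻¹ ∈ O₀` (valuation property, from (Frac) and
removal of the common `ℓ`-content); (I) an element which is integral over a subring `R` of the
field `L` and whose inverse lies in `R` lies in `R`.
-/
import Fermat.Agent.S28.KAInterfaces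

set_option autoImplicit false

open ModularCurve ModularCurve.IgusaScheme

namespace Fermat.Agent.S28

noncomputable section

/-- For `i ≤ m` and `c ≠ 0` in `L`: `c ^ i * (c⁻¹) ^ m = (c⁻¹) ^ (m - i)`. -/
theorem ka_oclosed_pow_mul_inv_pow {c : LaurentSeries ℚ} (hc0 : c ≠ 0) {i m : ℕ} (hi : i ≤ m) :
    c ^ i * (c⁻¹) ^ m = (c⁻¹) ^ (m - i) := by
  obtain ⟨k, rfl⟩ := Nat.exists_eq_add_of_le hi
  rw [Nat.add_sub_cancel_left, pow_add, ← mul_assoc, ← mul_pow, mul_inv_cancel₀ hc0, one_pow,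
    one_mul]

/-- (I) An element `c ≠ 0` of `L` which is integral over a subring `R` of `L` and whose inverse
lies in `R` lies in `R`. -/
theorem ka_oclosed_mem_of_inv_mem {R : Subring (LaurentSeries ℚ)} {c : LaurentSeries ℚ}
    (hc0 : c ≠ 0) (hinv : c⁻¹ ∈ R) (hint : IsIntegral ↥R c) : c ∈ R := by
  obtain ⟨p, hp, hev⟩ := hint
  rw [Polynomial.eval₂_eq_sum_range, Finset.sum_range_succ, hp.coeff_natDegree, map_one,
    one_mul] at hev
  rcases Nat.eq_zero_or_pos p.natDegree with h0 | hpos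
  · rw [h0, Finset.sum_range_zero, zero_add, pow_zero] at hev
    exact absurd hev one_ne_zero
  · obtain ⟨m, hm⟩ := Nat.exists_eq_succ_of_ne_zero hpos.ne'
    rw [hm] at hev
    have h2 : c ^ (m + 1) = -∑ i ∈ Finset.range (m + 1),
        algebraMap ↥R (LaurentSeries ℚ) (p.coeff i) * c ^ i :=
      eq_neg_of_add_eq_zero_right hev
    have h3 : c = c ^ (m + 1) * (c⁻¹) ^ m := by
      rw [pow_succ, mul_assoc, mul_comm c, ← mul_assoc, ← mul_pow, mul_inv_cancel₀ hc0, one_pow,
        one_mul]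
    have h1 : c = -∑ i ∈ Finset.range (m + 1),
        algebraMap ↥R (LaurentSeries ℚ) (p.coeff i) * (c⁻¹) ^ (m - i) := by
      calc c = c ^ (m + 1) * (c⁻¹) ^ m := h3
        _ = -∑ i ∈ Finset.range (m + 1),
              algebraMap ↥R (LaurentSeries ℚ) (p.coeff i) * (c⁻¹) ^ (m - i) := by
            rw [h2, neg_mul, Finset.sum_mul]
            congr 1
            refine Finset.sum_congr rfl fun i hi => ?_
            rw [mul_assoc,
              ka_oclosed_pow_mul_inv_pow hc0 (Nat.lt_succ_iff.mp (Finset.mem_range.mp hi))]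
    rw [h1]
    exact neg_mem (sum_mem fun i _ => mul_mem (p.coeff i).2 (pow_mem hinv _))

/-- (V) Valuation property of `O₀`: every `c ∈ K0` lies in `O₀`, or is nonzero with inverse
in `O₀`. -/
theorem ka_oclosed_valuation (hT : ka_TransStatement) (hF : ka_FracStatement) (ℓ : ℕ)
    [Fact ℓ.Prime] {c : LaurentSeries ℚ} (hc : c ∈ ka_K0) :
    c ∈ ka_O0 ℓ ∨ (c ≠ 0 ∧ c⁻¹ ∈ ka_O0 ℓ) := by
  obtain ⟨f, g, hg, e⟩ := hF c hc
  obtain ⟨k, F', hF', hnd⟩ := ka_content_removal ℓ (fun b : Bool => if b then g else f)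
    ⟨true, by simpa using hg⟩
  have hg' : g = Polynomial.C (ℓ : ℤ) ^ k * F' true := by simpa using hF' true
  have hf' : f = Polynomial.C (ℓ : ℤ) ^ k * F' false := by simpa using hF' false
  have hℓ : Polynomial.C (ℓ : ℤ) ^ k ≠ 0 := pow_ne_zero _ (ka_prime_C ℓ).ne_zero
  have hev : ka_ev (Polynomial.C (ℓ : ℤ) ^ k) ≠ 0 := ka_ev_ne_zero hT hℓ
  have e' : ka_ev (F' true) * c = ka_ev (F' false) := by
    rw [hg', hf', map_mul, map_mul, mul_assoc] at e
    exact mul_left_cancel₀ hev e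
  by_cases hd : Polynomial.C (ℓ : ℤ) ∣ F' true
  · right
    have hnf : ¬ Polynomial.C (ℓ : ℤ) ∣ F' false := fun h =>
      hnd fun b => by
        cases b
        · exact h
        · exact hd
    have hf0 : ka_ev (F' false) ≠ 0 := ka_ev_ne_zero hT (ka_ne_zero_of_not_dvd hnf)
    have hc0 : c ≠ 0 := by
      rintro rfl
      rw [mul_zero] at e'
      exact hf0 e'.symm
    refine ⟨hc0, F' false, F' true, hnf, ?_⟩
    rw [← e', mul_assoc, mul_inv_cancel₀ hc0, mul_one]
  · left
    exact ⟨F' true, F' false, hd, e'⟩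

/-- (O) `O₀` is integrally closed in `K0`. -/
theorem ka_oclosed_main : ka_TransStatement → ka_FracStatement → ka_O0ClosedStatement := by
  intro hT hF ℓ _ c hc hint
  rcases ka_oclosed_valuation hT hF ℓ hc with h | ⟨hc0, hinv⟩
  · exact h
  · exact ka_oclosed_mem_of_inv_mem hc0 hinv hint

end

end Fermat.Agent.S28
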