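/-
S28 / block ChartKernel (twin A) — package KA/SingleL.

(K6) inside `L = ℚ((q))`: an element integral over the Gauss valuation ring `O₀` and over
`B_t = ℚ[t]` is integral over `A_t = ℤ_(ℓ)[t]` (via the minimal polynomial over `K0 = ℚ(jq)`).
-/
import Fermat.Agent.S28.KAInterfaces

set_option autoImplicit false

open ModularCurve ModularCurve.IgusaScheme

namespace Fermat.Agent.S28

noncomputable section

/-- Generic lemma: if `R` is a subring of a field `E`, contained in an intermediate field `K` and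
integrally closed in `K`, then the coefficients of the minimal polynomial over `K` of an element
`y : E` integral over `R` lie in `R`. -/
theorem ka_singlel_minpoly_coeff_mem {F E : Type*} [Field F] [Field E] [Algebra F E]
    (K : IntermediateField F E) (R : Subring E)
    (hRK : ∀ c ∈ R, c ∈ K) (hcl : ∀ c ∈ K, IsIntegral ↥R c → c ∈ R)
    (y : E) (hy : IsIntegral ↥R y) (n : ℕ) :
    (((minpoly ↥K y).coeff n : ↥K) : E) ∈ R := by
  classical
  obtain ⟨P, hPm, hP⟩ := hy
  let ι : ↥R →+* ↥K := (R.subtype).codRestrict K.toSubring (fun a => hRK a a.2)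
  let _ : Algebra ↥R ↥K := ι.toAlgebra
  have hcomp : (algebraMap ↥K E).comp ι = algebraMap ↥R E := RingHom.ext fun _ => rfl
  have hP' : Polynomial.aeval y (P.map ι) = 0 := by
    rw [Polynomial.aeval_def, Polynomial.eval₂_map, hcomp]; exact hP
  have hyK : IsIntegral ↥K y := ⟨P.map ι, hPm.map ι, hP'⟩
  have hμ : (minpoly ↥K y).Monic := minpoly.monic hyK
  have hdvd : minpoly ↥K y ∣ P.map (algebraMap ↥R ↥K) := minpoly.dvd _ _ hP'
  have hl := integralClosure.mem_lifts_of_monic_of_dvd_map ↥K hPm hμ hdvd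
  rw [Polynomial.lifts_iff_coeff_lifts] at hl
  obtain ⟨z, hz⟩ := hl n
  have hzint : IsIntegral ↥R (z : ↥K) := z.2
  have hE : IsIntegral ↥R (((minpoly ↥K y).coeff n : ↥K) : E) := by
    rw [← hz]
    exact hzint.map_of_comp_eq (RingHom.id ↥R) (algebraMap ↥K E) (RingHom.ext fun _ => rfl)
  exact hcl _ (SetLike.coe_mem _) hE

/-- A monic polynomial over `L` with all coefficients in a subring `R` and with root `y` shows
that `y` is integral over `R`. -/
theorem ka_singlel_isIntegral_of_coeff_mem {E : Type*} [Field E] (R : Subring E)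
    (p : Polynomial E) (hp : p.Monic) (hc : ∀ n, p.coeff n ∈ R) (y : E)
    (hy : Polynomial.eval y p = 0) : IsIntegral ↥R y := by
  have hsub : (↑p.coeffs : Set E) ⊆ R := by
    intro c hc'
    obtain ⟨n, -, rfl⟩ := Polynomial.mem_coeffs_iff.mp hc'
    exact hc n
  refine ⟨p.toSubring R hsub, (Polynomial.monic_toSubring p R hsub).mpr hp, ?_⟩
  rw [Polynomial.eval₂_eq_eval_map]
  have hmap : (p.toSubring R hsub).map (algebraMap ↥R E) = p := Polynomial.map_toSubring p R hsub
  rw [hmap]; exact hy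

/-- (K6) inside `L`. -/
theorem ka_singlel_main :
    ka_TransStatement → ka_O0ClosedStatement → ka_BClosedStatement → ka_InterStatement →
      ka_SingleLStatement := by
  intro hT hO hB hI ℓ _ t ht y hyO hyB
  have htK : t ∈ ka_K0 := by
    rcases ht with rfl | rfl
    · exact ka_jq_mem_K0
    · exact ka_jq_inv_mem_K0
  -- integrality over `K0`
  have hcO : ∀ n, (((minpoly ↥ka_K0 y).coeff n : ↥ka_K0) : LaurentSeries ℚ) ∈ ka_O0 ℓ :=
    fun n => ka_singlel_minpoly_coeff_mem ka_K0 (ka_O0 ℓ) (fun c hc => ka_O0_le_K0 hT hc)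
      (fun c hc hci => hO ℓ c hc hci) y hyO n
  have hcB : ∀ n, (((minpoly ↥ka_K0 y).coeff n : ↥ka_K0) : LaurentSeries ℚ) ∈ ka_B t :=
    fun n => ka_singlel_minpoly_coeff_mem ka_K0 (ka_B t) (fun c hc => ka_B_le_K0 htK hc)
      (fun c hc hci => hB t ht c hc hci) y hyB n
  have hcA : ∀ n, (((minpoly ↥ka_K0 y).coeff n : ↥ka_K0) : LaurentSeries ℚ) ∈ ka_A ℓ t :=
    fun n => hI ℓ t ht _ (hcO n) (hcB n)
  have hyK : IsIntegral ↥ka_K0 y := by
    have h1 : IsIntegral ↥(ka_B t) y := hyB
    obtain ⟨P, hPm, hP⟩ := h1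
    let ι : ↥(ka_B t) →+* ↥ka_K0 :=
      ((ka_B t).subtype).codRestrict ka_K0.toSubring (fun a => ka_B_le_K0 htK a.2)
    refine ⟨P.map ι, hPm.map ι, ?_⟩
    rw [Polynomial.eval₂_map]
    exact hP
  refine ka_singlel_isIntegral_of_coeff_mem (ka_A ℓ t)
    ((minpoly ↥ka_K0 y).map (algebraMap ↥ka_K0 (LaurentSeries ℚ)))
    ((minpoly.monic hyK).map _) (fun n => ?_) y ?_
  · rw [Polynomial.coeff_map]; exact hcA n
  · rw [Polynomial.eval_map, ← Polynomial.aeval_def]; exact minpoly.aeval _ _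

end

end Fermat.Agent.S28
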