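/-
S28 / block ChartKernel (twin A) — package KA/Trans.

* `ka_trans_main : ka_TransStatement` — `jq` is transcendental over `ℚ` (polynomial form);
* `ka_trans_frac : ka_FracStatement` — every element of `K0 = ℚ(jq)` is a quotient `f(j) / g(j)`
  with `f, g ∈ ℤ[T]`, `g ≠ 0`.
-/
import Fermat.Agent.S28.KAInterfaces

set_option autoImplicit false

open ModularCurve ModularCurve.IgusaScheme

namespace Fermat.Agent.S28

noncomputable section

/-! ## (T) transcendence of `jq` -/

/-- Coefficients of a constant multiple of a Laurent series. -/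
theorem ka_trans_coeff_C_mul (a : ℚ) (y : LaurentSeries ℚ) (k : ℤ) :
    (HahnSeries.C a * y).coeff k = a * y.coeff k := by
  rw [HahnSeries.C_mul_eq_smul, HahnSeries.coeff_smul, smul_eq_mul]

/-- `p(jq)` as a finite sum. -/
theorem ka_trans_evalL_eq_sum (p : Polynomial ℚ) :
    evalL jq p = ∑ i ∈ Finset.range (p.natDegree + 1), HahnSeries.C (p.coeff i) * jq ^ i :=
  Polynomial.eval₂_eq_sum_range _ _

/-- The coefficient of `q ^ (-deg p)` in `p(jq)` is the leading coefficient of `p`. -/
theorem ka_trans_coeff_evalL (p : Polynomial ℚ) :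
    (evalL jq p).coeff (-(p.natDegree : ℤ)) = p.leadingCoeff := by
  rw [ka_trans_evalL_eq_sum, HahnSeries.coeff_sum, Finset.sum_eq_single p.natDegree]
  · rw [ka_trans_coeff_C_mul, coeff_jq_pow_self, mul_one]
    rfl
  · intro i hi hne
    have hlt : i < p.natDegree :=
      lt_of_le_of_ne (Nat.lt_succ_iff.mp (Finset.mem_range.mp hi)) hne
    have hlt' : -(p.natDegree : ℤ) < -(i : ℤ) := by omega
    rw [ka_trans_coeff_C_mul, coeff_jq_pow_of_lt hlt', mul_zero]
  · intro h
    exact absurd (Finset.mem_range.mpr (Nat.lt_succ_self _)) h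

/-- (T) `jq` is transcendental over `ℚ`. -/
theorem ka_trans_main : ka_TransStatement := by
  intro p hp
  have h := ka_trans_coeff_evalL p
  rw [hp, HahnSeries.coeff_zero] at h
  exact Polynomial.leadingCoeff_eq_zero.mp h.symm

/-! ## (Frac) elements of `K0` as quotients of integer polynomials in `jq` -/

/-- Clearing denominators of a rational polynomial. -/
theorem ka_trans_clear (p : Polynomial ℚ) :
    ∃ (d : ℤ) (P : Polynomial ℤ), d ≠ 0 ∧
      P.map (Int.castRingHom ℚ) = Polynomial.C (d : ℚ) * p := by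
  obtain ⟨b, hb, h⟩ := IsLocalization.integerNormalization_spec (nonZeroDivisors ℤ) p
  refine ⟨b, IsLocalization.integerNormalization (nonZeroDivisors ℤ) p,
    nonZeroDivisors.ne_zero hb, ?_⟩
  rw [algebraMap_int_eq] at h
  rw [h, zsmul_eq_mul, ← map_intCast (Polynomial.C : ℚ →+* Polynomial ℚ)]

/-- `ka_ev` of an integer multiple of a cleared polynomial. -/
theorem ka_trans_ev_C_mul (e d : ℤ) (P : Polynomial ℤ) (p : Polynomial ℚ)
    (hP : P.map (Int.castRingHom ℚ) = Polynomial.C (d : ℚ) * p) :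
    ka_ev (Polynomial.C e * P) =
      HahnSeries.C (e : ℚ) * (HahnSeries.C (d : ℚ) * evalL jq p) := by
  have h1 : ka_ev P = evalL jq (P.map (Int.castRingHom ℚ)) := rfl
  have h2 : evalL jq (Polynomial.C (d : ℚ)) = HahnSeries.C (d : ℚ) := by
    simp [evalL]
  rw [map_mul, ka_ev_C, h1, hP, map_mul, h2]

/-- (Frac) Every element of `K0 = ℚ(jq)` is a quotient `f(j) / g(j)` with `f, g ∈ ℤ[T]`,
`g ≠ 0`. -/
theorem ka_trans_frac : ka_FracStatement := by
  intro c hc
  obtain ⟨r, s, hrs⟩ := (IntermediateField.mem_adjoin_simple_iff ℚ c).mp hc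
  rw [← ka_evalL_eq_aeval, ← ka_evalL_eq_aeval] at hrs
  by_cases hs : evalL jq s = 0
  · refine ⟨0, 1, one_ne_zero, ?_⟩
    rw [hrs, hs, div_zero, mul_zero, map_zero]
  · obtain ⟨d, S, hd, hS⟩ := ka_trans_clear s
    obtain ⟨e, R, he, hR⟩ := ka_trans_clear r
    have hCd : (HahnSeries.C (d : ℚ) : LaurentSeries ℚ) ≠ 0 := by
      rw [Ne, map_eq_zero]
      exact_mod_cast hd
    have hCe : (HahnSeries.C (e : ℚ) : LaurentSeries ℚ) ≠ 0 := by
      rw [Ne, map_eq_zero]
      exact_mod_cast he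
    have hg : ka_ev (Polynomial.C e * S) =
        HahnSeries.C (e : ℚ) * (HahnSeries.C (d : ℚ) * evalL jq s) :=
      ka_trans_ev_C_mul e d S s hS
    have hf : ka_ev (Polynomial.C d * R) =
        HahnSeries.C (d : ℚ) * (HahnSeries.C (e : ℚ) * evalL jq r) :=
      ka_trans_ev_C_mul d e R r hR
    refine ⟨Polynomial.C d * R, Polynomial.C e * S, fun h0 => ?_, ?_⟩
    · have h1 : ka_ev (Polynomial.C e * S) = 0 := by rw [h0, map_zero]
      rw [hg] at h1
      exact mul_ne_zero hCe (mul_ne_zero hCd hs) h1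
    · rw [hg, hf, hrs]
      field_simp

end

end Fermat.Agent.S28
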