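/-
S28 / block ChartKernel (twin A) — package KA/Transport.

Membership in the chart algebra of a single generator `s ∈ F` is integrality over the subring
`A_s = ℤ_(ℓ)[s]` of `L = LaurentSeries ℚ`.
-/
import Fermat.Agent.S28.KAInterfaces

set_option autoImplicit false

open ModularCurve ModularCurve.IgusaScheme

namespace Fermat.Agent.S28

noncomputable section

/-- The coercion to `L` of a scalar `r ∈ ℤ_(ℓ)` viewed in `F` is the constant series `r`. -/
theorem ka_transport_coe_algebraMap (N : ℕ) [NeZero N] (ℓ : ℕ) [Fact ℓ.Prime]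
    (r : ↥(GaloisRep.ratLocalizedAt ℓ)) :
    ((algebraMap ↥(GaloisRep.ratLocalizedAt ℓ) ↥(modularFunctionFieldFull N) r :
        ↥(modularFunctionFieldFull N)) : LaurentSeries ℚ) = HahnSeries.C (r : ℚ) := by
  rw [← ka_algebraMap_eq_C]
  show ((algebraMap ℚ ↥(modularFunctionFieldFull N) (r : ℚ) : ↥(modularFunctionFieldFull N)) :
    LaurentSeries ℚ) = _
  simp only [eq_ratCast, SubfieldClass.coe_ratCast]

/-- The coercion to `L` of `p(s)` (computed in `F`, `p ∈ ℤ_(ℓ)[T]`) is `p(s)` computed in `L`. -/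
theorem ka_transport_coe_aeval (N : ℕ) [NeZero N] (ℓ : ℕ) [Fact ℓ.Prime]
    (s : ↥(modularFunctionFieldFull N)) (p : Polynomial ↥(GaloisRep.ratLocalizedAt ℓ)) :
    ((Polynomial.aeval s p : ↥(modularFunctionFieldFull N)) : LaurentSeries ℚ) =
      evalL (s : LaurentSeries ℚ) (p.map (GaloisRep.ratLocalizedAt ℓ).subtype) := by
  induction p using Polynomial.induction_on with
  | C a =>
    rw [Polynomial.aeval_C, ka_transport_coe_algebraMap, Polynomial.map_C]
    simp [evalL]
  | add p q hp hq =>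
    rw [map_add, Polynomial.map_add, map_add, ← hp, ← hq]
    rfl
  | monomial n a h =>
    rw [map_mul, map_pow, Polynomial.aeval_C, Polynomial.aeval_X, Polynomial.map_mul,
      Polynomial.map_pow, Polynomial.map_C, Polynomial.map_X, map_mul, map_pow]
    simp [evalL, ka_transport_coe_algebraMap]

/-- (a) The coercion to `L` of an element of `ℤ_(ℓ)[s] ⊆ F` lies in `A_s`. -/
theorem ka_transport_mem_A_of_mem_adjoin (N : ℕ) [NeZero N] (ℓ : ℕ) [Fact ℓ.Prime]
    (s a : ↥(modularFunctionFieldFull N))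
    (ha : a ∈ Algebra.adjoin ↥(GaloisRep.ratLocalizedAt ℓ) ({s} : Set ↥(modularFunctionFieldFull N))) :
    (a : LaurentSeries ℚ) ∈ ka_A ℓ (s : LaurentSeries ℚ) := by
  induction ha using Algebra.adjoin_induction with
  | mem y hy =>
    rw [Set.mem_singleton_iff] at hy
    rw [hy]
    exact ka_self_mem_A ℓ _
  | algebraMap r =>
    rw [ka_transport_coe_algebraMap]
    exact ⟨Polynomial.C r, by simp [evalL]⟩
  | add y z _ _ hy hz => exact add_mem hy hz
  | mul y z _ _ hy hz => exact mul_mem hy hz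

/-- (b) Every element of `A_s` is the coercion of an element of `ℤ_(ℓ)[s] ⊆ F`. -/
theorem ka_transport_exists_of_mem_A (N : ℕ) [NeZero N] (ℓ : ℕ) [Fact ℓ.Prime]
    (s : ↥(modularFunctionFieldFull N)) (c : LaurentSeries ℚ)
    (hc : c ∈ ka_A ℓ (s : LaurentSeries ℚ)) :
    ∃ a : ↥(modularFunctionFieldFull N),
      a ∈ Algebra.adjoin ↥(GaloisRep.ratLocalizedAt ℓ) ({s} : Set ↥(modularFunctionFieldFull N)) ∧
        (a : LaurentSeries ℚ) = c := by
  obtain ⟨p, rfl⟩ := (ka_mem_A_iff ℓ _ c).mp hc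
  exact ⟨Polynomial.aeval s p, Polynomial.aeval_mem_adjoin_singleton _ _,
    ka_transport_coe_aeval N ℓ s p⟩

/-- (→) Integrality over `ℤ_(ℓ)[s] ⊆ F` gives integrality over `A_s ⊆ L`. -/
theorem ka_transport_forward (N : ℕ) [NeZero N] (ℓ : ℕ) [Fact ℓ.Prime]
    (s x : ↥(modularFunctionFieldFull N))
    (hx : IsIntegral
      ↥(Algebra.adjoin ↥(GaloisRep.ratLocalizedAt ℓ) ({s} : Set ↥(modularFunctionFieldFull N))) x) :
    IsIntegral ↥(ka_A ℓ (s : LaurentSeries ℚ)) (x : LaurentSeries ℚ) := by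
  set A := Algebra.adjoin ↥(GaloisRep.ratLocalizedAt ℓ)
    ({s} : Set ↥(modularFunctionFieldFull N)) with hA
  let ψ : ↥(modularFunctionFieldFull N) →+* LaurentSeries ℚ :=
    algebraMap ↥(modularFunctionFieldFull N) (LaurentSeries ℚ)
  let φ : ↥A →+* ↥(ka_A ℓ (s : LaurentSeries ℚ)) :=
    RingHom.codRestrict (ψ.comp (algebraMap ↥A ↥(modularFunctionFieldFull N)))
      (ka_A ℓ (s : LaurentSeries ℚ))
      (fun a => ka_transport_mem_A_of_mem_adjoin N ℓ s a a.2)
  exact hx.map_of_comp_eq φ ψ (RingHom.ext fun _ => rfl)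

/-- (←) Integrality over `A_s ⊆ L` gives integrality over `ℤ_(ℓ)[s] ⊆ F`. -/
theorem ka_transport_backward (N : ℕ) [NeZero N] (ℓ : ℕ) [Fact ℓ.Prime]
    (s x : ↥(modularFunctionFieldFull N))
    (hx : IsIntegral ↥(ka_A ℓ (s : LaurentSeries ℚ)) (x : LaurentSeries ℚ)) :
    IsIntegral
      ↥(Algebra.adjoin ↥(GaloisRep.ratLocalizedAt ℓ) ({s} : Set ↥(modularFunctionFieldFull N))) x := by
  classical
  set A := Algebra.adjoin ↥(GaloisRep.ratLocalizedAt ℓ)
    ({s} : Set ↥(modularFunctionFieldFull N)) with hA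
  let ψ : ↥(modularFunctionFieldFull N) →+* LaurentSeries ℚ :=
    algebraMap ↥(modularFunctionFieldFull N) (LaurentSeries ℚ)
  let ι' : ↥A →+* LaurentSeries ℚ := ψ.comp (algebraMap ↥A ↥(modularFunctionFieldFull N))
  obtain ⟨P, hPmonic, hProot⟩ := hx
  set q : Polynomial (LaurentSeries ℚ) :=
    P.map (algebraMap ↥(ka_A ℓ (s : LaurentSeries ℚ)) (LaurentSeries ℚ)) with hq
  have hqmonic : q.Monic := hPmonic.map _
  have hqroot : q.eval (x : LaurentSeries ℚ) = 0 := by
    rw [hq, Polynomial.eval_map]; exact hProot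
  have hlifts : q ∈ Polynomial.lifts ι' := by
    refine (Polynomial.lifts_iff_coeff_lifts q).mpr fun i => ?_
    obtain ⟨a, ha, hac⟩ := ka_transport_exists_of_mem_A N ℓ s (q.coeff i) (by
      rw [hq, Polynomial.coeff_map]; exact (P.coeff i).2)
    exact ⟨⟨a, ha⟩, hac⟩
  obtain ⟨q₀, hq₀q, -, hq₀monic⟩ := Polynomial.lifts_and_natDegree_eq_and_monic hlifts hqmonic
  refine ⟨q₀, hq₀monic, ?_⟩
  have hinj : Function.Injective ψ := Subtype.val_injective
  apply hinj
  rw [Polynomial.hom_eval₂, map_zero]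
  show Polynomial.eval₂ ι' (x : LaurentSeries ℚ) q₀ = 0
  rw [Polynomial.eval₂_eq_eval_map, hq₀q, hqroot]

/-- **Package KA/Transport.** Membership in the chart algebra of a single generator `s ∈ F` is
integrality over the subring `A_s = ℤ_(ℓ)[s]` of `L`. -/
theorem ka_transport_main : ka_TransportStatement := by
  intro N _ ℓ _ s x
  rw [mem_chartAlg_iff]
  exact ⟨ka_transport_forward N ℓ s x, ka_transport_backward N ℓ s x⟩

end

end Fermat.Agent.S28
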