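/-
S28 / block ChartKernel (twin A) — integration.

`ka_main : Char0DegStatement → DegStatement → ChartKernelStatement`
(statement Q2 of S28: saturation of the three chart algebras), assembled from the packages
`KATrans` (transcendence of `jq`, elements of `ℚ(jq)` as quotients), `KABasis` (normalised
relations over the family of `DegStatement`), `KAIntO` (integrality over the Gauss valuation ring
`O₀`), `KAOClosed` (`O₀` integrally closed), `KABClosed` (`ℚ[t]` integrally closed),
`KAInter` (`O₀ ∩ ℚ[t] ⊆ ℤ_(ℓ)[t]`), `KASingleL` (minimal polynomial argument) and `KATransport`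
(chart algebra of one generator versus integrality over `ℤ_(ℓ)[t] ⊆ ℚ((q))`).
-/
import Fermat.Agent.S28.KATrans
import Fermat.Agent.S28.KABasis
import Fermat.Agent.S28.KAIntO
import Fermat.Agent.S28.KAOClosed
import Fermat.Agent.S28.KABClosed
import Fermat.Agent.S28.KAInter
import Fermat.Agent.S28.KASingleL
import Fermat.Agent.S28.KATransport

set_option autoImplicit false

open ModularCurve ModularCurve.IgusaScheme

namespace Fermat.Agent.S28

noncomputable section

/-- (K6) The single-generator charts. -/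
theorem ka_main_single (hT : ka_TransportStatement) (hI : ka_IntO0Statement)
    (hS : ka_SingleLStatement) (N : ℕ) [NeZero N] (ℓ : ℕ) [Fact ℓ.Prime] (hℓN : ¬ ℓ ∣ N)
    (s : ↥(modularFunctionFieldFull N))
    (hs : (s : LaurentSeries ℚ) = jq ∨ (s : LaurentSeries ℚ) = jq⁻¹)
    (x : ↥(modularFunctionFieldFull N)) (hx : x ∈ chartAlg N ℓ {s})
    (hy : LInt ℓ ((ℓ : ℚ)⁻¹ • (x : LaurentSeries ℚ))) :
    (ℓ : ℚ)⁻¹ • x ∈ chartAlg N ℓ {s} := by
  have hxA : IsIntegral ↥(ka_A ℓ (s : LaurentSeries ℚ)) (x : LaurentSeries ℚ) :=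
    (hT N ℓ s x).mp hx
  have hxB : IsIntegral ↥(ka_B (s : LaurentSeries ℚ)) (x : LaurentSeries ℚ) :=
    ka_isIntegral_mono (ka_A_le_B ℓ _) hxA
  have hyB : IsIntegral ↥(ka_B (s : LaurentSeries ℚ)) ((ℓ : ℚ)⁻¹ • (x : LaurentSeries ℚ)) := by
    rw [ka_smul_eq]
    exact (ka_isIntegral_of_mem (ka_C_mem_B _ _)).mul hxB
  have hyF : (ℓ : ℚ)⁻¹ • (x : LaurentSeries ℚ) ∈ modularFunctionFieldFull N :=
    ((ℓ : ℚ)⁻¹ • x).2
  have hyO : IsIntegral ↥(ka_O0 ℓ) ((ℓ : ℚ)⁻¹ • (x : LaurentSeries ℚ)) :=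
    hI N ℓ hℓN _ hyF hy
  have hyA := hS ℓ _ hs _ hyO hyB
  exact (hT N ℓ s ((ℓ : ℚ)⁻¹ • x)).mpr hyA

/-- The block main theorem, from the package statements. -/
theorem ka_main_of (hT : ka_TransportStatement) (hI : ka_IntO0Statement)
    (hS : ka_SingleLStatement) : ChartKernelStatement := by
  intro N _ ℓ _ hℓN S hS' x hx hy
  have hj : ((jFull N : ↥(modularFunctionFieldFull N)) : LaurentSeries ℚ) = jq := rfl
  have hjinv : (((jFull N)⁻¹ : ↥(modularFunctionFieldFull N)) : LaurentSeries ℚ) = jq⁻¹ := rfl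
  rcases hS' with rfl | rfl | rfl
  · exact ka_main_single hT hI hS N ℓ hℓN _ (Or.inl hj) x hx hy
  · exact ka_main_single hT hI hS N ℓ hℓN _ (Or.inr hjinv) x hx hy
  · -- (K7)
    have hx' : x ∈ chartAlg N ℓ (insert (jFull N)⁻¹ {jFull N}) := by
      rw [show insert (jFull N)⁻¹ ({jFull N} : Set ↥(modularFunctionFieldFull N)) =
        {jFull N, (jFull N)⁻¹} from Set.pair_comm _ _]
      exact hx
    obtain ⟨n, hn⟩ := exists_pow_mul_mem_chartAlg (Set.mem_singleton _) (jFull_ne_zero N) hx'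
    have hLI : LInt ℓ ((ℓ : ℚ)⁻¹ •
        (((jFull N) ^ n * x : ↥(modularFunctionFieldFull N)) : LaurentSeries ℚ)) := by
      have : (ℓ : ℚ)⁻¹ • (((jFull N) ^ n * x : ↥(modularFunctionFieldFull N)) : LaurentSeries ℚ)
          = jq ^ n * ((ℓ : ℚ)⁻¹ • (x : LaurentSeries ℚ)) := by
        rw [ka_smul_eq, ka_smul_eq]
        push_cast
        rw [coe_jFull]
        ring
      rw [this]
      refine ka_LInt_mul ?_ hy
      clear this hn
      induction n with
      | zero => rw [pow_zero]; exact ka_LInt_one ℓ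
      | succ k ih => rw [pow_succ]; exact ka_LInt_mul ih (ka_LInt_jq ℓ)
    have h1 := ka_main_single hT hI hS N ℓ hℓN _ (Or.inl hj) _ hn hLI
    have h2 : (ℓ : ℚ)⁻¹ • ((jFull N) ^ n * x) ∈ chartAlg N ℓ {jFull N, (jFull N)⁻¹} :=
      chartAlg_mono N ℓ (sFin_subset N) h1
    have h3' : (jFull N)⁻¹ ∈ chartAlg N ℓ {jFull N, (jFull N)⁻¹} :=
      subset_chartAlg N ℓ _ (by simp)
    have h3 : ((jFull N)⁻¹) ^ n ∈ chartAlg N ℓ {jFull N, (jFull N)⁻¹} :=
      Subalgebra.pow_mem _ h3' n
    have h4 := mul_mem h3 h2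
    have h5 : ((jFull N)⁻¹) ^ n * ((ℓ : ℚ)⁻¹ • ((jFull N) ^ n * x)) = (ℓ : ℚ)⁻¹ • x := by
      rw [Algebra.smul_def, Algebra.smul_def]
      have h : ((jFull N)⁻¹) ^ n * (jFull N) ^ n = 1 := by
        rw [← mul_pow, inv_mul_cancel₀ (jFull_ne_zero N), one_pow]
      calc ((jFull N)⁻¹) ^ n * (algebraMap ℚ _ (ℓ : ℚ)⁻¹ * ((jFull N) ^ n * x))
          = (((jFull N)⁻¹) ^ n * (jFull N) ^ n) * (algebraMap ℚ _ (ℓ : ℚ)⁻¹ * x) := by ring
        _ = _ := by rw [h, one_mul]
    rwa [h5] at h4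

/-- **Block ChartKernel** (statement Q2 of S28, Igusa): for `ℓ ∤ N` the three chart algebras are
saturated, given the characteristic zero degree bound and the degree statement mod `ℓ`. -/
theorem ka_main : Char0DegStatement → DegStatement → ChartKernelStatement := by
  intro hC hD
  have hT : ka_TransStatement := ka_trans_main
  have hF : ka_FracStatement := ka_trans_frac
  have hBasis : ka_BasisStatement := ka_basis_main hT hF hC
  have hInt : ka_IntO0Statement := ka_into_main hT hBasis hD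
  have hO : ka_O0ClosedStatement := ka_oclosed_main hT hF
  have hB : ka_BClosedStatement := ka_bclosed_main hT
  have hI : ka_InterStatement := ka_inter_main hT
  have hS : ka_SingleLStatement := ka_singlel_main hT hO hB hI
  exact ka_main_of ka_transport_main hInt hS

end

end Fermat.Agent.S28
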