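/-
S28, package SchemeGlue (Part A1): the base change of the glued Igusa scheme to a field `K` is
integral as soon as the base changes of the two affine charts are integral and the base change of
the overlap chart is nonempty.
-/
import Fermat.Agent.S28.Interfaces

set_option autoImplicit false

open AlgebraicGeometry CategoryTheory CategoryTheory.Limits ModularCurve ModularCurve.IgusaScheme

namespace Fermat.Agent.S28

/-- A topological space which is the union of two irreducible subsets with a common point, one of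
which is open, is irreducible. -/
theorem schemeGlue_irreducibleSpace_of_cover {X : Type*} [TopologicalSpace X] (U₁ U₂ : Set X)
    (h₁o : IsOpen U₁) (h₁ : IsIrreducible U₁) (h₂ : IsIrreducible U₂)
    (hcov : ∀ x : X, x ∈ U₁ ∨ x ∈ U₂) (hne : (U₁ ∩ U₂).Nonempty) : IrreducibleSpace X := by
  -- every nonempty open set meets `U₁`
  have key : ∀ u : Set X, IsOpen u → u.Nonempty → (U₁ ∩ u).Nonempty := by
    rintro u hu ⟨x, hx⟩
    rcases hcov x with hx₁ | hx₂
    · exact ⟨x, hx₁, hx⟩
    · obtain ⟨y, hy₂, hyu, hy₁⟩ := h₂.2 u U₁ hu h₁o ⟨x, hx₂, hx⟩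
        (by rw [Set.inter_comm]; exact hne)
      exact ⟨y, hy₁, hyu⟩
  obtain ⟨x₀, hx₀⟩ := hne
  refine { toPreirreducibleSpace := ⟨?_⟩, toNonempty := ⟨x₀⟩ }
  intro u v hu hv hu' hv'
  obtain ⟨y, hy₁, hy⟩ := h₁.2 u v hu hv
    (key u hu (by simpa using hu')) (key v hv (by simpa using hv'))
  exact ⟨y, Set.mem_univ y, hy⟩

/-- A scheme covered by two integral open subschemes (given by open immersions) whose images
have a common point is integral. -/
theorem schemeGlue_isIntegral_of_cover {X U₁ U₂ W : Scheme.{0}} (i₁ : U₁ ⟶ X) (i₂ : U₂ ⟶ X)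
    [IsOpenImmersion i₁] [IsOpenImmersion i₂] [IsIntegral U₁] [IsIntegral U₂] [Nonempty W]
    (w₁ : W ⟶ U₁) (w₂ : W ⟶ U₂) (hw : w₁ ≫ i₁ = w₂ ≫ i₂)
    (hcov : ∀ x : X, x ∈ Set.range i₁ ∨ x ∈ Set.range i₂) : IsIntegral X := by
  have hred : IsReduced X := by
    have (x : X) : _root_.IsReduced (X.presheaf.stalk x) := by
      rcases hcov x with ⟨y, rfl⟩ | ⟨y, rfl⟩
      · exact isReduced_of_injective _
          (asIso <| i₁.stalkMap y).commRingCatIsoToRingEquiv.injective
      · exact isReduced_of_injective _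
          (asIso <| i₂.stalkMap y).commRingCatIsoToRingEquiv.injective
    exact isReduced_of_isReduced_stalk _
  have hirr : IrreducibleSpace X := by
    refine schemeGlue_irreducibleSpace_of_cover (Set.range i₁) (Set.range i₂)
      i₁.isOpenEmbedding.isOpen_range ?_ ?_ hcov ?_
    · rw [← Set.image_univ]
      exact (IrreducibleSpace.isIrreducible_univ U₁).image _ i₁.continuous.continuousOn
    · rw [← Set.image_univ]
      exact (IrreducibleSpace.isIrreducible_univ U₂).image _ i₂.continuous.continuousOn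
    · obtain ⟨w⟩ := ‹Nonempty W›
      refine ⟨i₁ (w₁ w), ⟨_, rfl⟩, w₂ w, ?_⟩
      rw [← Scheme.Hom.comp_apply, ← Scheme.Hom.comp_apply, hw]
  exact isIntegral_of_irreducibleSpace_of_isReduced X

section schemeGlueTensor

open TensorProduct

variable {R A B K : Type} [CommRing R] [CommRing A] [CommRing B] [CommRing K]
  [Algebra R A] [Algebra R B] [Algebra R K]

/-- `Spec` of `f ⊗ id` is compatible with the first projections. -/
theorem schemeGlue_specMap_tensor_fst (f : A →ₐ[R] B) :
    Spec.map (CommRingCat.ofHom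
        (Algebra.TensorProduct.map f (AlgHom.id R K)).toRingHom) ≫
      Spec.map (CommRingCat.ofHom
        (Algebra.TensorProduct.includeLeftRingHom : A →+* A ⊗[R] K)) =
    Spec.map (CommRingCat.ofHom
        (Algebra.TensorProduct.includeLeftRingHom : B →+* B ⊗[R] K)) ≫
      Spec.map (CommRingCat.ofHom f.toRingHom) := by
  have h : (Algebra.TensorProduct.map f (AlgHom.id R K)).toRingHom.comp
        (Algebra.TensorProduct.includeLeftRingHom : A →+* A ⊗[R] K) =
      (Algebra.TensorProduct.includeLeftRingHom : B →+* B ⊗[R] K).comp f.toRingHom := by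
    ext x
    simp
  rw [← Spec.map_comp, ← Spec.map_comp, ← CommRingCat.ofHom_comp, ← CommRingCat.ofHom_comp, h]

/-- `Spec` of `f ⊗ id` is compatible with the second projections. -/
theorem schemeGlue_specMap_tensor_snd (f : A →ₐ[R] B) :
    Spec.map (CommRingCat.ofHom
        (Algebra.TensorProduct.map f (AlgHom.id R K)).toRingHom) ≫
      Spec.map (CommRingCat.ofHom (R := K) (S := A ⊗[R] K)
        (RingHomClass.toRingHom Algebra.TensorProduct.includeRight)) =
    Spec.map (CommRingCat.ofHom (R := K) (S := B ⊗[R] K)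
        (RingHomClass.toRingHom Algebra.TensorProduct.includeRight)) := by
  have h : (Algebra.TensorProduct.map f (AlgHom.id R K)).toRingHom.comp
        (RingHomClass.toRingHom (Algebra.TensorProduct.includeRight : K →ₐ[R] A ⊗[R] K)) =
      RingHomClass.toRingHom (Algebra.TensorProduct.includeRight : K →ₐ[R] B ⊗[R] K) := by
    ext x
    simp
  rw [← Spec.map_comp, ← CommRingCat.ofHom_comp, h]

end schemeGlueTensor

open TensorProduct in
/-- (A1) The base change of the glued Igusa scheme to `K` is integral as soon as the base changes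
of the two affine charts are integral and the base change of the overlap chart is nonempty. -/
theorem schemeGlue_main : SchemeGlueStatement := by
  intro N _ ℓ _ K _ _ hFin hInf hMid
  -- the two charts of the base change, and the overlap chart
  let i₁ : Spec (.of ((chartAlgFin N ℓ) ⊗[↥(GaloisRep.ratLocalizedAt ℓ)] K)) ⟶
      pullback (igusaTo N ℓ)
        (Spec.map (CommRingCat.ofHom (algebraMap ↥(GaloisRep.ratLocalizedAt ℓ) K))) :=
    (pullbackSpecIso ↥(GaloisRep.ratLocalizedAt ℓ) (chartAlgFin N ℓ) K).inv ≫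
      pullback.map _ _ _ _ (ιFin N ℓ) (𝟙 _) (𝟙 _) (by simp) (by simp)
  let i₂ : Spec (.of ((chartAlgInf N ℓ) ⊗[↥(GaloisRep.ratLocalizedAt ℓ)] K)) ⟶
      pullback (igusaTo N ℓ)
        (Spec.map (CommRingCat.ofHom (algebraMap ↥(GaloisRep.ratLocalizedAt ℓ) K))) :=
    (pullbackSpecIso ↥(GaloisRep.ratLocalizedAt ℓ) (chartAlgInf N ℓ) K).inv ≫
      pullback.map _ _ _ _ (ιInf N ℓ) (𝟙 _) (𝟙 _) (by simp) (by simp)
  let w₁ : Spec (.of ((chartAlgMid N ℓ) ⊗[↥(GaloisRep.ratLocalizedAt ℓ)] K)) ⟶
      Spec (.of ((chartAlgFin N ℓ) ⊗[↥(GaloisRep.ratLocalizedAt ℓ)] K)) :=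
    Spec.map (CommRingCat.ofHom
      (Algebra.TensorProduct.map (inclFin N ℓ) (AlgHom.id _ K)).toRingHom)
  let w₂ : Spec (.of ((chartAlgMid N ℓ) ⊗[↥(GaloisRep.ratLocalizedAt ℓ)] K)) ⟶
      Spec (.of ((chartAlgInf N ℓ) ⊗[↥(GaloisRep.ratLocalizedAt ℓ)] K)) :=
    Spec.map (CommRingCat.ofHom
      (Algebra.TensorProduct.map (inclInf N ℓ) (AlgHom.id _ K)).toRingHom)
  have : IsOpenImmersion i₁ := by dsimp only [i₁]; infer_instance
  have : IsOpenImmersion i₂ := by dsimp only [i₂]; infer_instance
  have : Nonempty ↥(Spec (.of ((chartAlgMid N ℓ) ⊗[↥(GaloisRep.ratLocalizedAt ℓ)] K))) :=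
    inferInstanceAs
      (Nonempty (PrimeSpectrum ((chartAlgMid N ℓ) ⊗[↥(GaloisRep.ratLocalizedAt ℓ)] K)))
  have hw : w₁ ≫ i₁ = w₂ ≫ i₂ := by
    apply pullback.hom_ext
    · have e₁ : w₁ ≫ Spec.map (CommRingCat.ofHom Algebra.TensorProduct.includeLeftRingHom) =
          Spec.map (CommRingCat.ofHom Algebra.TensorProduct.includeLeftRingHom) ≫ fFin N ℓ :=
        schemeGlue_specMap_tensor_fst (inclFin N ℓ)
      have e₂ : w₂ ≫ Spec.map (CommRingCat.ofHom Algebra.TensorProduct.includeLeftRingHom) =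
          Spec.map (CommRingCat.ofHom Algebra.TensorProduct.includeLeftRingHom) ≫ fInf N ℓ :=
        schemeGlue_specMap_tensor_fst (inclInf N ℓ)
      simp only [i₁, i₂, Category.assoc, pullback.lift_fst, pullbackSpecIso_inv_fst_assoc]
      rw [reassoc_of% e₁, reassoc_of% e₂, glue_condition]
    · have e₁ : w₁ ≫ Spec.map (CommRingCat.ofHom (R := K)
            (S := (chartAlgFin N ℓ) ⊗[↥(GaloisRep.ratLocalizedAt ℓ)] K)
            (RingHomClass.toRingHom Algebra.TensorProduct.includeRight)) =
          Spec.map (CommRingCat.ofHom (R := K)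
            (S := (chartAlgMid N ℓ) ⊗[↥(GaloisRep.ratLocalizedAt ℓ)] K)
            (RingHomClass.toRingHom Algebra.TensorProduct.includeRight)) :=
        schemeGlue_specMap_tensor_snd (inclFin N ℓ)
      have e₂ : w₂ ≫ Spec.map (CommRingCat.ofHom (R := K)
            (S := (chartAlgInf N ℓ) ⊗[↥(GaloisRep.ratLocalizedAt ℓ)] K)
            (RingHomClass.toRingHom Algebra.TensorProduct.includeRight)) =
          Spec.map (CommRingCat.ofHom (R := K)
            (S := (chartAlgMid N ℓ) ⊗[↥(GaloisRep.ratLocalizedAt ℓ)] K)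
            (RingHomClass.toRingHom Algebra.TensorProduct.includeRight)) :=
        schemeGlue_specMap_tensor_snd (inclInf N ℓ)
      simp only [i₁, i₂, Category.assoc, pullback.lift_snd, pullbackSpecIso_inv_snd,
        Category.comp_id]
      rw [e₁, e₂]
  refine schemeGlue_isIntegral_of_cover i₁ i₂ w₁ w₂ hw ?_
  intro p
  have hr₁ : Set.range i₁ = pullback.fst (igusaTo N ℓ) _ ⁻¹' Set.range (ιFin N ℓ) := by
    dsimp only [i₁]
    rw [Scheme.Hom.comp_base, TopCat.coe_comp, Set.range_comp,
      Set.range_eq_univ.mpr (pullbackSpecIso ↥(GaloisRep.ratLocalizedAt ℓ)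
        (chartAlgFin N ℓ) K).inv.surjective, Set.image_univ, Scheme.Pullback.range_map]
    simp
  have hr₂ : Set.range i₂ = pullback.fst (igusaTo N ℓ) _ ⁻¹' Set.range (ιInf N ℓ) := by
    dsimp only [i₂]
    rw [Scheme.Hom.comp_base, TopCat.coe_comp, Set.range_comp,
      Set.range_eq_univ.mpr (pullbackSpecIso ↥(GaloisRep.ratLocalizedAt ℓ)
        (chartAlgInf N ℓ) K).inv.surjective, Set.image_univ, Scheme.Pullback.range_map]
    simp
  rw [hr₁, hr₂]
  exact mem_range_ιFin_or_mem_range_ιInf N ℓ _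

end Fermat.Agent.S28
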