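/-
S28 / package TensorDomain (Part A2).

For a commutative `ℤ_(ℓ)`-algebra `A` with a ring homomorphism `ρ : A → 𝔽_ℓ((q))` whose kernel is
`ℓ A`, and a field `K` of characteristic `ℓ`, the ring `A ⊗_{ℤ_(ℓ)} K` is a domain: it embeds into
`K((q))` by `a ⊗ x ↦ x * ρ(a)`.
-/
import Fermat.Agent.S28.Interfaces

set_option autoImplicit false

open scoped TensorProduct

namespace Fermat.Agent.S28

noncomputable section

/-- Two ring homomorphisms out of `ℤ_(ℓ)` into a commutative ring are equal. -/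
theorem tensorDomain_ringHom_ext (ℓ : ℕ) {S : Type*} [CommRing S]
    (f g : ↥(GaloisRep.ratLocalizedAt ℓ) →+* S) : f = g := by
  ext x
  obtain ⟨q, hq⟩ := x
  have hq' : q.den.Coprime ℓ := hq
  -- the inverse of the denominator lies in `ℤ_(ℓ)`
  have hv : ((q.den : ℚ)⁻¹) ∈ GaloisRep.ratLocalizedAt ℓ := by
    change ((q.den : ℚ)⁻¹).den.Coprime ℓ
    rw [Rat.inv_natCast_den]
    simp only [q.den_ne_zero, if_false]
    exact hq'
  let v : ↥(GaloisRep.ratLocalizedAt ℓ) := ⟨(q.den : ℚ)⁻¹, hv⟩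
  let u : ↥(GaloisRep.ratLocalizedAt ℓ) := (q.den : ↥(GaloisRep.ratLocalizedAt ℓ))
  have hvu : v * u = 1 := by
    apply Subtype.ext
    change (q.den : ℚ)⁻¹ * ((q.den : ↥(GaloisRep.ratLocalizedAt ℓ)) : ℚ) = 1
    rw [show ((q.den : ↥(GaloisRep.ratLocalizedAt ℓ)) : ℚ) = (q.den : ℚ) from by push_cast; rfl]
    exact inv_mul_cancel₀ (by exact_mod_cast q.den_ne_zero)
  have hux : u * (⟨q, hq⟩ : ↥(GaloisRep.ratLocalizedAt ℓ)) =
      (q.num : ↥(GaloisRep.ratLocalizedAt ℓ)) := by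
    apply Subtype.ext
    change ((q.den : ↥(GaloisRep.ratLocalizedAt ℓ)) : ℚ) * q =
      ((q.num : ↥(GaloisRep.ratLocalizedAt ℓ)) : ℚ)
    rw [show ((q.den : ↥(GaloisRep.ratLocalizedAt ℓ)) : ℚ) = (q.den : ℚ) from by push_cast; rfl,
      show ((q.num : ↥(GaloisRep.ratLocalizedAt ℓ)) : ℚ) = (q.num : ℚ) from by push_cast; rfl]
    exact Rat.den_mul_eq_num q
  have hx : (⟨q, hq⟩ : ↥(GaloisRep.ratLocalizedAt ℓ)) =
      v * (q.num : ↥(GaloisRep.ratLocalizedAt ℓ)) := by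
    rw [← hux, ← mul_assoc, hvu, one_mul]
  have hfv : f v * (q.den : S) = 1 := by
    have := congrArg f hvu
    rwa [map_mul, map_one, map_natCast] at this
  have hgv : g v * (q.den : S) = 1 := by
    have := congrArg g hvu
    rwa [map_mul, map_one, map_natCast] at this
  have hfg : f v = g v := by
    calc f v = f v * ((q.den : S) * g v) := by rw [mul_comm (q.den : S), hgv, mul_one]
      _ = (f v * (q.den : S)) * g v := by rw [mul_assoc]
      _ = g v := by rw [hfv, one_mul]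
  rw [hx, map_mul, map_mul, map_intCast, map_intCast, hfg]

/-- Elements of `ℓ A` die in `A ⊗_{ℤ_(ℓ)} K` when `K` has characteristic `ℓ`. -/
theorem tensorDomain_tmul_eq_zero (ℓ : ℕ) (K : Type) [Field K] [CharP K ℓ]
    [Algebra ↥(GaloisRep.ratLocalizedAt ℓ) K]
    (A : Type) [CommRing A] [Algebra ↥(GaloisRep.ratLocalizedAt ℓ) A]
    (a : A) (ha : a ∈ Ideal.span {(ℓ : A)}) (x : K) :
    a ⊗ₜ[↥(GaloisRep.ratLocalizedAt ℓ)] x = 0 := by
  obtain ⟨b, rfl⟩ := Ideal.mem_span_singleton'.mp ha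
  have h1 : b * (ℓ : A) = (ℓ : ↥(GaloisRep.ratLocalizedAt ℓ)) • b := by
    rw [Algebra.smul_def, map_natCast, mul_comm]
  have h2 : (ℓ : ↥(GaloisRep.ratLocalizedAt ℓ)) • x = 0 := by
    rw [Algebra.smul_def, map_natCast, CharP.cast_eq_zero, zero_mul]
  rw [h1, TensorProduct.smul_tmul, h2, TensorProduct.tmul_zero]

/-- Scalars from `𝔽_ℓ` on the right factor can be moved to the left factor (after lifting them
to `ℤ_(ℓ)`). -/
theorem tensorDomain_tmul_zmod_smul (ℓ : ℕ) [Fact ℓ.Prime] (K : Type) [Field K]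
    [Algebra ↥(GaloisRep.ratLocalizedAt ℓ) K] [Algebra (ZMod ℓ) K]
    (A : Type) [CommRing A] [Algebra ↥(GaloisRep.ratLocalizedAt ℓ) A]
    (a : A) (c : ZMod ℓ) (x : K) :
    a ⊗ₜ[↥(GaloisRep.ratLocalizedAt ℓ)] (c • x) =
      ((c.val : ↥(GaloisRep.ratLocalizedAt ℓ)) • a) ⊗ₜ[↥(GaloisRep.ratLocalizedAt ℓ)] x := by
  have h : c • x = (c.val : ↥(GaloisRep.ratLocalizedAt ℓ)) • x := by
    conv_lhs => rw [← ZMod.natCast_zmod_val c]
    rw [Algebra.smul_def, Algebra.smul_def, map_natCast, map_natCast]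
  rw [h, TensorProduct.smul_tmul]

/-- Normal form: every element of `A ⊗_{ℤ_(ℓ)} K` is a finite sum `∑ a_j ⊗ e_j` for a basis
`(e_j)` of `K` over `𝔽_ℓ`. -/
theorem tensorDomain_normalForm (ℓ : ℕ) [Fact ℓ.Prime] (K : Type) [Field K]
    [Algebra ↥(GaloisRep.ratLocalizedAt ℓ) K] [Algebra (ZMod ℓ) K]
    (A : Type) [CommRing A] [Algebra ↥(GaloisRep.ratLocalizedAt ℓ) A]
    {ι : Type*} (b : Module.Basis ι (ZMod ℓ) K)
    (z : A ⊗[↥(GaloisRep.ratLocalizedAt ℓ)] K) :
    ∃ F : ι →₀ A, z = F.sum fun j a => a ⊗ₜ[↥(GaloisRep.ratLocalizedAt ℓ)] b j := by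
  induction z using TensorProduct.induction_on with
  | zero => exact ⟨0, by simp⟩
  | tmul a x =>
    refine ⟨(b.repr x).mapRange (fun c => (c.val : ↥(GaloisRep.ratLocalizedAt ℓ)) • a)
      (by simp), ?_⟩
    rw [Finsupp.sum_mapRange_index
      (h := fun j a' => a' ⊗ₜ[↥(GaloisRep.ratLocalizedAt ℓ)] b j)
      (fun j => TensorProduct.zero_tmul _ _)]
    conv_lhs => rw [← b.linearCombination_repr x]
    rw [Finsupp.linearCombination_apply, Finsupp.sum, TensorProduct.tmul_sum]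
    refine Finset.sum_congr rfl fun j _ => ?_
    exact tensorDomain_tmul_zmod_smul ℓ K A a _ _
  | add z w hz hw =>
    obtain ⟨F, rfl⟩ := hz
    obtain ⟨G, rfl⟩ := hw
    refine ⟨F + G, ?_⟩
    rw [Finsupp.sum_add_index']
    · intro j
      exact TensorProduct.zero_tmul _ _
    · intro j a a'
      exact TensorProduct.add_tmul _ _ _

/-- (A2) `A ⊗_{ℤ_(ℓ)} K` is a domain. -/
theorem tensorDomain_main : TensorDomainStatement := by
  intro ℓ _ K _ _ _ A _ _ ρ hρ
  let _ : Algebra (ZMod ℓ) K := ZMod.algebra K ℓ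
  let φ : A →+* LaurentSeries K := (ModularCurve.coeffMap (algebraMap (ZMod ℓ) K)).comp ρ
  have hφ : ∀ r : ↥(GaloisRep.ratLocalizedAt ℓ),
      φ (algebraMap ↥(GaloisRep.ratLocalizedAt ℓ) A r) =
        algebraMap ↥(GaloisRep.ratLocalizedAt ℓ) (LaurentSeries K) r := fun r =>
    RingHom.congr_fun (tensorDomain_ringHom_ext ℓ
      (φ.comp (algebraMap ↥(GaloisRep.ratLocalizedAt ℓ) A))
      (algebraMap ↥(GaloisRep.ratLocalizedAt ℓ) (LaurentSeries K))) r
  let f : A →ₐ[↥(GaloisRep.ratLocalizedAt ℓ)] LaurentSeries K := { φ with commutes' := hφ }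
  let g : K →ₐ[↥(GaloisRep.ratLocalizedAt ℓ)] LaurentSeries K :=
    { (HahnSeries.C : K →+* LaurentSeries K) with
      commutes' := fun r => RingHom.congr_fun (tensorDomain_ringHom_ext ℓ
        ((HahnSeries.C : K →+* LaurentSeries K).comp (algebraMap ↥(GaloisRep.ratLocalizedAt ℓ) K))
        (algebraMap ↥(GaloisRep.ratLocalizedAt ℓ) (LaurentSeries K))) r }
  let Ψ : A ⊗[↥(GaloisRep.ratLocalizedAt ℓ)] K →ₐ[↥(GaloisRep.ratLocalizedAt ℓ)] LaurentSeries K :=
    Algebra.TensorProduct.productMap f g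
  have hΨ : Function.Injective Ψ := by
    rw [injective_iff_map_eq_zero]
    intro z hz
    let b := Module.Basis.ofVectorSpace (ZMod ℓ) K
    obtain ⟨F, rfl⟩ := tensorDomain_normalForm ℓ K A b z
    have hcoeff : ∀ (n : ℤ), ∀ j ∈ F.support, (ρ (F j)).coeff n = 0 := by
      intro n
      refine linearIndependent_iff'.mp b.linearIndependent F.support
        (fun j => (ρ (F j)).coeff n) ?_
      have h1 := congrArg (fun y : LaurentSeries K => y.coeff n) hz
      simp only [Finsupp.sum, map_sum, HahnSeries.coeff_sum, HahnSeries.coeff_zero] at h1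
      rw [← h1]
      refine Finset.sum_congr rfl fun j _ => ?_
      change _ = (φ (F j) * HahnSeries.C (b j)).coeff n
      rw [HahnSeries.C_apply, HahnSeries.coeff_mul_single_zero, Algebra.smul_def]
      rfl
    refine Finset.sum_eq_zero fun j hj => ?_
    refine tensorDomain_tmul_eq_zero ℓ K A _ ?_ _
    rw [← hρ, RingHom.mem_ker]
    ext n
    exact hcoeff n j hj
  exact Function.Injective.isDomain Ψ hΨ

end

end Fermat.Agent.S28
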