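/-
S28, Part C — package `HasseC` (prefix `chct_`).

`chct_main : HasseCStatement`: for `w ≥ 3` the function `E_w ^ 12 / Δ ^ w` is holomorphic,
`SL(2, ℤ)`-invariant with a pole of order at most `w` at `∞`, hence a polynomial `F` in `j`
(`LemmaPC`); passing to Laurent expansions gives `F(j) * Δ ^ w = E_w ^ 12` for formal `q`-series.
-/
import Fermat.Agent.S28.CInterfaces
import Fermat.Agent.S24.Qexp
import Fermat.Agent.S24.FormalQ
import Fermat.Agent.S24.JLocalBasic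
import Fermat.Agent.S24.LemmaPC

set_option autoImplicit false

open UpperHalfPlane ModularForm Complex Filter ModularCurve
open scoped MatrixGroups Manifold Real Topology

namespace Fermat.Agent.S28

open Fermat.Agent.S24

noncomputable section

/-- The function `E_w ^ 12 / Δ ^ w` on the upper half plane. -/
def chct_f (w : ℕ) (hw : 3 ≤ w) : ℍ → ℂ :=
  (ModularForm.E hw : ℍ → ℂ) ^ 12 / ModularForm.discriminant ^ w

theorem chct_f_apply (w : ℕ) (hw : 3 ≤ w) (τ : ℍ) :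
    chct_f w hw τ = ModularForm.E hw τ ^ 12 / ModularForm.discriminant τ ^ w := rfl

theorem chct_mdiff_E (w : ℕ) (hw : 3 ≤ w) :
    MDifferentiable 𝓘(ℂ) 𝓘(ℂ) (ModularForm.E hw : ℍ → ℂ) := (ModularForm.E hw).holo'

theorem chct_mdiff_f (w : ℕ) (hw : 3 ≤ w) : MDifferentiable 𝓘(ℂ) 𝓘(ℂ) (chct_f w hw) :=
  ((chct_mdiff_E w hw).pow 12).div (FormalQ.mdiff_discriminant.pow w)
    (fun z => pow_ne_zero w (discriminant_ne_zero z))

theorem chct_f_smul (w : ℕ) (hw : 3 ≤ w) (γ : SL(2, ℤ)) (τ : ℍ) :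
    chct_f w hw (γ • τ) = chct_f w hw τ := by
  simp only [chct_f_apply]
  rw [JLocal.modForm_smul, JLocal.discriminant_smul]
  have hd : denom γ τ ≠ 0 := denom_ne_zero _ _
  have hΔ := discriminant_ne_zero τ
  rw [zpow_natCast, zpow_ofNat]
  field_simp
  ring

theorem chct_periodic_f (w : ℕ) (hw : 3 ≤ w) :
    Function.Periodic (chct_f w hw ∘ ofComplex) ((1 : ℝ) : ℂ) := by
  intro z
  have hE : Function.Periodic ((ModularForm.E hw : ℍ → ℂ) ∘ ofComplex) ((1 : ℝ) : ℂ) :=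
    SlashInvariantFormClass.periodic_comp_ofComplex (ModularForm.E hw) one_mem_strictPeriods_SL
  have h4 := hE z
  have hd := FormalQ.periodic_discriminant z
  simp only [Function.comp_apply] at h4 hd ⊢
  simp only [chct_f_apply, h4, hd]

theorem chct_bdd_pow {g : ℍ → ℂ} (hg : IsBoundedAtImInfty g) (n : ℕ) :
    IsBoundedAtImInfty (g ^ n) := by
  induction n with
  | zero =>
    rw [pow_zero]
    exact Filter.const_boundedAtFilter _ (1 : ℂ)
  | succ n ih =>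
    rw [pow_succ]
    exact ih.mul hg

theorem chct_bdd_E (w : ℕ) (hw : 3 ≤ w) : IsBoundedAtImInfty (ModularForm.E hw : ℍ → ℂ) :=
  ModularFormClass.bdd_at_infty (ModularForm.E hw)

theorem chct_bdd_q_mul_f (w : ℕ) (hw : 3 ≤ w) :
    IsBoundedAtImInfty
      (fun τ : ℍ => Function.Periodic.qParam (1 : ℝ) (τ : ℂ) ^ w * chct_f w hw τ) := by
  have h1 : (fun τ : ℍ => Function.Periodic.qParam (1 : ℝ) (τ : ℂ) ^ w * chct_f w hw τ)
      = (ModularForm.E hw : ℍ → ℂ) ^ 12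
        * (fun τ : ℍ => (∏' n : ℕ, (1 - eta_q n τ) ^ 24)⁻¹) ^ w := by
    funext τ
    have hq : Function.Periodic.qParam (1 : ℝ) (τ : ℂ) ≠ 0 := Function.Periodic.qParam_ne_zero _
    have hΔ := discriminant_ne_zero τ
    rw [discriminant_eq_q_prod] at hΔ
    have hP : ∏' n : ℕ, (1 - eta_q n τ) ^ 24 ≠ 0 := right_ne_zero_of_mul hΔ
    simp only [chct_f_apply, discriminant_eq_q_prod, Pi.mul_apply, Pi.pow_apply, mul_pow, inv_pow]
    field_simp
  rw [h1]
  have hP : Tendsto (fun τ : ℍ => (∏' n : ℕ, (1 - eta_q n τ) ^ 24)⁻¹) atImInfty (𝓝 1) := by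
    simpa using tendsto_atImInfty_tprod_one_sub_eta_q_pow.inv₀ one_ne_zero
  have hPb : IsBoundedAtImInfty (fun τ : ℍ => (∏' n : ℕ, (1 - eta_q n τ) ^ 24)⁻¹) :=
    hP.isBigO_one ℝ
  exact (chct_bdd_pow (chct_bdd_E w hw) 12).mul (chct_bdd_pow hPb w)

theorem chct_cuspMer_f (w : ℕ) (hw : 3 ≤ w) : IsCuspMerOrder 1 w (chct_f w hw) := by
  refine ⟨chct_mdiff_f w hw, ?_, ?_⟩
  · simpa using chct_periodic_f w hw
  · simpa using chct_bdd_q_mul_f w hw

theorem chct_cuspMer_E (w : ℕ) (hw : 3 ≤ w) :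
    IsCuspMerOrder 1 0 (ModularForm.E hw : ℍ → ℂ) := by
  refine ⟨chct_mdiff_E w hw, ?_, ?_⟩
  · have hE : Function.Periodic ((ModularForm.E hw : ℍ → ℂ) ∘ ofComplex) ((1 : ℝ) : ℂ) :=
      SlashInvariantFormClass.periodic_comp_ofComplex (ModularForm.E hw) one_mem_strictPeriods_SL
    simpa using hE
  · simpa using chct_bdd_E w hw

/-- `Qexp 1` commutes with powers. -/
theorem chct_qexp_pow (hQ : QexpStatement) {g : ℍ → ℂ} (hg : IsCuspMer 1 g) (n : ℕ) :
    IsCuspMer 1 (g ^ n) ∧ Qexp 1 (g ^ n) = Qexp 1 g ^ n := by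
  induction n with
  | zero =>
    have h1 := hQ.1 1 1
    rw [pow_zero, pow_zero]
    refine ⟨⟨0, h1.1⟩, ?_⟩
    rw [show (1 : ℍ → ℂ) = fun _ : ℍ => (1 : ℂ) from rfl, h1.2, map_one]
  | succ n ih =>
    rw [pow_succ, pow_succ]
    have h2 := hQ.2.1 1 (g ^ n) g ih.1 hg
    exact ⟨h2.2.1, by rw [h2.2.2.2, ih.2]⟩

/-- `Qexp 1` of a polynomial in `j`. -/
theorem chct_qexp_eval (hQ : QexpStatement) (hJ : IsCuspMer 1 Jfun) (F : Polynomial ℂ) :
    IsCuspMer 1 (fun τ : ℍ => F.eval (Jfun τ)) ∧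
      Qexp 1 (fun τ : ℍ => F.eval (Jfun τ)) = evalL (Qexp 1 Jfun) F := by
  induction F using Polynomial.induction_on' with
  | add p q hp hq =>
    have h := hQ.2.1 1 _ _ hp.1 hq.1
    have hfun : (fun τ : ℍ => (p + q).eval (Jfun τ))
        = (fun τ : ℍ => p.eval (Jfun τ)) + (fun τ : ℍ => q.eval (Jfun τ)) := by
      funext τ
      simp
    rw [hfun, map_add]
    exact ⟨h.1, by rw [h.2.2.1, hp.2, hq.2]⟩
  | monomial n a =>
    have hfun : (fun τ : ℍ => (Polynomial.monomial n a).eval (Jfun τ))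
        = (fun _ : ℍ => a) * Jfun ^ n := by
      funext τ
      simp [Polynomial.eval_monomial]
    have hc := hQ.1 1 a
    have hp := chct_qexp_pow hQ hJ n
    have h := hQ.2.1 1 _ _ ⟨0, hc.1⟩ hp.1
    rw [hfun]
    refine ⟨h.2.1, ?_⟩
    rw [h.2.2.2, hc.2, hp.2, evalL, Polynomial.coe_eval₂RingHom, Polynomial.eval₂_monomial]

/-- (C3-an) `F(j) * Δ ^ w = E_w ^ 12` for some `F ∈ ℂ[T]`. -/
theorem chct_main : HasseCStatement := by
  intro w hw _
  have hQ : QexpStatement := Qexp.qexpStatement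
  have hJB : JBasicStatement := JLocal.jBasicStatement
  have hJQ : JQexpStatement := FormalQ.jQexpStatement hQ
  have hJ : IsCuspMer 1 Jfun := ⟨1, hJQ.1⟩
  have hf : IsCuspMerOrder 1 w (chct_f w hw) := chct_cuspMer_f w hw
  obtain ⟨F, -, hF⟩ := LemmaPC.lemmaPC hJB hJQ hQ w (chct_f w hw) hf (chct_f_smul w hw)
  refine ⟨F, ?_⟩
  have hfun : chct_f w hw = fun τ : ℍ => F.eval (Jfun τ) := funext hF
  have hQf : Qexp 1 (chct_f w hw) = evalL (jqModC ℂ) F := by
    rw [hfun, (chct_qexp_eval hQ hJ F).2, hJQ.2, show ModularCurve.jq = jqModC ℚ from rfl,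
      ModularCurve.coeffMap_jqModC]
  have hE : IsCuspMerOrder 1 0 (ModularForm.E hw : ℍ → ℂ) := chct_cuspMer_E w hw
  have hΔ : IsCuspMerOrder 1 0 ModularForm.discriminant := FormalQ.cuspMer_discriminant
  have hQΔ : Qexp 1 ModularForm.discriminant = deltaC ℂ := by
    have h := hQ.2.2.2.1 1 0 _ hΔ
    rw [deltaC, ← HahnSeries.ofPowerSeries_X, ← map_mul, ← FormalQ.qExpansion_discriminant]
    simpa using h
  have hQE : Qexp 1 (ModularForm.E hw : ℍ → ℂ)
      = HahnSeries.ofPowerSeries ℤ ℂ (qExpansion (1 : ℝ) (ModularForm.E hw)) := by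
    have h := hQ.2.2.2.1 1 0 _ hE
    simpa using h
  have hmulfun : chct_f w hw * ModularForm.discriminant ^ w = (ModularForm.E hw : ℍ → ℂ) ^ 12 := by
    funext τ
    have h0 := discriminant_ne_zero τ
    simp only [Pi.mul_apply, Pi.pow_apply, chct_f_apply]
    field_simp
  have hΔw := chct_qexp_pow hQ ⟨0, hΔ⟩ w
  have hE12 := chct_qexp_pow hQ ⟨0, hE⟩ 12
  have hprod := (hQ.2.1 1 (chct_f w hw) (ModularForm.discriminant ^ w) ⟨w, hf⟩ hΔw.1).2.2.2
  rw [hmulfun, hE12.2, hΔw.2, hQf, hQΔ, hQE] at hprod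
  exact hprod.symm

end

end Fermat.Agent.S28
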