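/-
S28, package ChartInt (Part B, statement Q1): elements of the chart algebras have `ℓ`-integral
`q`-expansions.

* `chartIntB_jInt : JIntStatement` — `jq` and `jq⁻¹` have `ℓ`-integral coefficients.
* `chartIntB_main : ChartIntStatement` — elements of `F` integral over `ℤ_(ℓ)[S]`, `S` a set of
  `ℓ`-integral series, are `ℓ`-integral series.

Proof of the second statement: the ring `B` of `ℓ`-integral Laurent series is "completely
integrally closed" in `ℚ((q))` (`chartIntB_cic`), the field `F` lies in the fraction field of `B`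
(`chartIntB_frac_of_mem`), and powers of an integral element have a common denominator
(`chartIntB_pow_mem`).
-/
import Fermat.Agent.S28.Interfaces

set_option autoImplicit false

open ModularCurve ModularCurve.IgusaScheme

namespace Fermat.Agent.S28

noncomputable section

/-! ## (a) The subring `B` of `ℓ`-integral Laurent series -/

/-- The subring `B` of `ℓ`-integral Laurent series. -/
def chartIntB_B (ℓ : ℕ) : Subring (LaurentSeries ℚ) where
  carrier := {x | LInt ℓ x}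
  mul_mem' {x y} hx hy := fun n => by
    rw [HahnSeries.coeff_mul]
    exact Subring.sum_mem _ fun ij _ => Subring.mul_mem _ (hx _) (hy _)
  one_mem' := fun n => by
    rw [HahnSeries.coeff_one]
    split_ifs
    · exact Subring.one_mem _
    · exact Subring.zero_mem _
  add_mem' {x y} hx hy := fun n => by
    rw [HahnSeries.coeff_add]
    exact Subring.add_mem _ (hx n) (hy n)
  zero_mem' := fun n => by
    rw [HahnSeries.coeff_zero]
    exact Subring.zero_mem _
  neg_mem' {x} hx := fun n => by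
    rw [HahnSeries.coeff_neg]
    exact Subring.neg_mem _ (hx n)

theorem chartIntB_mem_B {ℓ : ℕ} {x : LaurentSeries ℚ} : x ∈ chartIntB_B ℓ ↔ LInt ℓ x := Iff.rfl

theorem chartIntB_intCast_mem (ℓ : ℕ) (n : ℤ) : (n : ℚ) ∈ GaloisRep.ratLocalizedAt ℓ := by
  show ((n : ℚ).den).Coprime ℓ
  simp

theorem chartIntB_single (ℓ : ℕ) (k : ℤ) {r : ℚ} (hr : r ∈ GaloisRep.ratLocalizedAt ℓ) :
    LInt ℓ (HahnSeries.single k r) := fun n => by
  rw [HahnSeries.coeff_single]
  split_ifs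
  · exact hr
  · exact Subring.zero_mem _

theorem chartIntB_coeffMap_int (ℓ : ℕ) (w : LaurentSeries ℤ) :
    LInt ℓ (coeffMap (Int.castRingHom ℚ) w) := fun n => by
  rw [coeffMap_coeff]
  exact chartIntB_intCast_mem ℓ _

theorem chartIntB_jq (ℓ : ℕ) : LInt ℓ jq := by
  rw [← jqModC_rat, ← coeffMap_jqModC (Int.castRingHom ℚ)]
  exact chartIntB_coeffMap_int ℓ _

theorem chartIntB_jNum_map_id : jNum.map (Int.castRingHom ℤ) = jNum := by
  ext n
  simp

theorem chartIntB_jq_mul :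
    jqModC ℤ * (HahnSeries.single (1 : ℤ) (1 : ℤ) *
      HahnSeries.ofPowerSeries ℤ ℤ (jNum.invOfUnit 1)) = 1 := by
  have h : jNum * jNum.invOfUnit 1 = 1 :=
    PowerSeries.mul_invOfUnit _ _ (by rw [constantCoeff_jNum]; rfl)
  rw [jqModC, chartIntB_jNum_map_id]
  calc HahnSeries.single (-1 : ℤ) (1 : ℤ) * HahnSeries.ofPowerSeries ℤ ℤ jNum *
        (HahnSeries.single (1 : ℤ) (1 : ℤ) * HahnSeries.ofPowerSeries ℤ ℤ (jNum.invOfUnit 1))
      = (HahnSeries.single (-1 : ℤ) (1 : ℤ) * HahnSeries.single (1 : ℤ) (1 : ℤ)) *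
          (HahnSeries.ofPowerSeries ℤ ℤ jNum *
            HahnSeries.ofPowerSeries ℤ ℤ (jNum.invOfUnit 1)) := by ring
    _ = 1 := by
      rw [← map_mul, h, map_one (HahnSeries.ofPowerSeries ℤ ℤ), mul_one,
        HahnSeries.single_mul_single]
      simp

theorem chartIntB_jq_inv (ℓ : ℕ) : LInt ℓ jq⁻¹ := by
  have h := congrArg (coeffMap (Int.castRingHom ℚ)) chartIntB_jq_mul
  rw [map_mul, map_one (coeffMap (Int.castRingHom ℚ)), coeffMap_jqModC, jqModC_rat] at h
  rw [← eq_inv_of_mul_eq_one_right h]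
  exact chartIntB_coeffMap_int ℓ _

/-- `jq` and `jq⁻¹` have `ℓ`-integral coefficients. -/
theorem chartIntB_jInt : JIntStatement := fun ℓ _ => ⟨chartIntB_jq ℓ, chartIntB_jq_inv ℓ⟩

theorem chartIntB_qExpand (ℓ : ℕ) (d : ℕ) [NeZero d] {x : LaurentSeries ℚ} (hx : LInt ℓ x) :
    LInt ℓ (qExpand ℚ d x) := fun n => by
  by_cases hn : (d : ℤ) ∣ n
  · obtain ⟨k, rfl⟩ := hn
    rw [qExpand_coeff_mul]
    exact hx k
  · rw [qExpand_coeff_of_not_dvd d x hn]
    exact Subring.zero_mem _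

/-! ## (b) `B` is completely integrally closed in `ℚ((q))` -/

theorem chartIntB_padic_nonneg (ℓ : ℕ) [Fact ℓ.Prime] {q : ℚ}
    (hq : q ∈ GaloisRep.ratLocalizedAt ℓ) : 0 ≤ padicValRat ℓ q := by
  have h : q.den.Coprime ℓ := hq
  have h1 : padicValNat ℓ q.den = 0 :=
    padicValNat.eq_zero_of_not_dvd fun hd =>
      (Fact.out : ℓ.Prime).one_lt.ne' (Nat.eq_one_of_dvd_coprimes h hd dvd_rfl)
  rw [padicValRat, h1]
  simp

theorem chartIntB_padic_neg (ℓ : ℕ) [Fact ℓ.Prime] {c : ℚ}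
    (hc : c ∉ GaloisRep.ratLocalizedAt ℓ) : padicValRat ℓ c < 0 := by
  have hp : ℓ.Prime := Fact.out
  have h : ¬ c.den.Coprime ℓ := hc
  have hd : ℓ ∣ c.den := by
    by_contra hnd
    exact h ((Nat.Prime.coprime_iff_not_dvd hp).mpr hnd).symm
  have h1 : 1 ≤ padicValNat ℓ c.den := one_le_padicValNat_of_dvd c.den_ne_zero hd
  have h2 : padicValInt ℓ c.num = 0 := by
    refine padicValInt.eq_zero_of_not_dvd fun hn => ?_
    have hn' : ℓ ∣ c.num.natAbs := Int.natCast_dvd.mp hn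
    exact hp.one_lt.ne' (Nat.eq_one_of_dvd_coprimes c.reduced hn' hd)
  rw [padicValRat, h2]
  have : (1 : ℤ) ≤ (padicValNat ℓ c.den : ℤ) := by exact_mod_cast h1
  simp only [Nat.cast_zero, zero_sub]
  omega

theorem chartIntB_no_unbounded (ℓ : ℕ) [Fact ℓ.Prime] {a c : ℚ} (ha : a ≠ 0)
    (hc : c ∉ GaloisRep.ratLocalizedAt ℓ)
    (h : ∀ m : ℕ, a * c ^ m ∈ GaloisRep.ratLocalizedAt ℓ) : False := by
  have hc0 : c ≠ 0 := fun h0 => hc (h0 ▸ Subring.zero_mem _)
  have hv : padicValRat ℓ c < 0 := chartIntB_padic_neg ℓ hc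
  have key : ∀ m : ℕ, 0 ≤ padicValRat ℓ a + m * padicValRat ℓ c := fun m => by
    have h1 := chartIntB_padic_nonneg ℓ (h m)
    rwa [padicValRat.mul ha (pow_ne_zero m hc0), padicValRat.pow] at h1
  have h1 := key ((padicValRat ℓ a).toNat + 1)
  have h2 : padicValRat ℓ a ≤ ((padicValRat ℓ a).toNat : ℤ) := Int.self_le_toNat _
  push_cast at h1
  nlinarith

theorem chartIntB_leadingCoeff_pow (y : LaurentSeries ℚ) (m : ℕ) :
    (y ^ m).leadingCoeff = y.leadingCoeff ^ m := by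
  induction m with
  | zero => rw [pow_zero, pow_zero, HahnSeries.leadingCoeff_one]
  | succ m ih => rw [pow_succ, HahnSeries.leadingCoeff_mul, ih, pow_succ]

/-- Truncation of a Laurent series below `n₀`. -/
def chartIntB_truncLT (x : LaurentSeries ℚ) (n₀ : ℤ) : LaurentSeries ℚ where
  coeff n := if n < n₀ then x.coeff n else 0
  isPWO_support' := x.isPWO_support.mono fun n hn => by
    simp only [Function.mem_support, ne_eq] at hn ⊢
    intro h
    exact hn (by rw [h, ite_self])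

theorem chartIntB_truncLT_coeff (x : LaurentSeries ℚ) (n₀ n : ℤ) :
    (chartIntB_truncLT x n₀).coeff n = if n < n₀ then x.coeff n else 0 := rfl

/-- `B` is completely integrally closed in `ℚ((q))`: if `d ≠ 0` and all `d * x ^ m` are
`ℓ`-integral then `x` is `ℓ`-integral. -/
theorem chartIntB_cic (ℓ : ℕ) [Fact ℓ.Prime] (x d : LaurentSeries ℚ) (hd0 : d ≠ 0)
    (h : ∀ m : ℕ, LInt ℓ (d * x ^ m)) : LInt ℓ x := by
  by_contra hx
  have hex : ∃ n, x.coeff n ∉ GaloisRep.ratLocalizedAt ℓ := by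
    by_contra hne
    exact hx fun n => by
      by_contra hn
      exact hne ⟨n, hn⟩
  obtain ⟨n₀, hn₀, hmin⟩ := Int.exists_least_of_bdd
    (P := fun n => x.coeff n ∉ GaloisRep.ratLocalizedAt ℓ)
    ⟨x.order, fun z hz => by
      by_contra hlt
      exact hz (by
        rw [HahnSeries.coeff_eq_zero_of_lt_order (not_le.mp hlt)]
        exact Subring.zero_mem _)⟩ hex
  have hx' : LInt ℓ (chartIntB_truncLT x n₀) := fun n => by
    rw [chartIntB_truncLT_coeff]
    split_ifs with hn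
    · by_contra hc
      exact absurd (hmin n hc) (not_le.mpr hn)
    · exact Subring.zero_mem _
  set y : LaurentSeries ℚ := x - chartIntB_truncLT x n₀ with hydef
  have hy_coeff : ∀ n, y.coeff n = if n < n₀ then 0 else x.coeff n := fun n => by
    rw [hydef, HahnSeries.coeff_sub, chartIntB_truncLT_coeff]
    split_ifs <;> simp
  have hc0 : x.coeff n₀ ≠ 0 := fun h0 => hn₀ (h0 ▸ Subring.zero_mem _)
  have hy_n₀ : y.coeff n₀ = x.coeff n₀ := by
    rw [hy_coeff, if_neg (lt_irrefl _)]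
  have hy0 : y ≠ 0 := fun h0 => hc0 (by rw [← hy_n₀, h0, HahnSeries.coeff_zero])
  have hyord : y.order = n₀ := by
    refine le_antisymm (HahnSeries.order_le_of_coeff_ne_zero (by rw [hy_n₀]; exact hc0)) ?_
    by_contra hlt
    have h1 : y.coeff y.order = 0 := by rw [hy_coeff, if_pos (not_le.mp hlt)]
    exact hy0 (HahnSeries.coeff_order_eq_zero.mp h1)
  have hy : ∀ m : ℕ, LInt ℓ (d * y ^ m) := fun m => by
    show d * y ^ m ∈ chartIntB_B ℓ
    rw [hydef, sub_eq_add_neg, add_pow, Finset.mul_sum]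
    refine Subring.sum_mem _ fun i _ => ?_
    have h1 : d * (x ^ i * (-chartIntB_truncLT x n₀) ^ (m - i) * (m.choose i : LaurentSeries ℚ))
        = (d * x ^ i) * (-chartIntB_truncLT x n₀) ^ (m - i) * (m.choose i : LaurentSeries ℚ) := by
      ring
    rw [h1]
    exact Subring.mul_mem _ (Subring.mul_mem _ (h i)
      (Subring.pow_mem _ (Subring.neg_mem _ hx') _)) (natCast_mem _ _)
  refine chartIntB_no_unbounded ℓ (a := d.leadingCoeff) (c := x.coeff n₀)
    (HahnSeries.leadingCoeff_ne_zero.mpr hd0) hn₀ fun m => ?_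
  have h1 := hy m ((d * y ^ m).order)
  rwa [← HahnSeries.leadingCoeff_eq, HahnSeries.leadingCoeff_mul, chartIntB_leadingCoeff_pow,
    HahnSeries.leadingCoeff_eq (x := y), hyord, hy_n₀] at h1

/-! ## (c) `F` lies in the fraction field of `B` -/

/-- `x` is a quotient of two `ℓ`-integral series. -/
def chartIntB_Frac (ℓ : ℕ) (x : LaurentSeries ℚ) : Prop :=
  ∃ d : LaurentSeries ℚ, d ≠ 0 ∧ LInt ℓ d ∧ LInt ℓ (d * x)

theorem chartIntB_frac_of_LInt (ℓ : ℕ) {x : LaurentSeries ℚ} (hx : LInt ℓ x) :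
    chartIntB_Frac ℓ x :=
  ⟨1, one_ne_zero, Subring.one_mem (chartIntB_B ℓ), by rwa [one_mul]⟩

theorem chartIntB_frac_add (ℓ : ℕ) {x y : LaurentSeries ℚ} (hx : chartIntB_Frac ℓ x)
    (hy : chartIntB_Frac ℓ y) : chartIntB_Frac ℓ (x + y) := by
  obtain ⟨d, hd0, hd, hdx⟩ := hx
  obtain ⟨e, he0, he, hey⟩ := hy
  refine ⟨d * e, mul_ne_zero hd0 he0, Subring.mul_mem (chartIntB_B ℓ) hd he, ?_⟩
  have h1 : d * e * (x + y) = e * (d * x) + d * (e * y) := by ring
  rw [h1]
  exact Subring.add_mem (chartIntB_B ℓ) (Subring.mul_mem (chartIntB_B ℓ) he hdx)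
    (Subring.mul_mem (chartIntB_B ℓ) hd hey)

theorem chartIntB_frac_mul (ℓ : ℕ) {x y : LaurentSeries ℚ} (hx : chartIntB_Frac ℓ x)
    (hy : chartIntB_Frac ℓ y) : chartIntB_Frac ℓ (x * y) := by
  obtain ⟨d, hd0, hd, hdx⟩ := hx
  obtain ⟨e, he0, he, hey⟩ := hy
  refine ⟨d * e, mul_ne_zero hd0 he0, Subring.mul_mem (chartIntB_B ℓ) hd he, ?_⟩
  have h1 : d * e * (x * y) = (d * x) * (e * y) := by ring
  rw [h1]
  exact Subring.mul_mem (chartIntB_B ℓ) hdx hey

theorem chartIntB_frac_inv (ℓ : ℕ) {x : LaurentSeries ℚ} (hx : chartIntB_Frac ℓ x) :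
    chartIntB_Frac ℓ x⁻¹ := by
  rcases eq_or_ne x 0 with rfl | hx0
  · rw [inv_zero]
    exact chartIntB_frac_of_LInt ℓ (Subring.zero_mem (chartIntB_B ℓ))
  · obtain ⟨d, hd0, hd, hdx⟩ := hx
    refine ⟨d * x, mul_ne_zero hd0 hx0, hdx, ?_⟩
    rwa [mul_assoc, mul_inv_cancel₀ hx0, mul_one]

theorem chartIntB_frac_algebraMap (ℓ : ℕ) (r : ℚ) :
    chartIntB_Frac ℓ (algebraMap ℚ (LaurentSeries ℚ) r) := by
  rw [algebraMap_apply_eq_single]
  refine ⟨HahnSeries.single 0 (r.den : ℚ), ?_, ?_, ?_⟩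
  · exact HahnSeries.single_ne_zero (by exact_mod_cast r.den_ne_zero)
  · exact chartIntB_single ℓ 0 (by exact_mod_cast chartIntB_intCast_mem ℓ (r.den : ℤ))
  · rw [HahnSeries.single_mul_single, add_zero, Rat.den_mul_eq_num]
    exact chartIntB_single ℓ 0 (chartIntB_intCast_mem ℓ r.num)

theorem chartIntB_frac_of_mem (N : ℕ) (ℓ : ℕ) {x : LaurentSeries ℚ}
    (hx : x ∈ modularFunctionFieldFull N) : chartIntB_Frac ℓ x := by
  rw [modularFunctionFieldFull] at hx
  induction hx using IntermediateField.adjoin_induction with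
  | mem y hy =>
    obtain ⟨d, hd, -, rfl⟩ := hy
    have := hd
    exact chartIntB_frac_of_LInt ℓ (chartIntB_qExpand ℓ d (chartIntB_jq ℓ))
  | algebraMap r => exact chartIntB_frac_algebraMap ℓ r
  | add y z _ _ hy hz => exact chartIntB_frac_add ℓ hy hz
  | inv y _ hy => exact chartIntB_frac_inv ℓ hy
  | mul y z _ _ hy hz => exact chartIntB_frac_mul ℓ hy hz

/-! ## (d) Integral elements -/

/-- If `x` is a root of the monic polynomial `P` over `B`, and `d₀, d₀ * x ∈ B`, then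
`d₀ ^ deg P * x ^ m ∈ B` for all `m`. -/
theorem chartIntB_pow_mem (ℓ : ℕ) (P : Polynomial ↥(chartIntB_B ℓ)) (hP : P.Monic)
    (x : LaurentSeries ℚ) (hx : Polynomial.eval₂ (chartIntB_B ℓ).subtype x P = 0)
    (d₀ : LaurentSeries ℚ) (hd₀ : LInt ℓ d₀) (hd₀x : LInt ℓ (d₀ * x)) (m : ℕ) :
    LInt ℓ (d₀ ^ P.natDegree * x ^ m) := by
  classical
  show d₀ ^ P.natDegree * x ^ m ∈ chartIntB_B ℓ
  have h1 : x ^ m = Polynomial.eval₂ (chartIntB_B ℓ).subtype x
      ((Polynomial.X ^ m : Polynomial ↥(chartIntB_B ℓ)) %ₘ P) := by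
    have h2 := Polynomial.modByMonic_add_div (Polynomial.X ^ m : Polynomial ↥(chartIntB_B ℓ)) P
    have h3 := congrArg (Polynomial.eval₂ (chartIntB_B ℓ).subtype x) h2
    rw [Polynomial.eval₂_add, Polynomial.eval₂_mul, hx, zero_mul, add_zero,
      Polynomial.eval₂_X_pow] at h3
    exact h3.symm
  have hdeg : ((Polynomial.X ^ m : Polynomial ↥(chartIntB_B ℓ)) %ₘ P).natDegree ≤ P.natDegree :=
    Polynomial.natDegree_le_natDegree (le_of_lt (Polynomial.degree_modByMonic_lt _ hP))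
  rw [h1, Polynomial.eval₂_eq_sum_range, Finset.mul_sum]
  refine Subring.sum_mem _ fun i hi => ?_
  have hi' : i ≤ P.natDegree := (Nat.lt_succ_iff.mp (Finset.mem_range.mp hi)).trans hdeg
  obtain ⟨k, hk⟩ := Nat.exists_eq_add_of_le hi'
  rw [hk, pow_add]
  have h4 : ∀ c : LaurentSeries ℚ,
      d₀ ^ i * d₀ ^ k * (c * x ^ i) = c * d₀ ^ k * (d₀ * x) ^ i := fun c => by
    rw [mul_pow]; ring
  rw [h4]
  exact Subring.mul_mem _ (Subring.mul_mem _ (Subtype.property _) (Subring.pow_mem _ hd₀ k))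
    (Subring.pow_mem _ hd₀x i)

/-- The structure map of `F` as a `ℤ_(ℓ)`-algebra sends `r` to the constant series `r`. -/
theorem chartIntB_coe_algebraMap (N : ℕ) [NeZero N] (ℓ : ℕ) [Fact ℓ.Prime]
    (r : ↥(GaloisRep.ratLocalizedAt ℓ)) :
    ((algebraMap ↥(GaloisRep.ratLocalizedAt ℓ) ↥(modularFunctionFieldFull N) r :
      ↥(modularFunctionFieldFull N)) : LaurentSeries ℚ) = HahnSeries.single 0 (r : ℚ) := by
  have h1 : algebraMap ↥(GaloisRep.ratLocalizedAt ℓ) ↥(modularFunctionFieldFull N) r =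
      algebraMap ℚ ↥(modularFunctionFieldFull N) (r : ℚ) := rfl
  have h2 : (modularFunctionFieldFull N).toSubfield.subtype.comp
      (algebraMap ℚ ↥(modularFunctionFieldFull N)) = (HahnSeries.C : ℚ →+* LaurentSeries ℚ) :=
    Subsingleton.elim _ _
  rw [h1]
  exact DFunLike.congr_fun h2 (r : ℚ)

/-- Elements of `ℤ_(ℓ)[S]` are `ℓ`-integral if the elements of `S` are. -/
theorem chartIntB_adjoin (N : ℕ) [NeZero N] (ℓ : ℕ) [Fact ℓ.Prime]
    (S : Set ↥(modularFunctionFieldFull N))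
    (hS : ∀ s ∈ S, LInt ℓ ((s : ↥(modularFunctionFieldFull N)) : LaurentSeries ℚ))
    (y : ↥(modularFunctionFieldFull N))
    (hy : y ∈ Algebra.adjoin ↥(GaloisRep.ratLocalizedAt ℓ) S) :
    LInt ℓ ((y : ↥(modularFunctionFieldFull N)) : LaurentSeries ℚ) := by
  induction hy using Algebra.adjoin_induction with
  | mem y hy => exact hS y hy
  | algebraMap r =>
    rw [chartIntB_coe_algebraMap]
    exact chartIntB_single ℓ 0 r.2
  | add y z _ _ hy hz => exact Subring.add_mem (chartIntB_B ℓ) hy hz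
  | mul y z _ _ hy hz => exact Subring.mul_mem (chartIntB_B ℓ) hy hz

/-- (Q1) Elements of `F` integral over `ℤ_(ℓ)[S]`, `S` a set of `ℓ`-integral series, are
`ℓ`-integral series. -/
theorem chartIntB_main : ChartIntStatement := by
  intro N _ ℓ _ S hS x hx
  obtain ⟨p, hp, hpx⟩ := (mem_chartAlg_iff N ℓ).mp hx
  let ψ : ↥(Algebra.adjoin ↥(GaloisRep.ratLocalizedAt ℓ) S) →+* LaurentSeries ℚ :=
    (algebraMap ↥(modularFunctionFieldFull N) (LaurentSeries ℚ)).comp
      (algebraMap ↥(Algebra.adjoin ↥(GaloisRep.ratLocalizedAt ℓ) S) ↥(modularFunctionFieldFull N))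
  have hψ : ∀ a, ψ a ∈ chartIntB_B ℓ := fun a => chartIntB_adjoin N ℓ S hS a.1 a.2
  have hroot : Polynomial.eval₂ (chartIntB_B ℓ).subtype (x : LaurentSeries ℚ)
      (p.map (ψ.codRestrict (chartIntB_B ℓ) hψ)) = 0 := by
    rw [Polynomial.eval₂_map]
    have h1 : (chartIntB_B ℓ).subtype.comp (ψ.codRestrict (chartIntB_B ℓ) hψ) = ψ := rfl
    have h2 : (x : LaurentSeries ℚ) =
        algebraMap ↥(modularFunctionFieldFull N) (LaurentSeries ℚ) x := rfl
    rw [h1, h2, ← Polynomial.hom_eval₂, hpx, map_zero]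
  obtain ⟨d₀, hd₀0, hd₀, hd₀x⟩ := chartIntB_frac_of_mem N ℓ x.2
  exact chartIntB_cic ℓ (x : LaurentSeries ℚ) _ (pow_ne_zero _ hd₀0) fun m =>
    chartIntB_pow_mem ℓ _ (hp.map _) x hroot d₀ hd₀ hd₀x m

end

end Fermat.Agent.S28
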