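/-
S28 / ChartRed (twin B): the reduction homomorphism on the chart algebras, with kernel `(ℓ)`.

`chartRedB_main : JIntStatement → ChartIntStatement → ChartKernelStatement → ChartRedStatement`.

Construction: `π : ℤ_(ℓ) →+* ZMod ℓ` is the restriction of the (non-multiplicative) rational cast,
which is a ring homomorphism on the rationals with denominator prime to `ℓ`; every element of a chart
algebra has `ℓ`-integral `q`-expansion, so its expansion lifts to `LaurentSeries ℤ_(ℓ)`, and `ρ` is the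
coefficientwise reduction of that lift.
-/
import Fermat.Agent.S28.Interfaces

set_option autoImplicit false

open ModularCurve ModularCurve.IgusaScheme

namespace Fermat.Agent.S28

noncomputable section

/-! ### The reduction `ℤ_(ℓ) → ZMod ℓ` -/

theorem chartRedB_den_ne_zero (ℓ : ℕ) [Fact ℓ.Prime] (x : ↥(GaloisRep.ratLocalizedAt ℓ)) :
    (((x : ℚ).den : ℕ) : ZMod ℓ) ≠ 0 := by
  intro h
  rw [ZMod.natCast_eq_zero_iff] at h
  have hx : (x : ℚ).den.Coprime ℓ := x.2
  have h1 : ℓ ∣ Nat.gcd (x : ℚ).den ℓ := Nat.dvd_gcd h dvd_rfl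
  rw [hx] at h1
  exact (Fact.out : ℓ.Prime).one_lt.ne' (Nat.dvd_one.mp h1)

/-- The reduction homomorphism `ℤ_(ℓ) →+* ZMod ℓ`. -/
def chartRedB_pi (ℓ : ℕ) [Fact ℓ.Prime] : ↥(GaloisRep.ratLocalizedAt ℓ) →+* ZMod ℓ where
  toFun x := (((x : ℚ) : ℚ) : ZMod ℓ)
  map_one' := by simp
  map_zero' := by simp
  map_mul' x y := by
    rw [Subring.coe_mul]
    exact Rat.cast_mul_of_ne_zero (chartRedB_den_ne_zero ℓ x) (chartRedB_den_ne_zero ℓ y)
  map_add' x y := by
    rw [Subring.coe_add]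
    exact Rat.cast_add_of_ne_zero (chartRedB_den_ne_zero ℓ x) (chartRedB_den_ne_zero ℓ y)

theorem chartRedB_pi_apply (ℓ : ℕ) [Fact ℓ.Prime] (x : ↥(GaloisRep.ratLocalizedAt ℓ)) :
    chartRedB_pi ℓ x = (((x : ℚ) : ℚ) : ZMod ℓ) := rfl

/-- `π x = 0` iff `x / ℓ` is still `ℓ`-integral. -/
theorem chartRedB_pi_eq_zero_iff (ℓ : ℕ) [Fact ℓ.Prime] (x : ↥(GaloisRep.ratLocalizedAt ℓ)) :
    chartRedB_pi ℓ x = 0 ↔ (ℓ : ℚ)⁻¹ * (x : ℚ) ∈ GaloisRep.ratLocalizedAt ℓ := by
  have hℓ : (ℓ : ℚ) ≠ 0 := Nat.cast_ne_zero.mpr (Fact.out : ℓ.Prime).ne_zero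
  constructor
  · intro h
    rw [chartRedB_pi_apply, Rat.cast_def, div_eq_zero_iff] at h
    rcases h with h | h
    · rw [ZMod.intCast_zmod_eq_zero_iff_dvd] at h
      obtain ⟨k, hk⟩ := h
      have hd : (((x : ℚ).den : ℕ) : ℚ) ≠ 0 := Nat.cast_ne_zero.mpr (x : ℚ).den_pos.ne'
      have h2 : (ℓ : ℚ)⁻¹ * (x : ℚ) = (k : ℚ) / ((x : ℚ).den : ℚ) := by
        rw [eq_div_iff hd, mul_assoc, Rat.mul_den_eq_num, hk]
        push_cast
        rw [← mul_assoc, inv_mul_cancel₀ hℓ, one_mul]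
      rw [h2]
      show ((k : ℚ) / ((x : ℚ).den : ℚ)).den.Coprime ℓ
      have h3 : ((k : ℚ) / ((x : ℚ).den : ℚ)).den ∣ (x : ℚ).den := by
        have := Rat.den_dvd k ((x : ℚ).den : ℤ)
        rw [Rat.divInt_eq_div] at this
        exact_mod_cast this
      exact Nat.Coprime.coprime_dvd_left h3 x.2
    · exact absurd h (chartRedB_den_ne_zero ℓ x)
  · intro h
    have hx : x = (ℓ : ↥(GaloisRep.ratLocalizedAt ℓ)) * ⟨(ℓ : ℚ)⁻¹ * (x : ℚ), h⟩ := by
      apply Subtype.ext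
      rw [Subring.coe_mul]
      simp only [Subring.coe_natCast]
      rw [← mul_assoc, mul_inv_cancel₀ hℓ, one_mul]
    rw [hx, map_mul, map_natCast, ZMod.natCast_self, zero_mul]

/-! ### Lifting `ℓ`-integral series to `LaurentSeries ℤ_(ℓ)` -/

/-- The lift of an `ℓ`-integral rational Laurent series to a Laurent series over `ℤ_(ℓ)`. -/
def chartRedB_lift (ℓ : ℕ) (x : LaurentSeries ℚ) (hx : LInt ℓ x) :
    LaurentSeries ↥(GaloisRep.ratLocalizedAt ℓ) where
  coeff n := ⟨x.coeff n, hx n⟩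
  isPWO_support' := x.isPWO_support.mono fun n hn => by
    simp only [Function.mem_support, ne_eq] at hn ⊢
    exact fun h => hn (Subtype.ext h)

theorem chartRedB_lift_coeff (ℓ : ℕ) (x : LaurentSeries ℚ) (hx : LInt ℓ x) (n : ℤ) :
    (((chartRedB_lift ℓ x hx).coeff n : ↥(GaloisRep.ratLocalizedAt ℓ)) : ℚ) = x.coeff n := rfl

theorem chartRedB_iota_lift (ℓ : ℕ) (x : LaurentSeries ℚ) (hx : LInt ℓ x) :
    coeffMap (Subring.subtype (GaloisRep.ratLocalizedAt ℓ)) (chartRedB_lift ℓ x hx) = x := by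
  ext n
  rfl

theorem chartRedB_iota_injective (ℓ : ℕ) :
    Function.Injective (coeffMap (Subring.subtype (GaloisRep.ratLocalizedAt ℓ))) := by
  intro a b h
  ext n
  have := congrArg (fun z : LaurentSeries ℚ => z.coeff n) h
  simpa using this

/-- A ring homomorphism to `LaurentSeries ℚ` with `ℓ`-integral values lifts to
`LaurentSeries ℤ_(ℓ)`. -/
def chartRedB_lam (ℓ : ℕ) {A : Type*} [CommRing A] (c : A →+* LaurentSeries ℚ)
    (hc : ∀ a, LInt ℓ (c a)) : A →+* LaurentSeries ↥(GaloisRep.ratLocalizedAt ℓ) where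
  toFun a := chartRedB_lift ℓ (c a) (hc a)
  map_one' := chartRedB_iota_injective ℓ (by rw [chartRedB_iota_lift, map_one, map_one])
  map_zero' := chartRedB_iota_injective ℓ (by rw [chartRedB_iota_lift, map_zero, map_zero])
  map_mul' a b := chartRedB_iota_injective ℓ (by
    rw [chartRedB_iota_lift, map_mul (coeffMap (Subring.subtype (GaloisRep.ratLocalizedAt ℓ))),
      chartRedB_iota_lift, chartRedB_iota_lift, map_mul])
  map_add' a b := chartRedB_iota_injective ℓ (by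
    rw [chartRedB_iota_lift, map_add (coeffMap (Subring.subtype (GaloisRep.ratLocalizedAt ℓ))),
      chartRedB_iota_lift, chartRedB_iota_lift, map_add])

theorem chartRedB_lam_coeff (ℓ : ℕ) {A : Type*} [CommRing A] (c : A →+* LaurentSeries ℚ)
    (hc : ∀ a, LInt ℓ (c a)) (a : A) (n : ℤ) :
    ((((chartRedB_lam ℓ c hc a).coeff n : ↥(GaloisRep.ratLocalizedAt ℓ))) : ℚ) = (c a).coeff n :=
  rfl

/-- The reduction mod `ℓ` of a ring homomorphism to `LaurentSeries ℚ` with `ℓ`-integral values. -/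
def chartRedB_rho (ℓ : ℕ) [Fact ℓ.Prime] {A : Type*} [CommRing A] (c : A →+* LaurentSeries ℚ)
    (hc : ∀ a, LInt ℓ (c a)) : A →+* LaurentSeries (ZMod ℓ) :=
  (coeffMap (chartRedB_pi ℓ)).comp (chartRedB_lam ℓ c hc)

/-- The reduction of `a` vanishes iff `c a / ℓ` is still `ℓ`-integral. -/
theorem chartRedB_rho_eq_zero_iff (ℓ : ℕ) [Fact ℓ.Prime] {A : Type*} [CommRing A]
    (c : A →+* LaurentSeries ℚ) (hc : ∀ a, LInt ℓ (c a)) (a : A) :
    chartRedB_rho ℓ c hc a = 0 ↔ LInt ℓ ((ℓ : ℚ)⁻¹ • c a) := by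
  constructor
  · intro h n
    have h1 : (chartRedB_rho ℓ c hc a).coeff n = 0 := by rw [h]; rfl
    rw [chartRedB_rho, RingHom.comp_apply, coeffMap_coeff, chartRedB_pi_eq_zero_iff,
      chartRedB_lam_coeff] at h1
    rw [HahnSeries.coeff_smul, smul_eq_mul]
    exact h1
  · intro h
    ext n
    rw [chartRedB_rho, RingHom.comp_apply, coeffMap_coeff, HahnSeries.coeff_zero,
      chartRedB_pi_eq_zero_iff, chartRedB_lam_coeff]
    have := h n
    rw [HahnSeries.coeff_smul, smul_eq_mul] at this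
    exact this

/-! ### The chart algebras -/

/-- The coercion ring homomorphism from a chart algebra to `LaurentSeries ℚ`. -/
def chartRedB_coe (N : ℕ) [NeZero N] (ℓ : ℕ) [Fact ℓ.Prime]
    (S : Set ↥(modularFunctionFieldFull N)) : ↥(chartAlg N ℓ S) →+* LaurentSeries ℚ :=
  ((modularFunctionFieldFull N).val : ↥(modularFunctionFieldFull N) →+* LaurentSeries ℚ).comp
    ((chartAlg N ℓ S).val : ↥(chartAlg N ℓ S) →+* ↥(modularFunctionFieldFull N))

theorem chartRedB_coe_apply (N : ℕ) [NeZero N] (ℓ : ℕ) [Fact ℓ.Prime]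
    (S : Set ↥(modularFunctionFieldFull N)) (x : ↥(chartAlg N ℓ S)) :
    chartRedB_coe N ℓ S x = ((x : ↥(modularFunctionFieldFull N)) : LaurentSeries ℚ) := rfl

/-- (B-out) For `ℓ ∤ N` each of the three chart algebras has a ring homomorphism to `𝔽_ℓ((q))`
whose kernel is generated by `ℓ`. -/
theorem chartRedB_main :
    JIntStatement → ChartIntStatement → ChartKernelStatement → ChartRedStatement := by
  intro hJ hQ1 hQ2 N _ ℓ _ hℓN S hS
  have hSint : ∀ s ∈ S, LInt ℓ ((s : ↥(modularFunctionFieldFull N)) : LaurentSeries ℚ) := by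
    obtain ⟨hj, hjinv⟩ := hJ ℓ
    have h1 : LInt ℓ ((jFull N : ↥(modularFunctionFieldFull N)) : LaurentSeries ℚ) := hj
    have h2 : LInt ℓ (((jFull N)⁻¹ : ↥(modularFunctionFieldFull N)) : LaurentSeries ℚ) := by
      rw [IntermediateField.coe_inv]
      exact hjinv
    rcases hS with rfl | rfl | rfl
    · intro s hs
      rw [Set.mem_singleton_iff] at hs
      rw [hs]
      exact h1
    · intro s hs
      rw [Set.mem_singleton_iff] at hs
      rw [hs]
      exact h2
    · intro s hs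
      rcases hs with hs | hs
      · rw [hs]
        exact h1
      · rw [Set.mem_singleton_iff] at hs
        rw [hs]
        exact h2
  have hc : ∀ a, LInt ℓ (chartRedB_coe N ℓ S a) := fun a => hQ1 N ℓ S hSint a a.2
  refine ⟨chartRedB_rho ℓ (chartRedB_coe N ℓ S) hc, ?_⟩
  apply le_antisymm
  · intro a ha
    rw [RingHom.mem_ker, chartRedB_rho_eq_zero_iff] at ha
    have hy := hQ2 N ℓ hℓN S hS a a.2 ha
    rw [Ideal.mem_span_singleton']
    refine ⟨⟨_, hy⟩, Subtype.ext ?_⟩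
    have hℓ : (ℓ : ℚ) ≠ 0 := Nat.cast_ne_zero.mpr (Fact.out : ℓ.Prime).ne_zero
    have hcast : ((ℓ : ↥(chartAlg N ℓ S)) : ↥(modularFunctionFieldFull N)) =
        algebraMap ℚ ↥(modularFunctionFieldFull N) (ℓ : ℚ) := by
      rw [map_natCast]
      exact map_natCast (chartAlg N ℓ S).val ℓ
    rw [Subalgebra.coe_mul, hcast]
    show (ℓ : ℚ)⁻¹ • (a : ↥(modularFunctionFieldFull N)) *
      algebraMap ℚ ↥(modularFunctionFieldFull N) (ℓ : ℚ) = (a : ↥(modularFunctionFieldFull N))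
    rw [Algebra.smul_def, mul_comm, ← mul_assoc, ← map_mul, mul_inv_cancel₀ hℓ, map_one, one_mul]
  · rw [Ideal.span_singleton_le_iff_mem, RingHom.mem_ker, map_natCast,
      ← map_natCast (HahnSeries.C : ZMod ℓ →+* LaurentSeries (ZMod ℓ)), ZMod.natCast_self, map_zero]

end

end Fermat.Agent.S28
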