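/-
S28 package DegMain (twin B): from the degree in characteristic `0` and the degree mod `ℓ` to the
lifted independence statement `DegStatement`.
-/
import Fermat.Agent.S28.Interfaces

set_option autoImplicit false

open ModularCurve

namespace Fermat.Agent.S28

noncomputable section

/-! ### (1) Transcendence of the formal `j`-series -/

/-- The coefficient of `p(j)` at `-(natDegree p)` is the leading coefficient of `p`. -/
theorem degMainB_coeff_evalL (R : Type*) [CommRing R] (p : Polynomial R) :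
    (evalL (jqModC R) p).coeff (-(p.natDegree : ℤ)) = p.leadingCoeff := by
  unfold evalL
  rw [Polynomial.coe_eval₂RingHom, Polynomial.eval₂_eq_sum_range, HahnSeries.coeff_sum,
    Finset.sum_range_succ, Finset.sum_eq_zero, zero_add]
  · rw [HahnSeries.C_mul_eq_smul, HahnSeries.coeff_smul, coeff_jqModC_pow_self, smul_eq_mul,
      mul_one]
    rfl
  · intro i hi
    have hi' := Finset.mem_range.mp hi
    rw [HahnSeries.C_mul_eq_smul, HahnSeries.coeff_smul,
      coeff_jqModC_pow_of_lt R (by omega), smul_zero]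

/-- The formal `j`-series is transcendental over every commutative ring. -/
theorem degMainB_evalL_eq_zero (R : Type*) [CommRing R] (p : Polynomial R)
    (h : evalL (jqModC R) p = 0) : p = 0 := by
  have h1 := degMainB_coeff_evalL R p
  rw [h, HahnSeries.coeff_zero] at h1
  exact Polynomial.leadingCoeff_eq_zero.mp h1.symm

/-! ### Change of coefficients -/

theorem degMainB_coeffMap_C {R S : Type*} [CommRing R] [CommRing S] (φ : R →+* S) (r : R) :
    coeffMap φ (HahnSeries.C r) = HahnSeries.C (φ r) := by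
  rw [HahnSeries.C_apply, coeffMap_single, HahnSeries.C_apply]

theorem degMainB_coeffMap_evalL {R S : Type*} [CommRing R] [CommRing S] (φ : R →+* S)
    (x : LaurentSeries R) (p : Polynomial R) :
    coeffMap φ (evalL x p) = evalL (coeffMap φ x) (p.map φ) := by
  unfold evalL
  rw [Polynomial.coe_eval₂RingHom, Polynomial.coe_eval₂RingHom, Polynomial.hom_eval₂,
    Polynomial.eval₂_map]
  congr 1
  ext r : 1
  exact degMainB_coeffMap_C φ r

theorem degMainB_coeffMap_injective {R S : Type*} [CommRing R] [CommRing S] (φ : R →+* S)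
    (hφ : Function.Injective φ) : Function.Injective (coeffMap φ) := by
  intro x y h
  ext n
  apply hφ
  have h1 := congrArg (fun z => HahnSeries.coeff z n) h
  simpa using h1

/-- Evaluation of an integer polynomial at the formal `j`-series over `S`. -/
def degMainB_ev (S : Type*) [CommRing S] : Polynomial ℤ →+* LaurentSeries S :=
  (evalL (jqModC S)).comp (Polynomial.mapRingHom (Int.castRingHom S))

theorem degMainB_ev_apply (S : Type*) [CommRing S] (f : Polynomial ℤ) :
    degMainB_ev S f = evalL (jqModC S) (f.map (Int.castRingHom S)) := rfl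

theorem degMainB_coeffMap_ev (S : Type*) [CommRing S] (f : Polynomial ℤ) :
    coeffMap (Int.castRingHom S) (evalL (jqModC ℤ) f) = degMainB_ev S f := by
  rw [degMainB_coeffMap_evalL, coeffMap_jqModC, degMainB_ev_apply]

theorem degMainB_coeffMap_comp_evalL (S : Type*) [CommRing S] :
    (coeffMap (Int.castRingHom S)).comp (evalL (jqModC ℤ)) = degMainB_ev S :=
  RingHom.ext fun f => degMainB_coeffMap_ev S f

theorem degMainB_ev_eq_zero (S : Type*) [CommRing S] (f : Polynomial ℤ)
    (h : degMainB_ev S f = 0) : f.map (Int.castRingHom S) = 0 :=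
  degMainB_evalL_eq_zero S _ h

theorem degMainB_evQ_injective : Function.Injective (degMainB_ev ℚ) := by
  rw [injective_iff_map_eq_zero]
  intro f hf
  have h1 := degMainB_ev_eq_zero ℚ f hf
  exact (Polynomial.map_eq_zero_iff Int.cast_injective).mp h1

/-! ### (2) Algebraicity of `j(q^d)` over `k(j)`, from the degree in characteristic `0` -/

theorem degMainB_evQ_ne_zero {f : Polynomial ℤ} (hf : f ≠ 0) : degMainB_ev ℚ f ≠ 0 :=
  fun h => hf (degMainB_evQ_injective (by rw [h, map_zero]))

/-- Every element of `ℚ(j)` is a quotient of two values of integer polynomials at `j`. -/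
theorem degMainB_frac (c : LaurentSeries ℚ) (hc : c ∈ IntermediateField.adjoin ℚ {jqModC ℚ}) :
    ∃ f g : Polynomial ℤ, f ≠ 0 ∧ c * degMainB_ev ℚ f = degMainB_ev ℚ g := by
  induction hc using IntermediateField.adjoin_induction with
  | mem x hx =>
    rw [Set.mem_singleton_iff] at hx
    subst hx
    refine ⟨1, Polynomial.X, one_ne_zero, ?_⟩
    rw [map_one, mul_one, degMainB_ev_apply, Polynomial.map_X]
    unfold evalL
    rw [Polynomial.coe_eval₂RingHom, Polynomial.eval₂_X]
  | algebraMap x =>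
    refine ⟨Polynomial.C (x.den : ℤ), Polynomial.C x.num, ?_, ?_⟩
    · rw [Ne, Polynomial.C_eq_zero]
      exact_mod_cast x.den_ne_zero
    · rw [degMainB_ev_apply, degMainB_ev_apply, Polynomial.map_C, Polynomial.map_C]
      unfold evalL
      rw [Polynomial.coe_eval₂RingHom, Polynomial.eval₂_C, Polynomial.eval₂_C,
        algebraMap_laurentSeries_eq_single, ← HahnSeries.C_apply, ← map_mul]
      congr 1
      simp [Rat.mul_den_eq_num]
  | add x y hx hy ihx ihy =>
    obtain ⟨f1, g1, hf1, h1⟩ := ihx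
    obtain ⟨f2, g2, hf2, h2⟩ := ihy
    refine ⟨f1 * f2, g1 * f2 + g2 * f1, mul_ne_zero hf1 hf2, ?_⟩
    rw [map_mul, map_add, map_mul, map_mul, ← h1, ← h2]
    ring
  | inv x hx ihx =>
    obtain ⟨f, g, hf, h⟩ := ihx
    by_cases hg : g = 0
    · refine ⟨1, 0, one_ne_zero, ?_⟩
      rw [hg, map_zero] at h
      rcases mul_eq_zero.mp h with h0 | h0
      · rw [h0, inv_zero, map_zero, zero_mul]
      · exact absurd h0 (degMainB_evQ_ne_zero hf)
    · refine ⟨g, f, hg, ?_⟩
      have hx0 : x ≠ 0 := by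
        rintro rfl
        rw [zero_mul] at h
        exact degMainB_evQ_ne_zero hg h.symm
      rw [← h, ← mul_assoc, inv_mul_cancel₀ hx0, one_mul]
  | mul x y hx hy ihx ihy =>
    obtain ⟨f1, g1, hf1, h1⟩ := ihx
    obtain ⟨f2, g2, hf2, h2⟩ := ihy
    refine ⟨f1 * f2, g1 * g2, mul_ne_zero hf1 hf2, ?_⟩
    rw [map_mul, map_mul, ← h1, ← h2]
    ring

/-- A linear dependence of the powers of `u` over `ℚ(j)` gives a nonzero polynomial relation with
coefficients in `ℤ[j]`. -/
theorem degMainB_dependence (u : LaurentSeries ℚ) (n : ℕ)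
    (h : ¬ LinearIndependent ↥(IntermediateField.adjoin ℚ {jqModC ℚ})
      (fun i : Fin n => u ^ (i : ℕ))) :
    ∃ F : Polynomial (Polynomial ℤ), F ≠ 0 ∧ Polynomial.eval₂ (degMainB_ev ℚ) u F = 0 := by
  classical
  rw [Fintype.not_linearIndependent_iff] at h
  obtain ⟨g, hg, i₀, hi₀⟩ := h
  have hfr : ∀ i : Fin n, ∃ f gg : Polynomial ℤ, f ≠ 0 ∧
      ((g i : LaurentSeries ℚ)) * degMainB_ev ℚ f = degMainB_ev ℚ gg :=
    fun i => degMainB_frac _ (g i).2
  choose f gg hf hfg using hfr
  have hD : (∏ i, f i) ≠ 0 := Finset.prod_ne_zero_iff.mpr fun i _ => hf i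
  let hh : Fin n → Polynomial ℤ := fun i => gg i * ∏ j ∈ Finset.univ.erase i, f j
  have hhev : ∀ i, degMainB_ev ℚ (hh i) = (g i : LaurentSeries ℚ) * degMainB_ev ℚ (∏ i, f i) := by
    intro i
    rw [← Finset.mul_prod_erase Finset.univ f (Finset.mem_univ i), map_mul, map_mul, ← hfg i,
      mul_assoc]
  have hhne : hh i₀ ≠ 0 := by
    intro h0
    have h1 := hhev i₀
    rw [h0, map_zero] at h1
    rcases mul_eq_zero.mp h1.symm with h2 | h2
    · exact hi₀ (Subtype.ext h2)
    · exact degMainB_evQ_ne_zero hD h2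
  refine ⟨∑ i : Fin n, Polynomial.C (hh i) * Polynomial.X ^ (i : ℕ), ?_, ?_⟩
  · intro h0
    have h1 := congrArg (fun F : Polynomial (Polynomial ℤ) => F.coeff (i₀ : ℕ)) h0
    simp only [Polynomial.finsetSum_coeff, Polynomial.coeff_C_mul_X_pow, Polynomial.coeff_zero]
      at h1
    rw [Finset.sum_eq_single i₀] at h1
    · rw [if_pos rfl] at h1
      exact hhne h1
    · intro j _ hj
      rw [if_neg]
      exact fun hij => hj (Fin.ext hij.symm)
    · intro hi
      exact absurd (Finset.mem_univ _) hi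
  · rw [Polynomial.eval₂_finsetSum]
    have h2 : ∀ i : Fin n, Polynomial.eval₂ (degMainB_ev ℚ) u
        (Polynomial.C (hh i) * Polynomial.X ^ (i : ℕ)) =
        degMainB_ev ℚ (∏ i, f i) * (g i • u ^ (i : ℕ)) := by
      intro i
      rw [Polynomial.eval₂_mul, Polynomial.eval₂_C, Polynomial.eval₂_pow, Polynomial.eval₂_X,
        hhev i, IntermediateField.smul_def]
      ring
    rw [Finset.sum_congr rfl fun i _ => h2 i, ← Finset.mul_sum, hg, mul_zero]

/-- Integral form of the relation, not divisible by `ℓ`: from a nonzero `F ∈ ℤ[T][X]` with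
`F(j, w) = 0` in `ℤ((q))` we get such an `F'` with some coefficient not divisible by `ℓ`. -/
theorem degMainB_primitive (ℓ : ℕ) [Fact ℓ.Prime] (w : LaurentSeries ℤ)
    (F : Polynomial (Polynomial ℤ)) (hF : F ≠ 0)
    (hFw : Polynomial.eval₂ (evalL (jqModC ℤ)) w F = 0) :
    ∃ (F' : Polynomial (Polynomial ℤ)) (i : ℕ),
      Polynomial.eval₂ (evalL (jqModC ℤ)) w F' = 0 ∧
      ¬ Polynomial.C (ℓ : ℤ) ∣ F'.coeff i := by
  have hℓ : ¬ IsUnit (Polynomial.C (Polynomial.C (ℓ : ℤ)) : Polynomial (Polynomial ℤ)) := by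
    rw [Polynomial.isUnit_C, Polynomial.isUnit_C, Int.isUnit_iff]
    have h2 := (Fact.out : ℓ.Prime).two_le
    omega
  obtain ⟨e, F', hndvd, hFe⟩ := WfDvdMonoid.max_power_factor' hF hℓ
  have hC : Polynomial.eval₂ (evalL (jqModC ℤ)) w
      (Polynomial.C (Polynomial.C (ℓ : ℤ)) : Polynomial (Polynomial ℤ)) ≠ 0 := by
    rw [Polynomial.eval₂_C]
    unfold evalL
    rw [Polynomial.coe_eval₂RingHom, Polynomial.eval₂_C]
    refine HahnSeries.C_ne_zero ?_
    exact_mod_cast (Fact.out : ℓ.Prime).ne_zero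
  rw [hFe, Polynomial.eval₂_mul, Polynomial.eval₂_pow] at hFw
  have hF' : Polynomial.eval₂ (evalL (jqModC ℤ)) w F' = 0 :=
    (mul_eq_zero.mp hFw).resolve_left (pow_ne_zero _ hC)
  rw [Polynomial.C_dvd_iff_dvd_coeff] at hndvd
  obtain ⟨i, hi⟩ := not_forall.mp hndvd
  exact ⟨F', i, hF', hi⟩

/-- The field `k(j)`. -/
abbrev degMainB_K (k : Type) [Field k] : IntermediateField k (LaurentSeries k) :=
  IntermediateField.adjoin k {jqModC k}

theorem degMainB_evalL_mem (k : Type) [Field k] (p : Polynomial k) :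
    evalL (jqModC k) p ∈ degMainB_K k := by
  have h1 : evalL (jqModC k) p = Polynomial.aeval (jqModC k) p := by
    unfold evalL
    rw [Polynomial.coe_eval₂RingHom, Polynomial.aeval_def]
    congr 1
    ext c : 1
    rw [algebraMap_laurentSeries_eq_single, HahnSeries.C_apply]
  rw [h1]
  exact IntermediateField.algebra_adjoin_le_adjoin k _ (Polynomial.aeval_mem_adjoin_singleton k _)

/-- Evaluation of an integer polynomial at `j`, as an element of `k(j)`. -/
def degMainB_evK (k : Type) [Field k] : Polynomial ℤ →+* ↥(degMainB_K k) :=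
  (degMainB_ev k).codRestrict (degMainB_K k) fun _ => degMainB_evalL_mem k _

theorem degMainB_evK_coe (k : Type) [Field k] (f : Polynomial ℤ) :
    ((degMainB_evK k f : ↥(degMainB_K k)) : LaurentSeries k) = degMainB_ev k f := rfl

theorem degMainB_algebraMap_comp_evK (k : Type) [Field k] :
    (algebraMap ↥(degMainB_K k) (LaurentSeries k)).comp (degMainB_evK k) = degMainB_ev k :=
  RingHom.ext fun _ => rfl

/-- If `ℓ` does not divide `f` in `ℤ[T]` then `f(j) ≠ 0` over a field of characteristic `ℓ`. -/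
theorem degMainB_ev_ne_zero (ℓ : ℕ) [Fact ℓ.Prime] (k : Type) [Field k] [CharP k ℓ]
    (f : Polynomial ℤ) (hf : ¬ Polynomial.C (ℓ : ℤ) ∣ f) : degMainB_ev k f ≠ 0 := by
  intro h0
  apply hf
  rw [Polynomial.C_dvd_iff_dvd_coeff]
  intro i
  have h1 := degMainB_ev_eq_zero k f h0
  have h2 := congrArg (fun p : Polynomial k => p.coeff i) h1
  simp only [Polynomial.coeff_map, Polynomial.coeff_zero, eq_intCast] at h2
  exact (CharP.intCast_eq_zero_iff k ℓ _).mp h2

/-- (2) Each `j(q^d)` is algebraic over `k(j)` when `k` has characteristic `ℓ`. -/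
theorem degMainB_isAlgebraic (h0 : Char0DegStatement) (N : ℕ) [NeZero N] (ℓ : ℕ) [Fact ℓ.Prime]
    (k : Type) [Field k] [CharP k ℓ] (d : ℕ) [NeZero d] (hd : d ∣ N) :
    IsAlgebraic ↥(degMainB_K k) (qExpand k d (jqModC k)) := by
  -- the powers of `j(q^d)` are dependent in characteristic `0`
  have hdep : ¬ LinearIndependent ↥(IntermediateField.adjoin ℚ {jqModC ℚ})
      (fun i : Fin (dedekindPsi N + 1) => (qExpand ℚ d (jqModC ℚ)) ^ (i : ℕ)) := by
    intro hli
    have h1 := h0 N (dedekindPsi N + 1) (fun i => (qExpand ℚ d (jqModC ℚ)) ^ (i : ℕ))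
      (fun i => pow_mem (jqd_mem_full N hd) _) hli
    omega
  obtain ⟨F, hF, hFu⟩ := degMainB_dependence _ _ hdep
  -- the relation holds over `ℤ`
  have hFw : Polynomial.eval₂ (evalL (jqModC ℤ)) (qExpand ℤ d (jqModC ℤ)) F = 0 := by
    apply degMainB_coeffMap_injective (Int.castRingHom ℚ) Int.cast_injective
    rw [map_zero, Polynomial.hom_eval₂, degMainB_coeffMap_comp_evalL, coeffMap_qExpand,
      coeffMap_jqModC]
    exact hFu
  obtain ⟨F', i, hF', hi⟩ := degMainB_primitive ℓ _ F hF hFw
  -- reduce mod `ℓ`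
  have hk : Polynomial.eval₂ (degMainB_ev k) (qExpand k d (jqModC k)) F' = 0 := by
    have h1 := congrArg (coeffMap (Int.castRingHom k)) hF'
    rwa [map_zero, Polynomial.hom_eval₂, degMainB_coeffMap_comp_evalL, coeffMap_qExpand,
      coeffMap_jqModC] at h1
  refine ⟨F'.map (degMainB_evK k), ?_, ?_⟩
  · intro h1
    have h2 := congrArg (fun p : Polynomial ↥(degMainB_K k) => p.coeff i) h1
    simp only [Polynomial.coeff_map, Polynomial.coeff_zero] at h2
    have h3 := congrArg (fun x : ↥(degMainB_K k) => (x : LaurentSeries k)) h2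
    exact degMainB_ev_ne_zero ℓ k _ hi h3
  · rw [Polynomial.aeval_def, Polynomial.eval₂_map, degMainB_algebraMap_comp_evK]
    exact hk

/-! ### (3) The function field mod `ℓ` is spanned over `k(j)` by monomials in the `j(q^d)` -/

theorem degMainB_mem_span (h0 : Char0DegStatement) (N : ℕ) [NeZero N] (ℓ : ℕ) [Fact ℓ.Prime]
    (k : Type) [Field k] [CharP k ℓ] (x : LaurentSeries k)
    (hx : x ∈ modularFunctionFieldFullC k N) :
    x ∈ Submodule.span ↥(degMainB_K k)
      ((Submonoid.closure (divisorExpansionsC k N) : Submonoid (LaurentSeries k)) :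
        Set (LaurentSeries k)) := by
  have hS : ∀ y ∈ divisorExpansionsC k N, IsAlgebraic ↥(degMainB_K k) y := by
    rintro y ⟨d, hne, hd, rfl⟩
    have := hne
    exact degMainB_isAlgebraic h0 N ℓ k d hd
  have h1 := IntermediateField.adjoin_toSubalgebra_of_isAlgebraic hS
  have h2 : modularFunctionFieldFullC k N ≤
      (IntermediateField.adjoin ↥(degMainB_K k) (divisorExpansionsC k N)).restrictScalars k := by
    rw [modularFunctionFieldFullC, IntermediateField.adjoin_le_iff]
    exact IntermediateField.subset_adjoin _ _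
  have h3 : x ∈ (IntermediateField.adjoin ↥(degMainB_K k) (divisorExpansionsC k N)).toSubalgebra :=
    h2 hx
  rw [h1] at h3
  have h4 : x ∈ Subalgebra.toSubmodule
      (Algebra.adjoin ↥(degMainB_K k) (divisorExpansionsC k N)) := h3
  rwa [Algebra.adjoin_eq_span] at h4

/-- Monomials in the `j(q^d)` over `k` lift to `ℤ((q))`, with characteristic-zero image in the
function field. -/
theorem degMainB_lift (N : ℕ) [NeZero N] (k : Type) [Field k] (x : LaurentSeries k)
    (hx : x ∈ Submonoid.closure (divisorExpansionsC k N)) :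
    ∃ m : LaurentSeries ℤ, coeffMap (Int.castRingHom k) m = x ∧
      coeffMap (Int.castRingHom ℚ) m ∈ modularFunctionFieldFull N := by
  induction hx using Submonoid.closure_induction with
  | mem y hy =>
    obtain ⟨d, hne, hd, rfl⟩ := hy
    have := hne
    refine ⟨qExpand ℤ d (jqModC ℤ), ?_, ?_⟩
    · rw [coeffMap_qExpand, coeffMap_jqModC]
    · rw [coeffMap_qExpand, coeffMap_jqModC]
      exact jqd_mem_full N hd
  | one => exact ⟨1, map_one _, by rw [map_one]; exact one_mem _⟩
  | mul y z hy hz ihy ihz =>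
    obtain ⟨m1, h1, h1'⟩ := ihy
    obtain ⟨m2, h2, h2'⟩ := ihz
    exact ⟨m1 * m2, by rw [map_mul, h1, h2], by rw [map_mul]; exact mul_mem h1' h2'⟩

/-! ### (4) Extraction of independent monomials -/

theorem degMainB_extract {K V : Type} [Field K] [AddCommGroup V] [Module K V] (t : Set V)
    (n : ℕ) (b : Fin n → V) (hb : LinearIndependent K b)
    (hbt : ∀ i, b i ∈ Submodule.span K t) :
    ∃ c : Fin n → V, (∀ i, c i ∈ t) ∧ LinearIndependent K c := by
  obtain ⟨s, hst, hspan, hli⟩ := exists_linearIndependent K t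
  have hmem : ∀ i, b i ∈ Submodule.span K (Set.range ((↑) : s → V)) := by
    intro i
    rw [Subtype.range_coe, hspan]
    exact hbt i
  let v : Fin n → ↥(Submodule.span K (Set.range ((↑) : s → V))) := fun i => ⟨b i, hmem i⟩
  have hv : LinearIndependent K v := by
    apply LinearIndependent.of_comp (Submodule.subtype _)
    exact hb
  have hcard := linearIndependent_le_basis (Module.Basis.span hli) v hv
  obtain ⟨e⟩ := (Cardinal.le_def _ _).mp hcard
  refine ⟨fun i => ((e i : s) : V), fun i => hst (e i).2, ?_⟩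
  exact hli.comp e e.injective

/-! ### (5) The main statement -/

theorem degMainB_main : Char0DegStatement → ModLDegStatement → DegStatement := by
  intro h0 hmod N _ ℓ _ hℓN
  obtain ⟨b, hbmem, hbli⟩ := hmod N ℓ hℓN (AlgebraicClosure (ZMod ℓ))
  obtain ⟨c, hct, hcli⟩ := degMainB_extract _ _ b hbli
    (fun i => degMainB_mem_span h0 N ℓ _ _ (hbmem i))
  have hlift := fun i => degMainB_lift N _ (c i) (hct i)
  choose m hmc hmQ using hlift
  refine ⟨m, hmQ, ?_⟩
  intro f hf i n
  -- reduce the relation mod `ℓ`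
  have h1 : coeffMap (Int.castRingHom (AlgebraicClosure (ZMod ℓ)))
      (∑ i, evalL (jqModC ℤ) (f i) * m i) = 0 := by
    ext a
    rw [coeffMap_coeff, HahnSeries.coeff_zero, eq_intCast]
    exact (CharP.intCast_eq_zero_iff _ ℓ _).mpr (hf a)
  rw [map_sum] at h1
  have h2 : ∑ i, degMainB_evK (AlgebraicClosure (ZMod ℓ)) (f i) • c i = 0 := by
    rw [← h1]
    refine Finset.sum_congr rfl fun i _ => ?_
    rw [map_mul, degMainB_coeffMap_ev, hmc i, IntermediateField.smul_def]
    rfl
  have h3 := Fintype.linearIndependent_iff.mp hcli _ h2 i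
  have h4 : degMainB_ev (AlgebraicClosure (ZMod ℓ)) (f i) = 0 := by
    rw [← degMainB_evK_coe, h3]
    rfl
  by_contra hn
  refine degMainB_ev_ne_zero ℓ (AlgebraicClosure (ZMod ℓ)) (f i) ?_ h4
  rw [Polynomial.C_dvd_iff_dvd_coeff]
  exact fun h => hn (h n)

end

end Fermat.Agent.S28
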