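/-
S28 package EtaProd, auxiliary file: power series identities for the Euler product
`E = ∏ (1 - X^(n+1))` over a field (with the discrete topology), in `PowerSeries k`.
-/
import Fermat.Agent.S28.Interfaces

set_option autoImplicit false

open ModularCurve

namespace Fermat.Agent.S28

noncomputable section

open scoped PowerSeries.WithPiTopology

/-- The reduction of the Euler product `etaProd` to a commutative ring. -/
def etaProd_E (k : Type*) [CommRing k] : PowerSeries k := etaProd.map (Int.castRingHom k)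

/-- `∏_{b < r} (x - ω^b y) = x^r - y^r` for a primitive `r`-th root of unity `ω`. -/
theorem etaProd_prod_root {A : Type*} [CommRing A] [IsDomain A] (ω : A) (r : ℕ) (hr : 0 < r)
    (hω : IsPrimitiveRoot ω r) (x y : A) :
    ∏ b ∈ Finset.range r, (x - ω ^ b * y) = x ^ r - y ^ r := by
  classical
  rw [hω.pow_sub_pow_eq_prod_sub_mul x y hr, Polynomial.nthRootsFinset,
    ← Multiset.toFinset_eq hω.nthRoots_one_nodup]
  simp only [Finset.prod_mk]
  rw [hω.nthRoots_eq (one_pow r), Multiset.map_map]
  simp [Finset.prod]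

/-- A map into power series is continuous as soon as all its coefficients are. -/
theorem etaProd_continuous_of_coeff {S : Type*} [Semiring S] [TopologicalSpace S] {Y : Type*}
    [TopologicalSpace Y] (g : Y → PowerSeries S)
    (h : ∀ n, Continuous fun y => PowerSeries.coeff n (g y)) : Continuous g :=
  continuous_iff_continuousAt.mpr fun y =>
    (PowerSeries.WithPiTopology.tendsto_iff_coeff_tendsto S g (nhds y) (g y)).mpr
      fun d => (h d).tendsto y

/-- Multipliability criterion: `g n ≡ 1 mod X^(n+1)`. -/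
theorem etaProd_multipliable_of_dvd {R : Type*} [CommRing R] [TopologicalSpace R]
    (g : ℕ → PowerSeries R)
    (h : ∀ n, (PowerSeries.X : PowerSeries R) ^ (n + 1) ∣ g n - 1) : Multipliable g := by
  have hg : g = fun n => 1 + (g n - 1) := by funext n; ring
  rw [hg]
  apply PowerSeries.WithPiTopology.multipliable_one_add_of_tendsto_order_atTop_nhds_top
  refine ENat.tendsto_nhds_top_iff_natCast_lt.mpr (fun n ↦ Filter.eventually_atTop.mpr ⟨n, ?_⟩)
  intro m hm
  have h1 : ((m + 1 : ℕ) : ℕ∞) ≤ (g m - 1).order :=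
    PowerSeries.nat_le_order _ _ fun i hi => PowerSeries.X_pow_dvd_iff.mp (h m) i hi
  exact lt_of_lt_of_le (by exact_mod_cast Nat.lt_succ_of_le hm) h1

theorem etaProd_multipliable_ite {R : Type*} [CommRing R] [TopologicalSpace R]
    (p : ℕ → Prop) [DecidablePred p] (g₁ g₂ : ℕ → PowerSeries R)
    (h₁ : ∀ n, (PowerSeries.X : PowerSeries R) ^ (n + 1) ∣ g₁ n - 1)
    (h₂ : ∀ n, (PowerSeries.X : PowerSeries R) ^ (n + 1) ∣ g₂ n - 1) :
    Multipliable fun n => if p n then g₁ n else g₂ n :=
  etaProd_multipliable_of_dvd _ fun n => by split_ifs; exacts [h₁ n, h₂ n]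

/-- Reindexing an infinite product supported on `{n | r ∣ n + 1}`. -/
theorem etaProd_tprod_reindex {M : Type*} [CommMonoid M] [TopologicalSpace M] (r : ℕ)
    (hr : 0 < r) (f : ℕ → M) :
    ∏' n : ℕ, (if r ∣ n + 1 then f n else 1) = ∏' m : ℕ, f (r * (m + 1) - 1) := by
  have hg : Function.Injective fun m : ℕ => r * (m + 1) - 1 := by
    intro a b hab
    have ha : 1 ≤ r * (a + 1) := Nat.mul_pos hr (Nat.succ_pos a)
    have hb : 1 ≤ r * (b + 1) := Nat.mul_pos hr (Nat.succ_pos b)
    have h1 : r * (a + 1) = r * (b + 1) := by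
      simp only at hab
      omega
    have := Nat.eq_of_mul_eq_mul_left hr h1
    omega
  have hsupp : Function.mulSupport (fun n : ℕ => if r ∣ n + 1 then f n else 1) ⊆
      Set.range fun m : ℕ => r * (m + 1) - 1 := by
    intro n hn
    rw [Function.mem_mulSupport] at hn
    by_cases hd : r ∣ n + 1
    · obtain ⟨c, hc⟩ := hd
      have hc0 : c ≠ 0 := by rintro rfl; simp at hc
      obtain ⟨m, rfl⟩ := Nat.exists_eq_succ_of_ne_zero hc0
      have hc' : r * (m + 1) = n + 1 := hc.symm
      exact ⟨m, by show r * (m + 1) - 1 = n; omega⟩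
    · exact absurd (if_neg hd) hn
  rw [← hg.tprod_eq hsupp]
  refine tprod_congr fun m => ?_
  have h1 : r * (m + 1) - 1 + 1 = r * (m + 1) :=
    Nat.sub_add_cancel (Nat.mul_pos hr (Nat.succ_pos m))
  rw [if_pos (by rw [h1]; exact dvd_mul_right _ _)]

section Field

variable {k : Type*} [Field k] [TopologicalSpace k] [DiscreteTopology k]

theorem etaProd_E_eq :
    etaProd_E k = ∏' n : ℕ, (1 - PowerSeries.X ^ (n + 1) : PowerSeries k) := by
  have hc : Continuous (PowerSeries.map (Int.castRingHom k)) :=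
    etaProd_continuous_of_coeff _ fun n => by
      simp only [PowerSeries.coeff_map]
      exact (continuous_of_discreteTopology (f := fun a : ℤ => (Int.castRingHom k) a)).comp
        (PowerSeries.WithPiTopology.continuous_coeff ℤ n)
  rw [etaProd_E, etaProd,
    (PowerSeries.WithPiTopology.multipliable_one_sub_X_pow ℤ).map_tprod _ hc]
  simp

omit [DiscreteTopology k] in
theorem etaProd_multipliable_rescale (c : k) :
    Multipliable fun n : ℕ =>
      (1 - PowerSeries.C (c ^ (n + 1)) * PowerSeries.X ^ (n + 1) : PowerSeries k) :=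
  etaProd_multipliable_of_dvd _ fun n => ⟨-PowerSeries.C (c ^ (n + 1)), by ring⟩

theorem etaProd_rescale_E (c : k) : PowerSeries.rescale c (etaProd_E k) =
    ∏' n : ℕ, (1 - PowerSeries.C (c ^ (n + 1)) * PowerSeries.X ^ (n + 1)) := by
  have hc : Continuous (PowerSeries.rescale c) :=
    etaProd_continuous_of_coeff _ fun n => by
      simp only [PowerSeries.coeff_rescale]
      exact (continuous_of_discreteTopology (f := fun a : k => c ^ n * a)).comp
        (PowerSeries.WithPiTopology.continuous_coeff k n)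
  rw [etaProd_E_eq, (PowerSeries.WithPiTopology.multipliable_one_sub_X_pow k).map_tprod _ hc]
  refine tprod_congr fun n => ?_
  rw [map_sub, map_one, map_pow, PowerSeries.rescale_X, mul_pow, ← map_pow]

theorem etaProd_expand_E (a : ℕ) (ha : a ≠ 0) : PowerSeries.expand a ha (etaProd_E k) =
    ∏' n : ℕ, (1 - PowerSeries.X ^ (a * (n + 1))) := by
  have hc : Continuous (PowerSeries.expand a ha : PowerSeries k → PowerSeries k) :=
    etaProd_continuous_of_coeff _ fun n => by
      simp only [PowerSeries.coeff_expand]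
      split_ifs with h
      · exact PowerSeries.WithPiTopology.continuous_coeff k _
      · exact continuous_const
  rw [etaProd_E_eq, (PowerSeries.WithPiTopology.multipliable_one_sub_X_pow k).map_tprod _ hc]
  refine tprod_congr fun n => ?_
  rw [map_sub, map_one, map_pow, PowerSeries.expand_X, ← pow_mul]

/-- The Euler product identity in `PowerSeries k`:
`∏_{b<r} E(ζ^b y) * E(y^(r²)) = E(y^r)^(r+1)`. -/
theorem etaProd_ps_main (r : ℕ) (hr : r.Prime) (ζ : k) (hζ : IsPrimitiveRoot ζ r) :
    (∏ b ∈ Finset.range r, PowerSeries.rescale (ζ ^ b) (etaProd_E k)) *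
        PowerSeries.expand (r * r) (Nat.mul_ne_zero hr.ne_zero hr.ne_zero) (etaProd_E k) =
      PowerSeries.expand r hr.ne_zero (etaProd_E k) ^ (r + 1) := by
  classical
  have hX : ∀ n : ℕ, (PowerSeries.X : PowerSeries k) ^ (n + 1) ∣
      (1 - PowerSeries.X ^ (r * (n + 1))) - 1 := fun n => by
    rw [sub_sub_cancel_left]
    exact (dvd_neg.mpr (pow_dvd_pow _ (Nat.le_mul_of_pos_left _ hr.pos)))
  have hX1 : ∀ n : ℕ, (PowerSeries.X : PowerSeries k) ^ (n + 1) ∣ (1 : PowerSeries k) - 1 :=
    fun n => by simp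
  have hXA : ∀ n : ℕ, (PowerSeries.X : PowerSeries k) ^ (n + 1) ∣
      (1 - PowerSeries.X ^ (n + 1)) ^ r - 1 := fun n => by
    have h := sub_dvd_pow_sub_pow (1 - (PowerSeries.X : PowerSeries k) ^ (n + 1)) 1 r
    rw [one_pow, sub_sub_cancel_left] at h
    exact neg_dvd.mp h
  set F : ℕ → PowerSeries k := fun n => 1 - PowerSeries.X ^ (r * (n + 1)) with hF
  set A : ℕ → PowerSeries k :=
    fun n => if r ∣ n + 1 then (1 - PowerSeries.X ^ (n + 1)) ^ r else 1 with hA
  set B : ℕ → PowerSeries k := fun n => if r ∣ n + 1 then 1 else F n with hB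
  set B' : ℕ → PowerSeries k := fun n => if r ∣ n + 1 then F n else 1 with hB'
  have hFm : Multipliable F := etaProd_multipliable_of_dvd _ hX
  have hAm : Multipliable A := etaProd_multipliable_ite _ _ _ hXA hX1
  have hBm : Multipliable B := etaProd_multipliable_ite _ _ _ hX1 hX
  have hB'm : Multipliable B' := etaProd_multipliable_ite _ _ _ hX hX1
  have h1 : ∏ b ∈ Finset.range r, PowerSeries.rescale (ζ ^ b) (etaProd_E k) =
      ∏' n, A n * B n := by
    simp_rw [etaProd_rescale_E]
    rw [← Multipliable.tprod_finsetProd (fun b _ => etaProd_multipliable_rescale (ζ ^ b))]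
    refine tprod_congr fun n => ?_
    by_cases hd : r ∣ n + 1
    · have h1 : ∀ b : ℕ, (ζ ^ b) ^ (n + 1) = 1 := fun b => by
        rw [← pow_mul, mul_comm, pow_mul, (hζ.pow_eq_one_iff_dvd _).mpr hd, one_pow]
      simp only [h1, map_one, one_mul, Finset.prod_const, Finset.card_range, hA, hB, if_pos hd,
        mul_one]
    · have hω : IsPrimitiveRoot (ζ ^ (n + 1)) r :=
        hζ.pow_of_coprime _ ((Nat.Prime.coprime_iff_not_dvd hr).mpr hd).symm
      have hω' : IsPrimitiveRoot (PowerSeries.C (ζ ^ (n + 1)) : PowerSeries k) r :=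
        hω.map_of_injective PowerSeries.C_injective
      have h2 := etaProd_prod_root _ r hr.pos hω' (1 : PowerSeries k) (PowerSeries.X ^ (n + 1))
      have h3 : ∀ b : ℕ, (PowerSeries.C ((ζ ^ b) ^ (n + 1)) : PowerSeries k) =
          PowerSeries.C (ζ ^ (n + 1)) ^ b := fun b => by
        rw [← map_pow, ← pow_mul, ← pow_mul, mul_comm]
      have h4 : A n * B n = 1 - PowerSeries.X ^ (r * (n + 1)) := by
        simp only [hA, hB, hF, if_neg hd, one_mul]
      rw [h4, Finset.prod_congr rfl (fun b _ => by rw [h3 b]), h2, one_pow, ← pow_mul,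
        mul_comm (n + 1) r]
  have h2 : ∏' n, A n = (∏' n, F n) ^ r := by
    rw [← hFm.tprod_pow r, hA, etaProd_tprod_reindex r hr.pos]
    refine tprod_congr fun m => ?_
    rw [Nat.sub_add_cancel (Nat.mul_pos hr.pos (Nat.succ_pos m))]
  have h3 : PowerSeries.expand (r * r) (Nat.mul_ne_zero hr.ne_zero hr.ne_zero) (etaProd_E k) =
      ∏' n, B' n := by
    rw [etaProd_expand_E, hB', etaProd_tprod_reindex r hr.pos]
    refine tprod_congr fun m => ?_
    rw [hF]
    simp only
    rw [Nat.sub_add_cancel (Nat.mul_pos hr.pos (Nat.succ_pos m)), mul_assoc]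
  have h4 : (∏' n, B n) * ∏' n, B' n = ∏' n, F n := by
    rw [← hBm.tprod_mul hB'm]
    refine tprod_congr fun n => ?_
    simp only [hB, hB']
    split_ifs <;> simp
  rw [h1, hAm.tprod_mul hBm, h2, h3, etaProd_expand_E, mul_assoc, h4, pow_succ]

end Field

section Coeff

/-- The coefficient of `X` in the Euler product is `-1`. -/
theorem etaProd_coeff_one_etaProd : PowerSeries.coeff 1 etaProd = -1 := by
  have hT : Multipliable fun n : ℕ => (1 - PowerSeries.X ^ (n + 1 + 1) : PowerSeries ℤ) :=
    etaProd_multipliable_of_dvd _ fun n => ⟨-PowerSeries.X, by ring⟩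
  have h0 : etaProd = (1 - PowerSeries.X) *
      ∏' n : ℕ, (1 - PowerSeries.X ^ (n + 1 + 1) : PowerSeries ℤ) := by
    rw [etaProd, tprod_eq_zero_mul'
      (f := fun n : ℕ => (1 - PowerSeries.X ^ (n + 1) : PowerSeries ℤ)) hT]
    simp
  let S : Submonoid (PowerSeries ℤ) :=
    { carrier := {g | PowerSeries.coeff 0 g = 1 ∧ PowerSeries.coeff 1 g = 0}
      one_mem' := by simp
      mul_mem' := by
        rintro a b ⟨ha0, ha1⟩ ⟨hb0, hb1⟩
        refine ⟨?_, ?_⟩
        · rw [PowerSeries.coeff_zero_eq_constantCoeff_apply] at ha0 hb0 ⊢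
          rw [map_mul, ha0, hb0, one_mul]
        · rw [PowerSeries.coeff_one_mul, ha1, hb1, zero_mul, zero_mul, add_zero] }
  have hS : IsClosed (S : Set (PowerSeries ℤ)) := by
    have hS' : (S : Set (PowerSeries ℤ)) =
        {g | PowerSeries.coeff 0 g = 1} ∩ {g | PowerSeries.coeff 1 g = 0} := rfl
    rw [hS']
    exact (isClosed_eq (PowerSeries.WithPiTopology.continuous_coeff ℤ 0) continuous_const).inter
      (isClosed_eq (PowerSeries.WithPiTopology.continuous_coeff ℤ 1) continuous_const)
  have hmem : ∏' n : ℕ, (1 - PowerSeries.X ^ (n + 1 + 1) : PowerSeries ℤ) ∈ S :=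
    tprod_mem hS fun n => ⟨by simp, by simp [PowerSeries.coeff_X_pow]⟩
  obtain ⟨hm0, hm1⟩ := hmem
  rw [h0, sub_mul, one_mul, map_sub, hm1, show (1 : ℕ) = 0 + 1 from rfl,
    PowerSeries.coeff_succ_X_mul, hm0]
  norm_num

theorem etaProd_constantCoeff_E (k : Type*) [CommRing k] :
    PowerSeries.constantCoeff (etaProd_E k) = 1 := by
  rw [etaProd_E, ← PowerSeries.coeff_zero_eq_constantCoeff_apply, PowerSeries.coeff_map,
    PowerSeries.coeff_zero_eq_constantCoeff_apply, constantCoeff_etaProd, map_one]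

theorem etaProd_coeff_one_E (k : Type*) [CommRing k] :
    PowerSeries.coeff 1 (etaProd_E k) = -1 := by
  rw [etaProd_E, PowerSeries.coeff_map, etaProd_coeff_one_etaProd]
  simp

/-- In `k⟦X⟧`, `k` a field: `n`-th powers are injective on series with constant term `1`. -/
theorem etaProd_pow_inj (k : Type*) [Field k] (n : ℕ) : 0 < n → ∀ f g : PowerSeries k,
    PowerSeries.constantCoeff f = 1 → PowerSeries.constantCoeff g = 1 → f ^ n = g ^ n →
    f = g := by
  induction n using Nat.strong_induction_on with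
  | _ n ih =>
    intro hn f g hf hg h
    by_cases hnk : (n : k) = 0
    · obtain ⟨p, hp⟩ := CharP.exists k
      have hpn : p ∣ n := (CharP.cast_eq_zero_iff k p n).mp hnk
      have hp0 : p ≠ 0 := by
        rintro rfl
        rw [zero_dvd_iff] at hpn
        omega
      have hpp : p.Prime := (CharP.char_is_prime_or_zero k p).resolve_right hp0
      have := Fact.mk hpp
      have : CharP (PowerSeries k) p :=
        charP_of_injective_ringHom (PowerSeries.C_injective (R := k)) p
      obtain ⟨m, rfl⟩ := hpn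
      have hm : 0 < m := Nat.pos_of_mul_pos_left hn
      have hlt : m < p * m := by nlinarith [hpp.two_le]
      refine ih m hlt hm f g hf hg ?_
      have h5 : (f ^ m - g ^ m) ^ p = 0 := by
        rw [sub_pow_char, ← pow_mul, ← pow_mul, mul_comm m p, h, sub_self]
      exact sub_eq_zero.mp ((pow_eq_zero_iff hp0).mp h5)
    · have key : (f - g) * ∑ i ∈ Finset.range n, f ^ i * g ^ (n - 1 - i) = f ^ n - g ^ n :=
        (Commute.all f g).mul_geom_sum₂ n
      rw [h, sub_self] at key
      rcases mul_eq_zero.mp key with h1 | h2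
      · exact sub_eq_zero.mp h1
      · exfalso
        apply hnk
        have h6 := congrArg PowerSeries.constantCoeff h2
        simpa [map_sum, hf, hg] using h6

/-- `U(y^r) ≠ U(y)^r` for `U = E^24`, if `r ≥ 2` is invertible in `k`. -/
theorem etaProd_expand_ne (k : Type*) [Field k] (r : ℕ) (hr0 : r ≠ 0) (hr : 2 ≤ r)
    (hrk : (r : k) ≠ 0) :
    PowerSeries.expand r hr0 (etaProd_E k ^ 24) ≠ (etaProd_E k ^ 24) ^ r := by
  intro h
  have h1 : (PowerSeries.expand r hr0 (etaProd_E k)) ^ 24 = (etaProd_E k ^ r) ^ 24 := by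
    rw [← map_pow, h, ← pow_mul, ← pow_mul, mul_comm]
  have h2 := etaProd_pow_inj k 24 (by norm_num) _ _
    (by rw [PowerSeries.constantCoeff_expand, etaProd_constantCoeff_E])
    (by rw [map_pow, etaProd_constantCoeff_E, one_pow]) h1
  have h3 := congrArg (PowerSeries.coeff 1) h2
  have hnd : ¬ r ∣ 1 := fun hd => by
    have := Nat.le_of_dvd one_pos hd
    omega
  rw [PowerSeries.coeff_expand_of_not_dvd _ _ _ hnd, PowerSeries.coeff_one_pow,
    etaProd_coeff_one_E, etaProd_constantCoeff_E, one_pow, mul_one] at h3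
  apply hrk
  linear_combination h3

end Coeff

end

end Fermat.Agent.S28
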