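/-
S28 package EtaProd: the eta-product identity for the formal discriminant
`Δ = y ∏ (1 - y^n)^24` over a field with a primitive `r`-th root of unity, and `Δ(y^r) ≠ Δ(y)^r`.
-/
import Fermat.Agent.S28.EtaProdAux

set_option autoImplicit false

open ModularCurve Polynomial

namespace Fermat.Agent.S28

noncomputable section

/-- `scale` on `y * p(y)` for a power series `p`. -/
theorem etaProd_scale_single_mul {k : Type*} [Field k] (c : k) (p : PowerSeries k) :
    scale c (HahnSeries.single (1 : ℤ) (1 : k) * HahnSeries.ofPowerSeries ℤ k p) =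
      HahnSeries.single (1 : ℤ) c * HahnSeries.ofPowerSeries ℤ k (PowerSeries.rescale c p) := by
  ext n
  rw [scale_coeff, HahnSeries.coeff_single_mul, HahnSeries.coeff_single_mul, one_mul]
  rcases lt_or_ge (n - 1) 0 with h | h
  · rw [ofPowerSeries_coeff_of_neg _ h, ofPowerSeries_coeff_of_neg _ h, mul_zero, mul_zero]
  · obtain ⟨m, hm⟩ := Int.eq_ofNat_of_zero_le h
    rw [hm, HahnSeries.ofPowerSeries_apply_coeff, HahnSeries.ofPowerSeries_apply_coeff,
      PowerSeries.coeff_rescale]
    have hn : n = ((m + 1 : ℕ) : ℤ) := by push_cast; omega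
    rw [hn, zpow_natCast, pow_succ]
    ring

/-- `qExpand` on power series is `PowerSeries.expand`. -/
theorem etaProd_qExpand_ofPowerSeries {k : Type*} [Field k] (a : ℕ) [NeZero a]
    (p : PowerSeries k) :
    qExpand k a (HahnSeries.ofPowerSeries ℤ k p) =
      HahnSeries.ofPowerSeries ℤ k (PowerSeries.expand a (NeZero.ne a) p) := by
  ext n
  by_cases hd : (a : ℤ) ∣ n
  · obtain ⟨m, rfl⟩ := hd
    rw [qExpand_coeff_mul]
    rcases lt_or_ge m 0 with h | h
    · have ha : (0 : ℤ) < a := by exact_mod_cast Nat.pos_of_ne_zero (NeZero.ne a)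
      rw [ofPowerSeries_coeff_of_neg _ h,
        ofPowerSeries_coeff_of_neg _ (mul_neg_of_pos_of_neg ha h)]
    · obtain ⟨j, rfl⟩ := Int.eq_ofNat_of_zero_le h
      rw [HahnSeries.ofPowerSeries_apply_coeff,
        show (a : ℤ) * (j : ℤ) = ((a * j : ℕ) : ℤ) by push_cast; ring,
        HahnSeries.ofPowerSeries_apply_coeff, PowerSeries.coeff_expand_mul]
  · rw [qExpand_coeff_of_not_dvd _ _ hd]
    rcases lt_or_ge n 0 with h | h
    · rw [ofPowerSeries_coeff_of_neg _ h]
    · obtain ⟨j, rfl⟩ := Int.eq_ofNat_of_zero_le h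
      rw [HahnSeries.ofPowerSeries_apply_coeff, PowerSeries.coeff_expand_of_not_dvd]
      exact fun hh => hd (Int.natCast_dvd_natCast.mpr hh)

/-- `Δ = y * E^24`. -/
theorem etaProd_deltaC_eq (k : Type*) [Field k] :
    deltaC k = HahnSeries.single (1 : ℤ) (1 : k) *
      HahnSeries.ofPowerSeries ℤ k (etaProd_E k ^ 24) := by
  rw [deltaC, dedekindEtaUnit, map_pow, etaProd_E]

theorem etaProd_prod_single {k : Type*} [Field k] {ι : Type*} (s : Finset ι) (c : ι → k) :
    ∏ b ∈ s, HahnSeries.single (1 : ℤ) (c b) =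
      HahnSeries.single (s.card : ℤ) (∏ b ∈ s, c b) := by
  classical
  induction s using Finset.induction_on with
  | empty => simp
  | insert a s ha ih =>
    rw [Finset.prod_insert ha, Finset.prod_insert ha, ih, HahnSeries.single_mul_single,
      Finset.card_insert_of_notMem ha, Nat.cast_add, Nat.cast_one, add_comm (1 : ℤ)]

theorem etaProd_main (k : Type) [Field k] (r : ℕ) [NeZero r] (hr : r.Prime) (ζ : k)
    (hζ : IsPrimitiveRoot ζ r) :
    ∃ ε : k, ε ≠ 0 ∧
      (∏ b ∈ Finset.range r, scale (ζ ^ b) (deltaC k)) * qExpand k (r * r) (deltaC k) =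
        HahnSeries.C ε * qExpand k r (deltaC k) ^ (r + 1) := by
  let _ : TopologicalSpace k := ⊥
  have _ : DiscreteTopology k := ⟨rfl⟩
  have hps := etaProd_ps_main r hr ζ hζ
  refine ⟨∏ b ∈ Finset.range r, ζ ^ b, ?_, ?_⟩
  · exact Finset.prod_ne_zero_iff.mpr fun b _ => pow_ne_zero _ (hζ.ne_zero hr.ne_zero)
  · have hL1 : ∏ b ∈ Finset.range r, scale (ζ ^ b) (deltaC k) =
        HahnSeries.single (r : ℤ) (∏ b ∈ Finset.range r, ζ ^ b) *
          HahnSeries.ofPowerSeries ℤ k
            ((∏ b ∈ Finset.range r, PowerSeries.rescale (ζ ^ b) (etaProd_E k)) ^ 24) := by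
      rw [etaProd_deltaC_eq]
      simp_rw [etaProd_scale_single_mul]
      rw [Finset.prod_mul_distrib, etaProd_prod_single, Finset.card_range, ← map_prod]
      congr 2
      rw [← Finset.prod_pow]
      exact Finset.prod_congr rfl fun b _ => map_pow _ _ _
    have hL2 : qExpand k (r * r) (deltaC k) = HahnSeries.single ((r : ℤ) * r) (1 : k) *
        HahnSeries.ofPowerSeries ℤ k
          ((PowerSeries.expand (r * r) (Nat.mul_ne_zero hr.ne_zero hr.ne_zero)
            (etaProd_E k)) ^ 24) := by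
      rw [etaProd_deltaC_eq, map_mul, qExpand_single, etaProd_qExpand_ofPowerSeries, map_pow,
        mul_one]
      push_cast
      rfl
    have hR : qExpand k r (deltaC k) = HahnSeries.single (r : ℤ) (1 : k) *
        HahnSeries.ofPowerSeries ℤ k ((PowerSeries.expand r hr.ne_zero (etaProd_E k)) ^ 24) := by
      rw [etaProd_deltaC_eq, map_mul, qExpand_single, etaProd_qExpand_ofPowerSeries, map_pow,
        mul_one]
    have hs : HahnSeries.single (r : ℤ) (∏ b ∈ Finset.range r, ζ ^ b) *
        HahnSeries.single ((r : ℤ) * r) (1 : k) =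
        HahnSeries.C (∏ b ∈ Finset.range r, ζ ^ b) *
          HahnSeries.single ((r + 1) • (r : ℤ)) (1 : k) := by
      rw [HahnSeries.C_apply, HahnSeries.single_mul_single, HahnSeries.single_mul_single,
        show (0 : ℤ) + (r + 1) • (r : ℤ) = (r : ℤ) + r * r by
          rw [nsmul_eq_mul]
          push_cast
          ring]
    have hP : HahnSeries.ofPowerSeries ℤ k
          ((PowerSeries.expand r hr.ne_zero (etaProd_E k)) ^ 24) ^ (r + 1) =
        HahnSeries.ofPowerSeries ℤ k
            ((∏ b ∈ Finset.range r, PowerSeries.rescale (ζ ^ b) (etaProd_E k)) ^ 24) *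
          HahnSeries.ofPowerSeries ℤ k
            ((PowerSeries.expand (r * r) (Nat.mul_ne_zero hr.ne_zero hr.ne_zero)
              (etaProd_E k)) ^ 24) := by
      rw [← map_pow, ← map_mul, ← mul_pow, hps, ← pow_mul, ← pow_mul, mul_comm]
    rw [hL1, hL2, hR, mul_pow, HahnSeries.single_pow, one_pow, hP, mul_mul_mul_comm, hs,
      mul_assoc]

theorem etaProd_delta_ne (k : Type) [Field k] (r : ℕ) [NeZero r] (hr : 2 ≤ r)
    (hrk : (r : k) ≠ 0) :
    qExpand k r (deltaC k) ≠ deltaC k ^ r := by
  intro h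
  rw [etaProd_deltaC_eq, map_mul, qExpand_single, etaProd_qExpand_ofPowerSeries, mul_pow,
    HahnSeries.single_pow, one_pow, ← map_pow, mul_one, nsmul_eq_mul, mul_one] at h
  have hne : (HahnSeries.single (r : ℤ) (1 : k)) ≠ 0 := HahnSeries.single_ne_zero one_ne_zero
  exact etaProd_expand_ne k r (NeZero.ne r) hr hrk
    (HahnSeries.ofPowerSeries_injective (mul_left_cancel₀ hne h))

end

end Fermat.Agent.S28
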