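/-
S28 / block ChartKernel (twin A) — package KA/BClosed (K5a):
`B_t = ℚ[t]` is integrally closed in `K0 = ℚ(jq)`, for `t = jq` and `t = jq⁻¹`.
-/
import Fermat.Agent.S28.KAInterfaces

set_option autoImplicit false

open ModularCurve ModularCurve.IgusaScheme

namespace Fermat.Agent.S28

noncomputable section

/-- A monic polynomial over `B_t` lifts to a monic polynomial over `ℚ[T]` with the same value
at any point of `L`. -/
theorem ka_bclosedt_lift_monic (t c : LaurentSeries ℚ) (P : Polynomial ↥(ka_B t))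
    (hP : P.Monic) (hPc : Polynomial.eval₂ (algebraMap ↥(ka_B t) (LaurentSeries ℚ)) c P = 0) :
    ∃ Q : Polynomial (Polynomial ℚ), Q.Monic ∧ Polynomial.eval₂ (evalL t) c Q = 0 := by
  have hlift : P.map (ka_B t).subtype ∈ Polynomial.lifts (evalL t) := by
    rw [Polynomial.lifts_iff_coeff_lifts]
    intro n
    rw [Polynomial.coeff_map]
    exact (P.coeff n).2
  obtain ⟨Q, hQ, -, hQmonic⟩ :=
    Polynomial.lifts_and_natDegree_eq_and_monic hlift (hP.map _)
  refine ⟨Q, hQmonic, ?_⟩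
  have h1 : Polynomial.eval₂ (evalL t) c Q =
      Polynomial.eval₂ (RingHom.id (LaurentSeries ℚ)) c (Q.map (evalL t)) := by
    rw [Polynomial.eval₂_map, RingHom.id_comp]
  rw [h1, hQ, Polynomial.eval₂_map, RingHom.id_comp]
  exact hPc

/-- GENERIC LEMMA: if `evalL t` is injective, then a quotient `r(t) / s(t)` which is integral
over `B_t = ℚ[t]` lies in `B_t` (`ℚ[T]` is integrally closed). -/
theorem ka_bclosedt_generic (t : LaurentSeries ℚ)
    (hinj : ∀ p : Polynomial ℚ, evalL t p = 0 → p = 0)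
    (c : LaurentSeries ℚ) (r s : Polynomial ℚ) (hc : c = evalL t r / evalL t s)
    (hint : IsIntegral ↥(ka_B t) c) : c ∈ ka_B t := by
  have hφ : Function.Injective (evalL t) := (injective_iff_map_eq_zero _).mpr hinj
  by_cases hs : evalL t s = 0
  · rw [hc, hs, div_zero]; exact zero_mem _
  have hψ : ∀ p : Polynomial ℚ,
      (IsFractionRing.lift hφ : FractionRing (Polynomial ℚ) →+* LaurentSeries ℚ)
        (algebraMap (Polynomial ℚ) (FractionRing (Polynomial ℚ)) p) = evalL t p :=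
    IsFractionRing.lift_algebraMap hφ
  have hz : (IsFractionRing.lift hφ : FractionRing (Polynomial ℚ) →+* LaurentSeries ℚ)
      (algebraMap (Polynomial ℚ) (FractionRing (Polynomial ℚ)) r /
        algebraMap (Polynomial ℚ) (FractionRing (Polynomial ℚ)) s) = c := by
    rw [hc, map_div₀, hψ, hψ]
  obtain ⟨P, hP, hPc⟩ := hint
  obtain ⟨Q, hQmonic, hQc⟩ := ka_bclosedt_lift_monic t c P hP hPc
  have hcomp : (IsFractionRing.lift hφ : FractionRing (Polynomial ℚ) →+* LaurentSeries ℚ).comp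
      (algebraMap (Polynomial ℚ) (FractionRing (Polynomial ℚ))) = evalL t :=
    RingHom.ext hψ
  have hzint : IsIntegral (Polynomial ℚ)
      (algebraMap (Polynomial ℚ) (FractionRing (Polynomial ℚ)) r /
        algebraMap (Polynomial ℚ) (FractionRing (Polynomial ℚ)) s) := by
    refine ⟨Q, hQmonic, ?_⟩
    apply (IsFractionRing.lift hφ : FractionRing (Polynomial ℚ) →+* LaurentSeries ℚ).injective
    rw [Polynomial.hom_eval₂, map_zero, hz, hcomp]
    exact hQc
  obtain ⟨y, hy⟩ := IsIntegrallyClosed.algebraMap_eq_of_integral hzint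
  exact ⟨y, by rw [← hψ, hy, hz]⟩

/-- `jq⁻¹` is transcendental over `ℚ` (polynomial form), given that `jq` is. -/
theorem ka_bclosedt_inv_inj (hT : ka_TransStatement) :
    ∀ p : Polynomial ℚ, evalL jq⁻¹ p = 0 → p = 0 := by
  have h1 : Transcendental ℚ jq := by
    rw [transcendental_iff]
    intro p hp
    exact hT p (by rw [ka_evalL_eq_aeval]; exact hp)
  have h2 : Transcendental ℚ jq⁻¹ := fun h => h1 (IsAlgebraic.inv_iff.mp h)
  rw [transcendental_iff] at h2
  intro p hp
  exact h2 p (by rw [← ka_evalL_eq_aeval]; exact hp)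

/-- Elements of `K0 = ℚ(jq)` are quotients of polynomials in `jq`. -/
theorem ka_bclosedt_frac (c : LaurentSeries ℚ) (hc : c ∈ ka_K0) :
    ∃ r s : Polynomial ℚ, c = evalL jq r / evalL jq s := by
  obtain ⟨r, s, h⟩ := (IntermediateField.mem_adjoin_simple_iff ℚ c).mp hc
  exact ⟨r, s, by rw [ka_evalL_eq_aeval, ka_evalL_eq_aeval]; exact h⟩

/-- `ℚ(jq) ≤ ℚ(jq⁻¹)`. -/
theorem ka_bclosedt_K0_le :
    ka_K0 ≤ IntermediateField.adjoin ℚ {(jq⁻¹ : LaurentSeries ℚ)} := by
  rw [IntermediateField.adjoin_simple_le_iff]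
  have h : (jq⁻¹ : LaurentSeries ℚ)⁻¹ ∈ IntermediateField.adjoin ℚ {(jq⁻¹ : LaurentSeries ℚ)} :=
    inv_mem (IntermediateField.mem_adjoin_simple_self ℚ _)
  rwa [inv_inv] at h

/-- Elements of `K0 = ℚ(jq)` are quotients of polynomials in `jq⁻¹`. -/
theorem ka_bclosedt_frac_inv (c : LaurentSeries ℚ) (hc : c ∈ ka_K0) :
    ∃ r s : Polynomial ℚ, c = evalL jq⁻¹ r / evalL jq⁻¹ s := by
  obtain ⟨r, s, h⟩ :=
    (IntermediateField.mem_adjoin_simple_iff ℚ c).mp (ka_bclosedt_K0_le hc)
  exact ⟨r, s, by rw [ka_evalL_eq_aeval, ka_evalL_eq_aeval]; exact h⟩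

/-- (K5a) `B_t = ℚ[t]` is integrally closed in `K0`, for `t = jq` and `t = jq⁻¹`. -/
theorem ka_bclosedt_main : ka_TransStatement → ka_BClosedStatement := by
  intro hT t ht c hc hint
  rcases ht with rfl | rfl
  · obtain ⟨r, s, h⟩ := ka_bclosedt_frac c hc
    exact ka_bclosedt_generic jq hT c r s h hint
  · obtain ⟨r, s, h⟩ := ka_bclosedt_frac_inv c hc
    exact ka_bclosedt_generic jq⁻¹ (ka_bclosedt_inv_inj hT) c r s h hint

end

end Fermat.Agent.S28
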