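/-
S28 / block ChartKernel (twin A) — package KA/Basis (file `KABasisT`).

(K1)+(K2): for a family `m` as in `DegStatement`, every `x ∈ F = modularFunctionFieldFull N`
satisfies a normalised relation `g(j) * x = ∑ f_i(j) * cQ (m_i)` with `g ≠ 0` and
`(g, f_0, …)` not all divisible by `ℓ`.
-/
import Fermat.Agent.S28.KAInterfaces

set_option autoImplicit false

open ModularCurve ModularCurve.IgusaScheme

namespace Fermat.Agent.S28

noncomputable section

/-- Step 1: more than `ψ(N)` elements of `F` satisfy a nontrivial linear relation with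
coefficients in `K0 = ℚ(jq)`. -/
theorem ka_basist_rel (hC : Char0DegStatement) (N : ℕ) [NeZero N] (s : ℕ)
    (hs : dedekindPsi N < s) (v : Fin s → LaurentSeries ℚ)
    (hv : ∀ i, v i ∈ modularFunctionFieldFull N) :
    ∃ c : Fin s → LaurentSeries ℚ,
      (∀ i, c i ∈ ka_K0) ∧ ∑ i, c i * v i = 0 ∧ ∃ i, c i ≠ 0 := by
  have hnot : ¬ LinearIndependent ↥ka_K0 v := fun h =>
    absurd (hC N s v hv h) (not_le.mpr hs)
  rw [Fintype.not_linearIndependent_iff] at hnot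
  obtain ⟨g, hg, i, hi⟩ := hnot
  refine ⟨fun i => (g i : LaurentSeries ℚ), fun i => (g i).2, ?_, i, ?_⟩
  · rw [← hg]
    exact Finset.sum_congr rfl fun i _ => rfl
  · exact fun h => hi (Subtype.ext h)

/-- Step 2: clearing denominators in a `K0`-linear relation gives a `ℤ[j]`-linear relation. -/
theorem ka_basist_clear (hT : ka_TransStatement) (hF : ka_FracStatement) {s : ℕ}
    (c v : Fin s → LaurentSeries ℚ) (hc : ∀ i, c i ∈ ka_K0)
    (hsum : ∑ i, c i * v i = 0) (hne : ∃ i, c i ≠ 0) :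
    ∃ P : Fin s → Polynomial ℤ, ∑ i, ka_ev (P i) * v i = 0 ∧ ∃ i, P i ≠ 0 := by
  classical
  choose ff gg hgg hfg using fun i => hF (c i) (hc i)
  have hG : (∏ i, gg i) ≠ 0 := Finset.prod_ne_zero_iff.mpr fun i _ => hgg i
  have key : ∀ i, ka_ev (∏ k, gg k) * c i
      = ka_ev (ff i * ∏ k ∈ Finset.univ.erase i, gg k) := by
    intro i
    rw [← Finset.mul_prod_erase Finset.univ gg (Finset.mem_univ i), map_mul, map_mul,
      mul_right_comm, hfg i]
  refine ⟨fun i => ff i * ∏ k ∈ Finset.univ.erase i, gg k, ?_, ?_⟩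
  · have h1 : ∑ i, ka_ev (ff i * ∏ k ∈ Finset.univ.erase i, gg k) * v i
        = ∑ i, ka_ev (∏ k, gg k) * (c i * v i) := by
      refine Finset.sum_congr rfl fun i _ => ?_
      rw [← key i, mul_assoc]
    rw [h1, ← Finset.mul_sum, hsum, mul_zero]
  · obtain ⟨i, hi⟩ := hne
    refine ⟨i, fun h => ?_⟩
    have h' : ff i * ∏ k ∈ Finset.univ.erase i, gg k = 0 := h
    have h2 := key i
    rw [h', map_zero] at h2
    exact mul_ne_zero (ka_ev_ne_zero hT hG) hi h2

/-- Step 3: removing the common `ℓ`-content of the coefficients of a `ℤ[j]`-linear relation. -/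
theorem ka_basist_content (hT : ka_TransStatement) (ℓ : ℕ) [Fact ℓ.Prime] {s : ℕ}
    (P : Fin s → Polynomial ℤ) (v : Fin s → LaurentSeries ℚ)
    (hsum : ∑ i, ka_ev (P i) * v i = 0) (hne : ∃ i, P i ≠ 0) :
    ∃ P' : Fin s → Polynomial ℤ,
      ∑ i, ka_ev (P' i) * v i = 0 ∧ ¬ ∀ i, Polynomial.C (ℓ : ℤ) ∣ P' i := by
  obtain ⟨e, P', hP', hnd⟩ := ka_content_removal ℓ P hne
  refine ⟨P', ?_, hnd⟩
  have hℓ : Polynomial.C (ℓ : ℤ) ^ e ≠ 0 := pow_ne_zero _ (ka_prime_C ℓ).ne_zero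
  have h0 : ka_ev (Polynomial.C (ℓ : ℤ) ^ e) ≠ 0 := ka_ev_ne_zero hT hℓ
  have h1 : ka_ev (Polynomial.C (ℓ : ℤ) ^ e) * ∑ i, ka_ev (P' i) * v i = 0 := by
    rw [Finset.mul_sum, ← hsum]
    refine Finset.sum_congr rfl fun i _ => ?_
    rw [hP' i, map_mul, mul_assoc]
  exact (mul_eq_zero.mp h1).resolve_left h0

/-- Step 5: a `ℤ[j]`-linear relation among the `cQ (m i)` has all coefficients divisible
by `ℓ` (in fact they vanish, but this is what `ka_DegProp` gives directly). -/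
theorem ka_basist_indep (N : ℕ) (ℓ : ℕ) (m : Fin (dedekindPsi N) → LaurentSeries ℤ)
    (hm : ka_DegProp N ℓ m) (f : Fin (dedekindPsi N) → Polynomial ℤ)
    (h : ∑ i, ka_ev (f i) * ka_cQ (m i) = 0) :
    ∀ i, Polynomial.C (ℓ : ℤ) ∣ f i := by
  have h1 : ka_cQ (∑ i, evalL (jqModC ℤ) (f i) * m i) = 0 := by
    rw [map_sum, ← h]
    refine Finset.sum_congr rfl fun i _ => ?_
    rw [map_mul, ka_ev_eq_cQ]
  have h2 : ∑ i, evalL (jqModC ℤ) (f i) * m i = 0 :=
    ka_cQ_injective (h1.trans (map_zero _).symm)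
  intro i
  rw [ka_C_dvd_iff]
  refine hm.2 f (fun n => ?_) i
  rw [h2, HahnSeries.coeff_zero]
  exact dvd_zero _

/-- Step 4: splitting off the last term of a normalised relation for the family
`Fin.snoc b x`. -/
theorem ka_basist_split (ℓ : ℕ) {ψ : ℕ} (b : Fin ψ → LaurentSeries ℚ) (x : LaurentSeries ℚ)
    (P' : Fin (ψ + 1) → Polynomial ℤ)
    (hsum : ∑ i, ka_ev (P' i) * (Fin.snoc b x : Fin (ψ + 1) → LaurentSeries ℚ) i = 0)
    (hnd : ¬ ∀ i, Polynomial.C (ℓ : ℤ) ∣ P' i) :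
    ∃ (g : Polynomial ℤ) (f : Fin ψ → Polynomial ℤ),
      ¬ (Polynomial.C (ℓ : ℤ) ∣ g ∧ ∀ i, Polynomial.C (ℓ : ℤ) ∣ f i) ∧
      ka_ev g * x = ∑ i, ka_ev (f i) * b i := by
  refine ⟨P' (Fin.last ψ), fun i => -(P' (Fin.castSucc i)), ?_, ?_⟩
  · rintro ⟨h1, h2⟩
    refine hnd fun i => ?_
    refine Fin.lastCases h1 (fun j => ?_) i
    exact dvd_neg.mp (h2 j)
  · rw [Fin.sum_univ_castSucc] at hsum
    simp only [Fin.snoc_castSucc, Fin.snoc_last] at hsum
    simp only [map_neg, neg_mul, Finset.sum_neg_distrib]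
    exact eq_neg_of_add_eq_zero_right hsum

/-- (K1)+(K2): the normalised relation over the family `m`. -/
theorem ka_basist_main :
    ka_TransStatement → ka_FracStatement → Char0DegStatement → ka_BasisStatement := by
  intro hT hF hC N _ ℓ _ m hm x hx
  have hv : ∀ i, (Fin.snoc (fun i => ka_cQ (m i)) x :
      Fin (dedekindPsi N + 1) → LaurentSeries ℚ) i ∈ modularFunctionFieldFull N := by
    intro i
    refine Fin.lastCases ?_ (fun j => ?_) i
    · rw [Fin.snoc_last]; exact hx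
    · rw [Fin.snoc_castSucc]; exact hm.1 j
  obtain ⟨c, hc, hsum, hne⟩ :=
    ka_basist_rel hC N (dedekindPsi N + 1) (Nat.lt_succ_self _) _ hv
  obtain ⟨P, hP, hPne⟩ := ka_basist_clear hT hF c _ hc hsum hne
  obtain ⟨P', hP', hnd⟩ := ka_basist_content hT ℓ P _ hP hPne
  obtain ⟨g, f, hnorm, heq⟩ := ka_basist_split ℓ _ x P' hP' hnd
  refine ⟨g, f, fun hg0 => ?_, hnorm, heq⟩
  rw [hg0, map_zero, zero_mul] at heq
  exact hnorm ⟨hg0 ▸ dvd_zero _, ka_basist_indep N ℓ m hm f heq.symm⟩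

end

end Fermat.Agent.S28
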