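/-
S28 / block ChartKernel (twin A) — package Transport (sub-lead's own version):
membership in the chart algebra of one generator `s` is integrality over `A_s = ℤ_(ℓ)[s] ⊆ L`.
-/
import Fermat.Agent.S28.KAInterfaces

set_option autoImplicit false

open ModularCurve ModularCurve.IgusaScheme

namespace Fermat.Agent.S28

noncomputable section

variable (N : ℕ) (ℓ : ℕ)

/-- The coercion of `algebraMap ℤ_(ℓ) F r` to `L` is the constant series. -/
theorem ka_xtransport_coe_algebraMap (r : ↥(GaloisRep.ratLocalizedAt ℓ)) :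
    ((algebraMap ↥(GaloisRep.ratLocalizedAt ℓ) ↥(modularFunctionFieldFull N) r :
      ↥(modularFunctionFieldFull N)) : LaurentSeries ℚ) = HahnSeries.C (r : ℚ) := by
  rw [← ka_algebraMap_eq_C]
  show ((algebraMap ℚ ↥(modularFunctionFieldFull N) (r : ℚ) : ↥(modularFunctionFieldFull N)) :
    LaurentSeries ℚ) = _
  simp only [eq_ratCast, SubfieldClass.coe_ratCast]

/-- The coercion of `aeval s p` to `L`. -/
theorem ka_xtransport_coe_aeval (s : ↥(modularFunctionFieldFull N))
    (p : Polynomial ↥(GaloisRep.ratLocalizedAt ℓ)) :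
    ((Polynomial.aeval s p : ↥(modularFunctionFieldFull N)) : LaurentSeries ℚ) =
      evalL (s : LaurentSeries ℚ) (p.map (GaloisRep.ratLocalizedAt ℓ).subtype) := by
  have h : (algebraMap ↥(modularFunctionFieldFull N) (LaurentSeries ℚ)).comp
        (Polynomial.aeval s :
          Polynomial ↥(GaloisRep.ratLocalizedAt ℓ) →ₐ[↥(GaloisRep.ratLocalizedAt ℓ)] _).toRingHom =
      (evalL (s : LaurentSeries ℚ)).comp
        (Polynomial.mapRingHom (GaloisRep.ratLocalizedAt ℓ).subtype) := by
    refine Polynomial.ringHom_ext (fun a => ?_) ?_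
    · have h1 := ka_xtransport_coe_algebraMap N ℓ a
      simp only [RingHom.comp_apply, AlgHom.toRingHom_eq_coe, RingHom.coe_coe, Polynomial.aeval_C,
        Polynomial.coe_mapRingHom, Polynomial.map_C]
      rw [show evalL (s : LaurentSeries ℚ) (Polynomial.C ((GaloisRep.ratLocalizedAt ℓ).subtype a))
        = HahnSeries.C (a : ℚ) by simp [evalL]]
      exact h1
    · simp only [RingHom.comp_apply, AlgHom.toRingHom_eq_coe, RingHom.coe_coe, Polynomial.aeval_X,
        Polynomial.coe_mapRingHom, Polynomial.map_X]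
      rw [show evalL (s : LaurentSeries ℚ) Polynomial.X = (s : LaurentSeries ℚ) by simp [evalL]]
      rfl
  exact congrArg (fun f : Polynomial ↥(GaloisRep.ratLocalizedAt ℓ) →+* LaurentSeries ℚ => f p) h

/-- (a) The coercion to `L` of an element of `ℤ_(ℓ)[s] ⊆ F` lies in `A_s`. -/
theorem ka_xtransport_coe_mem (s : ↥(modularFunctionFieldFull N))
    (a : ↥(modularFunctionFieldFull N))
    (ha : a ∈ Algebra.adjoin ↥(GaloisRep.ratLocalizedAt ℓ) ({s} : Set ↥(modularFunctionFieldFull N))) :
    (a : LaurentSeries ℚ) ∈ ka_A ℓ (s : LaurentSeries ℚ) := by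
  rw [Algebra.adjoin_singleton_eq_range_aeval] at ha
  obtain ⟨p, rfl⟩ := ha
  exact ⟨p, (ka_xtransport_coe_aeval N ℓ s p).symm⟩

/-- (b) Every element of `A_s` is the coercion of an element of `ℤ_(ℓ)[s] ⊆ F`. -/
theorem ka_xtransport_exists_coe (s : ↥(modularFunctionFieldFull N)) (c : LaurentSeries ℚ)
    (hc : c ∈ ka_A ℓ (s : LaurentSeries ℚ)) :
    ∃ a : ↥(Algebra.adjoin ↥(GaloisRep.ratLocalizedAt ℓ)
        ({s} : Set ↥(modularFunctionFieldFull N))),
      ((a : ↥(modularFunctionFieldFull N)) : LaurentSeries ℚ) = c := by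
  obtain ⟨p, rfl⟩ := hc
  refine ⟨⟨Polynomial.aeval s p, ?_⟩, ka_xtransport_coe_aeval N ℓ s p⟩
  rw [Algebra.adjoin_singleton_eq_range_aeval]
  exact ⟨p, rfl⟩

theorem ka_xtransport_main : ka_TransportStatement := by
  intro N _ ℓ _ s x
  rw [mem_chartAlg_iff]
  constructor
  · intro hx
    -- the restriction of the coercion `F → L` to `ℤ_(ℓ)[s] → A_s`
    let φ : ↥(Algebra.adjoin ↥(GaloisRep.ratLocalizedAt ℓ)
        ({s} : Set ↥(modularFunctionFieldFull N))) →+* ↥(ka_A ℓ (s : LaurentSeries ℚ)) :=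
      { toFun := fun a => ⟨((a : ↥(modularFunctionFieldFull N)) : LaurentSeries ℚ),
          ka_xtransport_coe_mem N ℓ s a a.2⟩
        map_one' := rfl
        map_mul' := fun _ _ => rfl
        map_zero' := rfl
        map_add' := fun _ _ => rfl }
    exact hx.map_of_comp_eq φ (algebraMap ↥(modularFunctionFieldFull N) (LaurentSeries ℚ))
      (RingHom.ext fun _ => rfl)
  · rintro ⟨P, hPmonic, hProot⟩
    set A := Algebra.adjoin ↥(GaloisRep.ratLocalizedAt ℓ)
        ({s} : Set ↥(modularFunctionFieldFull N)) with hA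
    let ι : ↥(modularFunctionFieldFull N) →+* LaurentSeries ℚ :=
      algebraMap ↥(modularFunctionFieldFull N) (LaurentSeries ℚ)
    let ι' : ↥A →+* LaurentSeries ℚ := ι.comp (algebraMap ↥A ↥(modularFunctionFieldFull N))
    set q : Polynomial (LaurentSeries ℚ) := P.map (ka_A ℓ (s : LaurentSeries ℚ)).subtype with hq
    have hqmonic : q.Monic := hPmonic.map _
    have hqroot : q.eval (x : LaurentSeries ℚ) = 0 := by
      rw [hq, Polynomial.eval_map]; exact hProot
    have hlifts : q ∈ Polynomial.lifts ι' := by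
      rw [Polynomial.lifts_iff_coeff_lifts]
      intro n
      obtain ⟨a, ha⟩ := ka_xtransport_exists_coe N ℓ s (q.coeff n) (by
        rw [hq, Polynomial.coeff_map]; exact (P.coeff n).2)
      exact ⟨a, ha⟩
    obtain ⟨q₀, hq₀, -, hq₀monic⟩ := Polynomial.lifts_and_natDegree_eq_and_monic hlifts hqmonic
    refine ⟨q₀, hq₀monic, ?_⟩
    have hinj : Function.Injective ι := Subtype.val_injective
    apply hinj
    rw [map_zero, Polynomial.hom_eval₂, ← Polynomial.eval_map]
    show Polynomial.eval (x : LaurentSeries ℚ) (q₀.map ι') = 0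
    rw [hq₀]; exact hqroot

end

end Fermat.Agent.S28
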