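/-
S28, block ChartKernel (twin B), package `Basis` (K1+K2), prefix `kb_basis_`.

The family `m` of `DegStatement` maps (under the coefficientwise cast to `LaurentSeries ℚ`) to a
`ℚ(j)`-basis of the function field `F`: it is linearly independent over `K0 = ℚ(j)` (K1), and it
spans `F` because `[F : K0] ≤ ψ(N)` (K2).
-/
import Fermat.Agent.S28.KBInterfaces

set_option autoImplicit false

open ModularCurve ModularCurve.IgusaScheme

namespace Fermat.Agent.S28

noncomputable section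

/-- The coefficientwise cast `LaurentSeries ℤ → LaurentSeries ℚ` is injective. -/
theorem kb_basis_cQ_injective :
    Function.Injective (coeffMap (Int.castRingHom ℚ) : LaurentSeries ℤ → LaurentSeries ℚ) := by
  intro x y h
  ext n
  have h' := congrArg (fun s : LaurentSeries ℚ => s.coeff n) h
  simp only [coeffMap_coeff] at h'
  exact Int.cast_injective h'

/-- (★) A `ℤ[j]`-linear combination of the images of integral series is the image of the integral
linear combination. -/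
theorem kb_basis_star (hT3 : kb_EvCoeStatement) {ψ : ℕ} (m : Fin ψ → LaurentSeries ℤ)
    (f : Fin ψ → Polynomial ℤ) :
    ∑ i, ((kb_evK (f i) : ↥kb_K0) : LaurentSeries ℚ) * coeffMap (Int.castRingHom ℚ) (m i) =
      coeffMap (Int.castRingHom ℚ) (∑ i, evalL (jqModC ℤ) (f i) * m i) := by
  rw [map_sum]
  refine Finset.sum_congr rfl fun i _ => ?_
  rw [map_mul, hT3]

/-- An integer polynomial divisible by all powers of `ℓ` vanishes. -/
theorem kb_basis_eq_zero_of_pow_dvd (ℓ : ℕ) [Fact ℓ.Prime] (p : Polynomial ℤ)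
    (h : ∀ k : ℕ, Polynomial.C (ℓ : ℤ) ^ k ∣ p) : p = 0 := by
  ext n
  rw [Polynomial.coeff_zero]
  by_contra hne
  have hk := h (p.coeff n).natAbs
  rw [← Polynomial.C_pow, Polynomial.C_dvd_iff_dvd_coeff] at hk
  have h1 := Int.natAbs_dvd_natAbs.mpr (hk n)
  rw [Int.natAbs_pow, Int.natAbs_natCast] at h1
  have h2 := Nat.le_of_dvd (Int.natAbs_pos.mpr hne) h1
  have h3 := Nat.lt_pow_self (Fact.out : ℓ.Prime).one_lt (n := (p.coeff n).natAbs)
  omega

/-- Descent step: a vanishing integral relation has all its polynomial coefficients divisible by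
every power of `ℓ`. -/
theorem kb_basis_pow_dvd (ℓ : ℕ) [Fact ℓ.Prime] {ψ : ℕ} (m : Fin ψ → LaurentSeries ℤ)
    (hdeg : ∀ f : Fin ψ → Polynomial ℤ,
      (∀ n : ℤ, (ℓ : ℤ) ∣ (∑ i, evalL (jqModC ℤ) (f i) * m i).coeff n) →
      ∀ (i : Fin ψ) (n : ℕ), (ℓ : ℤ) ∣ (f i).coeff n) (k : ℕ) :
    ∀ f : Fin ψ → Polynomial ℤ, ∑ i, evalL (jqModC ℤ) (f i) * m i = 0 →
      ∀ i, Polynomial.C (ℓ : ℤ) ^ k ∣ f i := by
  induction k with
  | zero => intro f _ i; simp
  | succ k ih =>
    intro f hf i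
    have hdvd : ∀ i, Polynomial.C (ℓ : ℤ) ∣ f i := by
      intro i
      rw [Polynomial.C_dvd_iff_dvd_coeff]
      refine hdeg f (fun n => ?_) i
      rw [hf]
      simp
    choose f' hf' using hdvd
    have hℓ : (HahnSeries.C (ℓ : ℤ) : LaurentSeries ℤ) ≠ 0 :=
      HahnSeries.C_ne_zero (Int.natCast_ne_zero.mpr (Fact.out : ℓ.Prime).ne_zero)
    have hsum : (HahnSeries.C (ℓ : ℤ) : LaurentSeries ℤ) * ∑ i, evalL (jqModC ℤ) (f' i) * m i = 0 := by
      rw [← hf, Finset.mul_sum]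
      refine Finset.sum_congr rfl fun i _ => ?_
      rw [hf' i, map_mul, mul_assoc]
      congr 1
      simp [evalL]
    have hsum' : ∑ i, evalL (jqModC ℤ) (f' i) * m i = 0 :=
      (mul_eq_zero.mp hsum).resolve_left hℓ
    rw [hf' i, pow_succ']
    exact mul_dvd_mul_left _ (ih f' hsum' i)

/-- Step 1: integral relations between the `m i` over `ℤ[j]` are trivial. -/
theorem kb_basis_step1 (ℓ : ℕ) [Fact ℓ.Prime] {ψ : ℕ} (m : Fin ψ → LaurentSeries ℤ)
    (hdeg : ∀ f : Fin ψ → Polynomial ℤ,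
      (∀ n : ℤ, (ℓ : ℤ) ∣ (∑ i, evalL (jqModC ℤ) (f i) * m i).coeff n) →
      ∀ (i : Fin ψ) (n : ℕ), (ℓ : ℤ) ∣ (f i).coeff n)
    (f : Fin ψ → Polynomial ℤ) (hf : ∑ i, evalL (jqModC ℤ) (f i) * m i = 0) : ∀ i, f i = 0 :=
  fun i => kb_basis_eq_zero_of_pow_dvd ℓ (f i) fun k => kb_basis_pow_dvd ℓ m hdeg k f hf i

/-- Step 2 (K1): the images of the `m i` are linearly independent over `K0 = ℚ(j)`. -/
theorem kb_basis_linearIndependent (hT1 : kb_TranscStatement) (hT2 : kb_FracStatement)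
    (hT3 : kb_EvCoeStatement) (ℓ : ℕ) [Fact ℓ.Prime] {ψ : ℕ} (m : Fin ψ → LaurentSeries ℤ)
    (hdeg : ∀ f : Fin ψ → Polynomial ℤ,
      (∀ n : ℤ, (ℓ : ℤ) ∣ (∑ i, evalL (jqModC ℤ) (f i) * m i).coeff n) →
      ∀ (i : Fin ψ) (n : ℕ), (ℓ : ℤ) ∣ (f i).coeff n) :
    LinearIndependent ↥kb_K0 (fun i => coeffMap (Int.castRingHom ℚ) (m i)) := by
  rw [Fintype.linearIndependent_iff]
  intro c hc i
  obtain ⟨g, f, hg, hgf⟩ := hT2 ψ c
  have hrel : ∑ i, ((kb_evK (f i) : ↥kb_K0) : LaurentSeries ℚ) * coeffMap (Int.castRingHom ℚ) (m i)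
      = 0 := by
    have h1 : ∑ i, ((kb_evK (f i) : ↥kb_K0) : LaurentSeries ℚ) * coeffMap (Int.castRingHom ℚ) (m i)
        = ((kb_evK g : ↥kb_K0) : LaurentSeries ℚ) *
          ∑ i, c i • coeffMap (Int.castRingHom ℚ) (m i) := by
      rw [Finset.mul_sum]
      refine Finset.sum_congr rfl fun i _ => ?_
      rw [← hgf i, IntermediateField.smul_def, smul_eq_mul, MulMemClass.coe_mul, mul_assoc]
    rw [h1, hc, mul_zero]
  rw [kb_basis_star hT3] at hrel
  have hrel' : ∑ i, evalL (jqModC ℤ) (f i) * m i = 0 :=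
    kb_basis_cQ_injective (by rw [hrel, map_zero])
  have hfi := kb_basis_step1 ℓ m hdeg f hrel' i
  have hgc := hgf i
  rw [hfi, map_zero] at hgc
  have hg' : kb_evK g ≠ 0 := (map_ne_zero_iff _ hT1).mpr hg
  exact (mul_eq_zero.mp hgc).resolve_left hg'

/-- (K1)+(K2): the family `m` of `DegStatement` gives a `K0`-basis of `F`. -/
theorem kb_basis_main : Char0DegStatement → DegStatement → kb_TranscStatement →
    kb_FracStatement → kb_EvCoeStatement → kb_ContentStatement → kb_BasisStatement := by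
  intro hC0 hDeg hT1 hT2 hT3 _ N _ ℓ _ hℓN
  obtain ⟨m, hmem, hdeg⟩ := hDeg N ℓ hℓN
  refine ⟨m, hmem, hdeg, ?_⟩
  intro x hx
  have hli := kb_basis_linearIndependent hT1 hT2 hT3 ℓ m hdeg
  have hnot : ¬ LinearIndependent ↥kb_K0
      (Fin.cons x (fun i => coeffMap (Int.castRingHom ℚ) (m i)) :
        Fin (dedekindPsi N + 1) → LaurentSeries ℚ) := by
    intro h
    have hle := hC0 N (dedekindPsi N + 1) _ (fun i => ?_) h
    · omega
    · refine Fin.cases ?_ (fun j => ?_) i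
      · simpa using hx
      · simpa using hmem j
  rw [linearIndependent_finCons] at hnot
  have hxs : x ∈ Submodule.span ↥kb_K0
      (Set.range fun i => coeffMap (Int.castRingHom ℚ) (m i)) := by
    by_contra h
    exact hnot ⟨hli, h⟩
  obtain ⟨c, hc⟩ := (Submodule.mem_span_range_iff_exists_fun _).1 hxs
  obtain ⟨g, f, hg, hgf⟩ := hT2 _ c
  refine ⟨g, f, hg, ?_⟩
  rw [← hc, Finset.mul_sum]
  refine Finset.sum_congr rfl fun i _ => ?_
  rw [← hgf i, IntermediateField.smul_def, smul_eq_mul, MulMemClass.coe_mul, mul_assoc]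

end

end Fermat.Agent.S28
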