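/-
S28, block ChartKernel (twin B), package CH (sub-lead's copy): transport between membership in the
chart algebra `chartAlg N ℓ {tF}` and integrality with respect to the evaluation homomorphism
`kb_evL ℓ t : ℤ_(ℓ)[T] → LaurentSeries ℚ`.
-/
import Fermat.Agent.S28.KBInterfaces

set_option autoImplicit false

open ModularCurve ModularCurve.IgusaScheme

namespace Fermat.Agent.S28

noncomputable section

/-- The corestriction of `aeval tF` to `Algebra.adjoin ℤ_(ℓ) {tF}`. -/
def kb_chx_pi (N : ℕ) [NeZero N] (ℓ : ℕ) [Fact ℓ.Prime] (tF : ↥(modularFunctionFieldFull N)) :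
    Polynomial ↥(GaloisRep.ratLocalizedAt ℓ) →+*
      ↥(Algebra.adjoin ↥(GaloisRep.ratLocalizedAt ℓ) ({tF} : Set ↥(modularFunctionFieldFull N))) :=
  ((Polynomial.aeval tF : Polynomial ↥(GaloisRep.ratLocalizedAt ℓ) →ₐ[↥(GaloisRep.ratLocalizedAt ℓ)]
      ↥(modularFunctionFieldFull N)).codRestrict
    (Algebra.adjoin ↥(GaloisRep.ratLocalizedAt ℓ) ({tF} : Set ↥(modularFunctionFieldFull N)))
    (fun p => by rw [Algebra.adjoin_singleton_eq_range_aeval]; exact ⟨p, rfl⟩)).toRingHom

theorem kb_chx_pi_surj (N : ℕ) [NeZero N] (ℓ : ℕ) [Fact ℓ.Prime]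
    (tF : ↥(modularFunctionFieldFull N)) : Function.Surjective (kb_chx_pi N ℓ tF) := by
  rintro ⟨a, ha⟩
  have ha' := ha
  rw [Algebra.adjoin_singleton_eq_range_aeval] at ha'
  obtain ⟨p, hp⟩ := ha'
  exact ⟨p, Subtype.ext hp⟩

theorem kb_chx_comp (N : ℕ) [NeZero N] (ℓ : ℕ) [Fact ℓ.Prime]
    (tF : ↥(modularFunctionFieldFull N)) (t : ↥kb_K0)
    (ht : (tF : LaurentSeries ℚ) = (t : LaurentSeries ℚ)) :
    ((algebraMap ↥(modularFunctionFieldFull N) (LaurentSeries ℚ)).comp
      (algebraMap ↥(Algebra.adjoin ↥(GaloisRep.ratLocalizedAt ℓ)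
        ({tF} : Set ↥(modularFunctionFieldFull N))) ↥(modularFunctionFieldFull N))).comp
      (kb_chx_pi N ℓ tF) = kb_evL ℓ t := by
  refine Polynomial.ringHom_ext (fun a => ?_) ?_
  · simp only [RingHom.comp_apply, kb_evL, kb_evA, Polynomial.coe_eval₂RingHom,
      Polynomial.eval₂_C]
    have h1 : (algebraMap ↥(Algebra.adjoin ↥(GaloisRep.ratLocalizedAt ℓ)
        ({tF} : Set ↥(modularFunctionFieldFull N))) ↥(modularFunctionFieldFull N))
        (kb_chx_pi N ℓ tF (Polynomial.C a)) =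
        algebraMap ↥(GaloisRep.ratLocalizedAt ℓ) ↥(modularFunctionFieldFull N) a := by
      show (Polynomial.aeval tF) (Polynomial.C a) = _
      rw [Polynomial.aeval_C]
    rw [h1]
    rfl
  · simp only [RingHom.comp_apply, kb_evL, kb_evA, Polynomial.coe_eval₂RingHom,
      Polynomial.eval₂_X]
    have h1 : (algebraMap ↥(Algebra.adjoin ↥(GaloisRep.ratLocalizedAt ℓ)
        ({tF} : Set ↥(modularFunctionFieldFull N))) ↥(modularFunctionFieldFull N))
        (kb_chx_pi N ℓ tF Polynomial.X) = tF := by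
      show (Polynomial.aeval tF) Polynomial.X = _
      rw [Polynomial.aeval_X]
    rw [h1]
    exact ht

/-- Package CH: membership in `chartAlg N ℓ {tF}` is integrality with respect to `kb_evL ℓ t`. -/
theorem kb_chx_main : kb_CHStatement := by
  intro N _ ℓ _ tF t ht x
  rw [mem_chartAlg_iff]
  have hcomp := kb_chx_comp N ℓ tF t ht
  constructor
  · rintro ⟨p, hp, hpx⟩
    have hlift : p ∈ Polynomial.lifts (kb_chx_pi N ℓ tF) := by
      rw [Polynomial.lifts_iff_coeff_lifts]
      intro n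
      exact kb_chx_pi_surj N ℓ tF _
    obtain ⟨P, hPp, -, hPm⟩ := Polynomial.lifts_and_natDegree_eq_and_monic hlift hp
    refine ⟨P, hPm, ?_⟩
    rw [← hcomp, ← Polynomial.eval₂_map, hPp]
    have := congrArg (algebraMap ↥(modularFunctionFieldFull N) (LaurentSeries ℚ)) hpx
    rw [Polynomial.hom_eval₂, map_zero] at this
    exact this
  · rintro ⟨P, hPm, hPx⟩
    refine ⟨P.map (kb_chx_pi N ℓ tF), hPm.map _, ?_⟩
    have hinj : Function.Injective (algebraMap ↥(modularFunctionFieldFull N) (LaurentSeries ℚ)) :=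
      Subtype.val_injective
    apply hinj
    rw [Polynomial.hom_eval₂, map_zero, Polynomial.eval₂_map, hcomp]
    exact hPx

end

end Fermat.Agent.S28
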