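/-
S28, block ChartKernel (twin B), package ICB (K5a): `ℚ[t]` is integrally closed in `K0 = ℚ(jq)`
for `t = jq` and `t = jq⁻¹`.

Main theorem: `kb_icb_main : kb_TranscStatement → kb_FracStatement → kb_ICBStatement`.
-/
import Fermat.Agent.S28.KBInterfaces

set_option autoImplicit false

open ModularCurve ModularCurve.IgusaScheme

namespace Fermat.Agent.S28

noncomputable section

/-- General lemma: if `φ : ℚ[X] →+* K` is injective and every element of the field `K` is a
quotient of two values of `φ`, then every element of `K` which is integral with respect to `φ`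
is a value of `φ` (because `ℚ[X]` is integrally closed in its fraction field). -/
theorem kb_icb_general {K : Type*} [Field K] (φ : Polynomial ℚ →+* K)
    (hI : Function.Injective φ) (hS : ∀ c : K, ∃ f g : Polynomial ℚ, c = φ f / φ g)
    (c : K) (hc : φ.IsIntegralElem c) : ∃ p : Polynomial ℚ, φ p = c := by
  let _ : Algebra (Polynomial ℚ) K := φ.toAlgebra
  have : FaithfulSMul (Polynomial ℚ) K := (faithfulSMul_iff_algebraMap_injective _ _).mpr hI
  have : IsFractionRing (Polynomial ℚ) K := IsFractionRing.of_field _ _ hS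
  exact (IsIntegrallyClosed.isIntegral_iff (R := Polynomial ℚ) (K := K)).mp hc

/-- Link between the evaluations of rational and of integral polynomials at `jq`. -/
theorem kb_icb_link (P : Polynomial ℤ) :
    kb_evQ kb_jK (P.map (Int.castRingHom ℚ)) = kb_evK P := by
  unfold kb_evQ kb_evK
  rw [Polynomial.coe_eval₂RingHom, Polynomial.coe_eval₂RingHom, Polynomial.eval₂_map,
    RingHom.ext_int ((algebraMap ℚ ↥kb_K0).comp (Int.castRingHom ℚ)) (Int.castRingHom ↥kb_K0)]

/-- Clearing denominators of a rational polynomial. -/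
theorem kb_icb_clear (p : Polynomial ℚ) :
    ∃ (d : ℤ) (P : Polynomial ℤ), d ≠ 0 ∧
      P.map (Int.castRingHom ℚ) = Polynomial.C (d : ℚ) * p := by
  induction p using Polynomial.induction_on' with
  | add p q hp hq =>
    obtain ⟨d₁, P₁, hd₁, h₁⟩ := hp
    obtain ⟨d₂, P₂, hd₂, h₂⟩ := hq
    refine ⟨d₁ * d₂, Polynomial.C d₂ * P₁ + Polynomial.C d₁ * P₂, mul_ne_zero hd₁ hd₂, ?_⟩
    rw [Polynomial.map_add, Polynomial.map_mul, Polynomial.map_mul, Polynomial.map_C,
      Polynomial.map_C, h₁, h₂, Int.cast_mul, Polynomial.C_mul]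
    simp only [eq_intCast]
    ring
  | monomial n a =>
    refine ⟨(a.den : ℤ), Polynomial.monomial n a.num, by exact_mod_cast a.den_ne_zero, ?_⟩
    rw [Polynomial.map_monomial, Polynomial.C_mul_monomial]
    congr 1
    rw [eq_intCast, Int.cast_natCast, mul_comm]
    exact (Rat.mul_den_eq_num a).symm

/-- (I) for `t = jq`. -/
theorem kb_icb_inj_j (hT : kb_TranscStatement) : Function.Injective (kb_evQ kb_jK) := by
  rw [injective_iff_map_eq_zero]
  intro p hp
  obtain ⟨d, P, hd, hP⟩ := kb_icb_clear p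
  have h1 : kb_evK P = 0 := by
    rw [← kb_icb_link, hP, map_mul, hp, mul_zero]
  have h2 : P = 0 := hT (by rw [h1, map_zero])
  rw [h2, Polynomial.map_zero] at hP
  rcases mul_eq_zero.mp hP.symm with h | h
  · exact absurd (by simpa using h) hd
  · exact h

/-- (S) for `t = jq`. -/
theorem kb_icb_surj_j (hT : kb_TranscStatement) (hF : kb_FracStatement) (c : ↥kb_K0) :
    ∃ f g : Polynomial ℚ, c = kb_evQ kb_jK f / kb_evQ kb_jK g := by
  obtain ⟨g, f, hg, hf⟩ := hF 1 (fun _ => c)
  refine ⟨(f 0).map (Int.castRingHom ℚ), g.map (Int.castRingHom ℚ), ?_⟩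
  rw [kb_icb_link, kb_icb_link, eq_div_iff, mul_comm]
  · exact hf 0
  · intro h
    exact hg (hT (by rw [h, map_zero]))

/-- `jq ≠ 0` in `K0`. -/
theorem kb_icb_jK_ne_zero : kb_jK ≠ 0 := by
  intro h
  exact jq_ne_zero (congrArg Subtype.val h)

/-- Evaluation at `jq⁻¹` of the reflected polynomial. -/
theorem kb_icb_reflect (N : ℕ) (f : Polynomial ℚ) (hf : f.natDegree ≤ N) :
    kb_evQ kb_jK⁻¹ (Polynomial.reflect N f) * kb_jK ^ N = kb_evQ kb_jK f := by
  let _ : Invertible kb_jK := invertibleOfNonzero kb_icb_jK_ne_zero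
  have h := Polynomial.eval₂_reflect_mul_pow (algebraMap ℚ ↥kb_K0) kb_jK N f hf
  rw [invOf_eq_inv] at h
  exact h

/-- Evaluation at `jq` of the reflected polynomial. -/
theorem kb_icb_reflect' (N : ℕ) (f : Polynomial ℚ) (hf : f.natDegree ≤ N) :
    kb_evQ kb_jK (Polynomial.reflect N f) * kb_jK⁻¹ ^ N = kb_evQ kb_jK⁻¹ f := by
  let _ : Invertible (kb_jK⁻¹ : ↥kb_K0) := invertibleOfNonzero (inv_ne_zero kb_icb_jK_ne_zero)
  have h := Polynomial.eval₂_reflect_mul_pow (algebraMap ℚ ↥kb_K0) (kb_jK⁻¹ : ↥kb_K0) N f hf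
  rw [invOf_eq_inv, inv_inv] at h
  exact h

/-- (I) for `t = jq⁻¹`. -/
theorem kb_icb_inj_jinv (hT : kb_TranscStatement) : Function.Injective (kb_evQ kb_jK⁻¹) := by
  rw [injective_iff_map_eq_zero]
  intro p hp
  have h := kb_icb_reflect' p.natDegree p le_rfl
  rw [hp] at h
  have h0 : kb_evQ kb_jK (Polynomial.reflect p.natDegree p) = 0 := by
    rcases mul_eq_zero.mp h with h' | h'
    · exact h'
    · exact absurd h' (pow_ne_zero _ (inv_ne_zero kb_icb_jK_ne_zero))
  have h1 : Polynomial.reflect p.natDegree p = 0 :=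
    kb_icb_inj_j hT (by rw [h0, map_zero])
  exact Polynomial.reflect_eq_zero_iff.mp h1

/-- (S) for `t = jq⁻¹`. -/
theorem kb_icb_surj_jinv (hT : kb_TranscStatement) (hF : kb_FracStatement) (c : ↥kb_K0) :
    ∃ f g : Polynomial ℚ, c = kb_evQ kb_jK⁻¹ f / kb_evQ kb_jK⁻¹ g := by
  obtain ⟨f, g, hc⟩ := kb_icb_surj_j hT hF c
  refine ⟨Polynomial.reflect (max f.natDegree g.natDegree) f,
    Polynomial.reflect (max f.natDegree g.natDegree) g, ?_⟩
  rw [hc, ← kb_icb_reflect (max f.natDegree g.natDegree) f (le_max_left _ _),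
    ← kb_icb_reflect (max f.natDegree g.natDegree) g (le_max_right _ _),
    mul_div_mul_right _ _ (pow_ne_zero _ kb_icb_jK_ne_zero)]

/-- (K5a) `ℚ[t]` is integrally closed in `K0` for `t = jq` and `t = jq⁻¹`. -/
theorem kb_icb_main : kb_TranscStatement → kb_FracStatement → kb_ICBStatement := by
  intro hT hF t ht c hc
  rcases ht with rfl | rfl
  · exact kb_icb_general _ (kb_icb_inj_j hT) (kb_icb_surj_j hT hF) c hc
  · exact kb_icb_general _ (kb_icb_inj_jinv hT) (kb_icb_surj_jinv hT hF) c hc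

end

end Fermat.Agent.S28
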