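/-
S28, block ChartKernel (twin B), package `IntO` (K3+K4), prefix `kb_into_`:
every `ℓ`-integral element of `F = modularFunctionFieldFull N` is integral over the Gauss
valuation ring `O₀ = kb_O ℓ` of `ℚ(j)`.
-/
import Fermat.Agent.S28.KBInterfaces

set_option autoImplicit false

open ModularCurve ModularCurve.IgusaScheme

namespace Fermat.Agent.S28

noncomputable section

/-- `π = C ℓ` is a prime element of `ℤ[T]`. -/
theorem kb_into_prime (ℓ : ℕ) [Fact ℓ.Prime] : Prime (Polynomial.C (ℓ : ℤ) : Polynomial ℤ) :=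
  Polynomial.prime_C_iff.mpr (Nat.prime_iff_prime_int.mp (Fact.out : ℓ.Prime))

theorem kb_into_evK_C_mul (ℓ : ℕ) (y : LaurentSeries ℚ) :
    ((kb_evK (Polynomial.C (ℓ : ℤ)) : ↥kb_K0) : LaurentSeries ℚ) * y = (ℓ : ℚ) • y := by
  have h1 : kb_evK (Polynomial.C (ℓ : ℤ)) = ((ℓ : ℕ) : ↥kb_K0) := by
    simp [kb_evK]
  have h2 : (((ℓ : ℕ) : ↥kb_K0) : LaurentSeries ℚ) = ((ℓ : ℕ) : LaurentSeries ℚ) :=
    map_natCast (algebraMap ↥kb_K0 (LaurentSeries ℚ)) ℓ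
  rw [h1, h2, ← nsmul_eq_mul, Nat.cast_smul_eq_nsmul]

/-- Step K3: an `ℓ`-integral element of `F` has a presentation over the basis with a
denominator `g(j)`, `ℓ ∤ g`. -/
theorem kb_into_k3 (hT : kb_TranscStatement) (hE : kb_EvCoeStatement) (hL : kb_LIntStatement)
    (hD : kb_LIntDvdStatement) (hC : kb_ContentStatement)
    (ℓ : ℕ) [Fact ℓ.Prime] (ψ : ℕ) (m : Fin ψ → LaurentSeries ℤ)
    (hdeg : ∀ f : Fin ψ → Polynomial ℤ,
        (∀ n : ℤ, (ℓ : ℤ) ∣ (∑ i, evalL (jqModC ℤ) (f i) * m i).coeff n) →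
        ∀ (i : Fin ψ) (n : ℕ), (ℓ : ℤ) ∣ (f i).coeff n)
    (x : LaurentSeries ℚ) (hxL : LInt ℓ x)
    (hx : ∃ (g : Polynomial ℤ) (f : Fin ψ → Polynomial ℤ), g ≠ 0 ∧
          ((kb_evK g : ↥kb_K0) : LaurentSeries ℚ) * x =
            ∑ i, ((kb_evK (f i) : ↥kb_K0) : LaurentSeries ℚ) * coeffMap (Int.castRingHom ℚ) (m i)) :
    ∃ (g : Polynomial ℤ) (f : Fin ψ → Polynomial ℤ), ¬ Polynomial.C (ℓ : ℤ) ∣ g ∧
          ((kb_evK g : ↥kb_K0) : LaurentSeries ℚ) * x =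
            ∑ i, ((kb_evK (f i) : ↥kb_K0) : LaurentSeries ℚ) * coeffMap (Int.castRingHom ℚ) (m i) := by
  obtain ⟨g₀, f₀, hg₀, h₀⟩ := hx
  obtain ⟨e, g, f, hg, hf, hnorm⟩ := hC ℓ ψ g₀ f₀ hg₀
  have hπ := kb_into_prime ℓ
  have hc0 : kb_evK (Polynomial.C (ℓ : ℤ) ^ e) ≠ 0 := by
    intro h
    exact pow_ne_zero e hπ.ne_zero (hT (h.trans (map_zero kb_evK).symm))
  have hc0' : ((kb_evK (Polynomial.C (ℓ : ℤ) ^ e) : ↥kb_K0) : LaurentSeries ℚ) ≠ 0 := by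
    intro h
    exact hc0 (Subtype.ext h)
  have h1 : ((kb_evK g : ↥kb_K0) : LaurentSeries ℚ) * x =
      ∑ i, ((kb_evK (f i) : ↥kb_K0) : LaurentSeries ℚ) * coeffMap (Int.castRingHom ℚ) (m i) := by
    apply mul_left_cancel₀ hc0'
    rw [Finset.mul_sum, ← mul_assoc, ← IntermediateField.coe_mul, ← map_mul, ← hg, h₀]
    refine Finset.sum_congr rfl fun i _ => ?_
    rw [hf i, map_mul, IntermediateField.coe_mul, mul_assoc]
  refine ⟨g, f, ?_, h1⟩
  intro hπg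
  apply hnorm
  refine ⟨hπg, ?_⟩
  obtain ⟨g₁, hg₁⟩ := hπg
  have hS : coeffMap (Int.castRingHom ℚ) (∑ i, evalL (jqModC ℤ) (f i) * m i) =
      ∑ i, ((kb_evK (f i) : ↥kb_K0) : LaurentSeries ℚ) * coeffMap (Int.castRingHom ℚ) (m i) := by
    rw [map_sum]
    refine Finset.sum_congr rfl fun i _ => ?_
    rw [map_mul, hE]
  have hℓ : (ℓ : ℚ) ≠ 0 := by exact_mod_cast (Fact.out : ℓ.Prime).ne_zero
  have h2 : (ℓ : ℚ)⁻¹ • coeffMap (Int.castRingHom ℚ) (∑ i, evalL (jqModC ℤ) (f i) * m i) =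
      ((kb_evK g₁ : ↥kb_K0) : LaurentSeries ℚ) * x := by
    rw [hS, ← h1, hg₁, map_mul, IntermediateField.coe_mul, mul_assoc, kb_into_evK_C_mul,
      smul_smul, inv_mul_cancel₀ hℓ, one_smul]
  have h3 : LInt ℓ ((ℓ : ℚ)⁻¹ • coeffMap (Int.castRingHom ℚ)
      (∑ i, evalL (jqModC ℤ) (f i) * m i)) := by
    rw [h2, hE]
    exact (hL ℓ).2 _ _ ((hL ℓ).1 _) hxL
  have h5 := hdeg f (hD ℓ _ h3)
  intro i
  rw [Polynomial.C_dvd_iff_dvd_coeff]
  exact h5 i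

/-- Step K3': an `ℓ`-integral element of `F` lies in the `O₀`-span of the basis. -/
theorem kb_into_mem_span (hT : kb_TranscStatement) (hE : kb_EvCoeStatement) (hL : kb_LIntStatement)
    (hD : kb_LIntDvdStatement) (hC : kb_ContentStatement)
    (ℓ : ℕ) [Fact ℓ.Prime] (ψ : ℕ) (m : Fin ψ → LaurentSeries ℤ)
    (hdeg : ∀ f : Fin ψ → Polynomial ℤ,
        (∀ n : ℤ, (ℓ : ℤ) ∣ (∑ i, evalL (jqModC ℤ) (f i) * m i).coeff n) →
        ∀ (i : Fin ψ) (n : ℕ), (ℓ : ℤ) ∣ (f i).coeff n)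
    (x : LaurentSeries ℚ) (hxL : LInt ℓ x)
    (hx : ∃ (g : Polynomial ℤ) (f : Fin ψ → Polynomial ℤ), g ≠ 0 ∧
          ((kb_evK g : ↥kb_K0) : LaurentSeries ℚ) * x =
            ∑ i, ((kb_evK (f i) : ↥kb_K0) : LaurentSeries ℚ) * coeffMap (Int.castRingHom ℚ) (m i)) :
    x ∈ Submodule.span ↥(kb_O ℓ)
      (Set.range fun i : Fin ψ => coeffMap (Int.castRingHom ℚ) (m i)) := by
  obtain ⟨g, f, hg, h⟩ := kb_into_k3 hT hE hL hD hC ℓ ψ m hdeg x hxL hx
  have hg0 : g ≠ 0 := by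
    rintro rfl
    exact hg (dvd_zero _)
  have hgK : kb_evK g ≠ 0 := fun h0 => hg0 (hT (h0.trans (map_zero kb_evK).symm))
  have hgL : ((kb_evK g : ↥kb_K0) : LaurentSeries ℚ) ≠ 0 := fun h0 => hgK (Subtype.ext h0)
  have hcg : ∀ i, kb_evK g * (kb_evK (f i) / kb_evK g) = kb_evK (f i) := fun i => by
    field_simp
  have hc : ∀ i, kb_evK (f i) / kb_evK g ∈ kb_O ℓ := fun i =>
    Subring.subset_closure ⟨g, f i, hg, hcg i⟩
  have hx' : x = ∑ i, (⟨kb_evK (f i) / kb_evK g, hc i⟩ : ↥(kb_O ℓ)) •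
      coeffMap (Int.castRingHom ℚ) (m i) := by
    apply mul_left_cancel₀ hgL
    rw [h, Finset.mul_sum]
    refine Finset.sum_congr rfl fun i _ => ?_
    show _ = ((kb_evK g : ↥kb_K0) : LaurentSeries ℚ) *
      (((kb_evK (f i) / kb_evK g : ↥kb_K0) : LaurentSeries ℚ) * coeffMap (Int.castRingHom ℚ) (m i))
    rw [← mul_assoc, ← IntermediateField.coe_mul, hcg i]
  rw [hx']
  exact Submodule.sum_mem _ fun i _ => Submodule.smul_mem _ _ (Submodule.subset_span ⟨i, rfl⟩)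

/-- Package `IntO` (K3+K4): every `ℓ`-integral element of `F` is integral over `O₀`. -/
theorem kb_into_main : kb_BasisStatement → kb_TranscStatement → kb_EvCoeStatement →
    kb_LIntStatement → kb_LIntDvdStatement → kb_ContentStatement → kb_IntOStatement := by
  intro hB hT hE hL hD hC N _ ℓ _ hN x hx hxL
  obtain ⟨m, hmF, hdeg, hbasis⟩ := hB N ℓ hN
  have key : ∀ y : LaurentSeries ℚ, y ∈ modularFunctionFieldFull N → LInt ℓ y →
      y ∈ Submodule.span ↥(kb_O ℓ)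
        (Set.range fun i : Fin (dedekindPsi N) => coeffMap (Int.castRingHom ℚ) (m i)) :=
    fun y hy hyL => kb_into_mem_span hT hE hL hD hC ℓ _ m hdeg y hyL (hbasis y hy)
  refine isIntegral_of_smul_mem_submodule (Submodule.span ↥(kb_O ℓ)
    (Set.range fun i : Fin (dedekindPsi N) => coeffMap (Int.castRingHom ℚ) (m i))) ?_
    (Submodule.fg_span (Set.finite_range _)) x ?_
  · rw [Submodule.ne_bot_iff]
    refine ⟨1, key 1 (one_mem _) ?_, one_ne_zero⟩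
    have h1 := (hL ℓ).1 1
    rwa [map_one] at h1
  · intro n hn
    induction hn using Submodule.span_induction with
    | mem n hn =>
      obtain ⟨i, rfl⟩ := hn
      exact key _ (mul_mem hx (hmF i)) ((hL ℓ).2 _ _ hxL ((hL ℓ).1 _))
    | zero => rw [smul_zero]; exact Submodule.zero_mem _
    | add a b _ _ ha hb => rw [smul_add]; exact Submodule.add_mem _ ha hb
    | smul c a _ ha =>
      have hca : x • c • a = c • x • a := by
        rw [smul_eq_mul, smul_eq_mul, Algebra.smul_def, Algebra.smul_def, mul_left_comm]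
      rw [hca]
      exact Submodule.smul_mem _ c ha

end

end Fermat.Agent.S28
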