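/-
S28, block ChartKernel (twin B), package `O` (prefix `kb_o_`): the Gauss valuation ring
`O₀ = kb_O ℓ` of `K0 = ℚ(j)` at `ℓ`.

* `kb_o_sub : kb_OSubStatement`: the set `kb_OSet ℓ` is already a subring;
* `kb_o_intClosed`: `O₀` is integrally closed in `K0` (it is a valuation ring);
* `kb_o_main`: both together.
-/
import Fermat.Agent.S28.KBInterfaces

set_option autoImplicit false

open ModularCurve ModularCurve.IgusaScheme

namespace Fermat.Agent.S28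

noncomputable section

/-- Gauss: the constant polynomial `ℓ` is a prime element of `ℤ[T]`. -/
theorem kb_o_prime (ℓ : ℕ) [Fact ℓ.Prime] : Prime (Polynomial.C (ℓ : ℤ)) :=
  Polynomial.prime_C_iff.mpr (Nat.prime_iff_prime_int.mp (Fact.out : ℓ.Prime))

/-- `ℓ` does not divide the constant polynomial `1`. -/
theorem kb_o_not_dvd_one (ℓ : ℕ) [Fact ℓ.Prime] :
    ¬ Polynomial.C (ℓ : ℤ) ∣ (1 : Polynomial ℤ) := fun h =>
  (kb_o_prime ℓ).not_isUnit (isUnit_of_dvd_one h)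

/-- `ℓ` does not divide a product of two polynomials not divisible by `ℓ`. -/
theorem kb_o_not_dvd_mul (ℓ : ℕ) [Fact ℓ.Prime] {g₁ g₂ : Polynomial ℤ}
    (h₁ : ¬ Polynomial.C (ℓ : ℤ) ∣ g₁) (h₂ : ¬ Polynomial.C (ℓ : ℤ) ∣ g₂) :
    ¬ Polynomial.C (ℓ : ℤ) ∣ g₁ * g₂ := fun h =>
  ((kb_o_prime ℓ).dvd_or_dvd h).elim h₁ h₂

/-- (O), part 1: `kb_OSet ℓ` is a subring, i.e. equals its subring closure. -/
theorem kb_o_sub : kb_OSubStatement := by
  intro ℓ _ c hc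
  unfold kb_O at hc
  induction hc using Subring.closure_induction with
  | mem x hx => exact hx
  | zero => exact ⟨1, 0, kb_o_not_dvd_one ℓ, by simp⟩
  | one => exact ⟨1, 1, kb_o_not_dvd_one ℓ, by simp⟩
  | add x y hx hy ihx ihy =>
    obtain ⟨g₁, f₁, hg₁, h₁⟩ := ihx
    obtain ⟨g₂, f₂, hg₂, h₂⟩ := ihy
    refine ⟨g₁ * g₂, f₁ * g₂ + f₂ * g₁, kb_o_not_dvd_mul ℓ hg₁ hg₂, ?_⟩
    rw [map_mul, map_add, map_mul, map_mul, ← h₁, ← h₂]
    ring
  | neg x hx ihx =>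
    obtain ⟨g, f, hg, h⟩ := ihx
    refine ⟨g, -f, hg, ?_⟩
    rw [map_neg, ← h]
    ring
  | mul x y hx hy ihx ihy =>
    obtain ⟨g₁, f₁, hg₁, h₁⟩ := ihx
    obtain ⟨g₂, f₂, hg₂, h₂⟩ := ihy
    refine ⟨g₁ * g₂, f₁ * f₂, kb_o_not_dvd_mul ℓ hg₁ hg₂, ?_⟩
    rw [map_mul, map_mul, ← h₁, ← h₂]
    ring

/-- The valuation property of `O₀`: for every `c ∈ K0`, `c ∈ O₀` or `c⁻¹ ∈ O₀`. -/
theorem kb_o_mem_or_inv_mem (hT : kb_TranscStatement) (hF : kb_FracStatement)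
    (hC : kb_ContentStatement) (ℓ : ℕ) [Fact ℓ.Prime] (c : ↥kb_K0) :
    c ∈ kb_O ℓ ∨ c⁻¹ ∈ kb_O ℓ := by
  obtain ⟨g, f, hg, hgf⟩ := hF 1 (fun _ => c)
  obtain ⟨e, g', f', hg', hf', hnot⟩ := hC ℓ 1 g f hg
  have hpe : kb_evK (Polynomial.C (ℓ : ℤ) ^ e) ≠ 0 := by
    intro h
    have h0 : Polynomial.C (ℓ : ℤ) ^ e = 0 := hT (h.trans (map_zero kb_evK).symm)
    exact pow_ne_zero e (kb_o_prime ℓ).ne_zero h0
  have key : kb_evK g' * c = kb_evK (f' 0) := by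
    have h := hgf 0
    rw [hg', hf' 0, map_mul, map_mul, mul_assoc] at h
    exact mul_left_cancel₀ hpe h
  by_cases h1 : Polynomial.C (ℓ : ℤ) ∣ g'
  · right
    have h2 : ¬ Polynomial.C (ℓ : ℤ) ∣ f' 0 := fun h =>
      hnot ⟨h1, fun i => by rw [Fin.eq_zero i]; exact h⟩
    by_cases hc : c = 0
    · rw [hc, inv_zero]
      exact zero_mem _
    · refine Subring.subset_closure ⟨f' 0, g', h2, ?_⟩
      rw [← key, mul_assoc, mul_inv_cancel₀ hc, mul_one]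
  · left
    exact Subring.subset_closure ⟨g', f' 0, h1, key⟩

/-- `O₀` as a valuation subring of `K0`. -/
def kb_o_V (hT : kb_TranscStatement) (hF : kb_FracStatement) (hC : kb_ContentStatement)
    (ℓ : ℕ) [Fact ℓ.Prime] : ValuationSubring ↥kb_K0 :=
  { kb_O ℓ with mem_or_inv_mem' := kb_o_mem_or_inv_mem hT hF hC ℓ }

theorem kb_o_V_toSubring (hT : kb_TranscStatement) (hF : kb_FracStatement)
    (hC : kb_ContentStatement) (ℓ : ℕ) [Fact ℓ.Prime] :
    (kb_o_V hT hF hC ℓ).toSubring = kb_O ℓ := rfl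

/-- (O), part 2: `O₀` is integrally closed in `K0`. -/
theorem kb_o_intClosed :
    kb_TranscStatement → kb_FracStatement → kb_ContentStatement → kb_OIntClosedStatement := by
  intro hT hF hC ℓ _ c hc
  have hc' : IsIntegral (kb_o_V hT hF hC ℓ) c := hc
  obtain ⟨y, hy⟩ := IsIntegrallyClosed.isIntegral_iff.mp hc'
  rw [← hy]
  exact y.2

/-- Package `O`: `kb_OSet ℓ` is a subring and `O₀` is integrally closed in `K0`. -/
theorem kb_o_main :
    kb_TranscStatement → kb_FracStatement → kb_ContentStatement →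
      kb_OSubStatement ∧ kb_OIntClosedStatement :=
  fun hT hF hC => ⟨kb_o_sub, kb_o_intClosed hT hF hC⟩

end

end Fermat.Agent.S28
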