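/-
S28, block ChartKernel (twin B), package OBA (K5b): `O₀ ∩ ℚ[t] ⊆ ℤ_(ℓ)[t]` for `t = j` and `t = j⁻¹`.

Main theorem: `kb_oba_main : kb_TranscStatement → kb_OSubStatement → kb_OBAStatement`.
-/
import Fermat.Agent.S28.KBInterfaces

set_option autoImplicit false

open ModularCurve ModularCurve.IgusaScheme

namespace Fermat.Agent.S28

noncomputable section

/-- Link lemma: evaluating the rational image of an integer polynomial at `j` via `kb_evQ` is the
same as evaluating the integer polynomial via `kb_evK`. -/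
theorem kb_oba_evQ_map (P : Polynomial ℤ) :
    kb_evQ kb_jK (P.map (Int.castRingHom ℚ)) = kb_evK P := by
  unfold kb_evQ kb_evK
  have hhom : (algebraMap ℚ ↥kb_K0).comp (Int.castRingHom ℚ) = Int.castRingHom ↥kb_K0 :=
    RingHom.ext_int _ _
  rw [Polynomial.coe_eval₂RingHom, Polynomial.coe_eval₂RingHom, Polynomial.eval₂_map, hhom]

/-- Clearing denominators of a rational polynomial. -/
theorem kb_oba_clear (p : Polynomial ℚ) :
    ∃ (d : ℤ) (P : Polynomial ℤ), d ≠ 0 ∧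
      P.map (Int.castRingHom ℚ) = Polynomial.C (d : ℚ) * p := by
  induction p using Polynomial.induction_on' with
  | add p q hp hq =>
    obtain ⟨d₁, P₁, hd₁, h₁⟩ := hp
    obtain ⟨d₂, P₂, hd₂, h₂⟩ := hq
    refine ⟨d₁ * d₂, Polynomial.C d₂ * P₁ + Polynomial.C d₁ * P₂, mul_ne_zero hd₁ hd₂, ?_⟩
    rw [Polynomial.map_add, Polynomial.map_mul, Polynomial.map_mul, h₁, h₂, Polynomial.map_C,
      Polynomial.map_C]
    simp only [eq_intCast, Int.cast_mul, Polynomial.C_mul]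
    ring
  | monomial k q =>
    refine ⟨q.den, Polynomial.monomial k q.num, by exact_mod_cast q.den_nz, ?_⟩
    rw [Polynomial.map_monomial, Polynomial.C_mul_monomial]
    congr 1
    simp [Rat.den_mul_eq_num]

/-- The case `t = j` of `kb_OBAStatement`. -/
theorem kb_oba_case_j (hT : kb_TranscStatement) (hO : kb_OSubStatement) (ℓ : ℕ) [Fact ℓ.Prime]
    (p : Polynomial ℚ) (hp : kb_evQ kb_jK p ∈ kb_O ℓ) (n : ℕ) :
    p.coeff n ∈ GaloisRep.ratLocalizedAt ℓ := by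
  have hℓ : ℓ.Prime := Fact.out
  have hπ : Prime (Polynomial.C (ℓ : ℤ)) :=
    Polynomial.prime_C_iff.mpr (Nat.prime_iff_prime_int.mp hℓ)
  obtain ⟨g, f, hg, hgf⟩ := hO ℓ _ hp
  obtain ⟨d, P, hd, hP⟩ := kb_oba_clear p
  have h1 : g * P = Polynomial.C d * f := by
    apply hT
    have hC : kb_evQ kb_jK (Polynomial.C (d : ℚ)) = kb_evK (Polynomial.C d) := by
      rw [← kb_oba_evQ_map, Polynomial.map_C]
      simp
    rw [map_mul, map_mul, ← kb_oba_evQ_map P, hP, map_mul, ← hgf, hC]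
    ring
  -- `d = ℓ ^ e * d'` with `ℓ ∤ d'`
  obtain ⟨e, d', hd', hde⟩ : ∃ (e : ℕ) (d' : ℤ), ¬ (ℓ : ℤ) ∣ d' ∧ d = (ℓ : ℤ) ^ e * d' := by
    have hfin : FiniteMultiplicity (ℓ : ℤ) d :=
      Int.finiteMultiplicity_iff.mpr ⟨by simpa using hℓ.ne_one, hd⟩
    obtain ⟨c, hc1, hc2⟩ := hfin.exists_eq_pow_mul_and_not_dvd
    exact ⟨_, c, hc2, hc1⟩
  have h2 : Polynomial.C (ℓ : ℤ) ^ e ∣ P := by
    apply hπ.pow_dvd_of_dvd_mul_left e hg
    rw [h1, hde, Polynomial.C_mul, Polynomial.C_pow, mul_assoc]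
    exact dvd_mul_right _ _
  obtain ⟨P', hP'⟩ := h2
  have hℓ0 : (ℓ : ℚ) ≠ 0 := by exact_mod_cast hℓ.ne_zero
  have h3 : Polynomial.C (d' : ℚ) * p = P'.map (Int.castRingHom ℚ) := by
    have h4 : Polynomial.C ((ℓ : ℚ) ^ e) * (Polynomial.C (d' : ℚ) * p) =
        Polynomial.C ((ℓ : ℚ) ^ e) * P'.map (Int.castRingHom ℚ) := by
      have hdq : ((ℓ : ℚ) ^ e * (d' : ℚ)) = (d : ℚ) := by
        rw [hde]; push_cast; ring
      rw [← mul_assoc, ← Polynomial.C_mul, hdq, ← hP, hP', Polynomial.map_mul, Polynomial.map_pow,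
        Polynomial.map_C]
      simp
    exact mul_left_cancel₀ (Polynomial.C_ne_zero.mpr (pow_ne_zero e hℓ0)) h4
  have hd'z : d' ≠ 0 := by
    intro h
    apply hd'
    rw [h]
    exact dvd_zero _
  have hd'0 : (d' : ℚ) ≠ 0 := by exact_mod_cast hd'z
  have h5 : p.coeff n = (P'.coeff n : ℚ) * (d' : ℚ)⁻¹ := by
    have h6 := congrArg (fun r => Polynomial.coeff r n) h3
    simp only [Polynomial.coeff_C_mul, Polynomial.coeff_map, eq_intCast] at h6
    rw [← h6]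
    field_simp
  rw [h5]
  apply Subring.mul_mem
  · exact intCast_mem _ _
  · show ((d' : ℚ)⁻¹).den.Coprime ℓ
    rw [Rat.inv_intCast_den, if_neg hd'z]
    apply Nat.Coprime.symm
    rw [Nat.Prime.coprime_iff_not_dvd hℓ]
    rwa [Int.natCast_dvd] at hd'

/-- `j ≠ 0` in `K0`. -/
theorem kb_oba_jK_ne_zero : kb_jK ≠ 0 := by
  intro h
  apply jq_ne_zero
  have h' := congrArg (fun x : ↥kb_K0 => (x : LaurentSeries ℚ)) h
  simpa [kb_jK] using h'

/-- `j ∈ O₀`. -/
theorem kb_oba_jK_mem (ℓ : ℕ) [Fact ℓ.Prime] : kb_jK ∈ kb_O ℓ := by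
  have hℓ : ℓ.Prime := Fact.out
  have hπ : Prime (Polynomial.C (ℓ : ℤ)) :=
    Polynomial.prime_C_iff.mpr (Nat.prime_iff_prime_int.mp hℓ)
  apply Subring.subset_closure
  refine ⟨1, Polynomial.X, fun h => hπ.not_isUnit (isUnit_of_dvd_one h), ?_⟩
  simp [kb_evK]

/-- (K5b) `O₀ ∩ ℚ[t] ⊆ ℤ_(ℓ)[t]` for `t = j` and `t = j⁻¹`. -/
theorem kb_oba_main : kb_TranscStatement → kb_OSubStatement → kb_OBAStatement := by
  intro hT hO ℓ _ t ht p hp n
  rcases ht with rfl | rfl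
  · exact kb_oba_case_j hT hO ℓ p hp n
  · have hj : kb_jK ≠ 0 := kb_oba_jK_ne_zero
    have hrev : kb_evQ kb_jK p.reverse = kb_evQ kb_jK⁻¹ p * kb_jK ^ p.natDegree := by
      let _ : Invertible (kb_jK⁻¹) := invertibleOfNonzero (inv_ne_zero hj)
      have h := Polynomial.eval₂_reverse_mul_pow (algebraMap ℚ ↥kb_K0) (kb_jK⁻¹) p
      rw [invOf_eq_inv, inv_inv] at h
      unfold kb_evQ
      rw [Polynomial.coe_eval₂RingHom, Polynomial.coe_eval₂RingHom, ← h, mul_assoc, ← mul_pow,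
        inv_mul_cancel₀ hj, one_pow, mul_one]
    have hmem : kb_evQ kb_jK p.reverse ∈ kb_O ℓ := by
      rw [hrev]
      exact Subring.mul_mem _ hp (Subring.pow_mem _ (kb_oba_jK_mem ℓ) _)
    have hcoef := kb_oba_case_j hT hO ℓ p.reverse hmem
    by_cases hn : n ≤ p.natDegree
    · have h := hcoef (p.natDegree - n)
      rw [Polynomial.coeff_reverse, Polynomial.revAt_le (Nat.sub_le _ _), Nat.sub_sub_self hn] at h
      exact h
    · rw [Polynomial.coeff_eq_zero_of_natDegree_lt (not_le.mp hn)]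
      exact Subring.zero_mem _

end

end Fermat.Agent.S28
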