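/-
S28, block ChartKernel (twin B), package ToolA: the toolkit statements (T1), (T2), (T3) of
`KBInterfaces.lean`:
* `kb_toola_evcoe  : kb_EvCoeStatement`  (`P(jq)` is the image of the integral series `P(jZ)`),
* `kb_toola_transc : kb_TranscStatement` (`jq` is transcendental over `ℤ`),
* `kb_toola_frac   : kb_FracStatement`   (common denominators in `ℤ[j]` for finite families of `ℚ(j)`).
-/
import Fermat.Agent.S28.KBInterfaces

set_option autoImplicit false

open ModularCurve ModularCurve.IgusaScheme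

namespace Fermat.Agent.S28

noncomputable section

/-! ## (T3) -/

/-- The two ring homomorphisms `ℤ[T] → LaurentSeries ℚ` of (T3) agree. -/
theorem kb_toola_homEq :
    (algebraMap ↥kb_K0 (LaurentSeries ℚ)).comp kb_evK =
      (coeffMap (Int.castRingHom ℚ)).comp (evalL (jqModC ℤ)) := by
  refine Polynomial.ringHom_ext' (Subsingleton.elim _ _) ?_
  show algebraMap ↥kb_K0 (LaurentSeries ℚ) (kb_evK Polynomial.X) =
    coeffMap (Int.castRingHom ℚ) (evalL (jqModC ℤ) Polynomial.X)
  have h1 : kb_evK Polynomial.X = kb_jK := by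
    show Polynomial.eval₂ (Int.castRingHom ↥kb_K0) kb_jK Polynomial.X = kb_jK
    rw [Polynomial.eval₂_X]
  have h2 : evalL (jqModC ℤ) Polynomial.X = jqModC ℤ := by
    show Polynomial.eval₂ (HahnSeries.C : ℤ →+* LaurentSeries ℤ) (jqModC ℤ) Polynomial.X =
      jqModC ℤ
    rw [Polynomial.eval₂_X]
  rw [h1, h2, coeffMap_jqModC, jqModC_rat]
  rfl

/-- (T3) -/
theorem kb_toola_evcoe : kb_EvCoeStatement := by
  intro P
  exact RingHom.congr_fun kb_toola_homEq P

/-! ## (T1) -/

/-- The coefficient of `q ^ (-deg P)` in `P(jZ)` is the leading coefficient of `P`. -/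
theorem kb_toola_coeff_evalL (P : Polynomial ℤ) :
    (evalL (jqModC ℤ) P).coeff (-(P.natDegree : ℤ)) = P.leadingCoeff := by
  have h : evalL (jqModC ℤ) P =
      ∑ i ∈ Finset.range (P.natDegree + 1), HahnSeries.C (P.coeff i) * (jqModC ℤ) ^ i := by
    show Polynomial.eval₂ (HahnSeries.C : ℤ →+* LaurentSeries ℤ) (jqModC ℤ) P = _
    rw [Polynomial.eval₂_eq_sum_range]
  rw [h, HahnSeries.coeff_sum, Finset.sum_range_succ, Finset.sum_eq_zero, zero_add,
    HahnSeries.C_mul_eq_smul, HahnSeries.coeff_smul, coeff_jqModC_pow_self, smul_eq_mul, mul_one,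
    Polynomial.leadingCoeff]
  intro i hi
  have hi' : i < P.natDegree := Finset.mem_range.mp hi
  rw [HahnSeries.C_mul_eq_smul, HahnSeries.coeff_smul,
    coeff_jqModC_pow_of_lt ℤ (by omega : -(P.natDegree : ℤ) < -(i : ℤ)), smul_zero]

/-- (T1) -/
theorem kb_toola_transc : kb_TranscStatement := by
  show Function.Injective kb_evK
  rw [injective_iff_map_eq_zero]
  intro P hP
  by_contra hne
  have h3 := kb_toola_evcoe P
  rw [hP] at h3
  have h4 : (coeffMap (Int.castRingHom ℚ) (evalL (jqModC ℤ) P)).coeff (-(P.natDegree : ℤ)) = 0 := by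
    rw [← h3]
    rfl
  rw [coeffMap_coeff, kb_toola_coeff_evalL] at h4
  have h5 : P.leadingCoeff = 0 := by
    rw [eq_intCast] at h4
    exact_mod_cast h4
  exact hne (Polynomial.leadingCoeff_eq_zero.mp h5)

/-! ## (T2) -/

/-- Clearing denominators of a rational polynomial. -/
theorem kb_toola_clear (r : Polynomial ℚ) :
    ∃ (d : ℤ) (R : Polynomial ℤ), d ≠ 0 ∧
      R.map (Int.castRingHom ℚ) = Polynomial.C (d : ℚ) * r := by
  obtain ⟨b, hbM, hb⟩ := IsLocalization.integerNormalization_spec (nonZeroDivisors ℤ) r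
  refine ⟨b, IsLocalization.integerNormalization (nonZeroDivisors ℤ) r,
    nonZeroDivisors.ne_zero hbM, ?_⟩
  rw [show Int.castRingHom ℚ = algebraMap ℤ ℚ from rfl, hb, Polynomial.C_mul',
    Int.cast_smul_eq_zsmul]

/-- Link between `kb_evK` and `Polynomial.aeval jq`. -/
theorem kb_toola_evK_aeval (R : Polynomial ℤ) :
    ((kb_evK R : ↥kb_K0) : LaurentSeries ℚ) =
      Polynomial.aeval jq (R.map (Int.castRingHom ℚ)) := by
  have h : (algebraMap ↥kb_K0 (LaurentSeries ℚ)).comp kb_evK =
      ((Polynomial.aeval jq : Polynomial ℚ →ₐ[ℚ] LaurentSeries ℚ) :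
        Polynomial ℚ →+* LaurentSeries ℚ).comp (Polynomial.mapRingHom (Int.castRingHom ℚ)) := by
    refine Polynomial.ringHom_ext' (Subsingleton.elim _ _) ?_
    show algebraMap ↥kb_K0 (LaurentSeries ℚ) (kb_evK Polynomial.X) =
      Polynomial.aeval jq ((Polynomial.X : Polynomial ℤ).map (Int.castRingHom ℚ))
    have h1 : kb_evK Polynomial.X = kb_jK := by
      show Polynomial.eval₂ (Int.castRingHom ↥kb_K0) kb_jK Polynomial.X = kb_jK
      rw [Polynomial.eval₂_X]
    rw [h1, Polynomial.map_X, Polynomial.aeval_X]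
    rfl
  exact RingHom.congr_fun h R

/-- (T2) for one element. -/
theorem kb_toola_frac_one (c : ↥kb_K0) :
    ∃ g f : Polynomial ℤ, g ≠ 0 ∧ kb_evK g * c = kb_evK f := by
  obtain ⟨r, s, hrs⟩ :=
    (IntermediateField.mem_adjoin_simple_iff ℚ (c : LaurentSeries ℚ)).mp c.2
  by_cases hs : Polynomial.aeval jq s = 0
  · refine ⟨1, 0, one_ne_zero, ?_⟩
    have hc : c = 0 := by
      apply Subtype.ext
      rw [hrs, hs, div_zero]
      rfl
    rw [hc, mul_zero, map_zero]
  · obtain ⟨dr, R, hdr, hR⟩ := kb_toola_clear r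
    obtain ⟨ds, S, hds, hS⟩ := kb_toola_clear s
    have hS0 : S ≠ 0 := by
      rintro rfl
      rw [Polynomial.map_zero] at hS
      have hs0 : s = 0 := by
        rcases mul_eq_zero.mp hS.symm with h | h
        · exact absurd (Int.cast_eq_zero.mp (Polynomial.C_eq_zero.mp h)) hds
        · exact h
      exact hs (by rw [hs0, map_zero])
    have hdr' : (Polynomial.C dr : Polynomial ℤ) ≠ 0 := fun h => hdr (Polynomial.C_eq_zero.mp h)
    refine ⟨Polynomial.C dr * S, Polynomial.C ds * R, mul_ne_zero hdr' hS0, ?_⟩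
    apply Subtype.ext
    rw [IntermediateField.coe_mul, kb_toola_evK_aeval, kb_toola_evK_aeval, Polynomial.map_mul,
      Polynomial.map_mul, hS, hR, Polynomial.map_C, Polynomial.map_C, hrs, map_mul, map_mul,
      map_mul, map_mul, eq_intCast, eq_intCast]
    field_simp

/-- (T2) -/
theorem kb_toola_frac : kb_FracStatement := by
  intro n
  induction n with
  | zero =>
    intro c
    exact ⟨1, fun _ => 0, one_ne_zero, fun i => i.elim0⟩
  | succ n ih =>
    intro c
    obtain ⟨g, f, hg, hf⟩ := ih (fun i => c i.succ)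
    obtain ⟨g₀, f₀, hg₀, hf₀⟩ := kb_toola_frac_one (c 0)
    refine ⟨g₀ * g, Fin.cons (f₀ * g) (fun i => g₀ * f i), mul_ne_zero hg₀ hg, ?_⟩
    intro i
    refine Fin.cases ?_ (fun k => ?_) i
    · rw [Fin.cons_zero, map_mul, map_mul, ← hf₀]
      ring
    · rw [Fin.cons_succ, map_mul, map_mul, ← hf k]
      ring

/-- Main theorem of the package ToolA. -/
theorem kb_toola_main : kb_TranscStatement ∧ kb_FracStatement ∧ kb_EvCoeStatement :=
  ⟨kb_toola_transc, kb_toola_frac, kb_toola_evcoe⟩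

end

end Fermat.Agent.S28
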