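/-
S28, block ChartKernel (twin B), package `ToolB` (prefix `kb_toolb_`): the toolkit statements
(T4) `kb_LIntStatement`, (T5) `kb_LIntDvdStatement`, (T6) `kb_ContentStatement`.
-/
import Fermat.Agent.S28.KBInterfaces

set_option autoImplicit false

open ModularCurve ModularCurve.IgusaScheme

namespace Fermat.Agent.S28

noncomputable section

/-- (T4) Images of integral series are `ℓ`-integral, and `ℓ`-integral series are closed under
multiplication. -/
theorem kb_toolb_lint : kb_LIntStatement := by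
  intro ℓ
  refine ⟨fun s n => ?_, fun x y hx hy n => ?_⟩
  · rw [coeffMap_coeff, eq_intCast]
    exact intCast_mem _ _
  · rw [HahnSeries.coeff_mul]
    exact Subring.sum_mem _ fun ij _ => Subring.mul_mem _ (hx _) (hy _)

/-- Auxiliary for (T5): if `ℓ⁻¹ * a` (with `a` an integer) has denominator prime to `ℓ`, then
`ℓ ∣ a`. -/
theorem kb_toolb_dvd_of_den_coprime (ℓ : ℕ) (hℓ : ℓ ≠ 0) (a : ℤ)
    (h : ((ℓ : ℚ)⁻¹ * (a : ℚ)).den.Coprime ℓ) : (ℓ : ℤ) ∣ a := by
  set q : ℚ := (ℓ : ℚ)⁻¹ * (a : ℚ) with hq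
  have hℓQ : (ℓ : ℚ) ≠ 0 := Nat.cast_ne_zero.mpr hℓ
  have h1 : q * (ℓ : ℚ) = (a : ℚ) := by
    rw [hq]
    field_simp
  have hden : (q.den : ℚ) ≠ 0 := Nat.cast_ne_zero.mpr q.den_ne_zero
  have h2 : (a : ℚ) * (q.den : ℚ) = (q.num : ℚ) * (ℓ : ℚ) := by
    rw [← h1, mul_right_comm, Rat.mul_den_eq_num]
  have h3 : a * (q.den : ℤ) = q.num * (ℓ : ℤ) := by exact_mod_cast h2
  have hcop : IsCoprime (ℓ : ℤ) (q.den : ℤ) := (Nat.isCoprime_iff_coprime.mpr h).symm
  exact hcop.dvd_of_dvd_mul_right ⟨q.num, by rw [h3, mul_comm]⟩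

/-- (T5) If `ℓ⁻¹ • cQ s` is `ℓ`-integral for an integral series `s`, then `ℓ` divides all
coefficients of `s`. -/
theorem kb_toolb_lintdvd : kb_LIntDvdStatement := by
  intro ℓ hℓ s h n
  have hq := h n
  rw [HahnSeries.coeff_smul, coeffMap_coeff, eq_intCast, smul_eq_mul] at hq
  exact kb_toolb_dvd_of_den_coprime ℓ hℓ.out.ne_zero (s.coeff n) hq

/-- Auxiliary for (T6): induction on a bound `k` for the multiplicity of `π` in `g`. -/
theorem kb_toolb_content_aux (π : Polynomial ℤ) (n : ℕ) :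
    ∀ (k : ℕ) (g : Polynomial ℤ) (f : Fin n → Polynomial ℤ), ¬ π ^ (k + 1) ∣ g →
      ∃ (e : ℕ) (g' : Polynomial ℤ) (f' : Fin n → Polynomial ℤ),
        g = π ^ e * g' ∧ (∀ i, f i = π ^ e * f' i) ∧ ¬ (π ∣ g' ∧ ∀ i, π ∣ f' i) := by
  intro k
  induction k with
  | zero =>
    intro g f hg
    refine ⟨0, g, f, by simp, fun i => by simp, fun h => hg ?_⟩
    simpa using h.1
  | succ k ih =>
    intro g f hg
    by_cases hdiv : π ∣ g ∧ ∀ i, π ∣ f i
    · obtain ⟨⟨g₁, hg₁⟩, hf⟩ := hdiv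
      choose f₁ hf₁ using hf
      have hg₁' : ¬ π ^ (k + 1) ∣ g₁ := by
        rintro ⟨c, hc⟩
        exact hg ⟨c, by rw [hg₁, hc, pow_succ' π (k + 1), mul_assoc]⟩
      obtain ⟨e, g', f', h1, h2, h3⟩ := ih g₁ f₁ hg₁'
      refine ⟨e + 1, g', f', ?_, fun i => ?_, h3⟩
      · rw [hg₁, h1, pow_succ', mul_assoc]
      · rw [hf₁ i, h2 i, pow_succ', mul_assoc]
    · exact ⟨0, g, f, by simp, fun i => by simp, hdiv⟩

/-- (T6) Removal of the common `ℓ`-content of a tuple `(g, f_0, …, f_{n-1})` of integer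
polynomials with `g ≠ 0`. -/
theorem kb_toolb_content : kb_ContentStatement := by
  intro ℓ hℓ n g f hg
  have hπ : Prime (Polynomial.C (ℓ : ℤ)) :=
    Polynomial.prime_C_iff.mpr (Nat.prime_iff_prime_int.mp hℓ.out)
  have hfin : FiniteMultiplicity (Polynomial.C (ℓ : ℤ)) g :=
    FiniteMultiplicity.of_not_isUnit hπ.not_isUnit hg
  obtain ⟨k, hk⟩ := hfin
  exact kb_toolb_content_aux (Polynomial.C (ℓ : ℤ)) n k g f hk

/-- Package `ToolB`: the toolkit statements (T4), (T5), (T6). -/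
theorem kb_toolb_main : kb_LIntStatement ∧ kb_LIntDvdStatement ∧ kb_ContentStatement :=
  ⟨kb_toolb_lint, kb_toolb_lintdvd, kb_toolb_content⟩

end

end Fermat.Agent.S28
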