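/-
S28, block ChartKernel (twin B): integration file.

`kb_main : Char0DegStatement → DegStatement → ChartKernelStatement` (Igusa's saturation statement
for the three chart algebras), assembled from the packages of the block
(`KBToolA`, `KBToolB`, `KBBasis`, `KBIntO`, `KBO`, `KBOBA`, `KBICB`, `KBK6`, `KBCHx`).
-/
import Fermat.Agent.S28.KBInterfaces
import Fermat.Agent.S28.KBToolA
import Fermat.Agent.S28.KBToolB
import Fermat.Agent.S28.KBBasis
import Fermat.Agent.S28.KBIntO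
import Fermat.Agent.S28.KBO
import Fermat.Agent.S28.KBOBA
import Fermat.Agent.S28.KBICB
import Fermat.Agent.S28.KBK6
import Fermat.Agent.S28.KBCHx

set_option autoImplicit false

open ModularCurve ModularCurve.IgusaScheme

namespace Fermat.Agent.S28

noncomputable section

/-- `jq ^ n` is `ℓ`-integral. -/
theorem kb_main_lint_jq_pow (hLInt : kb_LIntStatement) (ℓ : ℕ) (n : ℕ) : LInt ℓ (jq ^ n) := by
  have h : jq ^ n = coeffMap (Int.castRingHom ℚ) (jqModC ℤ ^ n) := by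
    rw [map_pow, coeffMap_jqModC, jqModC_rat]
  rw [h]
  exact (hLInt ℓ).1 _

/-- The single-generator case (K6) of the chart kernel statement. -/
theorem kb_main_single (hIntO : kb_IntOStatement) (hK6 : kb_K6Statement) (hCH : kb_CHStatement)
    (N : ℕ) [NeZero N] (ℓ : ℕ) [Fact ℓ.Prime] (hℓN : ¬ ℓ ∣ N)
    (tF : ↥(modularFunctionFieldFull N)) (t : ↥kb_K0) (ht : t = kb_jK ∨ t = kb_jK⁻¹)
    (htF : (tF : LaurentSeries ℚ) = (t : LaurentSeries ℚ))
    (x : ↥(modularFunctionFieldFull N)) (hx : x ∈ chartAlg N ℓ {tF})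
    (hL : LInt ℓ ((ℓ : ℚ)⁻¹ • (x : LaurentSeries ℚ))) :
    (ℓ : ℚ)⁻¹ • x ∈ chartAlg N ℓ {tF} := by
  have hℓ0 : (ℓ : ℚ) ≠ 0 := Nat.cast_ne_zero.mpr (Fact.out : ℓ.Prime).ne_zero
  rw [hCH N ℓ tF t htF] at hx ⊢
  have hy : ((((ℓ : ℚ)⁻¹ • x : ↥(modularFunctionFieldFull N))) : LaurentSeries ℚ) =
      (ℓ : ℚ)⁻¹ • (x : LaurentSeries ℚ) := rfl
  rw [hy]
  refine hK6 ℓ t ht _ ?_ (hIntO N ℓ hℓN _ ?_ hL)
  · have h2 : (ℓ : LaurentSeries ℚ) * ((ℓ : ℚ)⁻¹ • (x : LaurentSeries ℚ)) =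
        (x : LaurentSeries ℚ) := by
      rw [mul_smul_comm, ← nsmul_eq_mul, ← Nat.cast_smul_eq_nsmul ℚ, smul_smul,
        inv_mul_cancel₀ hℓ0, one_smul]
    rw [h2]
    exact hx
  · rw [← hy]
    exact SetLike.coe_mem _

/-- The chart kernel statement from the package statements. -/
theorem kb_main_of (hLInt : kb_LIntStatement) (hIntO : kb_IntOStatement) (hK6 : kb_K6Statement)
    (hCH : kb_CHStatement) : ChartKernelStatement := by
  intro N _ ℓ _ hℓN S hS x hx hL
  have hjK : ((jFull N : ↥(modularFunctionFieldFull N)) : LaurentSeries ℚ) =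
      ((kb_jK : ↥kb_K0) : LaurentSeries ℚ) := rfl
  have hjK' : (((jFull N)⁻¹ : ↥(modularFunctionFieldFull N)) : LaurentSeries ℚ) =
      ((kb_jK⁻¹ : ↥kb_K0) : LaurentSeries ℚ) := by
    rw [IntermediateField.coe_inv, IntermediateField.coe_inv, hjK]
  rcases hS with rfl | rfl | rfl
  · exact kb_main_single hIntO hK6 hCH N ℓ hℓN _ _ (Or.inl rfl) hjK x hx hL
  · exact kb_main_single hIntO hK6 hCH N ℓ hℓN _ _ (Or.inr rfl) hjK' x hx hL
  · have hx' : x ∈ chartAlg N ℓ (insert (jFull N)⁻¹ {jFull N}) := by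
      rw [show insert (jFull N)⁻¹ ({jFull N} : Set ↥(modularFunctionFieldFull N)) =
        {jFull N, (jFull N)⁻¹} from Set.pair_comm _ _]
      exact hx
    obtain ⟨n, hn⟩ := exists_pow_mul_mem_chartAlg (Set.mem_singleton _) (jFull_ne_zero N) hx'
    have hL' : LInt ℓ ((ℓ : ℚ)⁻¹ • (((jFull N) ^ n * x : ↥(modularFunctionFieldFull N)) :
        LaurentSeries ℚ)) := by
      have h : (ℓ : ℚ)⁻¹ • (((jFull N) ^ n * x : ↥(modularFunctionFieldFull N)) :
          LaurentSeries ℚ) = jq ^ n * ((ℓ : ℚ)⁻¹ • (x : LaurentSeries ℚ)) := by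
        rw [mul_smul_comm, IntermediateField.coe_mul, IntermediateField.coe_pow, coe_jFull]
      rw [h]
      exact (hLInt ℓ).2 _ _ (kb_main_lint_jq_pow hLInt ℓ n) hL
    have h1 := kb_main_single hIntO hK6 hCH N ℓ hℓN _ _ (Or.inl rfl) hjK _ hn hL'
    have h2 := chartAlg_mono N ℓ (sFin_subset N) h1
    have h3 : (jFull N)⁻¹ ^ n ∈ chartAlg N ℓ {jFull N, (jFull N)⁻¹} :=
      pow_mem (subset_chartAlg N ℓ _ (by simp)) n
    have h4 := mul_mem h3 h2
    have h5 : (jFull N)⁻¹ ^ n * ((ℓ : ℚ)⁻¹ • ((jFull N) ^ n * x)) = (ℓ : ℚ)⁻¹ • x := by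
      rw [mul_smul_comm, ← mul_assoc, ← mul_pow, inv_mul_cancel₀ (jFull_ne_zero N), one_pow,
        one_mul]
    rw [h5] at h4
    exact h4

/-- **Block ChartKernel**: Igusa's saturation statement for the chart algebras, from the
characteristic-zero degree bound and the degree statement mod `ℓ`. -/
theorem kb_main : Char0DegStatement → DegStatement → ChartKernelStatement := by
  intro hC hD
  obtain ⟨hT, hFrac, hEv⟩ := kb_toola_main
  obtain ⟨hLInt, hLDvd, hCont⟩ := kb_toolb_main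
  have hBasis : kb_BasisStatement := kb_basis_main hC hD hT hFrac hEv hCont
  have hIntO : kb_IntOStatement := kb_into_main hBasis hT hEv hLInt hLDvd hCont
  obtain ⟨hOSub, hOIC⟩ := kb_o_main hT hFrac hCont
  have hOBA : kb_OBAStatement := kb_oba_main hT hOSub
  have hICB : kb_ICBStatement := kb_icb_main hT hFrac
  have hK6 : kb_K6Statement := kb_k6_main hICB hOBA hOIC
  exact kb_main_of hLInt hIntO hK6 kb_chx_main

end

end Fermat.Agent.S28
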