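/-
S28, block ChartKernel (team C): the block theorem

  `kc_main : Char0DegStatement → DegStatement → ChartKernelStatement`

(statement Q2: saturation of the chart algebras).  The packages (transcendence of `jq`, basis,
integrality over the Gauss valuation ring `O₀`, `O₀` and `ℚ[t]` integrally closed, `O₀ ∩ ℚ[t] ⊆ ℤ_(ℓ)[t]`,
the minimal polynomial argument and the transport to the chart algebras) are the landed files of
twin A (`KA*.lean`); this file contains the one-generator step (K6) and the two-generator step (K7).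
-/
import Fermat.Agent.S28.KAInterfaces
import Fermat.Agent.S28.KATrans
import Fermat.Agent.S28.KABasis
import Fermat.Agent.S28.KAIntO
import Fermat.Agent.S28.KAOClosed
import Fermat.Agent.S28.KABClosed
import Fermat.Agent.S28.KAInter
import Fermat.Agent.S28.KASingleL
import Fermat.Agent.S28.KATransport

set_option autoImplicit false

open ModularCurve ModularCurve.IgusaScheme

namespace Fermat.Agent.S28

noncomputable section

/-- Powers of `jq` are `ℓ`-integral. -/
theorem kc_LInt_jq_pow (ℓ : ℕ) (n : ℕ) : LInt ℓ (jq ^ n) := by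
  have h := ka_LInt_ev ℓ (Polynomial.X ^ n)
  rwa [map_pow, ka_ev_X] at h

/-- (K6) The chart algebra of one generator `s ∈ {j, j⁻¹}` is saturated. -/
theorem kc_single (hI : ka_IntO0Statement) (hS : ka_SingleLStatement)
    (hTr : ka_TransportStatement) (N : ℕ) [NeZero N] (ℓ : ℕ) [Fact ℓ.Prime] (hℓN : ¬ ℓ ∣ N)
    (s : ↥(modularFunctionFieldFull N))
    (hs : (s : LaurentSeries ℚ) = jq ∨ (s : LaurentSeries ℚ) = jq⁻¹)
    (x : ↥(modularFunctionFieldFull N)) (hx : x ∈ chartAlg N ℓ {s})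
    (hL : LInt ℓ ((ℓ : ℚ)⁻¹ • (x : LaurentSeries ℚ))) :
    (ℓ : ℚ)⁻¹ • x ∈ chartAlg N ℓ {s} := by
  have hxA : IsIntegral ↥(ka_A ℓ (s : LaurentSeries ℚ)) (x : LaurentSeries ℚ) :=
    (hTr N ℓ s x).mp hx
  have hcoe : (((ℓ : ℚ)⁻¹ • x : ↥(modularFunctionFieldFull N)) : LaurentSeries ℚ) =
      (ℓ : ℚ)⁻¹ • (x : LaurentSeries ℚ) := rfl
  have hyF : (ℓ : ℚ)⁻¹ • (x : LaurentSeries ℚ) ∈ modularFunctionFieldFull N := by
    rw [← hcoe]; exact SetLike.coe_mem _
  have hyO : IsIntegral ↥(ka_O0 ℓ) ((ℓ : ℚ)⁻¹ • (x : LaurentSeries ℚ)) := hI N ℓ hℓN _ hyF hL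
  have hyB : IsIntegral ↥(ka_B (s : LaurentSeries ℚ)) ((ℓ : ℚ)⁻¹ • (x : LaurentSeries ℚ)) := by
    rw [ka_smul_eq]
    exact (ka_isIntegral_of_mem (ka_C_mem_B _ _)).mul (ka_isIntegral_mono (ka_A_le_B ℓ _) hxA)
  rw [hTr N ℓ s, hcoe]
  exact hS ℓ _ hs _ hyO hyB

/-- (Q2) [Igusa] saturation of the three chart algebras, from the characteristic zero degree bound
and the degree statement mod `ℓ`. -/
theorem kc_main : Char0DegStatement → DegStatement → ChartKernelStatement := by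
  intro hC0 hDeg N _ ℓ _ hℓN S hS x hx hL
  have hT : ka_TransStatement := ka_trans_main
  have hF : ka_FracStatement := ka_trans_frac
  have hB : ka_BasisStatement := ka_basis_main hT hF hC0
  have hI : ka_IntO0Statement := ka_into_main hT hB hDeg
  have hO : ka_O0ClosedStatement := ka_oclosed_main hT hF
  have hBC : ka_BClosedStatement := ka_bclosed_main hT
  have hInter : ka_InterStatement := ka_inter_main hT
  have hSL : ka_SingleLStatement := ka_singlel_main hT hO hBC hInter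
  have hTr : ka_TransportStatement := ka_transport_main
  rcases hS with rfl | rfl | rfl
  · exact kc_single hI hSL hTr N ℓ hℓN (jFull N) (Or.inl rfl) x hx hL
  · exact kc_single hI hSL hTr N ℓ hℓN (jFull N)⁻¹ (Or.inr rfl) x hx hL
  · -- (K7) two generators: multiply by a power of `j`
    have hx' : x ∈ chartAlg N ℓ (insert (jFull N)⁻¹ {jFull N}) := by
      rw [show insert (jFull N)⁻¹ ({jFull N} : Set ↥(modularFunctionFieldFull N)) =
        {jFull N, (jFull N)⁻¹} from Set.pair_comm _ _]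
      exact hx
    obtain ⟨n, hn⟩ := exists_pow_mul_mem_chartAlg (Set.mem_singleton _) (jFull_ne_zero N) hx'
    have hL' : LInt ℓ ((ℓ : ℚ)⁻¹ •
        ((jFull N ^ n * x : ↥(modularFunctionFieldFull N)) : LaurentSeries ℚ)) := by
      have h : (ℓ : ℚ)⁻¹ • ((jFull N ^ n * x : ↥(modularFunctionFieldFull N)) : LaurentSeries ℚ) =
          jq ^ n * ((ℓ : ℚ)⁻¹ • (x : LaurentSeries ℚ)) := by
        rw [mul_smul_comm]; rfl
      rw [h]
      exact ka_LInt_mul (kc_LInt_jq_pow ℓ n) hL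
    have h1 : (ℓ : ℚ)⁻¹ • (jFull N ^ n * x) ∈ chartAlg N ℓ {jFull N} :=
      kc_single hI hSL hTr N ℓ hℓN (jFull N) (Or.inl rfl) _ hn hL'
    have h2 : (ℓ : ℚ)⁻¹ • (jFull N ^ n * x) ∈ chartAlg N ℓ {jFull N, (jFull N)⁻¹} :=
      chartAlg_mono N ℓ (sFin_subset N) h1
    have h3 : ((jFull N)⁻¹) ^ n ∈ chartAlg N ℓ {jFull N, (jFull N)⁻¹} :=
      pow_mem (subset_chartAlg N ℓ _ (by simp)) n
    have h4 := mul_mem h3 h2
    have h5 : ((jFull N)⁻¹) ^ n * ((ℓ : ℚ)⁻¹ • (jFull N ^ n * x)) = (ℓ : ℚ)⁻¹ • x := by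
      rw [mul_smul_comm, ← mul_assoc, ← mul_pow, inv_mul_cancel₀ (jFull_ne_zero N), one_pow,
        one_mul]
    rwa [h5] at h4

end

end Fermat.Agent.S28
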