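/-
S28, block Prime (twin A) — INTERNAL INTERFACE FILE of the block.

Statement-`Prop`s of the work packages of the block `Prime` (Part D1 of S28):
`j(y^r) ∉ k(j(y))` and `[k(j(y), j(y^r)) : k(j(y))] = r + 1` for a prime `r` different from the
characteristic of the algebraically closed field `k`.  No proofs here.  Each package proves its statement
in `Fermat/Agent/S28/PA<Package>.lean`; `PAMain.lean` combines them into
`pa_level : ModEqStatement → HasseStatement → PrimeLevelStatement` and
`pa_irred : ModEqStatement → PrimeLevelStatement → PrimeIrredStatement`.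

Notation in the comments: `Ω = k((y)) = LaurentSeries k`, `j = jqModC k`, `ĵ = j(y^r) = qExpand k r j`,
`Δ = deltaC k`, `evalL x p = p(x)`, `scale c` the substitution `y ↦ c * y`.
-/
import Fermat.Agent.S28.Interfaces

set_option autoImplicit false

open ModularCurve Polynomial

namespace Fermat.Agent.S28

noncomputable section

/-! ## Packages for `PrimeLevelStatement` -/

/-- (R) If `ĵ = j(y^r)` is a root of a monic polynomial with coefficients in `k[j]` and `ĵ ∈ k(j)`,
then `ĵ = R(j)` for a monic polynomial `R ∈ k[T]` of degree `r`. -/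
def pa_RPolyStatement : Prop :=
  ∀ (k : Type) [Field k] (r : ℕ) [NeZero r] (Ψ : Polynomial (Polynomial k)),
    Ψ.Monic → (Ψ.map (evalL (jqModC k))).eval (qExpand k r (jqModC k)) = 0 →
    qExpand k r (jqModC k) ∈ IntermediateField.adjoin k {jqModC k} →
    ∃ R : Polynomial k, R.Monic ∧ R.natDegree = r ∧ qExpand k r (jqModC k) = evalL (jqModC k) R

/-- (F) If `ĵ = R(j)` with `R` monic of degree `r`, then `∏_{b<r} (X - j(ζ^b y)) = R(X) - ĵ` in
`Ω[X]`. -/
def pa_FactorStatement : Prop :=
  ∀ (k : Type) [Field k] (r : ℕ) [NeZero r] (ζ : k), IsPrimitiveRoot ζ r →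
    ∀ R : Polynomial k, R.Monic → R.natDegree = r →
    qExpand k r (jqModC k) = evalL (jqModC k) R →
    ∏ b ∈ Finset.range r, (X - C (scale (ζ ^ b) (jqModC k))) =
      R.map (HahnSeries.C : k →+* LaurentSeries k) - C (qExpand k r (jqModC k))

/-- (I) From `ĵ = R(j)`, the factorisation (F) and a Hasse identity `F(j) * Δ^m = 1`:
`F ∘ R` divides `F^(r+1)` in `k[T]`. -/
def pa_IdentityStatement : Prop :=
  ∀ (k : Type) [Field k] [IsAlgClosed k] (r : ℕ) [NeZero r], r.Prime →
    ∀ ζ : k, IsPrimitiveRoot ζ r →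
    ∀ (R F : Polynomial k) (m : ℕ),
    qExpand k r (jqModC k) = evalL (jqModC k) R →
    ∏ b ∈ Finset.range r, (X - C (scale (ζ ^ b) (jqModC k))) =
      R.map (HahnSeries.C : k →+* LaurentSeries k) - C (qExpand k r (jqModC k)) →
    F.Monic → evalL (jqModC k) F * deltaC k ^ m = 1 →
    F.comp R ∣ F ^ (r + 1)

/-- (H) In a Hasse identity `F(j) * Δ^m = 1` the polynomial `F` has degree `m`. -/
def pa_HasseDegStatement : Prop :=
  ∀ (k : Type) [Field k] (F : Polynomial k) (m : ℕ),
    evalL (jqModC k) F * deltaC k ^ m = 1 → F.natDegree = m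

/-- (E) The end of the argument: `(j - s₀)^m * Δ^m = 1`, `ĵ = R(j)` and `R - s₀ = (T - s₀)^r` are
contradictory for `r ≥ 2` invertible in `k`. -/
def pa_EndStatement : Prop :=
  ∀ (k : Type) [Field k] [IsAlgClosed k] (r : ℕ) [NeZero r], 2 ≤ r → (r : k) ≠ 0 →
    ∀ (R : Polynomial k) (m : ℕ) (s0 : k), 0 < m →
    evalL (jqModC k) ((X - C s0) ^ m) * deltaC k ^ m = 1 →
    qExpand k r (jqModC k) = evalL (jqModC k) R →
    R - C s0 = (X - C s0) ^ r → False

/-! ## Packages for `PrimeIrredStatement` -/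

/-- (G) The Galois argument over `k(ĵ)`: if `x = j(y^(r^2)) ∉ k(ĵ)`, then `x` has degree `r + 1` over
`k(ĵ)` (its minimal polynomial divides `Φ(X, ĵ) = (X - x) ∏_{b<r} (X - j(ζ^b y))`, and the
substitutions `y ↦ ζ^b y` fix `k(ĵ)` and permute the `j(ζ^b y)` transitively). -/
def pa_IrredCoreStatement : Prop :=
  ∀ (k : Type) [Field k] (r : ℕ) [NeZero r], r.Prime → ∀ ζ : k, IsPrimitiveRoot ζ r →
    ∀ Φ : Polynomial (Polynomial k), Φ.Monic → Φ.natDegree = r + 1 →
    Φ.map (evalL (qExpand k r (jqModC k))) =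
      (X - C (qExpand k (r * r) (jqModC k))) *
        ∏ b ∈ Finset.range r, (X - C (scale (ζ ^ b) (jqModC k))) →
    qExpand k (r * r) (jqModC k) ∉ IntermediateField.adjoin k {qExpand k r (jqModC k)} →
    (minpoly ↥(IntermediateField.adjoin k {qExpand k r (jqModC k)})
      (qExpand k (r * r) (jqModC k))).natDegree = r + 1

/-- (T1) Descent along `y ↦ y^r`: `j(y^(r^2)) ∈ k(j(y^r))` implies `j(y^r) ∈ k(j(y))`. -/
def pa_DescendStatement : Prop :=
  ∀ (k : Type) [Field k] (r : ℕ) [NeZero r],
    qExpand k (r * r) (jqModC k) ∈ IntermediateField.adjoin k {qExpand k r (jqModC k)} →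
    qExpand k r (jqModC k) ∈ IntermediateField.adjoin k {jqModC k}

/-- (T2) Transport of the degree along `y ↦ y^r`: if `ĵ` is a root of a monic polynomial of degree
`r + 1` over `k[j]` and `j(y^(r^2))` has degree `r + 1` over `k(ĵ)`, then `ĵ` has degree `r + 1` over
`k(j)`. -/
def pa_IrredTransportStatement : Prop :=
  ∀ (k : Type) [Field k] (r : ℕ) [NeZero r] (Φ : Polynomial (Polynomial k)),
    Φ.Monic → Φ.natDegree = r + 1 →
    (Φ.map (evalL (jqModC k))).eval (qExpand k r (jqModC k)) = 0 →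
    (minpoly ↥(IntermediateField.adjoin k {qExpand k r (jqModC k)})
      (qExpand k (r * r) (jqModC k))).natDegree = r + 1 →
    (minpoly ↥(IntermediateField.adjoin k {jqModC k}) (qExpand k r (jqModC k))).natDegree = r + 1

end

end Fermat.Agent.S28
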