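/-
S28, block Prime (twin A), package End.

* `pa_end_hasseDeg : pa_HasseDegStatement` — in a Hasse identity `F(j) * Δ^m = 1` the polynomial `F`
  has degree `m` (compare orders at `y = 0`).
* `pa_end_main : pa_EndStatement` — `(j - s₀)^m * Δ^m = 1`, `j(y^r) = R(j)` and
  `R - s₀ = (T - s₀)^r` are contradictory for `r ≥ 2` invertible in `k`: the first identity gives
  `(j - s₀) * Δ = 1` (roots of unity in `k((y))` are constants), hence `Δ(y^r) = Δ^r`, which is false.

Toolkit used: the landed files `Subst.lean` (`subst_evalL_order`, `subst_pow_eq_one`, …) and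
`EtaProdB.lean` (`etaProdB_delta_ne`).
-/
import Fermat.Agent.S28.PAInterfaces
import Fermat.Agent.S28.Subst
import Fermat.Agent.S28.EtaProdB

set_option autoImplicit false

open ModularCurve Polynomial

namespace Fermat.Agent.S28

noncomputable section

/-! ## The formal discriminant: order and leading coefficient -/

/-- `Δ = y * E` with `E` a power series: the coefficients of `Δ` are those of `E`, shifted. -/
theorem pa_end_delta_coeff (k : Type) [Field k] (n : ℤ) :
    (deltaC k).coeff n =
      (HahnSeries.ofPowerSeries ℤ k (dedekindEtaUnit.map (Int.castRingHom k))).coeff (n - 1) := by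
  rw [deltaC, HahnSeries.coeff_single_mul, one_mul]

theorem pa_end_delta_coeff_one (k : Type) [Field k] : (deltaC k).coeff 1 = 1 := by
  rw [pa_end_delta_coeff, sub_self, show (0 : ℤ) = ((0 : ℕ) : ℤ) from rfl,
    HahnSeries.ofPowerSeries_apply_coeff, PowerSeries.coeff_map,
    PowerSeries.coeff_zero_eq_constantCoeff_apply, constantCoeff_dedekindEtaUnit]
  exact map_one _

theorem pa_end_delta_coeff_of_lt (k : Type) [Field k] (n : ℤ) (hn : n < 1) :
    (deltaC k).coeff n = 0 := by
  rw [pa_end_delta_coeff]
  exact ofPowerSeries_coeff_of_neg _ (by omega)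

theorem pa_end_delta_ne_zero (k : Type) [Field k] : deltaC k ≠ 0 := by
  intro h
  have h1 := pa_end_delta_coeff_one k
  rw [h, HahnSeries.coeff_zero] at h1
  exact zero_ne_one h1

theorem pa_end_delta_order (k : Type) [Field k] : (deltaC k).order = 1 := by
  refine le_antisymm (HahnSeries.order_le_of_coeff_ne_zero ?_) ?_
  · rw [pa_end_delta_coeff_one]
    exact one_ne_zero
  · by_contra hlt
    have h1 := pa_end_delta_coeff_of_lt k _ (not_le.mp hlt)
    rw [HahnSeries.coeff_order_eq_zero] at h1
    exact pa_end_delta_ne_zero k h1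

/-! ## Polynomials in the formal `j`: order and leading coefficient -/

/-- For `p ≠ 0` the series `p(j)` has order `-deg p` and leading coefficient the leading coefficient
of `p`. -/
theorem pa_end_evalL_order (k : Type) [Field k] (p : k[X]) (hp : p ≠ 0) :
    (evalL (jqModC k) p).order = -(p.natDegree : ℤ) ∧
    (evalL (jqModC k) p).coeff (-(p.natDegree : ℤ)) = p.leadingCoeff := by
  have h := subst_evalL_order k 1 one_ne_zero 1 p hp
  rw [subst_jsub_one_one, Nat.cast_one, one_mul, inv_one, one_pow, mul_one] at h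
  exact h

/-! ## (H) the degree in a Hasse identity -/

theorem pa_end_hasseDeg : pa_HasseDegStatement := by
  intro k _ F m h
  have hF : F ≠ 0 := by
    rintro rfl
    rw [map_zero, zero_mul] at h
    exact zero_ne_one h
  have hF' : evalL (jqModC k) F ≠ 0 := by
    intro h0
    rw [h0, zero_mul] at h
    exact zero_ne_one h
  have ho := congrArg HahnSeries.order h
  rw [HahnSeries.order_mul hF' (pow_ne_zero m (pa_end_delta_ne_zero k)), HahnSeries.order_pow,
    HahnSeries.order_one, (pa_end_evalL_order k F hF).1, pa_end_delta_order, nsmul_eq_mul,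
    mul_one] at ho
  omega

/-! ## (E) the end of the argument -/

theorem pa_end_main : pa_EndStatement := by
  intro k _ _ r _ hr hrk R m s0 hm hH hR hRs
  -- `A = j - s₀ = (X - s₀)(j)`
  obtain ⟨A, hA⟩ : ∃ A : LaurentSeries k, A = jqModC k - HahnSeries.C s0 := ⟨_, rfl⟩
  have hAe : evalL (jqModC k) (X - C s0) = A := by
    rw [map_sub, subst_evalL_X, subst_evalL_C, hA]
  obtain ⟨hAo, hAc⟩ := pa_end_evalL_order k (X - C s0) (X_sub_C_ne_zero s0)
  rw [hAe, natDegree_X_sub_C] at hAo hAc
  rw [leadingCoeff_X_sub_C] at hAc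
  rw [map_pow, hAe] at hH
  have hAne : A ≠ 0 := by
    intro h0
    rw [h0, HahnSeries.coeff_zero] at hAc
    exact zero_ne_one hAc
  -- `(A * Δ)^m = 1`, hence `A * Δ` is a constant, and this constant is `1`
  have h1 : (A * deltaC k) ^ m = 1 := by
    rw [mul_pow]
    exact hH
  obtain ⟨a, ha⟩ := subst_pow_eq_one k (A * deltaC k) m hm h1
  have hc : (A * deltaC k).coeff 0 = 1 := by
    have h2 := HahnSeries.coeff_mul_order_add_order A (deltaC k)
    rw [HahnSeries.leadingCoeff_eq, HahnSeries.leadingCoeff_eq, hAo, pa_end_delta_order,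
      hAc, pa_end_delta_coeff_one, mul_one] at h2
    rw [← h2]
    norm_num
  have ha1 : a = 1 := by
    rw [ha, HahnSeries.C_apply, HahnSeries.coeff_single_same] at hc
    exact hc
  have hAD : A * deltaC k = 1 := by
    rw [ha, ha1, map_one]
  -- apply the substitution `y ↦ y^r`: `A(y^r) = R(j) - s₀ = (j - s₀)^r = A^r`
  have h3 : qExpand k r A = A ^ r := by
    calc qExpand k r A = qExpand k r (jqModC k) - HahnSeries.C s0 := by
          rw [hA, map_sub, qExpand_C]
      _ = evalL (jqModC k) (R - C s0) := by rw [map_sub, subst_evalL_C, hR]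
      _ = A ^ r := by rw [hRs, map_pow, hAe]
  -- `A^r * Δ(y^r) = 1 = A^r * Δ^r`
  have h4 : A ^ r * qExpand k r (deltaC k) = A ^ r * deltaC k ^ r := by
    rw [← mul_pow, hAD, one_pow, ← h3, ← map_mul, hAD, map_one]
  exact etaProdB_delta_ne k r hr hrk (mul_left_cancel₀ (pow_ne_zero r hAne) h4)

end

end Fermat.Agent.S28
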