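/-
S28, block Prime (twin A), package `Factor`:
if `j(y^r) = R(j)` with `R ∈ k[T]` monic of degree `r`, then
`∏_{b<r} (X - j(ζ^b y)) = R(X) - j(y^r)` in `k((y))[X]`.
-/
import Fermat.Agent.S28.PAInterfaces
import Fermat.Agent.S28.Subst

set_option autoImplicit false

open ModularCurve Polynomial

namespace Fermat.Agent.S28

noncomputable section

/-- Powers of a primitive root of unity are non-zero. -/
theorem pa_factor_pow_ne_zero {k : Type} [Field k] {r : ℕ} [NeZero r] {ζ : k}
    (hζ : IsPrimitiveRoot ζ r) (b : ℕ) : ζ ^ b ≠ 0 :=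
  pow_ne_zero b (hζ.ne_zero (NeZero.ne r))

/-- Powers of a primitive `r`-th root of unity are `r`-th roots of unity. -/
theorem pa_factor_pow_pow {k : Type} [Field k] {r : ℕ} {ζ : k}
    (hζ : IsPrimitiveRoot ζ r) (b : ℕ) : (ζ ^ b) ^ r = 1 := by
  rw [← pow_mul, mul_comm, pow_mul, hζ.pow_eq_one, one_pow]

/-- The substitution `y ↦ ζ^b y` turns `j(y^r) = R(j(y))` into `j(y^r) = R(j(ζ^b y))`. -/
theorem pa_factor_eval {k : Type} [Field k] {r : ℕ} [NeZero r] {ζ : k}
    (hζ : IsPrimitiveRoot ζ r) (R : Polynomial k)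
    (hR : qExpand k r (jqModC k) = evalL (jqModC k) R) (b : ℕ) :
    qExpand k r (jqModC k) = evalL (scale (ζ ^ b) (jqModC k)) R := by
  have h1 := congrArg (scale (ζ ^ b)) hR
  rw [subst_scale_qExpand, pa_factor_pow_pow hζ b, subst_scale_one,
    subst_scale_evalL (ζ ^ b) (pa_factor_pow_ne_zero hζ b)] at h1
  exact h1

/-- Each `j(ζ^b y)` is a root of `R(X) - j(y^r)`. -/
theorem pa_factor_root {k : Type} [Field k] {r : ℕ} [NeZero r] {ζ : k}
    (hζ : IsPrimitiveRoot ζ r) (R : Polynomial k)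
    (hR : qExpand k r (jqModC k) = evalL (jqModC k) R) (b : ℕ) :
    (R.map (HahnSeries.C : k →+* LaurentSeries k) - C (qExpand k r (jqModC k))).eval
      (scale (ζ ^ b) (jqModC k)) = 0 := by
  have h1 : evalL (scale (ζ ^ b) (jqModC k)) R =
      (R.map (HahnSeries.C : k →+* LaurentSeries k)).eval (scale (ζ ^ b) (jqModC k)) := by
    rw [Polynomial.eval_map]
    rfl
  rw [Polynomial.eval_sub, Polynomial.eval_C, ← h1, ← pa_factor_eval hζ R hR b, sub_self]

/-- The series `j(ζ^b y)`, `b < r`, are pairwise distinct. -/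
theorem pa_factor_inj {k : Type} [Field k] {r : ℕ} [NeZero r] {ζ : k}
    (hζ : IsPrimitiveRoot ζ r) (b b' : ℕ) (hb : b < r) (hb' : b' < r)
    (h : scale (ζ ^ b) (jqModC k) = scale (ζ ^ b') (jqModC k)) : b = b' := by
  have h' : jsub k (ζ ^ b) 1 = jsub k (ζ ^ b') 1 := by
    rw [jsub, jsub, qExpand_one_apply, qExpand_one_apply]
    exact h
  exact hζ.pow_inj hb hb'
    (subst_jsub_eq_iff k (ζ ^ b) (ζ ^ b') (pa_factor_pow_ne_zero hζ b)
      (pa_factor_pow_ne_zero hζ b') 1 1 h').2

/-- `R(X) - j(y^r)` is monic of degree `r`. -/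
theorem pa_factor_monic {k : Type} [Field k] {r : ℕ} [NeZero r] (R : Polynomial k)
    (hRm : R.Monic) (hRd : R.natDegree = r) (c : LaurentSeries k) :
    (R.map (HahnSeries.C : k →+* LaurentSeries k) - C c).Monic ∧
      (R.map (HahnSeries.C : k →+* LaurentSeries k) - C c).natDegree = r := by
  have hr : 0 < r := Nat.pos_of_ne_zero (NeZero.ne r)
  have hm : (R.map (HahnSeries.C : k →+* LaurentSeries k)).Monic := hRm.map _
  have hd : (R.map (HahnSeries.C : k →+* LaurentSeries k)).natDegree = r := by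
    rw [hRm.natDegree_map, hRd]
  refine ⟨hm.sub_of_left ?_, ?_⟩
  · refine lt_of_le_of_lt Polynomial.degree_C_le ?_
    rw [← Polynomial.natDegree_pos_iff_degree_pos, hd]
    exact hr
  · rw [Polynomial.natDegree_sub_C, hd]

/-- **Package `Factor`**: if `j(y^r) = R(j)` with `R` monic of degree `r`, then
`∏_{b<r} (X - j(ζ^b y)) = R(X) - j(y^r)`. -/
theorem pa_factor_main : pa_FactorStatement := by
  intro k _ r _ ζ hζ R hRm hRd hR
  obtain ⟨hPm, hPd⟩ := pa_factor_monic R hRm hRd (qExpand k r (jqModC k))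
  have hP0 : R.map (HahnSeries.C : k →+* LaurentSeries k) - C (qExpand k r (jqModC k)) ≠ 0 :=
    hPm.ne_zero
  have hQm : (∏ b ∈ Finset.range r, (X - C (scale (ζ ^ b) (jqModC k)))).Monic :=
    Polynomial.monic_prod_X_sub_C (fun b : ℕ => scale (ζ ^ b) (jqModC k)) (Finset.range r)
  have hQd : (∏ b ∈ Finset.range r, (X - C (scale (ζ ^ b) (jqModC k)))).natDegree = r := by
    rw [Polynomial.natDegree_finsetProd_X_sub_C_eq_card (Finset.range r)
      (fun b : ℕ => scale (ζ ^ b) (jqModC k)), Finset.card_range]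
  have hnodup : ((Finset.range r).val.map (fun b : ℕ => scale (ζ ^ b) (jqModC k))).Nodup := by
    refine Multiset.Nodup.map_on ?_ (Finset.range r).nodup
    intro b hb b' hb' h
    exact pa_factor_inj hζ b b' (Finset.mem_range.mp hb) (Finset.mem_range.mp hb') h
  have hle : (Finset.range r).val.map (fun b : ℕ => scale (ζ ^ b) (jqModC k)) ≤
      (R.map (HahnSeries.C : k →+* LaurentSeries k) - C (qExpand k r (jqModC k))).roots := by
    rw [Multiset.le_iff_subset hnodup]
    intro x hx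
    obtain ⟨b, -, rfl⟩ := Multiset.mem_map.mp hx
    rw [Polynomial.mem_roots hP0]
    exact pa_factor_root hζ R hR b
  have hdvd : (∏ b ∈ Finset.range r, (X - C (scale (ζ ^ b) (jqModC k)))) ∣
      R.map (HahnSeries.C : k →+* LaurentSeries k) - C (qExpand k r (jqModC k)) := by
    have h := (Multiset.prod_X_sub_C_dvd_iff_le_roots hP0 _).mpr hle
    rw [Multiset.map_map] at h
    exact h
  exact (Polynomial.eq_of_monic_of_dvd_of_natDegree_le hQm hPm hdvd (by rw [hPd, hQd])).symm

end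

end Fermat.Agent.S28
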