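/-
S28, block Prime (twin A), package `Identity`.

From `ĵ = j(y^r) = R(j)`, the factorisation `∏_{b<r} (X - j(ζ^b y)) = R(X) - ĵ` and a Hasse identity
`F(j) * Δ^m = 1` we deduce `F ∘ R ∣ F^(r+1)` in `k[T]`.

Sketch.  Apply the substitutions `y ↦ y^r`, `y ↦ ζ^b y` (`b < r`) and `y ↦ y^(r^2)` to the Hasse
identity, multiply the last `r + 1` of them and compare with the `(r+1)`-st power of the first one by
means of the eta-product identity `∏_b Δ(ζ^b y) * Δ(y^(r^2)) = ε * Δ(y^r)^(r+1)`.  This gives
`F(ĵ)^(r+1) = (∏_b F(j(ζ^b y))) * F(j(y^(r^2))) * ε^m`.  Here `j(y^(r^2)) = R(ĵ)`, and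
`∏_b F(j(ζ^b y)) = G(ĵ)` for an explicit polynomial `G` (write `F` as a product of linear factors and
evaluate the factorisation at the roots).  Since `evalL ĵ` is injective, `F^(r+1) = G * (F ∘ R) * ε^m`.
-/
import Fermat.Agent.S28.PAInterfaces
import Fermat.Agent.S28.Subst
import Fermat.Agent.S28.EtaProdB

set_option autoImplicit false

open ModularCurve Polynomial

namespace Fermat.Agent.S28

noncomputable section

/-- The one-root identity: evaluating the factorisation `∏_b (X - j(ζ^b y)) = R(X) - ĵ` at a constant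
`s` gives `∏_b (j(ζ^b y) - s) = (-1)^r * (R(s) - ĵ)`. -/
theorem pa_identity_one_root {k : Type} [Field k] (r : ℕ) [NeZero r] (ζ : k) (R : Polynomial k)
    (hfac : ∏ b ∈ Finset.range r, (X - C (scale (ζ ^ b) (jqModC k))) =
      R.map (HahnSeries.C : k →+* LaurentSeries k) - C (qExpand k r (jqModC k))) (s : k) :
    ∏ b ∈ Finset.range r, (scale (ζ ^ b) (jqModC k) - HahnSeries.C s) =
      (-1) ^ r * (HahnSeries.C (R.eval s) - qExpand k r (jqModC k)) := by
  have h := congrArg (Polynomial.eval (HahnSeries.C s : LaurentSeries k)) hfac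
  rw [Polynomial.eval_prod] at h
  simp only [eval_sub, eval_X, eval_C, eval_map, Polynomial.eval₂_at_apply] at h
  rw [← h]
  have h2 : ∀ b ∈ Finset.range r, scale (ζ ^ b) (jqModC k) - HahnSeries.C s =
      -(HahnSeries.C s - scale (ζ ^ b) (jqModC k)) := fun b _ => (neg_sub _ _).symm
  rw [Finset.prod_congr rfl h2, Finset.prod_neg, Finset.card_range]

/-- Evaluation of a linear factor `X - s`. -/
theorem pa_identity_evalL_linear {k : Type} [Field k] (x : LaurentSeries k) (s : k) :
    evalL x (X - C s) = x - HahnSeries.C s := by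
  rw [map_sub, subst_evalL_X, subst_evalL_C]

/-- Evaluation of the factor `(-1)^r * (c - X)`. -/
theorem pa_identity_evalL_factor {k : Type} [Field k] (x : LaurentSeries k) (r : ℕ) (c : k) :
    evalL x (C ((-1) ^ r) * (C c - X)) = (-1) ^ r * (HahnSeries.C c - x) := by
  rw [map_mul, map_sub, subst_evalL_X, subst_evalL_C, subst_evalL_C, map_pow, map_neg, map_one]

/-- The product over `b < r` of the values at `j(ζ^b y)` of a product of linear factors is the value
at `ĵ` of an explicit polynomial. -/
theorem pa_identity_multiset {k : Type} [Field k] (r : ℕ) [NeZero r] (ζ : k) (R : Polynomial k)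
    (hfac : ∏ b ∈ Finset.range r, (X - C (scale (ζ ^ b) (jqModC k))) =
      R.map (HahnSeries.C : k →+* LaurentSeries k) - C (qExpand k r (jqModC k)))
    (t : Multiset k) :
    ∏ b ∈ Finset.range r, evalL (scale (ζ ^ b) (jqModC k)) ((t.map fun s => X - C s).prod) =
      evalL (qExpand k r (jqModC k))
        ((t.map fun s => C ((-1) ^ r) * (C (R.eval s) - X)).prod) := by
  induction t using Multiset.induction_on with
  | empty => simp
  | cons s t ih =>
    rw [Multiset.map_cons, Multiset.prod_cons, Multiset.map_cons, Multiset.prod_cons]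
    simp only [map_mul]
    rw [Finset.prod_mul_distrib, ih]
    congr 1
    simp only [pa_identity_evalL_linear]
    rw [pa_identity_one_root r ζ R hfac s, ← map_mul, pa_identity_evalL_factor]

/-- The cancellation step: from the three substituted Hasse identities and the eta-product
identity. -/
theorem pa_identity_star {k : Type} [Field k] (r : ℕ) [NeZero r] (hr : r.Prime) (ζ : k)
    (hζ : IsPrimitiveRoot ζ r) (F : Polynomial k) (m : ℕ)
    (hF : evalL (jqModC k) F * deltaC k ^ m = 1) :
    ∃ ε : k, evalL (qExpand k r (jqModC k)) F ^ (r + 1) =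
      (∏ b ∈ Finset.range r, evalL (scale (ζ ^ b) (jqModC k)) F) *
        evalL (qExpand k (r * r) (jqModC k)) F * HahnSeries.C (ε ^ m) := by
  obtain ⟨ε, -, heta⟩ := etaProdB_main k r hr ζ hζ
  refine ⟨ε, ?_⟩
  have hζ0 : ζ ≠ 0 := hζ.ne_zero (NeZero.ne r)
  -- (H1) substitution `y ↦ y^r`
  have H1 : evalL (qExpand k r (jqModC k)) F * qExpand k r (deltaC k) ^ m = 1 := by
    have h := congrArg (qExpand k r) hF
    rwa [map_mul, map_pow, map_one, subst_qExpand_evalL] at h
  -- (H2) substitutions `y ↦ ζ^b y`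
  have H2 : ∀ b : ℕ,
      evalL (scale (ζ ^ b) (jqModC k)) F * scale (ζ ^ b) (deltaC k) ^ m = 1 := by
    intro b
    have hc : ζ ^ b ≠ 0 := pow_ne_zero b hζ0
    have h := congrArg (subst_scaleHom (ζ ^ b) hc) hF
    rwa [map_mul, map_pow, map_one, subst_scaleHom_apply, subst_scaleHom_apply,
      subst_scale_evalL _ hc] at h
  -- (H3) substitution `y ↦ y^(r^2)`
  have H3 : evalL (qExpand k (r * r) (jqModC k)) F * qExpand k (r * r) (deltaC k) ^ m = 1 := by
    have h := congrArg (qExpand k (r * r)) hF
    rwa [map_mul, map_pow, map_one, subst_qExpand_evalL] at h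
  -- product of (H2) over `b < r`
  have H2' : (∏ b ∈ Finset.range r, evalL (scale (ζ ^ b) (jqModC k)) F) *
      (∏ b ∈ Finset.range r, scale (ζ ^ b) (deltaC k)) ^ m = 1 := by
    rw [← Finset.prod_pow, ← Finset.prod_mul_distrib]
    exact Finset.prod_eq_one fun b _ => H2 b
  -- the product of (H2') and (H3), rewritten with the eta-product identity
  have Hprod : (∏ b ∈ Finset.range r, evalL (scale (ζ ^ b) (jqModC k)) F) *
      evalL (qExpand k (r * r) (jqModC k)) F * HahnSeries.C (ε ^ m) *
      (qExpand k r (deltaC k) ^ (r + 1)) ^ m = 1 := by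
    have h : (∏ b ∈ Finset.range r, evalL (scale (ζ ^ b) (jqModC k)) F) *
        evalL (qExpand k (r * r) (jqModC k)) F *
        ((∏ b ∈ Finset.range r, scale (ζ ^ b) (deltaC k)) * qExpand k (r * r) (deltaC k)) ^ m
        = 1 := by
      calc _ = ((∏ b ∈ Finset.range r, evalL (scale (ζ ^ b) (jqModC k)) F) *
            (∏ b ∈ Finset.range r, scale (ζ ^ b) (deltaC k)) ^ m) *
            (evalL (qExpand k (r * r) (jqModC k)) F * qExpand k (r * r) (deltaC k) ^ m) := by
              ring
        _ = 1 := by rw [H2', H3, one_mul]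
    rw [heta, mul_pow, ← map_pow, ← mul_assoc] at h
    exact h
  -- the `(r+1)`-st power of (H1)
  have H1' : evalL (qExpand k r (jqModC k)) F ^ (r + 1) *
      (qExpand k r (deltaC k) ^ (r + 1)) ^ m = 1 := by
    have h := congrArg (fun z => z ^ (r + 1)) H1
    simp only [one_pow, mul_pow] at h
    rw [pow_right_comm] at h
    exact h
  have hne : (qExpand k r (deltaC k) ^ (r + 1)) ^ m ≠ 0 := by
    intro h0
    rw [h0, mul_zero] at H1'
    exact zero_ne_one H1'
  exact mul_right_cancel₀ hne (H1'.trans Hprod.symm)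

theorem pa_identity_main : pa_IdentityStatement := by
  intro k _ _ r _ hr ζ hζ R F m hR hfac hFm hF
  obtain ⟨ε, hstar⟩ := pa_identity_star r hr ζ hζ F m hF
  -- Step 3: `j(y^(r^2)) = R(ĵ)` and `F(j(y^(r^2))) = (F ∘ R)(ĵ)`
  have hx : qExpand k (r * r) (jqModC k) = evalL (qExpand k r (jqModC k)) R := by
    rw [← qExpand_qExpand r r (jqModC k)]
    conv_lhs => rw [hR]
    rw [subst_qExpand_evalL]
  have hxF : evalL (qExpand k (r * r) (jqModC k)) F =
      evalL (qExpand k r (jqModC k)) (F.comp R) := by
    rw [hx, subst_evalL_apply, subst_evalL_apply, subst_evalL_apply, Polynomial.eval₂_comp]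
  -- Step 4: the product over `b` as a value at `ĵ`
  have hsplit : F = (F.roots.map fun s => X - C s).prod :=
    (IsAlgClosed.splits F).eq_prod_roots_of_monic hFm
  have hG : ∏ b ∈ Finset.range r, evalL (scale (ζ ^ b) (jqModC k)) F =
      evalL (qExpand k r (jqModC k))
        ((F.roots.map fun s => C ((-1) ^ r) * (C (R.eval s) - X)).prod) := by
    have h := pa_identity_multiset r ζ R hfac F.roots
    rw [← hsplit] at h
    exact h
  -- Step 5: injectivity of `evalL ĵ`
  have hinj : Function.Injective (evalL (qExpand k r (jqModC k))) := by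
    have h := subst_evalL_injective k 1 one_ne_zero r
    rwa [subst_jsub_one] at h
  have hfinal : F ^ (r + 1) =
      (F.roots.map fun s => C ((-1) ^ r) * (C (R.eval s) - X)).prod * F.comp R * C (ε ^ m) := by
    apply hinj
    rw [map_pow, map_mul, map_mul, subst_evalL_C, ← hG, ← hxF]
    exact hstar
  exact ⟨(F.roots.map fun s => C ((-1) ^ r) * (C (R.eval s) - X)).prod * C (ε ^ m), by
    rw [hfinal]; ring⟩

end

end Fermat.Agent.S28
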