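/-
S28, block Prime (twin A), package PA/Identity (twin T).

From `j(y^r) = R(j)`, the factorisation `∏_{b<r} (X - j(ζ^b y)) = R(X) - j(y^r)` and a Hasse identity
`F(j) * Δ^m = 1`, the polynomial `F ∘ R` divides `F^(r+1)` in `k[T]`.

Notation in the comments: `J = jqModC k`, `Jr = qExpand k r J = j(y^r)`, `x = qExpand k (r * r) J`,
`x_b = scale (ζ^b) J`, `Δ = deltaC k`, `D = qExpand k r Δ`.
-/
import Fermat.Agent.S28.PAInterfaces
import Fermat.Agent.S28.Subst
import Fermat.Agent.S28.EtaProd

set_option autoImplicit false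

open ModularCurve Polynomial

namespace Fermat.Agent.S28

noncomputable section

/-- The one-root identity: evaluating the factorisation `∏_b (X - x_b) = R(X) - Jr` at the constant
`s` gives `∏_b (x_b - s) = (-1)^r * (R(s) - Jr)`. -/
theorem pa_identityT_one_root (k : Type) [Field k] (r : ℕ) [NeZero r] (ζ : k) (R : Polynomial k)
    (hfac : ∏ b ∈ Finset.range r, (X - C (scale (ζ ^ b) (jqModC k))) =
      R.map (HahnSeries.C : k →+* LaurentSeries k) - C (qExpand k r (jqModC k))) (s : k) :
    ∏ b ∈ Finset.range r, (scale (ζ ^ b) (jqModC k) - HahnSeries.C s) =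
      (-1) ^ r * (HahnSeries.C (R.eval s) - qExpand k r (jqModC k)) := by
  have h := congrArg (Polynomial.eval (HahnSeries.C s : LaurentSeries k)) hfac
  rw [Polynomial.eval_prod] at h
  simp only [Polynomial.eval_sub, Polynomial.eval_X, Polynomial.eval_C, Polynomial.eval_map,
    Polynomial.eval₂_at_apply] at h
  have h2 : ∏ b ∈ Finset.range r, (scale (ζ ^ b) (jqModC k) - HahnSeries.C s) =
      ∏ b ∈ Finset.range r, -((HahnSeries.C s : LaurentSeries k) - scale (ζ ^ b) (jqModC k)) :=
    Finset.prod_congr rfl fun b _ => (neg_sub _ _).symm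
  rw [h2, Finset.prod_neg, Finset.card_range, h]

/-- `evalL y (X - C s) = y - s`. -/
theorem pa_identityT_evalL_X_sub_C (k : Type) [Field k] (y : LaurentSeries k) (s : k) :
    evalL y (X - C s) = y - HahnSeries.C s := by
  rw [map_sub, subst_evalL_X, subst_evalL_C]

/-- `evalL y (C a * (C c - X)) = a * (c - y)`. -/
theorem pa_identityT_evalL_C_mul (k : Type) [Field k] (y : LaurentSeries k) (a c : k) :
    evalL y (C a * (C c - X)) = HahnSeries.C a * (HahnSeries.C c - y) := by
  rw [map_mul, map_sub, subst_evalL_X, subst_evalL_C, subst_evalL_C]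

/-- The product over `b < r` of the values at `x_b` of a split monic polynomial `∏_s (T - s)` is the
value at `Jr` of the polynomial `∏_s (-1)^r (R(s) - T)`. -/
theorem pa_identityT_multiset (k : Type) [Field k] (r : ℕ) [NeZero r] (ζ : k) (R : Polynomial k)
    (hfac : ∏ b ∈ Finset.range r, (X - C (scale (ζ ^ b) (jqModC k))) =
      R.map (HahnSeries.C : k →+* LaurentSeries k) - C (qExpand k r (jqModC k)))
    (t : Multiset k) :
    ∏ b ∈ Finset.range r, evalL (scale (ζ ^ b) (jqModC k)) ((t.map fun s => X - C s).prod) =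
      evalL (qExpand k r (jqModC k))
        ((t.map fun s => C ((-1 : k) ^ r) * (C (R.eval s) - X)).prod) := by
  induction t using Multiset.induction_on with
  | empty =>
    simp only [Multiset.map_zero, Multiset.prod_zero, map_one, Finset.prod_const_one]
  | cons s t ih =>
    simp only [Multiset.map_cons, Multiset.prod_cons, map_mul]
    rw [Finset.prod_mul_distrib, ih]
    congr 1
    have h1 : ∀ b ∈ Finset.range r, evalL (scale (ζ ^ b) (jqModC k)) (X - C s) =
        scale (ζ ^ b) (jqModC k) - HahnSeries.C s :=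
      fun b _ => pa_identityT_evalL_X_sub_C k _ s
    rw [Finset.prod_congr rfl h1, pa_identityT_one_root k r ζ R hfac s, ← map_mul,
      pa_identityT_evalL_C_mul, map_pow, map_neg, map_one]

/-- The package statement (I): `F ∘ R ∣ F^(r+1)`. -/
theorem pa_identityT_main : pa_IdentityStatement := by
  intro k _ _ r _ hr ζ hζ R F m hR hfac hFm hF
  obtain ⟨ε, -, heta⟩ := etaProd_main k r hr ζ hζ
  -- Step 1: the three substitutions of the Hasse identity
  have H1 : evalL (qExpand k r (jqModC k)) F * qExpand k r (deltaC k) ^ m = 1 := by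
    have h := congrArg (qExpand k r) hF
    rwa [map_mul, map_pow, map_one, subst_qExpand_evalL] at h
  have H2 : ∀ b : ℕ,
      evalL (scale (ζ ^ b) (jqModC k)) F * scale (ζ ^ b) (deltaC k) ^ m = 1 := by
    intro b
    have hc : ζ ^ b ≠ 0 := pow_ne_zero _ (hζ.ne_zero (NeZero.ne r))
    have h := congrArg (subst_scaleHom (ζ ^ b) hc) hF
    rw [map_mul, map_pow, map_one, subst_scaleHom_apply, subst_scaleHom_apply,
      subst_scale_evalL _ hc] at h
    exact h
  have H3 : evalL (qExpand k (r * r) (jqModC k)) F * qExpand k (r * r) (deltaC k) ^ m = 1 := by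
    have h := congrArg (qExpand k (r * r)) hF
    rwa [map_mul, map_pow, map_one, subst_qExpand_evalL] at h
  -- Step 2: multiply and compare
  have H4 : (∏ b ∈ Finset.range r, evalL (scale (ζ ^ b) (jqModC k)) F) *
      evalL (qExpand k (r * r) (jqModC k)) F *
        (HahnSeries.C ε * qExpand k r (deltaC k) ^ (r + 1)) ^ m = 1 := by
    rw [← heta, mul_pow, ← Finset.prod_pow]
    calc (∏ b ∈ Finset.range r, evalL (scale (ζ ^ b) (jqModC k)) F) *
          evalL (qExpand k (r * r) (jqModC k)) F *
            ((∏ b ∈ Finset.range r, scale (ζ ^ b) (deltaC k) ^ m) *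
              qExpand k (r * r) (deltaC k) ^ m)
        = (∏ b ∈ Finset.range r,
            (evalL (scale (ζ ^ b) (jqModC k)) F * scale (ζ ^ b) (deltaC k) ^ m)) *
          (evalL (qExpand k (r * r) (jqModC k)) F * qExpand k (r * r) (deltaC k) ^ m) := by
          rw [Finset.prod_mul_distrib]; ring
      _ = 1 := by
          rw [H3, mul_one]
          exact Finset.prod_eq_one fun b _ => H2 b
  have H5 : evalL (qExpand k r (jqModC k)) F ^ (r + 1) *
      (qExpand k r (deltaC k) ^ (r + 1)) ^ m = 1 := by
    calc evalL (qExpand k r (jqModC k)) F ^ (r + 1) * (qExpand k r (deltaC k) ^ (r + 1)) ^ m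
        = (evalL (qExpand k r (jqModC k)) F * qExpand k r (deltaC k) ^ m) ^ (r + 1) := by ring
      _ = 1 := by rw [H1, one_pow]
  have hD : (qExpand k r (deltaC k) ^ (r + 1)) ^ m ≠ 0 := by
    intro h0
    rw [h0, mul_zero] at H5
    exact zero_ne_one H5
  have star : evalL (qExpand k r (jqModC k)) F ^ (r + 1) =
      (∏ b ∈ Finset.range r, evalL (scale (ζ ^ b) (jqModC k)) F) *
        evalL (qExpand k (r * r) (jqModC k)) F * HahnSeries.C (ε ^ m) := by
    apply mul_right_cancel₀ hD
    rw [H5, ← H4, mul_pow, map_pow]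
    ring
  -- Step 3: `x = Jr ∘ (y ↦ y^r) = R(Jr)`
  have hx : qExpand k (r * r) (jqModC k) = evalL (qExpand k r (jqModC k)) R := by
    calc qExpand k (r * r) (jqModC k) = qExpand k r (qExpand k r (jqModC k)) :=
          (qExpand_qExpand r r (jqModC k)).symm
      _ = qExpand k r (evalL (jqModC k) R) := by rw [← hR]
      _ = evalL (qExpand k r (jqModC k)) R := subst_qExpand_evalL r (jqModC k) R
  have hxF : evalL (qExpand k (r * r) (jqModC k)) F =
      evalL (qExpand k r (jqModC k)) (F.comp R) := by
    rw [hx]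
    exact (Polynomial.eval₂_comp (HahnSeries.C : k →+* LaurentSeries k)).symm
  -- Step 4: the product over `b` as a polynomial in `Jr`
  have hsplit : F = (F.roots.map fun s => X - C s).prod :=
    (IsAlgClosed.splits F).eq_prod_roots_of_monic hFm
  have hG : ∏ b ∈ Finset.range r, evalL (scale (ζ ^ b) (jqModC k)) F =
      evalL (qExpand k r (jqModC k))
        ((F.roots.map fun s => C ((-1 : k) ^ r) * (C (R.eval s) - X)).prod) := by
    have h := pa_identityT_multiset k r ζ R hfac F.roots
    rwa [← hsplit] at h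
  -- Step 5: injectivity of `evalL Jr`
  have hinj : Function.Injective (evalL (qExpand k r (jqModC k))) := by
    have h := subst_evalL_injective k 1 one_ne_zero r
    rwa [subst_jsub_one] at h
  have hfinal : F ^ (r + 1) =
      (F.roots.map fun s => C ((-1 : k) ^ r) * (C (R.eval s) - X)).prod * F.comp R *
        C (ε ^ m) := by
    apply hinj
    rw [map_pow, map_mul, map_mul, subst_evalL_C, ← hG, ← hxF]
    exact star
  exact ⟨(F.roots.map fun s => C ((-1 : k) ^ r) * (C (R.eval s) - X)).prod * C (ε ^ m), by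
    rw [hfinal]; ring⟩

end

end Fermat.Agent.S28
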