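/-
S28, block Prime (twin A), package `IrredCore`: the Galois argument over `k(j(y^r))`.

If `x = j(y^(r^2)) ∉ k(j(y^r))`, then `x` has degree `r + 1` over `k(j(y^r))`: its minimal polynomial
divides `Φ(X, j(y^r)) = (X - x) ∏_{b<r} (X - j(ζ^b y))`, and the substitutions `y ↦ ζ^c y` fix
`k(j(y^r))` pointwise and permute the `j(ζ^b y)` transitively.
-/
import Fermat.Agent.S28.PAInterfaces
import Fermat.Agent.S28.Subst

set_option autoImplicit false

open ModularCurve Polynomial

namespace Fermat.Agent.S28

noncomputable section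

/-! ## (a) Constants and polynomials in a generator lie in the generated field -/

theorem pa_irredCore_algebraMap_eq_C (k : Type) [Field k] (a : k) :
    algebraMap k (LaurentSeries k) a = (HahnSeries.C a : LaurentSeries k) := by
  have h1 : algebraMap k (PowerSeries k) a = PowerSeries.C a := rfl
  rw [HahnSeries.algebraMap_apply', h1, HahnSeries.ofPowerSeries_C]

theorem pa_irredCore_C_mem {k : Type} [Field k] (K : IntermediateField k (LaurentSeries k))
    (a : k) : (HahnSeries.C a : LaurentSeries k) ∈ K := by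
  rw [← pa_irredCore_algebraMap_eq_C]
  exact K.algebraMap_mem a

theorem pa_irredCore_evalL_mem {k : Type} [Field k] (w : LaurentSeries k) (p : k[X]) :
    evalL w p ∈ IntermediateField.adjoin k {w} := by
  rw [subst_evalL_apply, Polynomial.eval₂_eq_sum_range]
  exact sum_mem fun i _ => mul_mem (pa_irredCore_C_mem _ _)
    (pow_mem (IntermediateField.mem_adjoin_simple_self k w) i)

/-- `evalL w` with values in the field generated by `w`. -/
def pa_irredCore_e {k : Type} [Field k] (w : LaurentSeries k) :
    k[X] →+* ↥(IntermediateField.adjoin k {w}) :=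
  (evalL w).codRestrict (IntermediateField.adjoin k {w}) (pa_irredCore_evalL_mem w)

theorem pa_irredCore_e_comp {k : Type} [Field k] (w : LaurentSeries k) :
    (algebraMap ↥(IntermediateField.adjoin k {w}) (LaurentSeries k)).comp (pa_irredCore_e w) =
      evalL w :=
  RingHom.ext fun _ => rfl

/-! ## (c) The substitutions `y ↦ ζ^c y` fix `k(j(y^r))` pointwise -/

theorem pa_irredCore_fix {k : Type} [Field k] {r : ℕ} [NeZero r] {ζ : k}
    (hζ : IsPrimitiveRoot ζ r) (c : ℕ) (z : LaurentSeries k)
    (hz : z ∈ IntermediateField.adjoin k {qExpand k r (jqModC k)}) :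
    scale (ζ ^ c) z = z := by
  have hc0 : ζ ^ c ≠ 0 := pow_ne_zero c (hζ.ne_zero (NeZero.ne r))
  have key : ∀ z ∈ IntermediateField.adjoin k {qExpand k r (jqModC k)},
      subst_scaleHom (ζ ^ c) hc0 z = z := by
    intro z hz
    induction hz using IntermediateField.adjoin_induction with
    | mem x hx =>
      rw [Set.mem_singleton_iff] at hx
      subst hx
      rw [subst_scaleHom_apply, subst_scale_qExpand, ← pow_mul, mul_comm, pow_mul,
        hζ.pow_eq_one, one_pow, subst_scale_one]
    | algebraMap x =>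
      rw [subst_scaleHom_apply, pa_irredCore_algebraMap_eq_C, subst_scale_C]
    | add x y hx hy ihx ihy => rw [map_add, ihx, ihy]
    | inv x hx ih => rw [map_inv₀, ih]
    | mul x y hx hy ihx ihy => rw [map_mul, ihx, ihy]
  exact key z hz

/-! ## (d) Root transport -/

/-- A polynomial with coefficients in `k(j(y^r))` that vanishes at `z` vanishes at `z(ζ^c y)`. -/
theorem pa_irredCore_root_scale {k : Type} [Field k] {r : ℕ} [NeZero r] {ζ : k}
    (hζ : IsPrimitiveRoot ζ r) (c : ℕ)
    (μ : Polynomial ↥(IntermediateField.adjoin k {qExpand k r (jqModC k)}))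
    (z : LaurentSeries k)
    (hz : (μ.map (algebraMap ↥(IntermediateField.adjoin k {qExpand k r (jqModC k)})
      (LaurentSeries k))).eval z = 0) :
    (μ.map (algebraMap ↥(IntermediateField.adjoin k {qExpand k r (jqModC k)})
      (LaurentSeries k))).eval (scale (ζ ^ c) z) = 0 := by
  have hc0 : ζ ^ c ≠ 0 := pow_ne_zero c (hζ.ne_zero (NeZero.ne r))
  have hcomp : (subst_scaleHom (ζ ^ c) hc0).comp
      (algebraMap ↥(IntermediateField.adjoin k {qExpand k r (jqModC k)}) (LaurentSeries k)) =
      algebraMap ↥(IntermediateField.adjoin k {qExpand k r (jqModC k)}) (LaurentSeries k) :=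
    RingHom.ext fun w => pa_irredCore_fix hζ c _ w.2
  have h1 := Polynomial.eval₂_at_apply (p := μ.map (algebraMap
    ↥(IntermediateField.adjoin k {qExpand k r (jqModC k)}) (LaurentSeries k)))
    (subst_scaleHom (ζ ^ c) hc0) z
  rw [hz, map_zero, ← Polynomial.eval_map, Polynomial.map_map, hcomp, subst_scaleHom_apply] at h1
  exact h1

/-- If a polynomial over `k(j(y^r))` vanishes at one `j(ζ^b0 y)`, it vanishes at all of them. -/
theorem pa_irredCore_root_all {k : Type} [Field k] {r : ℕ} [NeZero r] {ζ : k}
    (hζ : IsPrimitiveRoot ζ r)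
    (μ : Polynomial ↥(IntermediateField.adjoin k {qExpand k r (jqModC k)}))
    (b0 : ℕ) (hb0 : b0 < r)
    (h0 : (μ.map (algebraMap ↥(IntermediateField.adjoin k {qExpand k r (jqModC k)})
      (LaurentSeries k))).eval (scale (ζ ^ b0) (jqModC k)) = 0) (b : ℕ) :
    (μ.map (algebraMap ↥(IntermediateField.adjoin k {qExpand k r (jqModC k)})
      (LaurentSeries k))).eval (scale (ζ ^ b) (jqModC k)) = 0 := by
  have h1 := pa_irredCore_root_scale hζ (b + (r - b0)) μ _ h0
  have h2 : ζ ^ (b + (r - b0)) * ζ ^ b0 = ζ ^ b := by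
    rw [← pow_add, add_assoc, Nat.sub_add_cancel hb0.le, pow_add, hζ.pow_eq_one, mul_one]
  rwa [subst_scale_scale, h2] at h1

/-! ## (e) Distinctness of the roots -/

theorem pa_irredCore_scale_eq_jsub (k : Type) [Field k] (c : k) :
    scale c (jqModC k) = jsub k c 1 := by
  rw [jsub, qExpand_one_apply]

theorem pa_irredCore_ne {k : Type} [Field k] {r : ℕ} [NeZero r] (hr : r.Prime) {ζ : k}
    (hζ : IsPrimitiveRoot ζ r) (b : ℕ) :
    scale (ζ ^ b) (jqModC k) ≠ qExpand k (r * r) (jqModC k) := by
  intro h
  rw [pa_irredCore_scale_eq_jsub, ← subst_jsub_one k (r * r)] at h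
  have h1 := (subst_jsub_eq_iff k (ζ ^ b) 1 (pow_ne_zero b (hζ.ne_zero (NeZero.ne r)))
    one_ne_zero 1 (r * r) h).1
  have h2 := hr.two_le
  nlinarith

theorem pa_irredCore_inj {k : Type} [Field k] {r : ℕ} [NeZero r] {ζ : k}
    (hζ : IsPrimitiveRoot ζ r) (b b' : ℕ) (hb : b < r) (hb' : b' < r)
    (h : scale (ζ ^ b) (jqModC k) = scale (ζ ^ b') (jqModC k)) : b = b' := by
  rw [pa_irredCore_scale_eq_jsub, pa_irredCore_scale_eq_jsub] at h
  have hζ0 : ζ ≠ 0 := hζ.ne_zero (NeZero.ne r)
  exact hζ.pow_inj hb hb'
    (subst_jsub_eq_iff k (ζ ^ b) (ζ ^ b') (pow_ne_zero b hζ0) (pow_ne_zero b' hζ0) 1 1 h).2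

/-! ## (f), (g) The abstract root-counting argument -/

/-- A monic `M` dividing `(X - x) ∏_{b<r} (X - y b)` with pairwise distinct roots: if `M` vanishes
at `x` and (as soon as it vanishes at one `y b`) at all `y b`, then either `M` has degree `r + 1`
or `M` divides `X - x`. -/
theorem pa_irredCore_count {L : Type} [Field L] (M : L[X]) (hM : M.Monic) (x : L) (y : ℕ → L)
    (r : ℕ) (hdvd : M ∣ (X - C x) * ∏ b ∈ Finset.range r, (X - C (y b)))
    (hx : M.eval x = 0)
    (htrans : ∀ b0, b0 < r → M.eval (y b0) = 0 → ∀ b, M.eval (y b) = 0)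
    (hne : ∀ b, y b ≠ x) (hinj : ∀ b b', b < r → b' < r → y b = y b' → b = b') :
    M.natDegree = r + 1 ∨ M ∣ X - C x := by
  have hM0 : M ≠ 0 := hM.ne_zero
  by_cases hcase : ∃ b0, b0 < r ∧ M.eval (y b0) = 0
  · left
    obtain ⟨b0, hb0, h0⟩ := hcase
    have hall := htrans b0 hb0 h0
    refine le_antisymm ?_ ?_
    · have hΨ : ((X - C x) * ∏ b ∈ Finset.range r, (X - C (y b))).Monic :=
        (monic_X_sub_C x).mul (monic_prod_of_monic _ _ fun b _ => monic_X_sub_C (y b))
      have hdeg : ((X - C x) * ∏ b ∈ Finset.range r, (X - C (y b))).natDegree = r + 1 := by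
        rw [(monic_X_sub_C x).natDegree_mul
          (monic_prod_of_monic _ _ fun b _ => monic_X_sub_C (y b)), natDegree_X_sub_C,
          natDegree_prod_of_monic _ _ fun b _ => monic_X_sub_C (y b)]
        simp [add_comm]
      rw [← hdeg]
      exact Polynomial.natDegree_le_of_dvd hdvd hΨ.ne_zero
    · classical
      have hnot : x ∉ (Finset.range r).image y := by
        intro hmem
        obtain ⟨b, -, hb⟩ := Finset.mem_image.mp hmem
        exact hne b hb
      have hcard : (insert x ((Finset.range r).image y)).card = r + 1 := by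
        rw [Finset.card_insert_of_notMem hnot, Finset.card_image_of_injOn, Finset.card_range]
        intro b hb b' hb' h
        exact hinj b b' (Finset.mem_range.mp hb) (Finset.mem_range.mp hb') h
      rw [← hcard]
      refine Polynomial.card_le_degree_of_subset_roots ?_
      intro z hz
      rw [Finset.mem_val, Finset.mem_insert, Finset.mem_image] at hz
      rw [Polynomial.mem_roots hM0, Polynomial.IsRoot.def]
      rcases hz with rfl | ⟨b, -, rfl⟩
      · exact hx
      · exact hall b
  · right
    have hcop : IsCoprime M (∏ b ∈ Finset.range r, (X - C (y b))) := by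
      refine IsCoprime.prod_right fun b hb => ?_
      refine IsCoprime.symm ?_
      rw [(Polynomial.irreducible_X_sub_C (y b)).coprime_iff_not_dvd, Polynomial.dvd_iff_isRoot,
        Polynomial.IsRoot.def]
      exact fun h => hcase ⟨b, Finset.mem_range.mp hb, h⟩
    exact hcop.dvd_of_dvd_mul_right hdvd

/-! ## The main theorem -/

theorem pa_irredCore_main : pa_IrredCoreStatement := by
  intro k _ r _ hr ζ hζ Φ hΦm hΦd hΦ hx
  -- notation
  have he := pa_irredCore_e_comp (qExpand k r (jqModC k))
  have hΨ : (Φ.map (pa_irredCore_e (qExpand k r (jqModC k)))).map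
      (algebraMap ↥(IntermediateField.adjoin k {qExpand k r (jqModC k)}) (LaurentSeries k)) =
      (X - C (qExpand k (r * r) (jqModC k))) *
        ∏ b ∈ Finset.range r, (X - C (scale (ζ ^ b) (jqModC k))) := by
    rw [Polynomial.map_map, he, hΦ]
  -- integrality
  have hmon : (Φ.map (pa_irredCore_e (qExpand k r (jqModC k)))).Monic := hΦm.map _
  have haeval : Polynomial.aeval (qExpand k (r * r) (jqModC k))
      (Φ.map (pa_irredCore_e (qExpand k r (jqModC k)))) = 0 := by
    rw [Polynomial.aeval_def, ← Polynomial.eval_map, hΨ, Polynomial.eval_mul, Polynomial.eval_sub,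
      Polynomial.eval_X, Polynomial.eval_C, sub_self, zero_mul]
  have hint : IsIntegral ↥(IntermediateField.adjoin k {qExpand k r (jqModC k)})
      (qExpand k (r * r) (jqModC k)) := ⟨_, hmon, haeval⟩
  have hdvd := Polynomial.map_dvd
    (algebraMap ↥(IntermediateField.adjoin k {qExpand k r (jqModC k)}) (LaurentSeries k))
    (minpoly.dvd _ _ haeval)
  rw [hΨ] at hdvd
  have hMmon := (minpoly.monic hint).map
    (algebraMap ↥(IntermediateField.adjoin k {qExpand k r (jqModC k)}) (LaurentSeries k))
  have hMdeg : ((minpoly ↥(IntermediateField.adjoin k {qExpand k r (jqModC k)})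
      (qExpand k (r * r) (jqModC k))).map (algebraMap
      ↥(IntermediateField.adjoin k {qExpand k r (jqModC k)}) (LaurentSeries k))).natDegree =
      (minpoly ↥(IntermediateField.adjoin k {qExpand k r (jqModC k)})
      (qExpand k (r * r) (jqModC k))).natDegree :=
    (minpoly.monic hint).natDegree_map _
  have hMx : ((minpoly ↥(IntermediateField.adjoin k {qExpand k r (jqModC k)})
      (qExpand k (r * r) (jqModC k))).map (algebraMap
      ↥(IntermediateField.adjoin k {qExpand k r (jqModC k)}) (LaurentSeries k))).eval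
      (qExpand k (r * r) (jqModC k)) = 0 := by
    rw [Polynomial.eval_map, ← Polynomial.aeval_def, minpoly.aeval]
  rcases pa_irredCore_count _ hMmon (qExpand k (r * r) (jqModC k))
      (fun b => scale (ζ ^ b) (jqModC k)) r hdvd hMx
      (fun b0 hb0 h0 b => pa_irredCore_root_all hζ _ b0 hb0 h0 b)
      (fun b => pa_irredCore_ne hr hζ b)
      (fun b b' hb hb' h => pa_irredCore_inj hζ b b' hb hb' h) with h | h
  · rw [← hMdeg, h]
  · exfalso
    apply hx
    have h1 : (minpoly ↥(IntermediateField.adjoin k {qExpand k r (jqModC k)})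
        (qExpand k (r * r) (jqModC k))).natDegree = 1 := by
      refine le_antisymm ?_ (minpoly.natDegree_pos hint)
      rw [← hMdeg]
      have := Polynomial.natDegree_le_of_dvd h (Polynomial.X_sub_C_ne_zero _)
      rwa [Polynomial.natDegree_X_sub_C] at this
    obtain ⟨w, hw⟩ := minpoly.natDegree_eq_one_iff.mp h1
    rw [← hw]
    exact w.2

end

end Fermat.Agent.S28
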