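/-
S28, block Prime/A, package `IrredCore` (twin T): the Galois argument over `k(j(y^r))`.

If `x = j(y^(r^2)) ∉ k(ĵ)`, `ĵ = j(y^r)`, then `x` has degree `r + 1` over `k(ĵ)`: its minimal polynomial
divides `Φ(X, ĵ) = (X - x) ∏_{b<r} (X - j(ζ^b y))`, and the substitutions `y ↦ ζ^c y` fix `k(ĵ)` pointwise
and permute the `j(ζ^b y)` transitively.
-/
import Fermat.Agent.S28.PAInterfaces
import Fermat.Agent.S28.Subst

set_option autoImplicit false

open ModularCurve Polynomial

namespace Fermat.Agent.S28

noncomputable section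

/-- A Galois argument by hand.  Let `K'` be an intermediate field of `Ω / F`, let `P ∈ K'[X]` be monic
of degree `r + 1` with `P = (X - x) ∏_{b<r} (X - x_b)` over `Ω`, where the `x_b` are pairwise distinct
and different from `x`.  If ring endomorphisms of `Ω` fixing `K'` pointwise permute the `x_b`
transitively and `x ∉ K'`, then the minimal polynomial of `x` over `K'` has degree `r + 1`. -/
theorem pa_irredCoreT_abstract {F Ω : Type} [Field F] [Field Ω] [Algebra F Ω]
    (K' : IntermediateField F Ω) (r : ℕ) (x : Ω) (xb : ℕ → Ω)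
    (P : Polynomial ↥K') (hP : P.Monic) (hPdeg : P.natDegree = r + 1)
    (hPmap : P.map (algebraMap ↥K' Ω) = (X - C x) * ∏ b ∈ Finset.range r, (X - C (xb b)))
    (hx : x ∉ K')
    (hne : ∀ b < r, xb b ≠ x)
    (hinj : ∀ b < r, ∀ b' < r, xb b = xb b' → b = b')
    (htrans : ∀ b0 < r, ∀ b < r, ∃ σ : Ω →+* Ω, (∀ z ∈ K', σ z = z) ∧ σ (xb b0) = xb b) :
    (minpoly ↥K' x).natDegree = r + 1 := by
  classical
  have hΨ : (P.map (algebraMap ↥K' Ω)).eval x = 0 := by
    rw [hPmap, eval_mul, eval_sub, eval_X, eval_C, sub_self, zero_mul]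
  have haeval : Polynomial.aeval x P = 0 := by
    rw [Polynomial.aeval_def, Polynomial.eval₂_eq_eval_map]
    exact hΨ
  have hint : IsIntegral ↥K' x := ⟨P, hP, by rw [Polynomial.eval₂_eq_eval_map]; exact hΨ⟩
  set M : Polynomial Ω := (minpoly ↥K' x).map (algebraMap ↥K' Ω) with hM
  have hdvd : M ∣ (X - C x) * ∏ b ∈ Finset.range r, (X - C (xb b)) := by
    rw [← hPmap]
    exact Polynomial.map_dvd _ (minpoly.dvd ↥K' x haeval)
  have hMmonic : M.Monic := (minpoly.monic hint).map _
  have hMdeg : M.natDegree = (minpoly ↥K' x).natDegree := Polynomial.natDegree_map _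
  have hMx : M.eval x = 0 := by
    rw [hM, Polynomial.eval_map, ← Polynomial.aeval_def]
    exact minpoly.aeval ↥K' x
  have hMne : M ≠ 0 := hMmonic.ne_zero
  have hσM : ∀ σ : Ω →+* Ω, (∀ z ∈ K', σ z = z) → M.map σ = M := by
    intro σ hσ
    rw [hM, Polynomial.map_map]
    congr 1
    ext z
    exact hσ z z.2
  have hΨmonic : (P.map (algebraMap ↥K' Ω)).Monic := hP.map _
  have hΨdeg : (P.map (algebraMap ↥K' Ω)).natDegree = r + 1 := by
    rw [hP.natDegree_map, hPdeg]
  have hle : M.natDegree ≤ r + 1 := by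
    rw [← hΨdeg]
    refine Polynomial.natDegree_le_of_dvd ?_ hΨmonic.ne_zero
    rw [hPmap]
    exact hdvd
  by_cases hcase : ∃ b0 < r, M.eval (xb b0) = 0
  · obtain ⟨b0, hb0, hroot⟩ := hcase
    have hall : ∀ b < r, M.eval (xb b) = 0 := by
      intro b hb
      obtain ⟨σ, hσ, hσb⟩ := htrans b0 hb0 b hb
      have h1 : (M.map σ).eval (σ (xb b0)) = σ (M.eval (xb b0)) := Polynomial.eval_map_apply σ _
      rw [hσM σ hσ, hσb, hroot, map_zero] at h1
      exact h1
    have hnodup : (x ::ₘ (Finset.range r).val.map xb).Nodup := by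
      rw [Multiset.nodup_cons]
      refine ⟨?_, ?_⟩
      · intro hmem
        rw [Multiset.mem_map] at hmem
        obtain ⟨b, hb, hbx⟩ := hmem
        exact hne b (Finset.mem_range.mp hb) hbx
      · refine Multiset.Nodup.map_on ?_ (Finset.range r).nodup
        intro b hb b' hb' h
        exact hinj b (Finset.mem_range.mp hb) b' (Finset.mem_range.mp hb') h
    have hsub : (x ::ₘ (Finset.range r).val.map xb) ≤ M.roots := by
      rw [Multiset.le_iff_subset hnodup]
      intro z hz
      rw [Multiset.mem_cons] at hz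
      rw [Polynomial.mem_roots hMne, Polynomial.IsRoot.def]
      rcases hz with rfl | hz
      · exact hMx
      · rw [Multiset.mem_map] at hz
        obtain ⟨b, hb, rfl⟩ := hz
        exact hall b (Finset.mem_range.mp hb)
    have hcard : r + 1 ≤ M.natDegree := by
      have h1 := Multiset.card_le_card hsub
      rw [Multiset.card_cons, Multiset.card_map] at h1
      have h2 : Multiset.card (Finset.range r).val = r := by
        rw [Finset.card_val, Finset.card_range]
      rw [h2] at h1
      exact le_trans h1 (Polynomial.card_roots' M)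
    rw [← hMdeg]
    exact le_antisymm hle hcard
  · exfalso
    simp only [not_exists, not_and] at hcase
    have hcop : IsCoprime M (∏ b ∈ Finset.range r, (X - C (xb b))) := by
      refine IsCoprime.prod_right ?_
      intro b hb
      have hirr : Irreducible (X - C (xb b)) := Polynomial.irreducible_X_sub_C (xb b)
      refine ((hirr.coprime_iff_not_dvd).mpr ?_).symm
      rw [Polynomial.dvd_iff_isRoot]
      exact hcase b (Finset.mem_range.mp hb)
    have hdvd1 : M ∣ X - C x := hcop.dvd_of_dvd_mul_right hdvd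
    have hdeg1 : M.natDegree ≤ 1 := by
      have := Polynomial.natDegree_le_of_dvd hdvd1 (Polynomial.X_sub_C_ne_zero x)
      rwa [Polynomial.natDegree_X_sub_C] at this
    have hpos : 0 < (minpoly ↥K' x).natDegree := minpoly.natDegree_pos hint
    have hone : (minpoly ↥K' x).natDegree = 1 := by omega
    rw [minpoly.natDegree_eq_one_iff] at hone
    obtain ⟨z, hz⟩ := hone
    exact hx (hz ▸ z.2)

/-- The structure map `k → k((y))` is the embedding of constants. -/
theorem pa_irredCoreT_algebraMap_eq_C (k : Type) [Field k] :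
    algebraMap k (LaurentSeries k) = (HahnSeries.C : k →+* LaurentSeries k) := by
  ext1 c
  rw [algebraMap_laurentSeries_eq_single]
  rfl

/-- (a) Values of polynomials at `t` lie in `k(t)`. -/
theorem pa_irredCoreT_evalL_mem {k : Type} [Field k] (t : LaurentSeries k) (p : k[X]) :
    evalL t p ∈ IntermediateField.adjoin k {t} := by
  have h : evalL t p = Polynomial.aeval t p := by
    rw [Polynomial.aeval_def, evalL, Polynomial.coe_eval₂RingHom, pa_irredCoreT_algebraMap_eq_C]
  rw [h]
  exact IntermediateField.algebra_adjoin_le_adjoin k {t} (Polynomial.aeval_mem_adjoin_singleton k t)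

/-- (c) The substitution `y ↦ c * y` with `c ^ r = 1` fixes `k(j(y^r))` pointwise. -/
theorem pa_irredCoreT_fix {k : Type} [Field k] (r : ℕ) [NeZero r] (c : k) (hc : c ≠ 0)
    (hcr : c ^ r = 1) (z : LaurentSeries k)
    (hz : z ∈ IntermediateField.adjoin k {qExpand k r (jqModC k)}) :
    subst_scaleHom c hc z = z := by
  induction hz using IntermediateField.adjoin_induction with
  | mem x hx =>
    rw [Set.mem_singleton_iff] at hx
    subst hx
    rw [subst_scaleHom_apply, subst_scale_qExpand, hcr, subst_scale_one]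
  | algebraMap a =>
    rw [pa_irredCoreT_algebraMap_eq_C, subst_scaleHom_apply, subst_scale_C]
  | add x y hx hy ihx ihy => rw [map_add, ihx, ihy]
  | inv x hx ihx => rw [map_inv₀, ihx]
  | mul x y hx hy ihx ihy => rw [map_mul, ihx, ihy]

/-- (G) The Galois argument over `k(ĵ)`. -/
theorem pa_irredCoreT_main : pa_IrredCoreStatement := by
  intro k _ r _ hr ζ hζ Φ hΦmonic hΦdeg hΦ hx
  have hζ0 : ζ ≠ 0 := hζ.ne_zero (NeZero.ne r)
  have hcomp : (algebraMap ↥(IntermediateField.adjoin k {qExpand k r (jqModC k)})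
      (LaurentSeries k)).comp
      ((evalL (qExpand k r (jqModC k))).codRestrict
        (IntermediateField.adjoin k {qExpand k r (jqModC k)})
        (fun p => pa_irredCoreT_evalL_mem (qExpand k r (jqModC k)) p)) =
      evalL (qExpand k r (jqModC k)) := RingHom.ext fun p => rfl
  refine pa_irredCoreT_abstract (IntermediateField.adjoin k {qExpand k r (jqModC k)}) r
    (qExpand k (r * r) (jqModC k)) (fun b => scale (ζ ^ b) (jqModC k))
    (Φ.map ((evalL (qExpand k r (jqModC k))).codRestrict
        (IntermediateField.adjoin k {qExpand k r (jqModC k)})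
        (fun p => pa_irredCoreT_evalL_mem (qExpand k r (jqModC k)) p)))
    (hΦmonic.map _) ?_ ?_ hx ?_ ?_ ?_
  · rw [hΦmonic.natDegree_map, hΦdeg]
  · rw [Polynomial.map_map, hcomp]
    exact hΦ
  · intro b hb h
    have h1 : jsub k (ζ ^ b) 1 = jsub k 1 (r * r) := by
      rw [subst_jsub_one, jsub, qExpand_one_apply]
      exact h
    have h2 := (subst_jsub_eq_iff k (ζ ^ b) 1 (pow_ne_zero b hζ0) one_ne_zero 1 (r * r) h1).1
    have h3 := hr.two_le
    nlinarith
  · intro b hb b' hb' h
    have h1 : jsub k (ζ ^ b) 1 = jsub k (ζ ^ b') 1 := by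
      rw [jsub, jsub, qExpand_one_apply, qExpand_one_apply]
      exact h
    exact hζ.pow_inj hb hb'
      (subst_jsub_eq_iff k (ζ ^ b) (ζ ^ b') (pow_ne_zero b hζ0) (pow_ne_zero b' hζ0) 1 1 h1).2
  · intro b0 hb0 b hb
    refine ⟨subst_scaleHom (ζ ^ (b + r - b0)) (pow_ne_zero _ hζ0), ?_, ?_⟩
    · intro z hz
      refine pa_irredCoreT_fix r (ζ ^ (b + r - b0)) (pow_ne_zero _ hζ0) ?_ z hz
      rw [← pow_mul, mul_comm, pow_mul, hζ.pow_eq_one, one_pow]
    · show subst_scaleHom (ζ ^ (b + r - b0)) (pow_ne_zero _ hζ0) (scale (ζ ^ b0) (jqModC k)) =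
        scale (ζ ^ b) (jqModC k)
      rw [subst_scaleHom_apply, subst_scale_scale, ← pow_add]
      have hexp : b + r - b0 + b0 = b + r := by omega
      rw [hexp, pow_add, hζ.pow_eq_one, mul_one]

end

end Fermat.Agent.S28
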