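/-
S28, block Prime (twin A), package `RPoly`:
if `ĵ = j(y^r)` is a root of a monic polynomial with coefficients in `k[j]` and `ĵ ∈ k(j)`,
then `ĵ = R(j)` for a monic polynomial `R ∈ k[T]` of degree `r`.

"An element of `k(j)` that is integral over `k[j] ≅ k[T]` lies in `k[j]`; comparing lowest terms
gives the degree `r` and the leading coefficient `1`."
-/
import Fermat.Agent.S28.PAInterfaces
import Fermat.Agent.S28.Subst

set_option autoImplicit false

open ModularCurve Polynomial

namespace Fermat.Agent.S28

noncomputable section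

/-- `p ↦ p(j)` is injective on `k[T]`. -/
theorem pa_rpoly_evalL_injective (k : Type) [Field k] :
    Function.Injective (evalL (jqModC k)) := by
  have h := subst_evalL_injective k 1 one_ne_zero 1
  rwa [subst_jsub_one_one] at h

/-- `j(y^r) ≠ 0`. -/
theorem pa_rpoly_qExpand_ne_zero (k : Type) [Field k] (r : ℕ) [NeZero r] :
    qExpand k r (jqModC k) ≠ 0 := by
  have h := subst_jsub_coeff_neg k 1 one_ne_zero r
  rw [subst_jsub_one] at h
  intro h0
  rw [h0, HahnSeries.coeff_zero, inv_one] at h
  exact zero_ne_one h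

/-- The structure map `k → k((y))` is the embedding of the constants. -/
theorem pa_rpoly_algebraMap_eq_C (k : Type) [Field k] :
    algebraMap k (LaurentSeries k) = (HahnSeries.C : k →+* LaurentSeries k) := by
  ext1 c
  rw [algebraMap_laurentSeries_eq_single]
  rfl

/-- `Polynomial.aeval` at a Laurent series is `evalL`. -/
theorem pa_rpoly_aeval (k : Type) [Field k] (x : LaurentSeries k) (p : k[X]) :
    Polynomial.aeval x p = evalL x p := by
  rw [Polynomial.aeval_def, evalL, Polynomial.coe_eval₂RingHom, pa_rpoly_algebraMap_eq_C]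

/-- Abstract integrality step: let `φ : A →+* Ω` be an injective ring homomorphism from an
integrally closed domain `A` to a field `Ω`.  An element `x = φ P / φ Q` of `Ω` which is a root of
a monic polynomial with coefficients in `φ A` is of the form `φ R0`. -/
theorem pa_rpoly_integral {A Ω : Type*} [CommRing A] [IsDomain A] [IsIntegrallyClosed A]
    [Field Ω] (φ : A →+* Ω) (hφ : Function.Injective φ) (Ψ : Polynomial A) (hΨ : Ψ.Monic)
    (x : Ω) (hx : (Ψ.map φ).eval x = 0) (P Q : A) (hxPQ : x = φ P / φ Q) :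
    ∃ R0 : A, x = φ R0 := by
  have hcomp : (IsFractionRing.lift hφ : FractionRing A →+* Ω).comp
      (algebraMap A (FractionRing A)) = φ := by
    ext a
    rw [RingHom.comp_apply, IsFractionRing.lift_algebraMap]
  have hf : (IsFractionRing.lift hφ : FractionRing A →+* Ω)
      (algebraMap A (FractionRing A) P / algebraMap A (FractionRing A) Q) = x := by
    rw [map_div₀, IsFractionRing.lift_algebraMap, IsFractionRing.lift_algebraMap, hxPQ]
  have hint : IsIntegral A
      (algebraMap A (FractionRing A) P / algebraMap A (FractionRing A) Q) := by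
    refine ⟨Ψ, hΨ, ?_⟩
    apply (IsFractionRing.lift hφ : FractionRing A →+* Ω).injective
    rw [Polynomial.hom_eval₂, hcomp, hf, map_zero, ← Polynomial.eval_map]
    exact hx
  obtain ⟨R0, hR0⟩ := IsIntegrallyClosed.isIntegral_iff.mp hint
  refine ⟨R0, ?_⟩
  rw [← hf, ← hR0, IsFractionRing.lift_algebraMap]

/-- (R) If `ĵ = j(y^r)` is a root of a monic polynomial with coefficients in `k[j]` and
`ĵ ∈ k(j)`, then `ĵ = R(j)` for a monic polynomial `R ∈ k[T]` of degree `r`. -/
theorem pa_rpoly_main : pa_RPolyStatement := by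
  intro k _ r _ Ψ hΨ hroot hmem
  obtain ⟨P, Q, hPQ⟩ := (IntermediateField.mem_adjoin_simple_iff k _).mp hmem
  rw [pa_rpoly_aeval, pa_rpoly_aeval] at hPQ
  obtain ⟨R0, hR0⟩ := pa_rpoly_integral (evalL (jqModC k)) (pa_rpoly_evalL_injective k) Ψ hΨ _
    hroot P Q hPQ
  have hR0ne : R0 ≠ 0 := by
    rintro rfl
    rw [map_zero] at hR0
    exact pa_rpoly_qExpand_ne_zero k r hR0
  obtain ⟨h1, h2⟩ := subst_evalL_order k 1 one_ne_zero 1 R0 hR0ne
  rw [subst_jsub_one_one, ← hR0] at h1 h2
  have hJr_ord := subst_jsub_order k 1 one_ne_zero r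
  have hJr_coeff := subst_jsub_coeff_neg k 1 one_ne_zero r
  rw [subst_jsub_one] at hJr_ord hJr_coeff
  rw [hJr_ord] at h1
  have hdeg : R0.natDegree = r := by
    push_cast at h1
    omega
  refine ⟨R0, ?_, hdeg, hR0⟩
  rw [hdeg, Nat.cast_one, one_mul, hJr_coeff, inv_one, one_pow, mul_one] at h2
  exact h2.symm

end

end Fermat.Agent.S28
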