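/-
S28, block Prime (twin A), package Transport.

Transport along the substitution `y ↦ y ^ r` (the `k`-algebra endomorphism `σ = qExpandAlgHomC k r` of
`Ω = k((y))`, which is injective and maps `k(j)` onto `k(j(y^r))` and `j(y^r)` to `j(y^(r^2))`):

* `pa_transport_descend : pa_DescendStatement` — `j(y^(r^2)) ∈ k(j(y^r))` implies `j(y^r) ∈ k(j)`;
* `pa_transport_main : pa_IrredTransportStatement` — if `j(y^r)` is a root of a monic polynomial of
  degree `r + 1` over `k[j]` and `j(y^(r^2))` has degree `r + 1` over `k(j(y^r))`, then `j(y^r)` has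
  degree `r + 1` over `k(j)`.
-/
import Fermat.Agent.S28.PAInterfaces

set_option autoImplicit false

open ModularCurve Polynomial

namespace Fermat.Agent.S28

noncomputable section

/-- The image of `k(j)` under the substitution `y ↦ y ^ r` is `k(j(y^r))`. -/
theorem pa_transport_map (k : Type) [Field k] (r : ℕ) [NeZero r] :
    (IntermediateField.adjoin k {jqModC k}).map (qExpandAlgHomC k r) =
      IntermediateField.adjoin k {qExpand k r (jqModC k)} := by
  rw [IntermediateField.adjoin_map, Set.image_singleton, qExpandAlgHomC_apply]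

/-- The substitution `y ↦ y ^ r` maps `k(j)` into `k(j(y^r))`. -/
theorem pa_transport_mem (k : Type) [Field k] (r : ℕ) [NeZero r]
    (z : ↥(IntermediateField.adjoin k {jqModC k})) :
    qExpand k r (z : LaurentSeries k) ∈ IntermediateField.adjoin k {qExpand k r (jqModC k)} := by
  rw [← pa_transport_map]
  exact (IntermediateField.mem_map _).mpr ⟨z, z.2, rfl⟩

/-- (T1) Descent along `y ↦ y ^ r`. -/
theorem pa_transport_descend : pa_DescendStatement := by
  intro k _ r _ hx
  rw [← pa_transport_map, IntermediateField.mem_map] at hx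
  obtain ⟨z, hz, hzx⟩ := hx
  rw [qExpandAlgHomC_apply, ← qExpand_qExpand r r (jqModC k)] at hzx
  have hzJ : z = qExpand k r (jqModC k) := qExpand_injective r hzx
  rwa [← hzJ]

/-- The structure map `k → k((y))` is the embedding of the constants. -/
theorem pa_transport_algebraMap_eq_C (k : Type) [Field k] :
    algebraMap k (LaurentSeries k) = (HahnSeries.C : k →+* LaurentSeries k) := by
  ext1 c
  rw [algebraMap_laurentSeries_eq_single]
  rfl

/-- Polynomials in `j` with coefficients in `k` lie in `k(j)`. -/
theorem pa_transport_evalL_mem (k : Type) [Field k] (p : Polynomial k) :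
    evalL (jqModC k) p ∈ IntermediateField.adjoin k {jqModC k} := by
  show Polynomial.eval₂ HahnSeries.C (jqModC k) p ∈ IntermediateField.adjoin k {jqModC k}
  rw [Polynomial.eval₂_eq_sum_range]
  refine sum_mem fun i _ =>
    mul_mem ?_ (pow_mem (IntermediateField.mem_adjoin_simple_self k (jqModC k)) i)
  rw [← pa_transport_algebraMap_eq_C]
  exact IntermediateField.algebraMap_mem (IntermediateField.adjoin k {jqModC k}) (p.coeff i)

/-- Upper bound: `j(y^r)` is integral over `k(j)` of degree at most `r + 1`. -/
theorem pa_transport_upper (k : Type) [Field k] (r : ℕ) [NeZero r] (Φ : Polynomial (Polynomial k))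
    (hΦm : Φ.Monic) (hΦd : Φ.natDegree = r + 1)
    (hΦ : (Φ.map (evalL (jqModC k))).eval (qExpand k r (jqModC k)) = 0) :
    IsIntegral ↥(IntermediateField.adjoin k {jqModC k}) (qExpand k r (jqModC k)) ∧
      (minpoly ↥(IntermediateField.adjoin k {jqModC k}) (qExpand k r (jqModC k))).natDegree ≤
        r + 1 := by
  -- the coefficient map `k[T] → k(j)`, `p ↦ p(j)`
  let e0 : Polynomial k →+* ↥(IntermediateField.adjoin k {jqModC k}) :=
    (evalL (jqModC k)).codRestrict (IntermediateField.adjoin k {jqModC k})
      (pa_transport_evalL_mem k)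
  have he0 : (algebraMap ↥(IntermediateField.adjoin k {jqModC k}) (LaurentSeries k)).comp e0 =
      evalL (jqModC k) := RingHom.ext fun p => rfl
  have hmon : (Φ.map e0).Monic := hΦm.map e0
  have hroot : Polynomial.aeval (qExpand k r (jqModC k)) (Φ.map e0) = 0 := by
    rw [Polynomial.aeval_def, Polynomial.eval₂_map, he0, Polynomial.eval₂_eq_eval_map]
    exact hΦ
  have hint : IsIntegral ↥(IntermediateField.adjoin k {jqModC k}) (qExpand k r (jqModC k)) :=
    ⟨Φ.map e0, hmon, by rw [← Polynomial.aeval_def]; exact hroot⟩
  refine ⟨hint, ?_⟩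
  have hdvd := minpoly.dvd ↥(IntermediateField.adjoin k {jqModC k}) (qExpand k r (jqModC k)) hroot
  have hle := Polynomial.natDegree_le_of_dvd hdvd hmon.ne_zero
  rwa [hΦm.natDegree_map e0, hΦd] at hle

/-- Lower bound: the degree of `j(y^(r^2))` over `k(j(y^r))` is at most the degree of `j(y^r)` over
`k(j)` (apply `y ↦ y ^ r` to the minimal polynomial). -/
theorem pa_transport_lower (k : Type) [Field k] (r : ℕ) [NeZero r]
    (hint : IsIntegral ↥(IntermediateField.adjoin k {jqModC k}) (qExpand k r (jqModC k))) :
    (minpoly ↥(IntermediateField.adjoin k {qExpand k r (jqModC k)})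
        (qExpand k (r * r) (jqModC k))).natDegree ≤
      (minpoly ↥(IntermediateField.adjoin k {jqModC k}) (qExpand k r (jqModC k))).natDegree := by
  -- the restriction `k(j) → k(j(y^r))` of the substitution `y ↦ y ^ r`
  let τ : ↥(IntermediateField.adjoin k {jqModC k}) →+*
      ↥(IntermediateField.adjoin k {qExpand k r (jqModC k)}) :=
    ((qExpand k r).comp
        (algebraMap ↥(IntermediateField.adjoin k {jqModC k}) (LaurentSeries k))).codRestrict
      (IntermediateField.adjoin k {qExpand k r (jqModC k)}) (pa_transport_mem k r)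
  have hτ : (algebraMap ↥(IntermediateField.adjoin k {qExpand k r (jqModC k)})
        (LaurentSeries k)).comp τ =
      (qExpand k r).comp
        (algebraMap ↥(IntermediateField.adjoin k {jqModC k}) (LaurentSeries k)) :=
    RingHom.ext fun z => rfl
  have hmon : ((minpoly ↥(IntermediateField.adjoin k {jqModC k})
      (qExpand k r (jqModC k))).map τ).Monic := (minpoly.monic hint).map τ
  have hroot : Polynomial.aeval (qExpand k (r * r) (jqModC k))
      ((minpoly ↥(IntermediateField.adjoin k {jqModC k}) (qExpand k r (jqModC k))).map τ) = 0 := by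
    rw [Polynomial.aeval_def, Polynomial.eval₂_map, hτ, ← qExpand_qExpand r r (jqModC k),
      ← Polynomial.hom_eval₂, ← Polynomial.aeval_def, minpoly.aeval, map_zero]
  have hdvd := minpoly.dvd ↥(IntermediateField.adjoin k {qExpand k r (jqModC k)})
    (qExpand k (r * r) (jqModC k)) hroot
  have hle := Polynomial.natDegree_le_of_dvd hdvd hmon.ne_zero
  rwa [(minpoly.monic hint).natDegree_map τ] at hle

/-- (T2) Transport of the degree along `y ↦ y ^ r`. -/
theorem pa_transport_main : pa_IrredTransportStatement := by
  intro k _ r _ Φ hΦm hΦd hΦ hdeg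
  obtain ⟨hint, hle⟩ := pa_transport_upper k r Φ hΦm hΦd hΦ
  have hge := pa_transport_lower k r hint
  rw [hdeg] at hge
  exact le_antisymm hle hge

end

end Fermat.Agent.S28
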