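/-
S28, block Prime (twin A) — integration.

`pa_level : ModEqStatement → HasseStatement → PrimeLevelStatement`  (`j(y^r) ∉ k(j(y))`)
`pa_irred : ModEqStatement → PrimeLevelStatement → PrimeIrredStatement`  (`j(y^r)` has degree `r + 1`
over `k(j(y))`), for a prime `r` different from the characteristic of the algebraically closed
field `k`; assembled from the packages of the block (statements in `PAInterfaces.lean`).
-/
import Fermat.Agent.S28.PAInterfaces
import Fermat.Agent.S28.Subst
import Fermat.Agent.S28.RootArg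
import Fermat.Agent.S28.PARPoly
import Fermat.Agent.S28.PAFactor
import Fermat.Agent.S28.PAIdentity
import Fermat.Agent.S28.PAEnd
import Fermat.Agent.S28.PAIrredCoreT
import Fermat.Agent.S28.PATransport

set_option autoImplicit false

open ModularCurve Polynomial

namespace Fermat.Agent.S28

noncomputable section

/-- A prime `r` different from the characteristic is nonzero in `k`. -/
theorem pa_main_cast_ne_zero (ℓ : ℕ) [Fact ℓ.Prime] (k : Type) [Field k] [CharP k ℓ] (r : ℕ)
    (hr : r.Prime) (hrl : r ≠ ℓ) : (r : k) ≠ 0 := by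
  intro h
  have h1 : ℓ ∣ r := (CharP.cast_eq_zero_iff k ℓ r).mp h
  have h2 := (Nat.prime_dvd_prime_iff_eq (Fact.out : ℓ.Prime) hr).mp h1
  exact hrl h2.symm

/-- An algebraically closed field has a primitive `r`-th root of unity when `r` is invertible. -/
theorem pa_main_exists_primitiveRoot (k : Type) [Field k] [IsAlgClosed k] (r : ℕ)
    (hr : 0 < r) (hrk : (r : k) ≠ 0) : ∃ ζ : k, IsPrimitiveRoot ζ r := by
  have : NeZero (r : k) := ⟨hrk⟩
  have hdeg : (cyclotomic r k).degree ≠ 0 := by
    rw [degree_cyclotomic]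
    exact_mod_cast (Nat.totient_pos.mpr hr).ne'
  obtain ⟨ζ, hζ⟩ := IsAlgClosed.exists_root (cyclotomic r k) hdeg
  exact ⟨ζ, (isRoot_cyclotomic_iff).mp hζ⟩

/-- `PrimeLevelStatement` from the package statements. -/
theorem pa_level_of (hR : pa_RPolyStatement) (hFa : pa_FactorStatement) (hI : pa_IdentityStatement)
    (hH : pa_HasseDegStatement) (hE : pa_EndStatement) :
    ModEqStatement → HasseStatement → PrimeLevelStatement := by
  intro hME hHasse ℓ _ k _ _ _ r _ hr hrl hmem
  have hrk : (r : k) ≠ 0 := pa_main_cast_ne_zero ℓ k r hr hrl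
  obtain ⟨ζ, hζ⟩ := pa_main_exists_primitiveRoot k r hr.pos hrk
  obtain ⟨Φ, hΦm, -, hΦ⟩ := hME k r hr ζ hζ
  obtain ⟨F, m, hm, hFm, hF⟩ := hHasse ℓ k
  have hswap := subst_modEq_swap k r ζ Φ hΦ
  obtain ⟨R, hRm, hRd, hRe⟩ := hR k r Φ hΦm hswap hmem
  have hfac := hFa k r ζ hζ R hRm hRd hRe
  have hid := hI k r hr ζ hζ R F m hRe hfac hFm hF
  have hdeg : F.natDegree = m := hH k F m hF
  obtain ⟨s0, hs1, hs2⟩ :=
    rootArg_main k r m F R hr.two_le hrk hm hFm hdeg hRm hRd hid
  rw [hs1] at hF
  exact hE k r hr.two_le hrk R m s0 hm hF hRe hs2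

/-- `PrimeIrredStatement` from the package statements. -/
theorem pa_irred_of (hG : pa_IrredCoreStatement) (hD : pa_DescendStatement)
    (hT : pa_IrredTransportStatement) :
    ModEqStatement → PrimeLevelStatement → PrimeIrredStatement := by
  intro hME hPL ℓ _ k _ _ _ r _ hr hrl
  have hrk : (r : k) ≠ 0 := pa_main_cast_ne_zero ℓ k r hr hrl
  obtain ⟨ζ, hζ⟩ := pa_main_exists_primitiveRoot k r hr.pos hrk
  obtain ⟨Φ, hΦm, hΦd, hΦ⟩ := hME k r hr ζ hζ
  have hswap := subst_modEq_swap k r ζ Φ hΦ
  have hnot : qExpand k r (jqModC k) ∉ IntermediateField.adjoin k {jqModC k} := hPL ℓ k r hr hrl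
  have hcore := hG k r hr ζ hζ Φ hΦm hΦd hΦ (fun h => hnot (hD k r h))
  exact hT k r Φ hΦm hΦd hswap hcore

/-- (D1) Prime level: `j(y^r) ∉ k(j(y))`. -/
theorem pa_level : ModEqStatement → HasseStatement → PrimeLevelStatement :=
  pa_level_of pa_rpoly_main pa_factor_main pa_identity_main pa_end_hasseDeg pa_end_main

/-- (D1') Prime level, degree form: `j(y^r)` has degree `r + 1` over `k(j(y))`. -/
theorem pa_irred : ModEqStatement → PrimeLevelStatement → PrimeIrredStatement :=
  pa_irred_of pa_irredCoreT_main pa_transport_descend pa_transport_main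

end

end Fermat.Agent.S28
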