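/-
S28, block Prime (twin B), package Identity (twin T): the divisibility `F ∘ R ∣ F ^ (r + 1)` for a
Hasse pair `(F, m)`, from the eta-product identity, the factorisation
`∏_{b<r} (X - j(ζ^b y)) = R(X) - j(y^r)` and `j(y^r) = R(j)`.
-/
import Fermat.Agent.S28.PBInterfaces
import Fermat.Agent.S28.PBToolkit

set_option autoImplicit false

open ModularCurve Polynomial

namespace Fermat.Agent.S28

/-- Exchange of a finite product with a product over a multiset. -/
theorem pb_identityT_prod_comm {Ω : Type*} [CommRing Ω] {κ : Type*} (s : Finset ℕ)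
    (M : Multiset κ) (f : ℕ → κ → Ω) :
    ∏ b ∈ s, (M.map (fun t => f b t)).prod = (M.map (fun t => ∏ b ∈ s, f b t)).prod := by
  induction M using Multiset.induction_on with
  | empty => simp
  | cons a M ih =>
    simp only [Multiset.map_cons, Multiset.prod_cons]
    rw [Finset.prod_mul_distrib, ih]

/-- Evaluating the factorisation `∏ (X - x_b) = R - y` at a constant. -/
theorem pb_identityT_eval_const {k Ω : Type*} [Field k] [CommRing Ω] (c : k →+* Ω)
    (s : Finset ℕ) (x : ℕ → Ω) (R : k[X]) (y : Ω)
    (hfac : ∏ b ∈ s, (X - C (x b)) = R.map c - C y) (t : k) :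
    ∏ b ∈ s, (x b - c t) = c ((-1) ^ s.card) * (c (R.eval t) - y) := by
  have h := congrArg (Polynomial.eval (c t)) hfac
  simp only [eval_prod, eval_sub, eval_X, eval_C, eval_map, eval₂_at_apply] at h
  rw [← h, map_pow, map_neg, map_one, ← Finset.prod_neg]
  refine Finset.prod_congr rfl fun b _ => ?_
  ring

/-- The abstract exchange lemma: for a monic `F` over an algebraically closed field, the product
of the values of `F` at the roots `x_b` of `R - y` is a polynomial in `y`. -/
theorem pb_identityT_exchange {k Ω : Type*} [Field k] [IsAlgClosed k] [CommRing Ω] (c : k →+* Ω)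
    (s : Finset ℕ) (x : ℕ → Ω) (R F : k[X]) (y : Ω) (hF : F.Monic)
    (hfac : ∏ b ∈ s, (X - C (x b)) = R.map c - C y) :
    ∏ b ∈ s, F.eval₂ c (x b) =
      ((F.roots.map (fun t => C ((-1 : k) ^ s.card) * (C (R.eval t) - X))).prod).eval₂ c y := by
  have hFprod : F = (F.roots.map (fun t => X - C t)).prod :=
    (IsAlgClosed.splits F).eq_prod_roots_of_monic hF
  have h1 : ∀ z : Ω, F.eval₂ c z = (F.roots.map (fun t => z - c t)).prod := by
    intro z
    conv_lhs => rw [hFprod]
    rw [eval₂_multiset_prod, Multiset.map_map]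
    refine congrArg Multiset.prod (Multiset.map_congr rfl fun t _ => ?_)
    simp
  rw [Finset.prod_congr rfl fun b _ => h1 (x b), pb_identityT_prod_comm,
    eval₂_multiset_prod, Multiset.map_map]
  refine congrArg Multiset.prod (Multiset.map_congr rfl fun t _ => ?_)
  rw [pb_identityT_eval_const c s x R y hfac t]
  show c ((-1) ^ s.card) * (c (R.eval t) - y) =
    eval₂ c y (C ((-1 : k) ^ s.card) * (C (R.eval t) - X))
  rw [eval₂_mul, eval₂_C, eval₂_sub, eval₂_C, eval₂_X]

/-- Cancellation: `A * D = 1` and `B * D = 1` imply `A = B`. -/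
theorem pb_identityT_cancel {Ω : Type*} [CommRing Ω] (A B D : Ω) (hA : A * D = 1)
    (hB : B * D = 1) : A = B := by
  calc A = A * (B * D) := by rw [hB, mul_one]
    _ = B * (A * D) := by ring
    _ = B := by rw [hA, mul_one]

theorem pb_identityT_main : pb_IdentityStatement := by
  intro k _ _ r _ ζ hζ R F m ε heta hfac hR hFm hH
  -- the three transported Hasse identities
  have H1 : evalL (qExpand k r (jqModC k)) F * (qExpand k r (deltaC k)) ^ m = 1 := by
    have h := congrArg (qExpand k r) hH
    rwa [map_mul, map_pow, map_one, pb_tk_qExpand_evalL] at h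
  have H2 : ∀ b : ℕ, evalL (scale (ζ ^ b) (jqModC k)) F * (scale (ζ ^ b) (deltaC k)) ^ m = 1 := by
    intro b
    have h := congrArg (pb_tk_scaleHom (ζ ^ b) (pow_ne_zero b hζ)) hH
    rwa [map_mul, map_pow, map_one, pb_tk_scaleHom_apply, pb_tk_scaleHom_apply,
      pb_tk_scale_evalL _ (pow_ne_zero b hζ)] at h
  have H3 : evalL (qExpand k (r * r) (jqModC k)) F * (qExpand k (r * r) (deltaC k)) ^ m = 1 := by
    have h := congrArg (qExpand k (r * r)) hH
    rwa [map_mul, map_pow, map_one, pb_tk_qExpand_evalL] at h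
  -- the product of the identities (H2)
  have H2' : (∏ b ∈ Finset.range r, evalL (scale (ζ ^ b) (jqModC k)) F) *
      (∏ b ∈ Finset.range r, scale (ζ ^ b) (deltaC k)) ^ m = 1 := by
    rw [← Finset.prod_pow, ← Finset.prod_mul_distrib]
    exact Finset.prod_eq_one fun b _ => H2 b
  -- (★)
  have hstar : (∏ b ∈ Finset.range r, evalL (scale (ζ ^ b) (jqModC k)) F) *
      evalL (qExpand k (r * r) (jqModC k)) F * (HahnSeries.C ε) ^ m =
      (evalL (qExpand k r (jqModC k)) F) ^ (r + 1) := by
    refine pb_identityT_cancel _ _ (((qExpand k r (deltaC k)) ^ m) ^ (r + 1)) ?_ ?_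
    · have h : ((∏ b ∈ Finset.range r, evalL (scale (ζ ^ b) (jqModC k)) F) *
          (∏ b ∈ Finset.range r, scale (ζ ^ b) (deltaC k)) ^ m) *
          (evalL (qExpand k (r * r) (jqModC k)) F * (qExpand k (r * r) (deltaC k)) ^ m) = 1 := by
        rw [H2', H3, mul_one]
      have heta' := congrArg (fun z => z ^ m) heta
      simp only [mul_pow] at heta'
      rw [← h]
      calc (∏ b ∈ Finset.range r, evalL (scale (ζ ^ b) (jqModC k)) F) *
            evalL (qExpand k (r * r) (jqModC k)) F * (HahnSeries.C ε) ^ m *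
            ((qExpand k r (deltaC k)) ^ m) ^ (r + 1)
          = (∏ b ∈ Finset.range r, evalL (scale (ζ ^ b) (jqModC k)) F) *
            evalL (qExpand k (r * r) (jqModC k)) F *
            ((HahnSeries.C ε) ^ m * ((qExpand k r (deltaC k)) ^ (r + 1)) ^ m) := by ring
        _ = (∏ b ∈ Finset.range r, evalL (scale (ζ ^ b) (jqModC k)) F) *
            evalL (qExpand k (r * r) (jqModC k)) F *
            ((∏ b ∈ Finset.range r, scale (ζ ^ b) (deltaC k)) ^ m *
              (qExpand k (r * r) (deltaC k)) ^ m) := by rw [heta']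
        _ = _ := by ring
    · rw [← mul_pow, H1, one_pow]
  -- `j(y^(r*r)) = R(j(y^r))`
  have hcomp : evalL (qExpand k (r * r) (jqModC k)) F =
      evalL (qExpand k r (jqModC k)) (F.comp R) := by
    have h1 : qExpand k (r * r) (jqModC k) = evalL (qExpand k r (jqModC k)) R := by
      rw [← qExpand_qExpand, hR, pb_tk_qExpand_evalL, ← hR]
    rw [h1]
    show Polynomial.eval₂ (HahnSeries.C : k →+* LaurentSeries k)
        (Polynomial.eval₂ (HahnSeries.C : k →+* LaurentSeries k) (qExpand k r (jqModC k)) R) F =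
      Polynomial.eval₂ (HahnSeries.C : k →+* LaurentSeries k) (qExpand k r (jqModC k)) (F.comp R)
    rw [Polynomial.eval₂_comp]
  -- the exchange of products
  have hex : ∏ b ∈ Finset.range r, evalL (scale (ζ ^ b) (jqModC k)) F =
      evalL (qExpand k r (jqModC k))
        ((F.roots.map (fun t => C ((-1 : k) ^ r) * (C (R.eval t) - X))).prod) := by
    have h := pb_identityT_exchange (HahnSeries.C : k →+* LaurentSeries k) (Finset.range r)
      (fun b => scale (ζ ^ b) (jqModC k)) R F (qExpand k r (jqModC k)) hFm hfac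
    rw [Finset.card_range] at h
    exact h
  -- conclusion by injectivity of `evalL ĵ`
  have hinj : Function.Injective (evalL (qExpand k r (jqModC k))) := by
    have h := pb_tk_evalL_injective k 1 one_ne_zero r
    rwa [pb_tk_jsub_one k r] at h
  have hfinal : (F.roots.map (fun t => C ((-1 : k) ^ r) * (C (R.eval t) - X))).prod * F.comp R *
      C (ε ^ m) = F ^ (r + 1) := by
    apply hinj
    rw [map_mul, map_mul, map_pow (evalL (qExpand k r (jqModC k))) F (r + 1), ← hex, ← hcomp,
      ← hstar]
    congr 1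
    show Polynomial.eval₂ (HahnSeries.C : k →+* LaurentSeries k) (qExpand k r (jqModC k))
      (C (ε ^ m)) = HahnSeries.C ε ^ m
    rw [eval₂_C, map_pow]
  exact ⟨(F.roots.map (fun t => C ((-1 : k) ^ r) * (C (R.eval t) - X))).prod * C (ε ^ m), by
    rw [← hfinal]; ring⟩

end Fermat.Agent.S28
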