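/-
S28, block Prime (twin B), package RPoly (independent twin T).

If `ĵ = j(y^r)` lies in `k(j)` and is a root of a monic polynomial with coefficients in `k[j]`,
then `ĵ = R(j)` for a monic polynomial `R` of degree `r`.

Route: `evalL j : k[X] → k((y))` is injective, hence extends to a field embedding `ψ` of the
fraction field of `k[X]`; the element `ĵ` is the image under `ψ` of a fraction `x`, which is integral
over `k[X]` (pull the monic equation back along the injective `ψ`); as `k[X]` is integrally closed,
`x` is a polynomial `R`.  Degree and leading coefficient of `R` are read off from the pole of `ĵ`.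
-/
import Fermat.Agent.S28.PBInterfaces
import Fermat.Agent.S28.PBToolkit

set_option autoImplicit false

open ModularCurve Polynomial

namespace Fermat.Agent.S28

/-- `evalL x` is `Polynomial.aeval x`. -/
theorem pb_rpolyT_evalL_eq_aeval {k : Type} [Field k] (x : LaurentSeries k) (p : k[X]) :
    evalL x p = Polynomial.aeval x p := by
  have h : algebraMap k (LaurentSeries k) = (HahnSeries.C : k →+* LaurentSeries k) :=
    RingHom.ext fun a => by
      rw [ModularCurve.algebraMap_laurentSeries_eq_single, HahnSeries.C_apply]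
  rw [Polynomial.aeval_def, h]
  rfl

/-- An element of `k(j)` which is a root of a monic polynomial with coefficients in `k[j]` lies in
`k[j]` (for any `j` with `evalL j` injective). -/
theorem pb_rpolyT_exists_poly (k : Type) [Field k] (j jh : LaurentSeries k)
    (hinj : Function.Injective (evalL j))
    (Φ : Polynomial (Polynomial k)) (hΦ : Φ.Monic)
    (hroot : (Φ.map (evalL j)).eval jh = 0)
    (hmem : jh ∈ IntermediateField.adjoin k {j}) :
    ∃ R : Polynomial k, jh = evalL j R := by
  obtain ⟨p, q, hpq⟩ := (IntermediateField.mem_adjoin_simple_iff k jh).mp hmem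
  rw [← pb_rpolyT_evalL_eq_aeval, ← pb_rpolyT_evalL_eq_aeval] at hpq
  let ψ : FractionRing k[X] →+* LaurentSeries k := IsFractionRing.lift hinj
  have hψ : ∀ a : k[X], ψ (algebraMap k[X] (FractionRing k[X]) a) = evalL j a :=
    fun a => IsFractionRing.lift_algebraMap hinj a
  have hψx : ψ (algebraMap k[X] (FractionRing k[X]) p / algebraMap k[X] (FractionRing k[X]) q)
      = jh := by
    rw [map_div₀, hψ, hψ, hpq]
  have hint : IsIntegral k[X]
      (algebraMap k[X] (FractionRing k[X]) p / algebraMap k[X] (FractionRing k[X]) q) := by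
    refine ⟨Φ, hΦ, ?_⟩
    apply ψ.injective
    have hcomp : ψ.comp (algebraMap k[X] (FractionRing k[X])) = evalL j := RingHom.ext hψ
    rw [Polynomial.hom_eval₂, map_zero, hψx, hcomp, ← Polynomial.eval_map]
    exact hroot
  obtain ⟨R, hR⟩ := IsIntegrallyClosed.isIntegral_iff.mp hint
  exact ⟨R, by rw [← hψx, ← hR, hψ]⟩

/-- Package RPoly. -/
theorem pb_rpolyT_main : pb_RPolyStatement := by
  intro k _ r _ Φ hΦ hroot hmem
  have hinj : Function.Injective (evalL (jqModC k)) := by
    have h := pb_tk_evalL_injective k 1 one_ne_zero 1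
    rwa [pb_tk_jsub_one_one] at h
  obtain ⟨R, hR⟩ :=
    pb_rpolyT_exists_poly k (jqModC k) (qExpand k r (jqModC k)) hinj Φ hΦ hroot hmem
  have hc : (qExpand k r (jqModC k)).coeff (-(r : ℤ)) = 1 := by
    have h := pb_tk_jsub_coeff_neg k 1 one_ne_zero r
    rwa [pb_tk_jsub_one, inv_one] at h
  have hR0 : R ≠ 0 := by
    rintro rfl
    rw [map_zero] at hR
    rw [hR] at hc
    simp at hc
  obtain ⟨hord, hcoeff⟩ := pb_tk_evalL_order k 1 one_ne_zero 1 R hR0
  rw [pb_tk_jsub_one_one, ← hR] at hord hcoeff
  have hord' : (qExpand k r (jqModC k)).order = -(r : ℤ) := by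
    have h := pb_tk_jsub_order k 1 one_ne_zero r
    rwa [pb_tk_jsub_one] at h
  have hdeg : R.natDegree = r := by
    rw [hord'] at hord
    push_cast at hord
    omega
  refine ⟨R, ?_, hdeg, hR⟩
  rw [hdeg] at hcoeff
  rw [Nat.cast_one, one_mul, hc, inv_one, one_pow, mul_one] at hcoeff
  exact hcoeff.symm

end Fermat.Agent.S28
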