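/-
S28, block Prime (team C): integration.
`pc_level : ModEqStatement → HasseStatement → PrimeLevelStatement` and
`pc_irred : ModEqStatement → PrimeLevelStatement → PrimeIrredStatement`,
assembled from the landed packages of the twin teams A and B (statements in `PAInterfaces.lean`,
`PBInterfaces.lean`) and the landed toolkits `SubstB`, `EtaProdB`, `RootArg`.
-/
import Fermat.Agent.S28.Interfaces
import Fermat.Agent.S28.PAInterfaces
import Fermat.Agent.S28.PBInterfaces
import Fermat.Agent.S28.SubstB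
import Fermat.Agent.S28.EtaProdB
import Fermat.Agent.S28.RootArg
import Fermat.Agent.S28.PBRPoly
import Fermat.Agent.S28.PBFactor
import Fermat.Agent.S28.PBEnd
import Fermat.Agent.S28.PAIdentity
import Fermat.Agent.S28.PAIrredCoreT
import Fermat.Agent.S28.PATransport

set_option autoImplicit false

open ModularCurve Polynomial

namespace Fermat.Agent.S28

/-- A prime `r` different from the characteristic `ℓ` of `k` is nonzero in `k`. -/
theorem pc_cast_ne_zero (ℓ : ℕ) [Fact ℓ.Prime] (k : Type) [Field k] [CharP k ℓ] (r : ℕ)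
    (hr : r.Prime) (hrℓ : r ≠ ℓ) : (r : k) ≠ 0 := by
  intro h0
  have hdvd : ℓ ∣ r := (CharP.cast_eq_zero_iff k ℓ r).mp h0
  rcases (Nat.dvd_prime hr).mp hdvd with h1 | h1
  · exact (Fact.out : ℓ.Prime).one_lt.ne' h1
  · exact hrℓ h1.symm

/-- An algebraically closed field has a primitive `r`-th root of unity when `r ≠ 0` in it. -/
theorem pc_exists_primitiveRoot (k : Type) [Field k] [IsAlgClosed k] (r : ℕ) (hrk : (r : k) ≠ 0) :
    ∃ ζ : k, IsPrimitiveRoot ζ r := by
  have : NeZero (r : k) := ⟨hrk⟩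
  exact HasEnoughRootsOfUnity.exists_primitiveRoot k r

/-- (D1') the degree form of prime level, from the modular equation and (D1). -/
theorem pc_irred : ModEqStatement → PrimeLevelStatement → PrimeIrredStatement := by
  intro hME hPL ℓ _ k _ _ _ r _ hr hrℓ
  have hrk : (r : k) ≠ 0 := pc_cast_ne_zero ℓ k r hr hrℓ
  obtain ⟨ζ, hζ⟩ := pc_exists_primitiveRoot k r hrk
  obtain ⟨Φ, hΦm, hΦd, hΦ⟩ := hME k r hr ζ hζ
  have hnot : qExpand k r (jqModC k) ∉ IntermediateField.adjoin k {jqModC k} := hPL ℓ k r hr hrℓ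
  have hx : qExpand k (r * r) (jqModC k) ∉
      IntermediateField.adjoin k {qExpand k r (jqModC k)} :=
    fun h => hnot (pa_transport_descend k r h)
  have hcore := pa_irredCoreT_main k r hr ζ hζ Φ hΦm hΦd hΦ hx
  exact pa_transport_main k r Φ hΦm hΦd (substB_modEq_swap k r ζ Φ hΦ) hcore

/-- (D1) prime level `j(y^r) ∉ k(j(y))`, from the modular equation and a Hasse polynomial. -/
theorem pc_level : ModEqStatement → HasseStatement → PrimeLevelStatement := by
  intro hME hH ℓ _ k _ _ _ r _ hr hrℓ hmem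
  have hrk : (r : k) ≠ 0 := pc_cast_ne_zero ℓ k r hr hrℓ
  obtain ⟨ζ, hζ⟩ := pc_exists_primitiveRoot k r hrk
  obtain ⟨Φ, hΦm, hΦd, hΦ⟩ := hME k r hr ζ hζ
  obtain ⟨F, m, hm, hFm, hHasse⟩ := hH ℓ k
  -- (R) `j(y^r) = R(j)` with `R` monic of degree `r`
  obtain ⟨R, hRm, hRd, hR⟩ := pb_rpoly_main k r Φ hΦm (substB_modEq_swap k r ζ Φ hΦ) hmem
  -- (F) the factorisation of `R(X) - j(y^r)`
  have hfac := pb_factor_main k r ζ hζ R hRm hRd hR
  -- (I) `F ∘ R ∣ F ^ (r + 1)`
  have hdvd : F.comp R ∣ F ^ (r + 1) :=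
    pa_identity_main k r hr ζ hζ R F m hR hfac hFm hHasse
  -- the root argument
  have hFd : F.natDegree = m := pb_end_deg k F m hHasse
  obtain ⟨s0, hFs, hRs⟩ := rootArg_main k r m F R hr.two_le hrk hm hFm hFd hRm hRd hdvd
  -- (E) the end: `Δ(y^r) = Δ^r`, which is false
  exact etaProdB_delta_ne k r hr.two_le hrk (pb_end_main k r R F m s0 hm hHasse ⟨m, hFs⟩ hRs hR)

end Fermat.Agent.S28
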