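import Fermat.Agent.S28.Interfaces

set_option autoImplicit false

/-!
# S28 / RootArg (twin B): a pure polynomial-algebra lemma over an algebraically closed field

If `F`, `R` are monic polynomials over an algebraically closed field `k`, of degrees `m > 0` and
`r ≥ 2` with `(r : k) ≠ 0`, and `F.comp R ∣ F ^ (r + 1)`, then `F = (X - C s0) ^ m` and
`R - C s0 = (X - C s0) ^ r` for a single point `s0`.
-/

namespace Fermat.Agent.S28

open Polynomial

/-- A monic polynomial of degree `n` over an algebraically closed field, all of whose roots are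
equal to `a`, is `(X - C a) ^ n`. -/
theorem rootArgB_eq_pow_of_roots (k : Type) [Field k] [IsAlgClosed k] (P : k[X]) (n : ℕ) (a : k)
    (hP : P.Monic) (hPd : P.natDegree = n) (hroots : ∀ t : k, P.eval t = 0 → t = a) :
    P = (X - C a) ^ n := by
  have hsplit : P.Splits := IsAlgClosed.splits P
  have hprod : P = (P.roots.map (X - C ·)).prod := hsplit.eq_prod_roots_of_monic hP
  have hcard : Multiset.card P.roots = n := by
    rw [IsAlgClosed.card_roots_eq_natDegree, hPd]
  have hrep : P.roots = Multiset.replicate n a := by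
    rw [Multiset.eq_replicate]
    refine ⟨hcard, fun b hb => ?_⟩
    exact hroots b ((mem_roots hP.ne_zero).mp hb)
  calc P = (P.roots.map (X - C ·)).prod := hprod
    _ = ((Multiset.replicate n a).map (X - C ·)).prod := by rw [hrep]
    _ = (X - C a) ^ n := by rw [Multiset.map_replicate, Multiset.prod_replicate]

/-- Step (1): if `R(t)` is a root of `F` then so is `t`. -/
theorem rootArgB_root_of_root_comp (k : Type) [Field k] (r : ℕ) (F R : k[X])
    (h : F.comp R ∣ F ^ (r + 1)) (t : k) (ht : F.eval (R.eval t) = 0) : F.eval t = 0 := by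
  obtain ⟨Q, hQ⟩ := h
  have hev := congrArg (eval t) hQ
  rw [eval_pow, eval_mul, eval_comp, ht, zero_mul] at hev
  exact (pow_eq_zero_iff (Nat.succ_ne_zero r)).mp hev

/-- Step (3): two `r`-th powers of monic linear polynomials that differ by a constant have the
same centre, provided `r ≥ 2` is invertible in `k`. -/
theorem rootArgB_centre_unique (k : Type) [Field k] (r : ℕ) (hr : 2 ≤ r) (hrk : (r : k) ≠ 0)
    (R : k[X]) (z₁ z₂ t₁ t₂ : k) (e₁ : R - C z₁ = (X - C t₁) ^ r)
    (e₂ : R - C z₂ = (X - C t₂) ^ r) : t₁ = t₂ := by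
  have d₁ := congrArg derivative e₁
  have d₂ := congrArg derivative e₂
  rw [derivative_sub, derivative_C, sub_zero, derivative_X_sub_C_pow] at d₁ d₂
  have e : C (r : k) * (X - C t₁) ^ (r - 1) = C (r : k) * (X - C t₂) ^ (r - 1) := by
    rw [← d₁, ← d₂]
  have ev := congrArg (eval t₁) e
  rw [eval_mul, eval_mul, eval_C, eval_pow, eval_pow, eval_sub, eval_sub, eval_X, eval_C, eval_C,
    sub_self, zero_pow (by omega), mul_zero] at ev
  have h0 : (t₁ - t₂) ^ (r - 1) = 0 := by
    rcases mul_eq_zero.mp ev.symm with h' | h'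
    · exact absurd h' hrk
    · exact h'
  have h1 : t₁ - t₂ = 0 := (pow_eq_zero_iff (by omega : r - 1 ≠ 0)).mp h0
  exact sub_eq_zero.mp h1

theorem rootArgB_main (k : Type) [Field k] [IsAlgClosed k] (r m : ℕ) (F R : k[X]) (hr : 2 ≤ r)
    (hrk : (r : k) ≠ 0) (hm : 0 < m) (hF : F.Monic) (hFd : F.natDegree = m) (hR : R.Monic)
    (hRd : R.natDegree = r) (h : F.comp R ∣ F ^ (r + 1)) :
    ∃ s0 : k, F = (X - C s0) ^ m ∧ R - C s0 = (X - C s0) ^ r := by
  classical
  -- (1) preimages of roots of `F` under `R` are roots of `F`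
  have h1 : ∀ t : k, F.eval (R.eval t) = 0 → F.eval t = 0 :=
    rootArgB_root_of_root_comp k r F R h
  -- (2) `R` is surjective as a function `k → k`; choose a section `g`
  have hsurj : Function.Surjective (fun t : k => R.eval t) :=
    IsAlgClosed.eval_surjective (by omega)
  obtain ⟨g, hg⟩ := hsurj.hasRightInverse
  have hg' : ∀ z : k, R.eval (g z) = z := hg
  let Z : Finset k := F.roots.toFinset
  have hmemZ : ∀ t : k, t ∈ Z ↔ F.eval t = 0 := by
    intro t
    rw [Multiset.mem_toFinset, mem_roots hF.ne_zero, IsRoot.def]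
  have hgZ : ∀ z ∈ Z, g z ∈ Z := by
    intro z hz
    rw [hmemZ] at hz ⊢
    apply h1
    rw [hg' z]
    exact hz
  have hginj : Function.Injective g := hg.injective
  have himg : Z.image g = Z := by
    apply Finset.eq_of_subset_of_card_le
    · intro t ht
      obtain ⟨z, hz, rfl⟩ := Finset.mem_image.mp ht
      exact hgZ z hz
    · rw [Finset.card_image_of_injective _ hginj]
  -- every `z ∈ Z` has exactly one preimage under `R`, namely `g z`
  have huniq : ∀ z ∈ Z, ∀ t : k, R.eval t = z → t = g z := by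
    intro z hz t ht
    have htZ : t ∈ Z := by
      rw [hmemZ] at hz ⊢
      apply h1
      rw [ht]
      exact hz
    rw [← himg] at htZ
    obtain ⟨z', _, rfl⟩ := Finset.mem_image.mp htZ
    rw [hg' z'] at ht
    rw [ht]
  -- hence `R - C z = (X - C (g z)) ^ r`
  have hRz : ∀ z ∈ Z, R - C z = (X - C (g z)) ^ r := by
    intro z hz
    apply rootArgB_eq_pow_of_roots k (R - C z) r (g z)
    · apply hR.sub_of_left
      rw [degree_eq_natDegree hR.ne_zero, hRd]
      exact lt_of_le_of_lt degree_C_le (by exact_mod_cast (by omega : 0 < r))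
    · rw [natDegree_sub_C, hRd]
    · intro t ht
      apply huniq z hz
      rw [eval_sub, eval_C, sub_eq_zero] at ht
      exact ht
  -- (3) `Z` has at most one element
  have hsub : ∀ z₁ ∈ Z, ∀ z₂ ∈ Z, z₁ = z₂ := by
    intro z₁ hz₁ z₂ hz₂
    have ht : g z₁ = g z₂ :=
      rootArgB_centre_unique k r hr hrk R z₁ z₂ (g z₁) (g z₂) (hRz z₁ hz₁) (hRz z₂ hz₂)
    exact hginj ht
  -- `Z` is nonempty
  have hne : Z.Nonempty := by
    obtain ⟨s, hs⟩ := IsAlgClosed.exists_root F (by
      rw [degree_eq_natDegree hF.ne_zero, hFd]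
      exact_mod_cast hm.ne')
    exact ⟨s, (hmemZ s).mpr hs⟩
  obtain ⟨s0, hs0⟩ := hne
  refine ⟨s0, ?_, ?_⟩
  · apply rootArgB_eq_pow_of_roots k F m s0 hF hFd
    intro t ht
    exact hsub t ((hmemZ t).mpr ht) s0 hs0
  · have hfin := hRz s0 hs0
    rw [hsub (g s0) (hgZ s0 hs0) s0 hs0] at hfin
    exact hfin

end Fermat.Agent.S28
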