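/-
S28 / SchemeGlue (Part A1): the base change of the glued Igusa scheme to `K` is integral as soon as
the base changes of the two affine charts are integral and the base change of the overlap chart is
nonempty.  Pure Mathlib algebraic geometry.
-/
import Fermat.Agent.S28.Interfaces

set_option autoImplicit false

open AlgebraicGeometry CategoryTheory CategoryTheory.Limits ModularCurve ModularCurve.IgusaScheme

namespace Fermat.Agent.S28

noncomputable section

/-- A topological space which is the union of two open irreducible subsets with nonempty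
intersection is irreducible. -/
theorem schemeGlueB_irreducibleSpace {X : Type*} [TopologicalSpace X] (U V : Set X)
    (hU : IsOpen U) (hUi : IsIrreducible U) (hVi : IsIrreducible V)
    (hcov : ∀ x, x ∈ U ∨ x ∈ V) (hne : (U ∩ V).Nonempty) : IrreducibleSpace X := by
  have key : ∀ u : Set X, IsOpen u → u.Nonempty → (U ∩ u).Nonempty := by
    rintro u hu ⟨x, hx⟩
    rcases hcov x with hxU | hxV
    · exact ⟨x, hxU, hx⟩
    · obtain ⟨y, -, hyu, hyU⟩ :=
        hVi.2 u U hu hU ⟨x, hxV, hx⟩ ⟨hne.some, hne.some_mem.2, hne.some_mem.1⟩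
      exact ⟨y, hyU, hyu⟩
  have hpre : IsPreirreducible (Set.univ : Set X) := by
    rintro u v hu hv ⟨x, -, hx⟩ ⟨y, -, hy⟩
    obtain ⟨z, -, hzu, hzv⟩ := hUi.2 u v hu hv (key u hu ⟨x, hx⟩) (key v hv ⟨y, hy⟩)
    exact ⟨z, trivial, hzu, hzv⟩
  exact { isPreirreducible_univ := hpre, toNonempty := ⟨hne.some⟩ }

/-- A scheme covered by two open immersions from integral schemes whose images meet is
integral. -/
theorem schemeGlueB_isIntegral_of_cover {X U₁ U₂ : Scheme.{0}} (i₁ : U₁ ⟶ X) (i₂ : U₂ ⟶ X)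
    [IsOpenImmersion i₁] [IsOpenImmersion i₂] [IsIntegral U₁] [IsIntegral U₂]
    (hcov : ∀ x : X, x ∈ Set.range i₁ ∨ x ∈ Set.range i₂)
    (hne : ∃ x : X, x ∈ Set.range i₁ ∧ x ∈ Set.range i₂) : IsIntegral X := by
  have hstalk : ∀ x : X, _root_.IsReduced (X.presheaf.stalk x) := by
    intro x
    rcases hcov x with ⟨y, rfl⟩ | ⟨y, rfl⟩
    · exact isReduced_of_injective _
        (asIso <| i₁.stalkMap y).commRingCatIsoToRingEquiv.injective
    · exact isReduced_of_injective _
        (asIso <| i₂.stalkMap y).commRingCatIsoToRingEquiv.injective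
  have hred : IsReduced X := isReduced_of_isReduced_stalk _
  have hirr : IrreducibleSpace X := by
    refine schemeGlueB_irreducibleSpace (Set.range i₁) (Set.range i₂)
      i₁.isOpenEmbedding.isOpen_range ?_ ?_ hcov hne
    · rw [← Set.image_univ]
      exact (IrreducibleSpace.isIrreducible_univ U₁).image _ i₁.continuous.continuousOn
    · rw [← Set.image_univ]
      exact (IrreducibleSpace.isIrreducible_univ U₂).image _ i₂.continuous.continuousOn
  exact isIntegral_of_irreducibleSpace_of_isReduced X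

/-- The base change to `Spec K` of an affine chart `c : Spec A ⟶ X` of an `R`-scheme `X`, formed
as a fibre product over `X`, is `Spec (A ⊗[R] K)`. -/
def schemeGlueB_chartIso {R A K : Type} [CommRing R] [CommRing A] [CommRing K] [Algebra R A]
    [Algebra R K] {X : Scheme.{0}} (t : X ⟶ Spec (CommRingCat.of R))
    (c : Spec (CommRingCat.of A) ⟶ X)
    (h : c ≫ t = Spec.map (CommRingCat.ofHom (algebraMap R A))) :
    pullback c (pullback.fst t (Spec.map (CommRingCat.ofHom (algebraMap R K)))) ≅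
      Spec (CommRingCat.of (TensorProduct R A K)) :=
  pullbackRightPullbackFstIso t _ c ≪≫ pullback.congrHom h rfl ≪≫ pullbackSpecIso R A K

/-- (A1) The base change of the glued Igusa scheme to `K` is integral as soon as the base changes
of the two affine charts are integral and the base change of the overlap chart is nonempty. -/
theorem schemeGlueB_main : SchemeGlueStatement := by
  intro N _ ℓ _ K _ _ hFin hInf hMid
  have hmid : (fFin N ℓ ≫ ιFin N ℓ) ≫ igusaTo N ℓ =
      Spec.map (CommRingCat.ofHom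
        (algebraMap ↥(GaloisRep.ratLocalizedAt ℓ) ↥(chartAlgMid N ℓ))) := by
    rw [Category.assoc, ιFin_igusaTo, ← Spec.map_comp, ← CommRingCat.ofHom_comp]
    rfl
  have : IsIntegral (pullback (ιFin N ℓ) (pullback.fst (igusaTo N ℓ)
      (Spec.map (CommRingCat.ofHom (algebraMap ↥(GaloisRep.ratLocalizedAt ℓ) K))))) :=
    IsIntegral.of_isIso (schemeGlueB_chartIso (K := K) (igusaTo N ℓ) (ιFin N ℓ)
      (ιFin_igusaTo N ℓ)).inv
  have : IsIntegral (pullback (ιInf N ℓ) (pullback.fst (igusaTo N ℓ)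
      (Spec.map (CommRingCat.ofHom (algebraMap ↥(GaloisRep.ratLocalizedAt ℓ) K))))) :=
    IsIntegral.of_isIso (schemeGlueB_chartIso (K := K) (igusaTo N ℓ) (ιInf N ℓ)
      (ιInf_igusaTo N ℓ)).inv
  refine schemeGlueB_isIntegral_of_cover
    (pullback.snd (ιFin N ℓ) (pullback.fst (igusaTo N ℓ)
      (Spec.map (CommRingCat.ofHom (algebraMap ↥(GaloisRep.ratLocalizedAt ℓ) K)))))
    (pullback.snd (ιInf N ℓ) (pullback.fst (igusaTo N ℓ)
      (Spec.map (CommRingCat.ofHom (algebraMap ↥(GaloisRep.ratLocalizedAt ℓ) K))))) ?_ ?_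
  · intro x
    rw [Scheme.Pullback.range_snd, Scheme.Pullback.range_snd]
    exact mem_range_ιFin_or_mem_range_ιInf N ℓ _
  · obtain ⟨w⟩ : Nonempty (Spec (CommRingCat.of
        (TensorProduct ↥(GaloisRep.ratLocalizedAt ℓ) ↥(chartAlgMid N ℓ) K))) :=
      inferInstanceAs (Nonempty (PrimeSpectrum
        (TensorProduct ↥(GaloisRep.ratLocalizedAt ℓ) ↥(chartAlgMid N ℓ) K)))
    obtain ⟨z⟩ : Nonempty ↥(pullback (fFin N ℓ ≫ ιFin N ℓ) (pullback.fst (igusaTo N ℓ)
        (Spec.map (CommRingCat.ofHom (algebraMap ↥(GaloisRep.ratLocalizedAt ℓ) K)))) :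
        Scheme.{0}) :=
      ⟨(schemeGlueB_chartIso (K := K) (igusaTo N ℓ) (fFin N ℓ ≫ ιFin N ℓ) hmid).inv w⟩
    refine ⟨pullback.snd (fFin N ℓ ≫ ιFin N ℓ) (pullback.fst (igusaTo N ℓ)
      (Spec.map (CommRingCat.ofHom (algebraMap ↥(GaloisRep.ratLocalizedAt ℓ) K)))) z, ?_, ?_⟩
    · rw [Scheme.Pullback.range_snd]
      refine ⟨fFin N ℓ (pullback.fst (fFin N ℓ ≫ ιFin N ℓ) (pullback.fst (igusaTo N ℓ)
        (Spec.map (CommRingCat.ofHom (algebraMap ↥(GaloisRep.ratLocalizedAt ℓ) K)))) z), ?_⟩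
      rw [← Scheme.Hom.comp_apply, ← Scheme.Hom.comp_apply, ← Scheme.Hom.comp_apply,
        ← pullback.condition]
    · rw [Scheme.Pullback.range_snd]
      refine ⟨fInf N ℓ (pullback.fst (fFin N ℓ ≫ ιFin N ℓ) (pullback.fst (igusaTo N ℓ)
        (Spec.map (CommRingCat.ofHom (algebraMap ↥(GaloisRep.ratLocalizedAt ℓ) K)))) z), ?_⟩
      rw [← Scheme.Hom.comp_apply, ← Scheme.Hom.comp_apply, ← Scheme.Hom.comp_apply,
        ← pullback.condition, ← glue_condition]

end

end Fermat.Agent.S28
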