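/-
S28, block Tower (twin A) — package Transport: from `P(N)`(a) to `ψ(N)` elements of
`k(j(y^d) : d ∣ N)` linearly independent over `k(j(y))`, along the substitution `y ↦ y ^ N`.
-/
import Fermat.Agent.S28.TABasic

set_option autoImplicit false

open ModularCurve Polynomial

namespace Fermat.Agent.S28

noncomputable section

theorem ta_transport_L_le (k : Type) [Field k] (N : ℕ) [NeZero N] :
    ta_L k N N ≤ (modularFunctionFieldFullC k N).map (qExpandAlgHomC k N) := by
  rw [ta_L, IntermediateField.adjoin_le_iff]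
  rintro x ⟨p, i, hp, hpi, rfl⟩
  have hne : NeZero (p ^ i) := ⟨pow_ne_zero i hp.ne_zero⟩
  have hne' : NeZero (N * p ^ i) := ⟨Nat.mul_ne_zero (NeZero.ne N) (NeZero.ne (p ^ i))⟩
  refine ⟨qExpand k (p ^ i) (jqModC k), jqModCd_mem_full k N hpi, ?_⟩
  show qExpand k N (qExpand k (p ^ i) (jqModC k)) = _
  rw [qExpand_qExpand, ← ta_J_one_eq]

theorem ta_transport_K0 (k : Type) [Field k] (N : ℕ) [NeZero N] (c : LaurentSeries k)
    (hc : c ∈ IntermediateField.adjoin k {jqModC k}) : qExpand k N c ∈ ta_K0 k N := by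
  have h : qExpandAlgHomC k N c ∈
      (IntermediateField.adjoin k {jqModC k}).map (qExpandAlgHomC k N) := ⟨c, hc, rfl⟩
  rw [IntermediateField.adjoin_map, Set.image_singleton, qExpandAlgHomC_apply,
    qExpandAlgHomC_apply, ← ta_J_one_eq] at h
  exact h

theorem ta_transport_main : ta_TransportStatement := by
  intro N _ k _ hPa
  obtain ⟨n, b, hn, hb, hli⟩ := hPa
  have hex : ∀ i : Fin n, ∃ b' : LaurentSeries k,
      b' ∈ modularFunctionFieldFullC k N ∧ qExpand k N b' = b i := by
    intro i
    obtain ⟨b', hb', h⟩ := ta_transport_L_le k N (hb i)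
    exact ⟨b', hb', h⟩
  choose b' hb'F hb'θ using hex
  refine ⟨fun i => b' (Fin.castLE hn i), fun i => hb'F _, ?_⟩
  have hli' := hli.comp (Fin.castLE hn) (Fin.castLE_injective hn)
  rw [Fintype.linearIndependent_iff] at hli' ⊢
  intro g hg i
  have h1 := hli' (fun i => ⟨qExpand k N (g i : LaurentSeries k),
    ta_transport_K0 k N _ (g i).2⟩) ?_ i
  · have h2 : qExpand k N (g i : LaurentSeries k) = 0 := congrArg Subtype.val h1
    have h3 : (g i : LaurentSeries k) = 0 := by
      apply qExpand_injective (R := k) N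
      rw [h2, map_zero]
    exact Subtype.ext h3
  · have h4 := congrArg (qExpand k N) hg
    rw [map_zero, map_sum] at h4
    rw [← h4]
    refine Finset.sum_congr rfl fun j _ => ?_
    rw [Algebra.smul_def, Algebra.smul_def, map_mul, Function.comp_apply, ← hb'θ]
    rfl

end

end Fermat.Agent.S28
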