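/-
S28, block Tower (twin B) — INTERNAL INTERFACE FILE.

Shared definitions and statement-`Prop`s of the work packages of the block proving
`ModEqStatement → PrimeIrredStatement → ModLDegStatement`.

Setting: `k` a field, `Ω = LaurentSeries k = k((y))`, `N ≥ 1`.  The variable `q` of the statement
is embedded as `q = y ^ N`.  `tb_J k c a = j(c * y ^ a)` (total version of `jsub`, junk value `0`
for `a = 0`), `tb_K0 k N = k(j(y^N))`, and for `M ∣ N` the field
`tb_L k N M = K0(j(y^(N p^i)) : p prime, p^i ∣ M)`, an intermediate field of `Ω / K0`.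

`tb_K0` and `tb_L` are deliberately defined through `Exists.choose` (so that neither the elaborator
nor the kernel ever unfolds them to `IntermediateField.adjoin …`); use `tb_K0_def`, `tb_L_def`.
-/
import Fermat.Agent.S28.Interfaces

set_option autoImplicit false

open ModularCurve Polynomial

namespace Fermat.Agent.S28

noncomputable section

/-! ## Shared definitions -/

/-- `tb_J k c a = j(c * y ^ a)`: total version of `jsub` (junk value `0` for `a = 0`). -/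
def tb_J (k : Type) [Field k] (c : k) (a : ℕ) : LaurentSeries k :=
  if h : a = 0 then 0 else haveI : NeZero a := ⟨h⟩; jsub k c a

theorem tb_J_eq (k : Type) [Field k] (c : k) (a : ℕ) [NeZero a] : tb_J k c a = jsub k c a :=
  dif_neg (NeZero.ne a)

theorem tb_K0_exists (k : Type) [Field k] (N : ℕ) :
    ∃ K : IntermediateField k (LaurentSeries k), K = IntermediateField.adjoin k {tb_J k 1 N} :=
  ⟨_, rfl⟩

/-- `K0 = k(j(y^N))`, the image of `k(j(q))` under `q ↦ y ^ N`. -/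
def tb_K0 (k : Type) [Field k] (N : ℕ) : IntermediateField k (LaurentSeries k) :=
  (tb_K0_exists k N).choose

theorem tb_K0_def (k : Type) [Field k] (N : ℕ) :
    tb_K0 k N = IntermediateField.adjoin k {tb_J k 1 N} :=
  (tb_K0_exists k N).choose_spec

/-- The generators `j(y^(N p^j))`, `p` prime, `p ^ j ∣ M` (for `j = 0` this is `j(y^N)`). -/
def tb_gens (k : Type) [Field k] (N M : ℕ) : Set (LaurentSeries k) :=
  {x | ∃ p j : ℕ, p.Prime ∧ p ^ j ∣ M ∧ x = tb_J k 1 (N * p ^ j)}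

theorem tb_L_exists (k : Type) [Field k] (N M : ℕ) :
    ∃ L : IntermediateField ↥(tb_K0 k N) (LaurentSeries k),
      L = IntermediateField.adjoin ↥(tb_K0 k N) (tb_gens k N M) :=
  ⟨_, rfl⟩

/-- `L_M = K0(j(y^(N p^j)) : p prime, p^j ∣ M)` as an intermediate field of `k((y)) / K0`. -/
def tb_L (k : Type) [Field k] (N M : ℕ) : IntermediateField ↥(tb_K0 k N) (LaurentSeries k) :=
  (tb_L_exists k N M).choose

theorem tb_L_def (k : Type) [Field k] (N M : ℕ) :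
    tb_L k N M = IntermediateField.adjoin ↥(tb_K0 k N) (tb_gens k N M) :=
  (tb_L_exists k N M).choose_spec

/-- The defining property of the auxiliary embedding `τ : L_M → k((y))` over `K0`:
`τ (j(y^(N p^j))) = j(y^(N / p^j))` for all prime powers `p^j ∣ M`. -/
def tb_IsTau (k : Type) [Field k] (N M : ℕ)
    (τ : ↥(tb_L k N M) →ₐ[↥(tb_K0 k N)] LaurentSeries k) : Prop :=
  ∀ (p j : ℕ), p.Prime → p ^ j ∣ M → ∀ x : ↥(tb_L k N M),
    (x : LaurentSeries k) = tb_J k 1 (N * p ^ j) → τ x = tb_J k 1 (N / p ^ j)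

/-- The inductive claim `P(M)` with multiplicity `n`: (a) `n` elements of `L_M` linearly
independent over `K0`; (b) an embedding `τ` as in `tb_IsTau`. -/
def tb_P (k : Type) [Field k] (N M n : ℕ) : Prop :=
  (∃ b : Fin n → LaurentSeries k, (∀ i, b i ∈ tb_L k N M) ∧
      LinearIndependent ↥(tb_K0 k N) b) ∧
  ∃ τ : ↥(tb_L k N M) →ₐ[↥(tb_K0 k N)] LaurentSeries k, tb_IsTau k N M τ

/-! ## Package statements -/

/-- (GenInt) the generators are integral over `K0`. -/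
def tb_GenIntStatement : Prop :=
  ∀ (ℓ : ℕ) [Fact ℓ.Prime] (k : Type) [Field k] [CharP k ℓ] [IsAlgClosed k] (N : ℕ) [NeZero N],
    ¬ ℓ ∣ N → ∀ (p j : ℕ), p.Prime → p ^ j ∣ N →
      IsIntegral ↥(tb_K0 k N) (tb_J k 1 (N * p ^ j))

/-- (RootTrack) root tracking: a ring hom `φ : L_M → Ω'` which is `ι` on `K0` (for a ring hom
`ι : k((y)) → Ω'` into a field) sends `j(y^(N p^j))`, `p^j ∣ M`, to some `ι (j(c y^a'))` with
`c ≠ 0`, `(N / p^j) ∣ a'`. -/
def tb_RootTrackStatement : Prop :=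
  ∀ (ℓ : ℕ) [Fact ℓ.Prime] (k : Type) [Field k] [CharP k ℓ] [IsAlgClosed k] (N : ℕ) [NeZero N],
    ¬ ℓ ∣ N → ∀ (M : ℕ), M ∣ N →
    ∀ (Ω' : Type) [Field Ω'] (ι : LaurentSeries k →+* Ω') (φ : ↥(tb_L k N M) →+* Ω'),
      (∀ c : ↥(tb_K0 k N),
        φ (algebraMap ↥(tb_K0 k N) ↥(tb_L k N M) c) = ι (c : LaurentSeries k)) →
      ∀ (p j : ℕ), p.Prime → p ^ j ∣ M → ∀ x : ↥(tb_L k N M),
        (x : LaurentSeries k) = tb_J k 1 (N * p ^ j) →
        ∃ (c : k) (a' : ℕ), c ≠ 0 ∧ a' ≠ 0 ∧ N / p ^ j ∣ a' ∧ φ x = ι (tb_J k c a')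

/-- (PrimeDeg) `PrimeIrredStatement` transported along `y ↦ y ^ N`:
`j(y^(N r))` has degree `r + 1` over `K0 = k(j(y^N))`. -/
def tb_PrimeDegStatement : Prop :=
  ∀ (ℓ : ℕ) [Fact ℓ.Prime] (k : Type) [Field k] [CharP k ℓ] [IsAlgClosed k] (N : ℕ) [NeZero N]
    (r : ℕ), r.Prime → r ≠ ℓ →
    (minpoly ↥(tb_K0 k N) (tb_J k 1 (N * r))).natDegree = r + 1

/-- (LemmaB) for a prime `r ∤ M` with `M * r ∣ N`: `j(y^(N r)) ∉ L_M`. -/
def tb_LemmaBStatement : Prop :=
  ∀ (ℓ : ℕ) [Fact ℓ.Prime] (k : Type) [Field k] [CharP k ℓ] [IsAlgClosed k] (N : ℕ) [NeZero N],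
    ¬ ℓ ∣ N → ∀ (M r : ℕ), r.Prime → ¬ r ∣ M → M * r ∣ N →
      tb_J k 1 (N * r) ∉ tb_L k N M

/-- (KeyStep) for `M = r^i * u`, `r ∤ u` prime, `M * r ∣ N`, `ξ = j(y^(N r^(i+1)))` and an
embedding `τ` of `L_M` as in `tb_IsTau`: `ξ` is integral over `L_M`, its minimal polynomial `μ`
over `L_M` has degree `≥ r` (`≥ r + 1` if `i = 0`), and `j(y^(N / r^(i+1)))` is a root of `τ(μ)`. -/
def tb_KeyStepStatement : Prop :=
  ∀ (ℓ : ℕ) [Fact ℓ.Prime] (k : Type) [Field k] [CharP k ℓ] [IsAlgClosed k] (N : ℕ) [NeZero N],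
    ¬ ℓ ∣ N → ∀ (M r i u : ℕ), r.Prime → M = r ^ i * u → ¬ r ∣ u → M * r ∣ N →
    ∀ τ : ↥(tb_L k N M) →ₐ[↥(tb_K0 k N)] LaurentSeries k, tb_IsTau k N M τ →
      IsIntegral ↥(tb_L k N M) (tb_J k 1 (N * r ^ (i + 1))) ∧
      (if i = 0 then r + 1 else r) ≤
        (minpoly ↥(tb_L k N M) (tb_J k 1 (N * r ^ (i + 1)))).natDegree ∧
      ((minpoly ↥(tb_L k N M) (tb_J k 1 (N * r ^ (i + 1)))).map
        (τ : ↥(tb_L k N M) →+* LaurentSeries k)).eval (tb_J k 1 (N / r ^ (i + 1))) = 0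

/-- (Extend) the inductive step `P(M) ⟹ P(M r)`. -/
def tb_ExtendStatement : Prop :=
  ∀ (ℓ : ℕ) [Fact ℓ.Prime] (k : Type) [Field k] [CharP k ℓ] [IsAlgClosed k] (N : ℕ) [NeZero N],
    ¬ ℓ ∣ N → ∀ (M r i u n : ℕ), r.Prime → M = r ^ i * u → ¬ r ∣ u → M * r ∣ N →
      tb_P k N M n → tb_P k N (M * r) (n * (if i = 0 then r + 1 else r))

/-- (Induct) `P(M)` with multiplicity `ψ(M)` for every `M ∣ N`. -/
def tb_AllPStatement : Prop :=
  ∀ (ℓ : ℕ) [Fact ℓ.Prime] (k : Type) [Field k] [CharP k ℓ] [IsAlgClosed k] (N : ℕ) [NeZero N],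
    ¬ ℓ ∣ N → ∀ (M : ℕ), M ∣ N → tb_P k N M (dedekindPsi M)

/-- (Transport) a family in `L_N` linearly independent over `K0` gives a family of the same size
in `k(j(q^d) : d ∣ N)` linearly independent over `k(j(q))` (pull back along `q ↦ y ^ N`). -/
def tb_TransportStatement : Prop :=
  ∀ (k : Type) [Field k] (N : ℕ) [NeZero N] (n : ℕ) (b : Fin n → LaurentSeries k),
    (∀ i, b i ∈ tb_L k N N) → LinearIndependent ↥(tb_K0 k N) b →
    ∃ b' : Fin n → LaurentSeries k, (∀ i, b' i ∈ modularFunctionFieldFullC k N) ∧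
      LinearIndependent ↥(IntermediateField.adjoin k {jqModC k}) b'

end

end Fermat.Agent.S28
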