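/-
S28, block Tower (third team, "C") — supplementary interface file.

The third team works on the SAME definitions and package statements as twin A
(`Fermat/Agent/S28/TAInterfaces.lean`, `TABasic.lean`): every package file `TC<Pkg>.lean` proves the
corresponding `ta_…Statement`.  This file only adds two small auxiliary statements used to split
the induction step.
-/
import Fermat.Agent.S28.TABasic

set_option autoImplicit false

open ModularCurve Polynomial

namespace Fermat.Agent.S28

noncomputable section

/-- (Psi) `ψ(M r) = r ψ(M)` if the prime `r` divides `M`, and `(r + 1) ψ(M)` otherwise. -/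
def tc_PsiStatement : Prop :=
  ∀ M r : ℕ, r.Prime → M ≠ 0 →
    dedekindPsi (M * r) = dedekindPsi M * (if r ∣ M then r else r + 1)

/-- (Gens) For `r ^ i ∥ M` the generators of `L_(M r)` are those of `L_M` and `j(y^(N r^(i+1)))`. -/
def tc_GensStatement : Prop :=
  ∀ (k : Type) [Field k] (N M r i : ℕ), r.Prime → M ≠ 0 → r ^ i ∣ M → ¬ r ^ (i + 1) ∣ M →
    ta_gens k N (M * r) = ta_gens k N M ∪ {ta_J k 1 (N * r ^ (i + 1))}

end

end Fermat.Agent.S28
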