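/-
S28 / package TensorDomain (twin B): for a commutative `ℤ_(ℓ)`-algebra `A` with a ring homomorphism
`ρ : A → 𝔽_ℓ((q))` whose kernel is `ℓ A`, the ring `A ⊗_{ℤ_(ℓ)} K` is a domain for every field `K` of
characteristic `ℓ`.

Proof: the ring homomorphism `Ψ : A ⊗ K → K((q))`, `a ⊗ x ↦ ρ(a) * x`, is injective.  Every element
of `A ⊗ K` has the shape `∑ⱼ aⱼ ⊗ eⱼ` for a basis `(eⱼ)` of `K` over `𝔽_ℓ`; if `Ψ` kills it, then
comparing coefficients and using linear independence all `ρ(aⱼ)` vanish, so `aⱼ ∈ ℓ A` and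
`aⱼ ⊗ eⱼ = 0`.
-/
import Fermat.Agent.S28.Interfaces

set_option autoImplicit false

open scoped TensorProduct

namespace Fermat.Agent.S28

noncomputable section

/-- Natural-number casts are units in `ℤ_(ℓ)` when coprime to `ℓ`. -/
theorem tensorDomainB_isUnit_natCast (ℓ : ℕ) (d : ℕ) (hd : d.Coprime ℓ) (hd0 : 0 < d) :
    IsUnit ((d : ℕ) : ↥(GaloisRep.ratLocalizedAt ℓ)) := by
  have hmem : ((d : ℚ)⁻¹) ∈ GaloisRep.ratLocalizedAt ℓ := by
    show ((d : ℚ)⁻¹).den.Coprime ℓ
    rw [Rat.inv_natCast_den_of_pos hd0]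
    exact hd
  refine IsUnit.of_mul_eq_one (⟨(d : ℚ)⁻¹, hmem⟩ : ↥(GaloisRep.ratLocalizedAt ℓ)) ?_
  apply Subtype.ext
  have hd' : (d : ℚ) ≠ 0 := by exact_mod_cast hd0.ne'
  simp [hd']

/-- (0) Two ring homomorphisms out of `ℤ_(ℓ)` agree. -/
theorem tensorDomainB_ringHom_ext (ℓ : ℕ) {S : Type*} [Ring S]
    (f g : ↥(GaloisRep.ratLocalizedAt ℓ) →+* S) : f = g := by
  ext x
  have hx : (x : ℚ).den.Coprime ℓ := x.2
  have hu := tensorDomainB_isUnit_natCast ℓ (x : ℚ).den hx (x : ℚ).den_pos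
  have key : (((x : ℚ).den : ℕ) : ↥(GaloisRep.ratLocalizedAt ℓ)) * x =
      (((x : ℚ).num : ℤ) : ↥(GaloisRep.ratLocalizedAt ℓ)) := by
    apply Subtype.ext
    push_cast
    exact Rat.den_mul_eq_num _
  have hf := congrArg f key
  have hg := congrArg g key
  rw [map_mul, map_natCast, map_intCast] at hf hg
  have hu' : IsUnit (((x : ℚ).den : ℕ) : S) := by
    have := hu.map f
    rwa [map_natCast] at this
  exact hu'.mul_left_cancel (hf.trans hg.symm)

/-- The ring homomorphism `A ⊗ K → K((q))`, `a ⊗ x ↦ φ(a) * x`. -/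
theorem tensorDomainB_exists_hom (ℓ : ℕ) (K : Type) [Field K]
    [Algebra ↥(GaloisRep.ratLocalizedAt ℓ) K]
    (A : Type) [CommRing A] [Algebra ↥(GaloisRep.ratLocalizedAt ℓ) A]
    (φ : A →+* LaurentSeries K) :
    ∃ Ψ : TensorProduct ↥(GaloisRep.ratLocalizedAt ℓ) A K →+* LaurentSeries K,
      ∀ (a : A) (x : K), Ψ (a ⊗ₜ x) = φ a * HahnSeries.C x := by
  let _ : Algebra ↥(GaloisRep.ratLocalizedAt ℓ) (LaurentSeries K) :=
    ((HahnSeries.C : K →+* LaurentSeries K).comp
      (algebraMap ↥(GaloisRep.ratLocalizedAt ℓ) K)).toAlgebra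
  let f : A →ₐ[↥(GaloisRep.ratLocalizedAt ℓ)] LaurentSeries K :=
    { φ with
      commutes' := fun r =>
        RingHom.congr_fun (tensorDomainB_ringHom_ext ℓ
          (φ.comp (algebraMap ↥(GaloisRep.ratLocalizedAt ℓ) A))
          (algebraMap ↥(GaloisRep.ratLocalizedAt ℓ) (LaurentSeries K))) r }
  let g : K →ₐ[↥(GaloisRep.ratLocalizedAt ℓ)] LaurentSeries K :=
    { (HahnSeries.C : K →+* LaurentSeries K) with
      commutes' := fun _ => rfl }
  exact ⟨(Algebra.TensorProduct.productMap f g).toRingHom, fun a x => rfl⟩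

/-- Natural-number multiples may be moved across the tensor sign. -/
theorem tensorDomainB_nsmul_tmul (R : Type) [CommRing R] (A : Type) [CommRing A] [Algebra R A]
    (K : Type) [Field K] [Algebra R K] (n : ℕ) (a : A) (x : K) :
    (n • a) ⊗ₜ[R] x = a ⊗ₜ[R] (n • x) := by
  have e1 : (n • a) ⊗ₜ[R] x = n • (a ⊗ₜ[R] x) := by
    have := map_nsmul ((TensorProduct.mk R A K).flip x) n a
    simpa using this
  have e2 : a ⊗ₜ[R] (n • x) = n • (a ⊗ₜ[R] x) := by
    have := map_nsmul (TensorProduct.mk R A K a) n x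
    simpa using this
  rw [e1, e2]

/-- Normal form: every element of `A ⊗ K` is a finite sum `∑ⱼ aⱼ ⊗ eⱼ` over a basis `e` of `K` over
the prime field. -/
theorem tensorDomainB_normalForm (ℓ : ℕ) [Fact ℓ.Prime] (K : Type) [Field K] [CharP K ℓ]
    (R : Type) [CommRing R] [Algebra R K]
    (A : Type) [CommRing A] [Algebra R A] {ι : Type*}
    (e : @Module.Basis ι (ZMod ℓ) K _ _ (ZMod.algebra K ℓ).toModule)
    (z : TensorProduct R A K) :
    ∃ f : ι →₀ A, z = f.sum (fun j a => a ⊗ₜ[R] e j) := by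
  let _ : Algebra (ZMod ℓ) K := ZMod.algebra K ℓ
  induction z using TensorProduct.induction_on with
  | zero => exact ⟨0, by simp⟩
  | tmul a x =>
    refine ⟨(e.repr x).mapRange (fun c => c.val • a) (by simp), ?_⟩
    rw [Finsupp.sum_mapRange_index (by intro j; simp)]
    have h1 : ∀ (j : ι) (c : ZMod ℓ), (c.val • a) ⊗ₜ[R] e j = a ⊗ₜ[R] (c • e j) := by
      intro j c
      have hc : c • e j = c.val • e j := by
        rw [Algebra.smul_def, nsmul_eq_mul]
        congr 1
        conv_lhs => rw [← ZMod.natCast_zmod_val c]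
        exact map_natCast (algebraMap (ZMod ℓ) K) c.val
      rw [hc, tensorDomainB_nsmul_tmul]
    simp_rw [h1]
    rw [Finsupp.sum, ← TensorProduct.tmul_sum]
    congr 1
    have := e.linearCombination_repr x
    rw [Finsupp.linearCombination_apply] at this
    exact this.symm
  | add z₁ z₂ h₁ h₂ =>
    obtain ⟨f₁, rfl⟩ := h₁
    obtain ⟨f₂, rfl⟩ := h₂
    refine ⟨f₁ + f₂, ?_⟩
    rw [Finsupp.sum_add_index']
    · intro j; simp
    · intro j a b; exact TensorProduct.add_tmul a b (e j)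

theorem tensorDomainB_main : TensorDomainStatement := by
  intro ℓ _ K _ _ _ A _ _ ρ hρ
  let _ : Algebra (ZMod ℓ) K := ZMod.algebra K ℓ
  obtain ⟨Ψ, hΨ⟩ := tensorDomainB_exists_hom ℓ K A
    ((ModularCurve.coeffMap (algebraMap (ZMod ℓ) K)).comp ρ)
  have hinj : Function.Injective Ψ := by
    rw [injective_iff_map_eq_zero]
    intro z hz
    obtain ⟨f, rfl⟩ := tensorDomainB_normalForm ℓ K ↥(GaloisRep.ratLocalizedAt ℓ) A
      (Module.Basis.ofVectorSpace (ZMod ℓ) K) z
    have hterm : ∀ j ∈ f.support, ρ (f j) = 0 := by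
      intro j hj
      ext n
      have hn := congrArg (fun y => y.coeff n) hz
      simp only [Finsupp.sum, map_sum, hΨ, HahnSeries.coeff_sum, HahnSeries.C_apply,
        HahnSeries.coeff_mul_single_zero, RingHom.comp_apply, ModularCurve.coeffMap_coeff,
        HahnSeries.coeff_zero] at hn
      have hli := (linearIndependent_iff'.mp
        (Module.Basis.ofVectorSpace (ZMod ℓ) K).linearIndependent) f.support
        (fun j => (ρ (f j)).coeff n)
      simp only [Algebra.smul_def] at hli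
      exact hli hn j hj
    rw [Finsupp.sum]
    apply Finset.sum_eq_zero
    intro j hj
    have h1 : f j ∈ RingHom.ker ρ := hterm j hj
    rw [hρ, Ideal.mem_span_singleton'] at h1
    obtain ⟨b, hb⟩ := h1
    rw [← hb, mul_comm, ← nsmul_eq_mul, tensorDomainB_nsmul_tmul, nsmul_eq_mul,
      CharP.cast_eq_zero K ℓ, zero_mul, TensorProduct.tmul_zero]
  exact Function.Injective.isDomain Ψ hinj

end

end Fermat.Agent.S28
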